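import Mathlib
import Fermat.Prelude.Def_GaloisRep_Residual

set_option autoImplicit false

namespace Fermat.Agent.S53.helper3173

open scoped TensorProduct

section Burnside

variable {K : Type*} [Field K] {V : Type*} [AddCommGroup V] [Module K V]

/-- **Burnside's theorem in dimension 2** (algebraically closed field): a subalgebra of
`End V` leaving no line invariant is everything. -/
theorem subalgebra_eq_top_of_irreducible [IsAlgClosed K] (hV : Module.finrank K V = 2)
    (𝔄 : Subalgebra K (Module.End K V))
    (hirr : ∀ W : Submodule K V, (∀ T ∈ 𝔄, ∀ x ∈ W, T x ∈ W) → W = ⊥ ∨ W = ⊤) :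
    𝔄 = ⊤ := by
  have : FiniteDimensional K V := Module.finite_of_finrank_eq_succ hV
  have : Nontrivial V := Module.nontrivial_of_finrank_pos (R := K) (by rw [hV]; norm_num)
  -- Step 1: a nonzero element with nontrivial kernel
  have h1 : ∃ N ∈ 𝔄, N ≠ 0 ∧ ∃ v : V, v ≠ 0 ∧ N v = 0 := by
    by_contra hno
    push Not at hno
    have hscal : ∀ T ∈ 𝔄, ∃ μ : K, T = algebraMap K (Module.End K V) μ := by
      intro T hT
      obtain ⟨μ, hμ⟩ := Module.End.exists_eigenvalue T
      obtain ⟨v, hv⟩ := hμ.exists_hasEigenvector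
      refine ⟨μ, ?_⟩
      by_contra hne
      have hN : T - algebraMap K (Module.End K V) μ ∈ 𝔄 :=
        𝔄.sub_mem hT (𝔄.algebraMap_mem μ)
      have := hno _ hN (sub_ne_zero.mpr hne) v hv.2
      apply this
      simp [hv.apply_eq_smul]
    obtain ⟨v, hv⟩ := exists_ne (0 : V)
    rcases hirr (K ∙ v) (by
      intro T hT x hx
      obtain ⟨μ, rfl⟩ := hscal T hT
      simpa using Submodule.smul_mem _ μ hx) with h | h
    · exact hv (Submodule.span_singleton_eq_bot.mp h)
    · have := finrank_span_singleton (K := K) hv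
      rw [h, finrank_top, hV] at this
      omega
  obtain ⟨N, hN, hN0, v0, hv0, hNv0⟩ := h1
  obtain ⟨u, hu⟩ : ∃ u, N u ≠ 0 := by
    by_contra h
    push Not at h
    exact hN0 (LinearMap.ext h)
  set w := N u with hw
  have hli : LinearIndependent K ![v0, u] := by
    rw [LinearIndependent.pair_iff]
    intro a c hac
    have h2 : c • w = 0 := by
      have := congrArg N hac
      simpa [hNv0] using this
    have hc : c = 0 := by
      rcases smul_eq_zero.mp h2 with h | h
      · exact h
      · exact absurd h hu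
    subst hc
    simp only [zero_smul, add_zero] at hac
    rcases smul_eq_zero.mp hac with h | h
    · exact ⟨h, rfl⟩
    · exact absurd h hv0
  let b : Module.Basis (Fin 2) K V :=
    basisOfLinearIndependentOfCardEqFinrank hli (by simp [hV])
  have hb0 : b 0 = v0 := by simp [b]
  have hb1 : b 1 = u := by simp [b]
  set φ : V →ₗ[K] K := b.coord 1 with hφ
  have hφ0 : φ v0 = 0 := by rw [← hb0, hφ]; simp
  have hφ1 : φ u = 1 := by rw [← hb1, hφ]; simp
  have hc0 : b.coord 0 v0 = 1 := by rw [← hb0]; simp
  have hc1 : b.coord 0 u = 0 := by rw [← hb1]; simp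
  have hNφ : ∀ x, N x = φ x • w := by
    intro x
    have : N = φ.smulRight w := by
      apply b.ext
      intro i
      fin_cases i
      · show N (b 0) = (φ.smulRight w) (b 0)
        rw [hb0, hNv0, LinearMap.smulRight_apply, hφ0, zero_smul]
      · show N (b 1) = (φ.smulRight w) (b 1)
        rw [hb1, LinearMap.smulRight_apply, hφ1, one_smul]
    rw [this]; rfl
  -- Step 2: transitivity on vectors
  have hW1 : ∀ y : V, ∃ A ∈ 𝔄, A w = y := by
    let W1 : Submodule K V := (Subalgebra.toSubmodule 𝔄).map (LinearMap.applyₗ w)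
    have hmem : ∀ y, y ∈ W1 ↔ ∃ A ∈ 𝔄, A w = y := by
      intro y
      simp [W1, Submodule.mem_map]
    rcases hirr W1 (by
      intro T hT x hx
      obtain ⟨A, hA, rfl⟩ := (hmem x).mp hx
      exact (hmem _).mpr ⟨T * A, 𝔄.mul_mem hT hA, rfl⟩) with h | h
    · exfalso
      have : w ∈ W1 := (hmem w).mpr ⟨1, 𝔄.one_mem, rfl⟩
      rw [h] at this
      exact hu (by simpa using this)
    · intro y
      exact (hmem y).mp (h ▸ Submodule.mem_top)
  -- Step 3: transitivity on functionals
  have hW2 : ∃ B0 ∈ 𝔄, φ (B0 v0) ≠ 0 := by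
    by_contra hno
    push Not at hno
    let W2 : Submodule K V :=
      { carrier := {x | ∀ B ∈ 𝔄, φ (B x) = 0}
        add_mem' := by
          intro x y hx hy B hB
          simp [hx B hB, hy B hB]
        zero_mem' := by intro B hB; simp
        smul_mem' := by
          intro c x hx B hB
          simp [hx B hB] }
    rcases hirr W2 (by
      intro T hT x hx B hB
      exact hx (B * T) (𝔄.mul_mem hB hT)) with h | h
    · have : v0 ∈ W2 := hno
      rw [h] at this
      exact hv0 (by simpa using this)
    · have : u ∈ W2 := h ▸ Submodule.mem_top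
      have := this 1 𝔄.one_mem
      rw [Module.End.one_apply, hφ1] at this
      exact one_ne_zero this
  obtain ⟨B0, hB0, hα⟩ := hW2
  -- the two coordinate functionals are of the form `φ ∘ B`
  have hcoord : ∀ j : Fin 2, ∃ B ∈ 𝔄, ∀ x, φ (B x) = b.coord j x := by
    intro j
    fin_cases j
    · set α := φ (B0 v0) with hαdef
      set β := φ (B0 u) with hβdef
      refine ⟨α⁻¹ • (B0 - β • 1), 𝔄.smul_mem (𝔄.sub_mem hB0 (𝔄.smul_mem 𝔄.one_mem β)) _, ?_⟩
      have : (φ.comp (α⁻¹ • (B0 - β • 1))) = b.coord 0 := by
        apply b.ext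
        intro i
        fin_cases i
        · show (φ.comp (α⁻¹ • (B0 - β • 1))) (b 0) = b.coord 0 (b 0)
          rw [hb0, hc0]
          simp [hφ0, ← hαdef, hα]
        · show (φ.comp (α⁻¹ • (B0 - β • 1))) (b 1) = b.coord 0 (b 1)
          rw [hb1, hc1]
          simp [hφ1, ← hβdef]
      intro x
      exact congrArg (fun f => f x) this
    · exact ⟨1, 𝔄.one_mem, fun x => rfl⟩
  choose A hA hAw using hW1
  choose B hB hBφ using hcoord
  rw [eq_top_iff]
  intro T _
  have hT : T = ∑ i : Fin 2, ∑ j : Fin 2, (b.coord i (T (b j))) • (A (b i) * N * B j) := by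
    apply b.ext
    intro l
    simp only [LinearMap.sum_apply, LinearMap.smul_apply, Module.End.mul_apply, hNφ, hBφ,
      map_smul, hAw]
    rw [Finset.sum_comm]
    simp only [Module.Basis.coord_apply, Module.Basis.repr_self, Finsupp.single_apply]
    simp only [ite_smul, one_smul, zero_smul, smul_ite, smul_zero]
    simp
  rw [hT]
  refine Subalgebra.sum_mem _ fun i _ => Subalgebra.sum_mem _ fun j _ => ?_
  exact 𝔄.smul_mem (𝔄.mul_mem (𝔄.mul_mem (hA _) hN) (hB _)) _

end Burnside

section Descent

variable {k : Type} [Field k]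

/-- the `K`-span of the image of a monoid hom into an algebra is the adjoin. -/
theorem span_range_monoidHom_eq_adjoin {G : Type*} [Monoid G] {F : Type*} [Field F]
    {E : Type*} [Ring E] [Algebra F E] (f : G →* E) :
    Submodule.span F (Set.range f) = Subalgebra.toSubmodule (Algebra.adjoin F (Set.range f)) := by
  rw [Algebra.adjoin_eq_span]
  congr 1
  rw [← MonoidHom.coe_mrange, Submonoid.closure_eq]

/-- **Burnside, dimension 2, for residual Galois representations**: if `ρ` is absolutely
irreducible then the `k`-span of its image is the whole endomorphism algebra. -/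
theorem span_range_eq_top (ρ : ResidualGaloisRep k) (habs : ρ.IsAbsolutelyIrreducible) :
    Submodule.span k (Set.range ρ.ρ) = ⊤ := by
  classical
  have hK : Submodule.span (AlgebraicClosure k) (Set.range (ρ.baseChange (AlgebraicClosure k)).ρ)
      = ⊤ := by
    rw [span_range_monoidHom_eq_adjoin, Algebra.toSubmodule_eq_top]
    refine subalgebra_eq_top_of_irreducible (ρ.baseChange (AlgebraicClosure k)).finrank_eq _ ?_
    intro W hW
    exact habs W fun σ x hx => hW _ (Algebra.subset_adjoin ⟨σ, rfl⟩) x hx
  set U := Submodule.span k (Set.range ρ.ρ) with hU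
  have : Module.Finite k ρ.V := inferInstance
  set d := Module.finrank k U with hd
  let e : Fin d → Module.End k ρ.V := fun i => (Module.finBasis k U i : Module.End k ρ.V)
  have hUe : U = Submodule.span k (Set.range e) := by
    have h1 := (Module.finBasis k U).span_eq
    have h2 := congrArg (Submodule.map U.subtype) h1
    rw [Submodule.map_span, Submodule.map_subtype_top, ← Set.range_comp] at h2
    exact h2.symm
  let β : Module.End k ρ.V →ₗ[k] Module.End (AlgebraicClosure k) (AlgebraicClosure k ⊗[k] ρ.V) :=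
    LinearMap.baseChangeHom k (AlgebraicClosure k) ρ.V ρ.V
  have hle : U ≤ ((Submodule.span (AlgebraicClosure k) (Set.range (β ∘ e))).restrictScalars k).comap
      β := by
    rw [hUe, Submodule.span_le]
    rintro _ ⟨i, rfl⟩
    exact Submodule.subset_span ⟨i, rfl⟩
  have htop : (⊤ : Submodule (AlgebraicClosure k) _) ≤
      Submodule.span (AlgebraicClosure k) (Set.range (β ∘ e)) := by
    rw [← hK, Submodule.span_le]
    rintro _ ⟨σ, rfl⟩
    exact hle (Submodule.subset_span ⟨σ, rfl⟩)
  have hfin1 : Module.finrank (AlgebraicClosure k)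
      (Submodule.span (AlgebraicClosure k) (Set.range (β ∘ e))) ≤ d := by
    have := finrank_range_le_card (R := AlgebraicClosure k) (β ∘ e)
    simpa [Set.finrank] using this
  have hfin2 : Module.finrank (AlgebraicClosure k)
      (Module.End (AlgebraicClosure k) (AlgebraicClosure k ⊗[k] ρ.V)) = 4 := by
    rw [Module.finrank_linearMap, (ρ.baseChange (AlgebraicClosure k)).finrank_eq]
  have hfin3 : Module.finrank k (Module.End k ρ.V) = 4 := by
    rw [Module.finrank_linearMap, ρ.finrank_eq]
  have h4 : 4 ≤ d := by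
    rw [top_le_iff] at htop
    rw [htop, finrank_top, hfin2] at hfin1
    exact hfin1
  apply Submodule.eq_top_of_finrank_eq
  rw [hfin3]
  have := Submodule.finrank_le U
  rw [hfin3] at this
  omega

/-- Every endomorphism is a finite `k`-linear combination of the `ρ σ`. -/
theorem exists_finsupp_eq (ρ : ResidualGaloisRep k) (habs : ρ.IsAbsolutelyIrreducible)
    (T : Module.End k ρ.V) :
    ∃ c : (AlgebraicClosure ℚ ≃ₐ[ℚ] AlgebraicClosure ℚ) →₀ k, (c.sum fun σ a => a • ρ.ρ σ) = T := by
  have hT : T ∈ Submodule.span k (Set.range ρ.ρ) := by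
    rw [span_range_eq_top ρ habs]; exact Submodule.mem_top
  exact Finsupp.mem_span_range_iff_exists_finsupp.mp hT

/-- **Schur**: the commutant of an absolutely irreducible residual representation consists of
scalars. -/
theorem commutant_scalar (ρ : ResidualGaloisRep k) (habs : ρ.IsAbsolutelyIrreducible)
    (T : Module.End k ρ.V) (hT : ∀ σ, T * ρ.ρ σ = ρ.ρ σ * T) :
    ∃ c : k, T = algebraMap k (Module.End k ρ.V) c := by
  have hcomm : ∀ S ∈ Submodule.span k (Set.range ρ.ρ), T * S = S * T := by
    intro S hS
    induction hS using Submodule.span_induction with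
    | mem x hx => obtain ⟨σ, rfl⟩ := hx; exact hT σ
    | zero => simp
    | add x y _ _ hx hy => rw [mul_add, add_mul, hx, hy]
    | smul a x _ hx => rw [mul_smul_comm, smul_mul_assoc, hx]
  rw [span_range_eq_top ρ habs] at hcomm
  have hcen : T ∈ Subalgebra.center k (Module.End k ρ.V) := by
    rw [Subalgebra.mem_center_iff]
    intro S
    exact (hcomm S Submodule.mem_top).symm
  rw [Algebra.IsCentral.center_eq_bot, Algebra.mem_bot] at hcen
  obtain ⟨c, hc⟩ := hcen
  exact ⟨c, hc.symm⟩

/-- Matrix form of Burnside: in any basis, the matrices of the `ρ σ` span `M₂(k)`. -/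
theorem span_range_toMatrix_eq_top (ρ : ResidualGaloisRep k) (habs : ρ.IsAbsolutelyIrreducible)
    (b : Module.Basis (Fin 2) k ρ.V) :
    Submodule.span k (Set.range fun σ => LinearMap.toMatrix b b (ρ.ρ σ)) = ⊤ := by
  have h := span_range_eq_top ρ habs
  have h2 := congrArg (Submodule.map (LinearMap.toMatrix b b).toLinearMap) h
  rw [Submodule.map_span, Submodule.map_top, LinearMap.range_eq_top.mpr
    (LinearMap.toMatrix b b).surjective, ← Set.range_comp] at h2
  exact h2

/-- Matrix form: every matrix is a finite `k`-linear combination of the matrices of `ρ σ`. -/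
theorem exists_finsupp_toMatrix_eq (ρ : ResidualGaloisRep k) (habs : ρ.IsAbsolutelyIrreducible)
    (b : Module.Basis (Fin 2) k ρ.V) (M : Matrix (Fin 2) (Fin 2) k) :
    ∃ c : (AlgebraicClosure ℚ ≃ₐ[ℚ] AlgebraicClosure ℚ) →₀ k,
      (c.sum fun σ a => a • LinearMap.toMatrix b b (ρ.ρ σ)) = M := by
  have hM : M ∈ Submodule.span k (Set.range fun σ => LinearMap.toMatrix b b (ρ.ρ σ)) := by
    rw [span_range_toMatrix_eq_top ρ habs b]; exact Submodule.mem_top
  exact Finsupp.mem_span_range_iff_exists_finsupp.mp hM

/-- Matrix form of Schur: a matrix commuting with all `toMatrix (ρ σ)` is scalar. -/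
theorem commutant_scalar_matrix (ρ : ResidualGaloisRep k) (habs : ρ.IsAbsolutelyIrreducible)
    (b : Module.Basis (Fin 2) k ρ.V) (M : Matrix (Fin 2) (Fin 2) k)
    (hM : ∀ σ, M * LinearMap.toMatrix b b (ρ.ρ σ) = LinearMap.toMatrix b b (ρ.ρ σ) * M) :
    ∃ c : k, M = Matrix.scalar (Fin 2) c := by
  obtain ⟨c, hc⟩ := commutant_scalar ρ habs (Matrix.toLin b b M) (by
    intro σ
    apply (LinearMap.toMatrix b b).injective
    rw [Module.End.mul_eq_comp, Module.End.mul_eq_comp, LinearMap.toMatrix_comp b b b,
      LinearMap.toMatrix_comp b b b, LinearMap.toMatrix_toLin, hM σ])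
  refine ⟨c, ?_⟩
  have := congrArg (LinearMap.toMatrix b b) hc
  rw [LinearMap.toMatrix_toLin] at this
  rw [this, Algebra.algebraMap_eq_smul_one, map_smul]
  ext i j
  simp [LinearMap.toMatrix_one, Matrix.one_apply, Matrix.diagonal_apply]

/-- The image of an absolutely irreducible 2-dimensional representation is not commutative. -/
theorem exists_not_commute (ρ : ResidualGaloisRep k) (habs : ρ.IsAbsolutelyIrreducible) :
    ∃ σ τ, ρ.ρ σ * ρ.ρ τ ≠ ρ.ρ τ * ρ.ρ σ := by
  by_contra hno
  push Not at hno
  -- then every `ρ σ` is scalar, so everything is scalar: contradiction with dimension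
  have hscal : ∀ σ, ∃ c : k, ρ.ρ σ = algebraMap k (Module.End k ρ.V) c :=
    fun σ => commutant_scalar ρ habs (ρ.ρ σ) (fun τ => hno σ τ)
  have hall : ∀ T : Module.End k ρ.V, ∃ c : k, T = algebraMap k (Module.End k ρ.V) c := by
    intro T
    refine commutant_scalar ρ habs T (fun σ => ?_)
    obtain ⟨c, hc⟩ := hscal σ
    rw [hc]
    exact (Algebra.commutes c T).symm
  have hle : (⊤ : Submodule k (Module.End k ρ.V)) ≤ Submodule.span k {1} := by
    intro T _
    obtain ⟨c, rfl⟩ := hall T
    rw [Algebra.algebraMap_eq_smul_one]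
    exact Submodule.smul_mem _ _ (Submodule.subset_span rfl)
  have h1 := Submodule.finrank_mono hle
  have h2 : Module.finrank k (Submodule.span k {(1 : Module.End k ρ.V)}) ≤ 1 :=
    (finrank_span_le_card _).trans (by simp)
  rw [finrank_top, Module.finrank_linearMap, ρ.finrank_eq] at h1
  omega

end Descent

end Fermat.Agent.S53.helper3173
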