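/-
S53 support package (helper1433): the power series ring `MvPowerSeries σ 𝒪` over a complete
Noetherian local ring as the free complete local `𝒪`-algebra.

* `sub_truncTotal_mem`            : `f - trunc_n f ∈ (X)^n`
* `liftHom`, `liftHom_X`, `liftHom_coe` : `𝒪`-algebra maps out of `MvPowerSeries σ 𝒪` into an
                                     `I`-adically complete `𝒪`-algebra, `X i ↦ a i ∈ I`
* `algHom_ext_of_X`               : such maps are determined by the images of the `X i`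
* `isPrecomplete_sup`             : completeness for `I ⊔ J`
* `maximalIdeal_eq_sup`, `isAdicComplete_maximalIdeal_mvPowerSeries` : max-adic completeness
* `isLocalHom_algebraMap_mvPowerSeries`, `residue_surjective_mvPowerSeries`,
  `finite_residueField_mvPowerSeries`, `finite_quotient_maximalIdeal_pow_mvPowerSeries`
* `aeval_surjective_of_nilpotent`, `liftHom_surjective_of_nilpotent` : surjectivity onto
  nilpotent local algebras from generators of the cotangent space
* `exists_limit_of_chain`, `exists_limit_of_compatible`, `eq_iInf_sup_pow` : successive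
  approximation along a chain of ideals `K n ≤ K (n+1) ⊔ I ^ n`
-/
import Mathlib
import Fermat.Prelude.Thm_IsAdicComplete_of_module_finite
import Fermat.Prelude.Thm_IsLocalRing_isAdicComplete_of_module_finite

set_option autoImplicit false
set_option linter.unusedSectionVars false

namespace Fermat.Agent.S53.helper1433

open IsLocalRing

section Tail
variable {𝒪 : Type*} [CommRing 𝒪] {σ : Type*} [Finite σ]

/-- the ideal of variables in the power series ring -/
noncomputable abbrev varIdeal (σ 𝒪 : Type*) [CommRing 𝒪] : Ideal (MvPowerSeries σ 𝒪) :=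
  Ideal.span (Set.range MvPowerSeries.X)

theorem map_varIdeal :
    Ideal.map (MvPowerSeries.toAdicCompletionAlgEquiv σ 𝒪).toRingEquiv (varIdeal σ 𝒪) =
    (MvPolynomial.idealOfVars σ 𝒪).map (algebraMap (MvPolynomial σ 𝒪)
      (AdicCompletion (MvPolynomial.idealOfVars σ 𝒪) (MvPolynomial σ 𝒪))) := by
  simp_rw [varIdeal, MvPolynomial.idealOfVars, Ideal.map_span, ← Set.range_comp]
  congr 2; ext1
  simp [AdicCompletion.algebraMap_apply, ← MvPolynomial.coe_X, MvPowerSeries.toAdicCompletion_coe]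

theorem truncTotal_coe_truncTotal (n : ℕ) (f : MvPowerSeries σ 𝒪) :
    MvPowerSeries.truncTotal n ((MvPowerSeries.truncTotal n f : MvPolynomial σ 𝒪) : MvPowerSeries σ 𝒪)
      - MvPowerSeries.truncTotal n f ∈ MvPolynomial.idealOfVars σ 𝒪 ^ n := by
  refine (MvPolynomial.mem_pow_idealOfVars_iff' ..).mpr (fun x hx ↦ ?_)
  rw [MvPolynomial.coeff_sub, sub_eq_zero, MvPowerSeries.coeff_truncTotal _ hx,
    MvPolynomial.coeff_coe]

theorem sub_truncTotal_mem (n : ℕ) (f : MvPowerSeries σ 𝒪) :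
    f - ((MvPowerSeries.truncTotal n f : MvPolynomial σ 𝒪) : MvPowerSeries σ 𝒪) ∈ varIdeal σ 𝒪 ^ n := by
  set e := MvPowerSeries.toAdicCompletionAlgEquiv σ 𝒪 with he
  set g := f - ((MvPowerSeries.truncTotal n f : MvPolynomial σ 𝒪) : MvPowerSeries σ 𝒪) with hg
  have h0 : AdicCompletion.eval (MvPolynomial.idealOfVars σ 𝒪) (MvPolynomial σ 𝒪) n (e g) = 0 := by
    rw [AdicCompletion.eval_apply, he, MvPowerSeries.toAdicCompletionAlgEquiv_apply,
      MvPowerSeries.toAdicCompletion_apply_eq_mk_truncTotal, hg, map_sub, map_sub,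
      sub_eq_zero, eq_comm, Ideal.Quotient.mk_eq_mk_iff_sub_mem]
    simpa using truncTotal_coe_truncTotal n f
  have h1 : e g ∈ (MvPolynomial.idealOfVars σ 𝒪 ^ n) • (⊤ : Submodule (MvPolynomial σ 𝒪)
      (AdicCompletion (MvPolynomial.idealOfVars σ 𝒪) (MvPolynomial σ 𝒪))) := by
    rw [AdicCompletion.pow_smul_top_eq_ker_eval (MvPolynomial.idealOfVars_fg σ 𝒪)]
    exact h0
  rw [Ideal.smul_top_eq_map, Submodule.restrictScalars_mem, Ideal.map_pow, ← map_varIdeal,
    ← Ideal.map_pow] at h1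
  obtain ⟨y, hy, hy'⟩ := (Ideal.mem_map_of_equiv _ _).mp h1
  have : y = g := e.injective hy'
  rw [← this]
  exact hy

end Tail

section Lift
variable {𝒪 : Type*} [CommRing 𝒪] {σ : Type*} [Finite σ]
variable {A : Type*} [CommRing A] [Algebra 𝒪 A]

theorem aeval_mem_pow (I : Ideal A) (a : σ → A) (ha : ∀ i, a i ∈ I) (n : ℕ)
    {p : MvPolynomial σ 𝒪} (hp : p ∈ MvPolynomial.idealOfVars σ 𝒪 ^ n) :
    MvPolynomial.aeval a p ∈ I ^ n := by
  have h1 : MvPolynomial.idealOfVars σ 𝒪 ≤ I.comap (MvPolynomial.aeval a : MvPolynomial σ 𝒪 →ₐ[𝒪] A) := by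
    rw [MvPolynomial.idealOfVars, Ideal.span_le]
    rintro _ ⟨i, rfl⟩
    simpa using ha i
  have h2 : (MvPolynomial.idealOfVars σ 𝒪 ^ n).map (MvPolynomial.aeval a : MvPolynomial σ 𝒪 →ₐ[𝒪] A) ≤ I ^ n := by
    rw [Ideal.map_pow]
    exact Ideal.pow_right_mono (Ideal.map_le_iff_le_comap.mpr h1) n
  exact h2 (Ideal.mem_map_of_mem _ hp)

/-- the n-th level map -/
noncomputable def levelHom (I : Ideal A) (a : σ → A) (ha : ∀ i, a i ∈ I) (n : ℕ) :
    MvPowerSeries σ 𝒪 →ₐ[𝒪] A ⧸ I ^ n :=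
  (Ideal.quotientMapₐ (I ^ n) (MvPolynomial.aeval a : MvPolynomial σ 𝒪 →ₐ[𝒪] A)
    (fun _ hp => aeval_mem_pow I a ha n hp)).comp
    ((MvPowerSeries.truncTotalAlgHom σ 𝒪 n).restrictScalars 𝒪)

theorem levelHom_apply (I : Ideal A) (a : σ → A) (ha : ∀ i, a i ∈ I) (n : ℕ)
    (f : MvPowerSeries σ 𝒪) :
    levelHom I a ha n f = Ideal.Quotient.mk (I ^ n) (MvPolynomial.aeval a (MvPowerSeries.truncTotal n f)) := by
  rfl

theorem levelHom_coe (I : Ideal A) (a : σ → A) (ha : ∀ i, a i ∈ I) (n : ℕ)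
    (p : MvPolynomial σ 𝒪) :
    levelHom I a ha n (p : MvPowerSeries σ 𝒪) = Ideal.Quotient.mk (I ^ n) (MvPolynomial.aeval a p) := by
  have h := (MvPowerSeries.truncTotalAlgHom σ 𝒪 n).commutes p
  rw [levelHom, AlgHom.comp_apply]
  have h' : ((MvPowerSeries.truncTotalAlgHom σ 𝒪 n).restrictScalars 𝒪) (p : MvPowerSeries σ 𝒪)
      = Ideal.Quotient.mk _ p := h
  rw [h']
  rfl

theorem levelHom_compat (I : Ideal A) (a : σ → A) (ha : ∀ i, a i ∈ I) {m n : ℕ} (hle : m ≤ n) :
    (Ideal.Quotient.factorₐ 𝒪 (Ideal.pow_le_pow_right hle)).comp (levelHom I a ha n) =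
      levelHom (𝒪 := 𝒪) I a ha m := by
  ext f
  rw [AlgHom.comp_apply, levelHom_apply, levelHom_apply]
  show Ideal.Quotient.mk (I ^ m) _ = _
  rw [Ideal.Quotient.mk_eq_mk_iff_sub_mem, ← map_sub]
  exact aeval_mem_pow I a ha m
    (MvPowerSeries.truncTotal_sub_truncTotal_mem_pow_idealOfVars hle le_rfl f)

/-- The lift. -/
noncomputable def liftHom (I : Ideal A) [IsAdicComplete I A] (a : σ → A) (ha : ∀ i, a i ∈ I) :
    MvPowerSeries σ 𝒪 →ₐ[𝒪] A :=
  IsAdicComplete.liftAlgHom I (levelHom I a ha) (fun hle => levelHom_compat I a ha hle)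

theorem liftHom_coe (I : Ideal A) [IsAdicComplete I A] (a : σ → A) (ha : ∀ i, a i ∈ I)
    (p : MvPolynomial σ 𝒪) :
    liftHom I a ha (p : MvPowerSeries σ 𝒪) = MvPolynomial.aeval a p := by
  have h : ∀ n, Ideal.Quotient.mk (I ^ n) (liftHom I a ha (p : MvPowerSeries σ 𝒪)) =
      Ideal.Quotient.mk (I ^ n) (MvPolynomial.aeval a p) := by
    intro n
    rw [liftHom, IsAdicComplete.mk_liftAlgHom, levelHom_coe]
  rw [← sub_eq_zero]
  apply IsHausdorff.haus (inferInstance : IsHausdorff I A)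
  intro n
  rw [SModEq.zero, smul_eq_mul, Ideal.mul_top, ← Ideal.Quotient.eq]
  exact h n

theorem liftHom_X (I : Ideal A) [IsAdicComplete I A] (a : σ → A) (ha : ∀ i, a i ∈ I) (i : σ) :
    liftHom (𝒪 := 𝒪) I a ha (MvPowerSeries.X i) = a i := by
  rw [← MvPolynomial.coe_X, liftHom_coe, MvPolynomial.aeval_X]

end Lift

section Uniq
variable {𝒪 : Type*} [CommRing 𝒪] {σ : Type*} [Finite σ]
variable {A : Type*} [CommRing A] [Algebra 𝒪 A]


theorem map_mem_pow_of_X_mem (I : Ideal A) (φ : MvPowerSeries σ 𝒪 →ₐ[𝒪] A)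
    (hφ : ∀ i, φ (MvPowerSeries.X i) ∈ I) (n : ℕ) {g : MvPowerSeries σ 𝒪}
    (hg : g ∈ varIdeal σ 𝒪 ^ n) : φ g ∈ I ^ n := by
  have h1 : varIdeal σ 𝒪 ≤ I.comap φ := by
    rw [varIdeal, Ideal.span_le]
    rintro _ ⟨i, rfl⟩
    exact hφ i
  have h2 : (varIdeal σ 𝒪 ^ n).map φ ≤ I ^ n := by
    rw [Ideal.map_pow]
    exact Ideal.pow_right_mono (Ideal.map_le_iff_le_comap.mpr h1) n
  exact h2 (Ideal.mem_map_of_mem _ hg)

theorem algHom_coe_eq_aeval (φ : MvPowerSeries σ 𝒪 →ₐ[𝒪] A) (p : MvPolynomial σ 𝒪) :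
    φ (p : MvPowerSeries σ 𝒪) = MvPolynomial.aeval (fun i => φ (MvPowerSeries.X i)) p := by
  have : φ.comp (MvPolynomial.coeToMvPowerSeries.algHom (σ := σ) (R := 𝒪) 𝒪) =
      MvPolynomial.aeval (fun i => φ (MvPowerSeries.X i)) := by
    apply MvPolynomial.algHom_ext
    intro i
    simp
  exact congrArg (fun F => F p) this

theorem algHom_ext_of_X (I : Ideal A) [IsHausdorff I A]
    (φ ψ : MvPowerSeries σ 𝒪 →ₐ[𝒪] A) (hφ : ∀ i, φ (MvPowerSeries.X i) ∈ I)
    (h : ∀ i, φ (MvPowerSeries.X i) = ψ (MvPowerSeries.X i)) : φ = ψ := by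
  have hψ : ∀ i, ψ (MvPowerSeries.X i) ∈ I := fun i => h i ▸ hφ i
  ext f
  rw [← sub_eq_zero]
  apply IsHausdorff.haus (inferInstance : IsHausdorff I A)
  intro n
  rw [SModEq.zero, smul_eq_mul, Ideal.mul_top]
  have e1 := map_mem_pow_of_X_mem I φ hφ n (sub_truncTotal_mem n f)
  have e2 := map_mem_pow_of_X_mem I ψ hψ n (sub_truncTotal_mem n f)
  have e3 : φ ((MvPowerSeries.truncTotal n f : MvPolynomial σ 𝒪) : MvPowerSeries σ 𝒪) =
      ψ ((MvPowerSeries.truncTotal n f : MvPolynomial σ 𝒪) : MvPowerSeries σ 𝒪) := by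
    rw [algHom_coe_eq_aeval, algHom_coe_eq_aeval]
    congr 2
    funext i
    exact h i
  have : φ f - ψ f = φ (f - ((MvPowerSeries.truncTotal n f : MvPolynomial σ 𝒪) : MvPowerSeries σ 𝒪))
      - ψ (f - ((MvPowerSeries.truncTotal n f : MvPolynomial σ 𝒪) : MvPowerSeries σ 𝒪)) := by
    rw [map_sub, map_sub, e3]; ring
  rw [this]
  exact sub_mem e1 e2

end Uniq

section Sup
variable {S : Type*} [CommRing S]

theorem mk_mem_smul_top_iff (I J : Ideal S) (x : S) :
    Ideal.Quotient.mk I x ∈ (J • ⊤ : Submodule S (S ⧸ I)) ↔ x ∈ I ⊔ J := by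
  rw [Ideal.smul_top_eq_map, Submodule.restrictScalars_mem]
  rw [show algebraMap S (S ⧸ I) = Ideal.Quotient.mk I from rfl, Ideal.mem_quotient_iff_mem_sup, sup_comm]

theorem isPrecomplete_sup (I J : Ideal S) [IsPrecomplete I S]
    (hJ : ∀ k, IsAdicComplete J (S ⧸ I ^ k)) : IsPrecomplete (I ⊔ J) S := by
  refine ⟨fun f hf => ?_⟩
  have hf' : ∀ {m n : ℕ}, m ≤ n → f m - f n ∈ (I ⊔ J) ^ m := by
    intro m n hmn
    have := hf hmn
    rwa [SModEq.sub_mem, smul_eq_mul, Ideal.mul_top] at this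
  -- step 1: for each k, a limit z k of the sequence modulo I ^ k
  have key : ∀ k, ∃ z : S, ∀ n, f (n + k) - z ∈ I ^ k ⊔ J ^ n := by
    intro k
    have hpre := (hJ k).toIsPrecomplete
    obtain ⟨y, hy⟩ := hpre.prec (f := fun n => Ideal.Quotient.mk (I ^ k) (f (n + k))) (by
      intro m n hmn
      rw [SModEq.sub_mem, ← map_sub, mk_mem_smul_top_iff]
      have h1 : f (m + k) - f (n + k) ∈ (I ⊔ J) ^ (k + m) := by
        rw [add_comm k m]; exact hf' (by omega)
      have h2 := Ideal.sup_pow_add_le_pow_sup_pow (I := I) (J := J) (n := k) (m := m)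
      exact h2 h1)
    obtain ⟨z, rfl⟩ := Ideal.Quotient.mk_surjective y
    refine ⟨z, fun n => ?_⟩
    have := hy n
    rwa [SModEq.sub_mem, ← map_sub, mk_mem_smul_top_iff] at this
  choose z hz using key
  -- step 2: compatibility
  have hzz : ∀ k, z (k + 1) - z k ∈ I ^ k := by
    intro k
    have hH := (hJ k).toIsHausdorff
    have h0 : Ideal.Quotient.mk (I ^ k) (z (k + 1) - z k) = 0 := by
      apply hH.haus
      intro n
      rw [SModEq.zero, mk_mem_smul_top_iff]
      have h1 := hz (k + 1) n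
      have h2 := hz k (n + 1)
      have h3 : f (n + (k + 1)) = f (n + 1 + k) := by congr 1; omega
      have h4 : z (k + 1) - z k = (f (n + 1 + k) - z k) - (f (n + (k + 1)) - z (k + 1)) := by
        rw [h3]; ring
      rw [h4]
      refine sub_mem ?_ ?_
      · have e : I ^ k ⊔ J ^ (n + 1) ≤ I ^ k ⊔ J ^ n :=
          sup_le_sup le_rfl (Ideal.pow_le_pow_right (Nat.le_succ n))
        exact e h2
      · have e : I ^ (k + 1) ⊔ J ^ n ≤ I ^ k ⊔ J ^ n :=
          sup_le_sup (Ideal.pow_le_pow_right (Nat.le_succ k)) le_rfl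
        exact e h1
    exact Ideal.Quotient.eq_zero_iff_mem.mp h0
  have hzmn : ∀ {m n : ℕ}, m ≤ n → z m - z n ∈ I ^ m := by
    intro m n hmn
    induction n, hmn using Nat.le_induction with
    | base => simp
    | succ n hmn ih =>
      have h1 := hzz n
      have h2 : z m - z (n + 1) = (z m - z n) - (z (n + 1) - z n) := by ring
      rw [h2]
      exact sub_mem ih (Ideal.pow_le_pow_right hmn h1)
  obtain ⟨L, hL⟩ := IsPrecomplete.prec (I := I) (M := S) inferInstance (f := z) (by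
    intro m n hmn
    rw [SModEq.sub_mem, smul_eq_mul, Ideal.mul_top]
    exact hzmn hmn)
  have hL' : ∀ k, z k - L ∈ I ^ k := by
    intro k
    have := hL k
    rwa [SModEq.sub_mem, smul_eq_mul, Ideal.mul_top] at this
  refine ⟨L, fun n => ?_⟩
  rw [SModEq.sub_mem, smul_eq_mul, Ideal.mul_top]
  have h1 : f n - f (n + n) ∈ (I ⊔ J) ^ n := hf' (by omega)
  have h2 : f (n + n) - z n ∈ I ^ n ⊔ J ^ n := hz n n
  have h3 : I ^ n ⊔ J ^ n ≤ (I ⊔ J) ^ n :=
    sup_le (Ideal.pow_right_mono le_sup_left n) (Ideal.pow_right_mono le_sup_right n)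
  have h4 : z n - L ∈ (I ⊔ J) ^ n := Ideal.pow_right_mono le_sup_left n (hL' n)
  have h5 : f n - L = (f n - f (n + n)) + (f (n + n) - z n) + (z n - L) := by ring
  rw [h5]
  exact add_mem (add_mem h1 (h3 h2)) h4

end Sup

section Max
variable {𝒪 : Type*} [CommRing 𝒪] {σ : Type*} [Finite σ]

theorem finite_quot_varIdeal_pow (n : ℕ) :
    Module.Finite 𝒪 (MvPowerSeries σ 𝒪 ⧸ varIdeal σ 𝒪 ^ n) := by
  let L : MvPolynomial.restrictTotalDegree σ 𝒪 (n - 1) →ₗ[𝒪] (MvPowerSeries σ 𝒪 ⧸ varIdeal σ 𝒪 ^ n) :=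
    ((Ideal.Quotient.mkₐ 𝒪 (varIdeal σ 𝒪 ^ n)).toLinearMap ∘ₗ
      (MvPolynomial.coeToMvPowerSeries.algHom (σ := σ) (R := 𝒪) 𝒪).toLinearMap) ∘ₗ
      (MvPolynomial.restrictTotalDegree σ 𝒪 (n - 1)).subtype
  refine Module.Finite.of_surjective L ?_
  intro y
  obtain ⟨f, rfl⟩ := Ideal.Quotient.mk_surjective y
  rcases Nat.eq_zero_or_pos n with hn | hn
  · subst hn
    refine ⟨0, ?_⟩
    have : Subsingleton (MvPowerSeries σ 𝒪 ⧸ varIdeal σ 𝒪 ^ 0) :=
      Ideal.Quotient.subsingleton_iff.mpr (by simp)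
    exact Subsingleton.elim _ _
  · refine ⟨⟨MvPowerSeries.truncTotal n f, ?_⟩, ?_⟩
    · rw [MvPolynomial.mem_restrictTotalDegree]
      have := MvPowerSeries.totalDegree_truncTotal_lt (p := f) (n := n) (by omega)
      omega
    · show Ideal.Quotient.mk (varIdeal σ 𝒪 ^ n)
        ((MvPowerSeries.truncTotal n f : MvPolynomial σ 𝒪) : MvPowerSeries σ 𝒪) = _
      rw [eq_comm, Ideal.Quotient.mk_eq_mk_iff_sub_mem]
      exact sub_truncTotal_mem n f

variable [IsLocalRing 𝒪]

theorem maximalIdeal_eq_sup :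
    maximalIdeal (MvPowerSeries σ 𝒪) =
      varIdeal σ 𝒪 ⊔ (maximalIdeal 𝒪).map (algebraMap 𝒪 (MvPowerSeries σ 𝒪)) := by
  apply le_antisymm
  · intro f hf
    have h1 := sub_truncTotal_mem 1 f
    rw [pow_one] at h1
    have h2 : ((MvPowerSeries.truncTotal 1 f : MvPolynomial σ 𝒪) : MvPowerSeries σ 𝒪) =
        algebraMap 𝒪 (MvPowerSeries σ 𝒪) (MvPowerSeries.constantCoeff f) := by
      classical
      rw [← MvPowerSeries.c_eq_algebraMap]
      ext d
      rw [MvPolynomial.coeff_coe, MvPowerSeries.coeff_truncTotal_eq_ite, MvPowerSeries.coeff_C]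
      by_cases hd : d = 0
      · subst hd
        simp
      · rw [if_neg hd, if_neg]
        intro h
        apply hd
        have h0 : Finsupp.degree d = 0 := by omega
        exact (Finsupp.degree_eq_zero_iff d).mp h0
    have h3 : MvPowerSeries.constantCoeff f ∈ maximalIdeal 𝒪 := by
      rw [mem_maximalIdeal, mem_nonunits_iff] at hf ⊢
      rwa [MvPowerSeries.isUnit_iff_constantCoeff] at hf
    have : f = (f - ((MvPowerSeries.truncTotal 1 f : MvPolynomial σ 𝒪) : MvPowerSeries σ 𝒪)) +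
        algebraMap 𝒪 (MvPowerSeries σ 𝒪) (MvPowerSeries.constantCoeff f) := by
      rw [h2]; ring
    rw [this]
    exact Submodule.add_mem_sup h1 (Ideal.mem_map_of_mem _ h3)
  · refine sup_le ?_ ?_
    · rw [varIdeal, Ideal.span_le]
      rintro _ ⟨i, rfl⟩
      show MvPowerSeries.X i ∈ maximalIdeal _
      rw [mem_maximalIdeal, mem_nonunits_iff, MvPowerSeries.isUnit_iff_constantCoeff]
      simp
    · rw [Ideal.map_le_iff_le_comap]
      intro c hc
      show algebraMap 𝒪 (MvPowerSeries σ 𝒪) c ∈ maximalIdeal _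
      rw [mem_maximalIdeal, mem_nonunits_iff, MvPowerSeries.isUnit_iff_constantCoeff]
      rw [mem_maximalIdeal, mem_nonunits_iff] at hc
      rw [← MvPowerSeries.c_eq_algebraMap, MvPowerSeries.constantCoeff_C]
      exact hc

variable [IsNoetherianRing 𝒪] [IsAdicComplete (maximalIdeal 𝒪) 𝒪]

/-- **PS1**: the power series ring over a complete Noetherian local ring is complete for its
maximal ideal. -/
theorem isAdicComplete_maximalIdeal_mvPowerSeries :
    IsAdicComplete (maximalIdeal (MvPowerSeries σ 𝒪)) (MvPowerSeries σ 𝒪) := by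
  have hpre : IsPrecomplete (maximalIdeal (MvPowerSeries σ 𝒪)) (MvPowerSeries σ 𝒪) := by
    rw [maximalIdeal_eq_sup]
    have : IsPrecomplete (varIdeal σ 𝒪) (MvPowerSeries σ 𝒪) :=
      (inferInstance : IsAdicComplete (Ideal.span (Set.range MvPowerSeries.X)) (MvPowerSeries σ 𝒪)).toIsPrecomplete
    apply isPrecomplete_sup
    intro k
    rw [IsAdicComplete.map_algebraMap_iff]
    have := finite_quot_varIdeal_pow (𝒪 := 𝒪) (σ := σ) k
    exact IsAdicComplete.of_module_finite _ _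
  exact { toIsHausdorff := inferInstance, toIsPrecomplete := hpre }

end Max

section LocalFacts
variable {𝒪 : Type*} [CommRing 𝒪] {σ : Type*} [IsLocalRing 𝒪]

theorem isLocalHom_algebraMap_mvPowerSeries :
    IsLocalHom (algebraMap 𝒪 (MvPowerSeries σ 𝒪)) := by
  refine ⟨fun c hc => ?_⟩
  rw [MvPowerSeries.isUnit_iff_constantCoeff, ← MvPowerSeries.c_eq_algebraMap,
    MvPowerSeries.constantCoeff_C] at hc
  exact hc

theorem residue_surjective_mvPowerSeries :
    Function.Surjective (residue (MvPowerSeries σ 𝒪) ∘ algebraMap 𝒪 (MvPowerSeries σ 𝒪)) := by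
  intro y
  obtain ⟨f, rfl⟩ := residue_surjective y
  refine ⟨MvPowerSeries.constantCoeff f, ?_⟩
  rw [Function.comp_apply, ← sub_eq_zero, ← map_sub, residue_eq_zero_iff, mem_maximalIdeal,
    mem_nonunits_iff, MvPowerSeries.isUnit_iff_constantCoeff, map_sub,
    ← MvPowerSeries.c_eq_algebraMap, MvPowerSeries.constantCoeff_C, sub_self]
  exact not_isUnit_zero

theorem finite_residueField_mvPowerSeries [Finite (ResidueField 𝒪)] :
    Finite (ResidueField (MvPowerSeries σ 𝒪)) := by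
  have := isLocalHom_algebraMap_mvPowerSeries (𝒪 := 𝒪) (σ := σ)
  refine Finite.of_surjective (ResidueField.map (algebraMap 𝒪 (MvPowerSeries σ 𝒪))) ?_
  intro y
  obtain ⟨c, hc⟩ := residue_surjective_mvPowerSeries (𝒪 := 𝒪) (σ := σ) y
  exact ⟨residue 𝒪 c, by rw [ResidueField.map_residue]; exact hc⟩

theorem finite_quotient_maximalIdeal_pow_mvPowerSeries [Finite σ] [IsNoetherianRing 𝒪]
    [Finite (ResidueField 𝒪)] (n : ℕ) :
    Finite (MvPowerSeries σ 𝒪 ⧸ maximalIdeal (MvPowerSeries σ 𝒪) ^ n) := by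
  have : Finite (MvPowerSeries σ 𝒪 ⧸ maximalIdeal (MvPowerSeries σ 𝒪)) :=
    finite_residueField_mvPowerSeries (𝒪 := 𝒪) (σ := σ)
  exact Ideal.finite_quotient_pow (Ideal.fg_of_isNoetherianRing _) n

end LocalFacts

section Surj
variable {𝒪 : Type*} [CommRing 𝒪] [IsLocalRing 𝒪] {σ : Type*}
variable {A : Type*} [CommRing A] [IsLocalRing A] [Algebra 𝒪 A]

/-- If `𝒪` surjects onto the residue field of the local `𝒪`-algebra `A`, then `𝔪_𝒪` maps into
`𝔪_A`. -/
theorem algebraMap_mem_maximalIdeal_of_residue_surjective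
    (hres : Function.Surjective (residue A ∘ algebraMap 𝒪 A)) {c : 𝒪} (hc : c ∈ maximalIdeal 𝒪) :
    algebraMap 𝒪 A c ∈ maximalIdeal A := by
  by_contra h
  have hu : IsUnit (residue A (algebraMap 𝒪 A c)) := by
    rw [isUnit_iff_ne_zero]
    intro h0
    exact h ((residue_eq_zero_iff _).mp h0)
  obtain ⟨v, hv⟩ := hu.exists_right_inv
  obtain ⟨d, hd⟩ := hres v
  rw [Function.comp_apply] at hd
  rw [← hd, ← map_mul, ← map_mul] at hv
  have h1 : c * d ∈ maximalIdeal 𝒪 := Ideal.mul_mem_right _ _ hc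
  have h2 : 1 - c * d ∈ maximalIdeal 𝒪 := by
    by_contra hn
    rw [mem_maximalIdeal, mem_nonunits_iff, not_not] at hn
    have h3 : IsUnit (algebraMap 𝒪 A (1 - c * d)) := hn.map _
    have h4 : residue A (algebraMap 𝒪 A (1 - c * d)) = 0 := by
      rw [map_sub, map_sub, hv, map_one, map_one, sub_self]
    exact ((residue_eq_zero_iff _).mp h4) h3
  have h5 : (1 : 𝒪) ∈ maximalIdeal 𝒪 := by
    have h := add_mem h2 h1
    rwa [sub_add_cancel] at h
  exact (Ideal.ne_top_iff_one _).mp (maximalIdeal.isMaximal 𝒪).ne_top h5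

/-- **PS5**: generators of the cotangent space generate a nilpotent local algebra. -/
theorem aeval_surjective_of_nilpotent
    (hres : Function.Surjective (residue A ∘ algebraMap 𝒪 A))
    (hnil : ∃ n, maximalIdeal A ^ n = ⊥) (a : σ → A) (ha : ∀ i, a i ∈ maximalIdeal A)
    (hgen : maximalIdeal A ≤ Ideal.span (Set.range a) ⊔
      (maximalIdeal 𝒪).map (algebraMap 𝒪 A) ⊔ maximalIdeal A ^ 2) :
    Function.Surjective (MvPolynomial.aeval a : MvPolynomial σ 𝒪 →ₐ[𝒪] A) := by
  obtain ⟨n, hn⟩ := hnil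
  set m := maximalIdeal A with hm
  set 𝔞 : Ideal A := Ideal.span (Set.range a) ⊔ (maximalIdeal 𝒪).map (algebraMap 𝒪 A) with h𝔞
  -- Step 1: m ≤ 𝔞
  have step1 : ∀ j, 1 ≤ j → m ≤ 𝔞 ⊔ m ^ j := by
    intro j hj
    induction j, hj using Nat.le_induction with
    | base => rw [pow_one]; exact le_sup_right
    | succ j hj ih =>
      have h2 : m ^ 2 ≤ 𝔞 ⊔ m ^ (j + 1) := by
        rw [pow_two]
        calc m * m ≤ m * (𝔞 ⊔ m ^ j) := Ideal.mul_mono_right ih
          _ = m * 𝔞 ⊔ m * m ^ j := Ideal.mul_sup _ _ _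
          _ ≤ 𝔞 ⊔ m ^ (j + 1) := by
            refine sup_le_sup Ideal.mul_le_right ?_
            rw [pow_succ']
      exact hgen.trans (sup_le le_sup_left h2)
  have hm𝔞 : m ≤ 𝔞 := by
    rcases Nat.eq_zero_or_pos n with h0 | h0
    · subst h0
      rw [pow_zero, Ideal.one_eq_top] at hn
      intro x _
      have : x ∈ (⊤ : Ideal A) := trivial
      rw [hn] at this
      rw [Ideal.mem_bot.mp this]
      exact zero_mem _
    · have := step1 n h0
      rwa [hn, sup_bot_eq] at this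
  -- Step 2: approximation by the image
  set B : Subalgebra 𝒪 A := (MvPolynomial.aeval a : MvPolynomial σ 𝒪 →ₐ[𝒪] A).range with hB
  have haB : ∀ i, a i ∈ B := fun i => ⟨MvPolynomial.X i, by simp⟩
  have step2 : ∀ j (x : A), ∃ b ∈ B, x - b ∈ m ^ j := by
    intro j
    induction j with
    | zero =>
      intro x
      exact ⟨0, zero_mem _, by rw [pow_zero, Ideal.one_eq_top]; trivial⟩
    | succ j ih =>
      -- key: generators times anything
      have hgenmem : ∀ g : A, g ∈ B → g ∈ m → ∀ u : A, ∃ b ∈ B, u * g - b ∈ m ^ (j + 1) := by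
        intro g hgB hgm u
        obtain ⟨b, hb, hub⟩ := ih u
        refine ⟨b * g, mul_mem hb hgB, ?_⟩
        have : u * g - b * g = (u - b) * g := by ring
        rw [this, pow_succ]
        exact Ideal.mul_mem_mul hub hgm
      have h𝔞mem : ∀ y ∈ 𝔞, ∀ u : A, ∃ b ∈ B, u * y - b ∈ m ^ (j + 1) := by
        intro y hy
        have hy' : y ∈ Ideal.span (Set.range a ∪ (algebraMap 𝒪 A '' (maximalIdeal 𝒪 : Set 𝒪))) := by
          rw [Ideal.span_union, ← Ideal.map_span, Ideal.span_eq]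
          exact hy
        refine Submodule.span_induction (p := fun y _ => ∀ u : A, ∃ b ∈ B, u * y - b ∈ m ^ (j + 1))
          ?_ ?_ ?_ ?_ hy'
        · rintro g (⟨i, rfl⟩ | ⟨c, hc, rfl⟩)
          · exact hgenmem _ (haB i) (ha i)
          · exact hgenmem _ (B.algebraMap_mem c)
              (algebraMap_mem_maximalIdeal_of_residue_surjective hres hc)
        · intro u
          exact ⟨0, zero_mem _, by simp⟩
        · intro y z _ _ hy hz u
          obtain ⟨b1, hb1, h1⟩ := hy u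
          obtain ⟨b2, hb2, h2⟩ := hz u
          refine ⟨b1 + b2, add_mem hb1 hb2, ?_⟩
          have : u * (y + z) - (b1 + b2) = (u * y - b1) + (u * z - b2) := by ring
          rw [this]
          exact add_mem h1 h2
        · intro r y _ hy u
          obtain ⟨b, hb, h⟩ := hy (u * r)
          refine ⟨b, hb, ?_⟩
          have : u * (r • y) - b = u * r * y - b := by rw [smul_eq_mul]; ring
          rw [this]
          exact h
      intro x
      obtain ⟨c, hc⟩ := hres (residue A x)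
      rw [Function.comp_apply] at hc
      have hxc : x - algebraMap 𝒪 A c ∈ m := by
        rw [hm, ← residue_eq_zero_iff, map_sub, hc, sub_self]
      obtain ⟨b, hb, h⟩ := h𝔞mem _ (hm𝔞 hxc) 1
      refine ⟨algebraMap 𝒪 A c + b, add_mem (B.algebraMap_mem c) hb, ?_⟩
      have : x - (algebraMap 𝒪 A c + b) = 1 * (x - algebraMap 𝒪 A c) - b := by ring
      rw [this]
      exact h
  intro x
  obtain ⟨b, hb, h⟩ := step2 n x
  rw [hn, Ideal.mem_bot, sub_eq_zero] at h
  rw [h]
  exact hb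

end Surj


section SurjLift
variable {𝒪 : Type*} [CommRing 𝒪] [IsLocalRing 𝒪] {σ : Type*} [Finite σ]
variable {A : Type*} [CommRing A] [IsLocalRing A] [Algebra 𝒪 A]

/-- **PS5'**: the lift `MvPowerSeries σ 𝒪 → A`, `X i ↦ a i`, is surjective as soon as the `a i`
generate `𝔪_A` modulo `𝔪_A ^ 2 + 𝔪_𝒪 A` and `𝔪_A` is nilpotent. -/
theorem liftHom_surjective_of_nilpotent [IsAdicComplete (maximalIdeal A) A]
    (hres : Function.Surjective (residue A ∘ algebraMap 𝒪 A))
    (hnil : ∃ n, maximalIdeal A ^ n = ⊥) (a : σ → A) (ha : ∀ i, a i ∈ maximalIdeal A)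
    (hgen : maximalIdeal A ≤ Ideal.span (Set.range a) ⊔
      (maximalIdeal 𝒪).map (algebraMap 𝒪 A) ⊔ maximalIdeal A ^ 2) :
    Function.Surjective (liftHom (𝒪 := 𝒪) (maximalIdeal A) a ha) := by
  intro x
  obtain ⟨p, hp⟩ := aeval_surjective_of_nilpotent hres hnil a ha hgen x
  exact ⟨(p : MvPowerSeries σ 𝒪), by rw [liftHom_coe, hp]⟩

end SurjLift

section Approx
variable {Λ : Type*} [CommRing Λ]

/-- **PS4** (successive approximation). -/
theorem exists_limit_of_chain (I : Ideal Λ) [IsPrecomplete I Λ]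
    (K : ℕ → Ideal Λ) (hK : ∀ n, K n ≤ K (n + 1) ⊔ I ^ n) (hIK : ∀ n, I ^ n ≤ K n)
    (a : ℕ → Λ) (ha : ∀ j, a (j + 1) - a j ∈ K j) (n : ℕ) (x : Λ) (hx : x - a n ∈ K n) :
    ∃ L : Λ, L - x ∈ I ^ n ∧ ∀ j, n ≤ j → L - a j ∈ K j := by
  classical
  -- one step
  have step : ∀ (j : ℕ) (y : Λ), y - a (n + j) ∈ K (n + j) →
      ∃ y' : Λ, y' - a (n + (j + 1)) ∈ K (n + (j + 1)) ∧ y' - y ∈ I ^ (n + j) := by
    intro j y hy
    have h1 : a (n + j + 1) - y ∈ K (n + j) := by
      have : a (n + j + 1) - y = (a (n + j + 1) - a (n + j)) - (y - a (n + j)) := by ring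
      rw [this]
      exact sub_mem (ha _) hy
    obtain ⟨κ, hκ, η, hη, hsum⟩ := Submodule.mem_sup.mp (hK (n + j) h1)
    refine ⟨y + η, ?_, ?_⟩
    · have : y + η - a (n + (j + 1)) = -κ := by
        rw [show n + (j + 1) = n + j + 1 from rfl]
        linear_combination hsum
      rw [this]
      exact neg_mem hκ
    · simpa using hη
  let next : ℕ → Λ → Λ := fun j y =>
    if h : y - a (n + j) ∈ K (n + j) then Classical.choose (step j y h) else y
  let b : ℕ → Λ := fun j => Nat.rec x (fun j y => next j y) j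
  have hb0 : b 0 = x := rfl
  have hbs : ∀ j, b (j + 1) = next j (b j) := fun j => rfl
  have hb : ∀ j, b j - a (n + j) ∈ K (n + j) := by
    intro j
    induction j with
    | zero => simpa [hb0] using hx
    | succ j ih =>
      rw [hbs]
      simp only [next, dif_pos ih]
      exact (Classical.choose_spec (step j (b j) ih)).1
  have hbd : ∀ j, b (j + 1) - b j ∈ I ^ (n + j) := by
    intro j
    rw [hbs]
    simp only [next, dif_pos (hb j)]
    exact (Classical.choose_spec (step j (b j) (hb j))).2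
  -- shifted sequence
  let d : ℕ → Λ := fun i => b (i - n)
  have hd : ∀ i, d (i + 1) - d i ∈ I ^ i := by
    intro i
    by_cases hi : n ≤ i
    · have e1 : i + 1 - n = (i - n) + 1 := by omega
      have h := hbd (i - n)
      have e2 : n + (i - n) = i := by omega
      rw [e2] at h
      simp only [d, e1]
      exact h
    · have e1 : i + 1 - n = 0 := by omega
      have e2 : i - n = 0 := by omega
      simp only [d, e1, e2, sub_self]
      exact zero_mem _
  have hdmn : ∀ {m k : ℕ}, m ≤ k → d m - d k ∈ I ^ m := by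
    intro m k hmk
    induction k, hmk using Nat.le_induction with
    | base => simp
    | succ k hmk ih =>
      have h2 : d m - d (k + 1) = (d m - d k) - (d (k + 1) - d k) := by ring
      rw [h2]
      exact sub_mem ih (Ideal.pow_le_pow_right hmk (hd k))
  obtain ⟨L, hL⟩ := IsPrecomplete.prec (I := I) (M := Λ) inferInstance (f := d) (by
    intro m k hmk
    rw [SModEq.sub_mem, smul_eq_mul, Ideal.mul_top]
    exact hdmn hmk)
  have hL' : ∀ i, d i - L ∈ I ^ i := by
    intro i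
    have := hL i
    rwa [SModEq.sub_mem, smul_eq_mul, Ideal.mul_top] at this
  refine ⟨L, ?_, fun j hj => ?_⟩
  · have h := hL' n
    have e : d n = x := by simp [d, hb0]
    rw [e] at h
    have : L - x = -(x - L) := by ring
    rw [this]
    exact neg_mem h
  · have h1 := hL' j
    have h2 := hb (j - n)
    have e2 : n + (j - n) = j := by omega
    rw [e2] at h2
    have : L - a j = (d j - a j) - (d j - L) := by ring
    rw [this]
    exact sub_mem h2 (hIK j h1)

/-- **PS4a**: every compatible sequence modulo the `K n` has a limit. -/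
theorem exists_limit_of_compatible (I : Ideal Λ) [IsPrecomplete I Λ]
    (K : ℕ → Ideal Λ) (hK : ∀ n, K n ≤ K (n + 1) ⊔ I ^ n) (hIK : ∀ n, I ^ n ≤ K n)
    (a : ℕ → Λ) (ha : ∀ j, a (j + 1) - a j ∈ K j) :
    ∃ L : Λ, ∀ j, L - a j ∈ K j := by
  obtain ⟨L, -, hL⟩ := exists_limit_of_chain I K hK hIK a ha 0 (a 0) (by simp)
  exact ⟨L, fun j => hL j (Nat.zero_le j)⟩

/-- **PS4b**: `K n = (⨅ j, K j) ⊔ I ^ n`. -/
theorem le_iInf_sup_pow (I : Ideal Λ) [IsPrecomplete I Λ]
    (K : ℕ → Ideal Λ) (hmono : Antitone K) (hK : ∀ n, K n ≤ K (n + 1) ⊔ I ^ n)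
    (hIK : ∀ n, I ^ n ≤ K n) (n : ℕ) :
    K n ≤ (⨅ j, K j) ⊔ I ^ n := by
  intro x hx
  obtain ⟨L, hLx, hL⟩ := exists_limit_of_chain I K hK hIK (fun _ => 0) (by simp) n x (by simpa using hx)
  have hLmem : L ∈ ⨅ j, K j := by
    rw [Submodule.mem_iInf]
    intro j
    by_cases hj : n ≤ j
    · simpa using hL j hj
    · exact hmono (le_of_not_ge hj) (by simpa using hL n le_rfl)
  have : x = L + -(L - x) := by ring
  rw [this]
  exact Submodule.add_mem_sup hLmem (neg_mem hLx)

theorem eq_iInf_sup_pow (I : Ideal Λ) [IsPrecomplete I Λ]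
    (K : ℕ → Ideal Λ) (hmono : Antitone K) (hK : ∀ n, K n ≤ K (n + 1) ⊔ I ^ n)
    (hIK : ∀ n, I ^ n ≤ K n) (n : ℕ) :
    K n = (⨅ j, K j) ⊔ I ^ n :=
  le_antisymm (le_iInf_sup_pow I K hmono hK hIK n) (sup_le (iInf_le K n) (hIK n))

end Approx

end Fermat.Agent.S53.helper1433
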