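import Mathlib
import Fermat.Prelude.Def_GaloisRep_DeformationRingData
import Fermat.Prelude.Def_GaloisRep_DeformationCondition

set_option autoImplicit false
set_option linter.style.haveILetI false
set_option linter.unusedSectionVars false

namespace Fermat.Agent.S53.helper533

open IsLocalRing GaloisRep

/-- A module of finite length over a local ring with finite residue field is finite. -/
theorem finite_of_isFiniteLength {A : Type*} [CommRing A] [IsLocalRing A]
    [Finite (ResidueField A)] {M : Type*} [AddCommGroup M] [Module A M]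
    (h : IsFiniteLength A M) : Finite M := by
  induction h with
  | of_subsingleton => infer_instance
  | @of_simple_quotient M _ _ N hs _ ih =>
    obtain ⟨m, hm, ⟨e⟩⟩ := isSimpleModule_iff_quot_maximal.mp hs
    have hmm : m = maximalIdeal A := IsLocalRing.eq_maximalIdeal hm
    subst hmm
    haveI : Finite (A ⧸ maximalIdeal A) := ‹Finite (ResidueField A)›
    haveI : Finite (M ⧸ N) := Finite.of_equiv _ e.symm.toEquiv
    haveI : Finite N := ih
    haveI : Finite (M ⧸ N.toAddSubgroup) := ‹Finite (M ⧸ N)›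
    haveI : Finite N.toAddSubgroup := ‹Finite N›
    exact Finite.of_equiv _
      (AddSubgroup.addGroupEquivQuotientProdAddSubgroup (s := N.toAddSubgroup)).symm

/-- An Artinian local ring with finite residue field is finite. -/
theorem finite_of_isArtinianRing_of_finite_residueField (A : Type*) [CommRing A] [IsLocalRing A]
    [IsArtinianRing A] [Finite (ResidueField A)] : Finite A :=
  finite_of_isFiniteLength (A := A) (M := A)
    (isFiniteLength_iff_isNoetherian_isArtinian.mpr ⟨inferInstance, inferInstance⟩)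

section general

variable (𝒪 : Type) [CommRing 𝒪]

section
variable [IsLocalRing 𝒪]

/-- (TA1a) The residue field of an Artinian test algebra is finite. -/
theorem testAlg_finite_residueField [Finite (ResidueField 𝒪)]
    {A : Type} [CommRing A] [IsLocalRing A] [Algebra 𝒪 A] (h : IsArtinianTestAlgebra 𝒪 A) :
    Finite (ResidueField A) := by
  haveI := h.isLocalHom
  have hs : Function.Surjective (ResidueField.map (algebraMap 𝒪 A)) := by
    intro y
    obtain ⟨x, rfl⟩ := h.residue_surjective y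
    exact ⟨residue 𝒪 x, by simp⟩
  exact Finite.of_surjective _ hs

/-- (TA1) An Artinian test algebra over `𝒪` with finite residue field is a finite ring. -/
theorem testAlg_finite [Finite (ResidueField 𝒪)]
    {A : Type} [CommRing A] [IsLocalRing A] [Algebra 𝒪 A] (h : IsArtinianTestAlgebra 𝒪 A) :
    Finite A := by
  haveI := h.isArtinian
  haveI := testAlg_finite_residueField 𝒪 h
  exact finite_of_isArtinianRing_of_finite_residueField A

end

/-- Reformulation of residue surjectivity: every element is congruent to a scalar. -/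
theorem exists_sub_algebraMap_mem_maximalIdeal
    {A : Type} [CommRing A] [IsLocalRing A] [Algebra 𝒪 A]
    (hres : Function.Surjective (IsLocalRing.residue A ∘ algebraMap 𝒪 A)) (a : A) :
    ∃ c : 𝒪, a - algebraMap 𝒪 A c ∈ maximalIdeal A := by
  obtain ⟨c, hc⟩ := hres (residue A a)
  refine ⟨c, ?_⟩
  rw [← residue_eq_zero_iff, map_sub, sub_eq_zero]
  exact hc.symm

theorem residue_surjective_of_forall_exists
    {A : Type} [CommRing A] [IsLocalRing A] [Algebra 𝒪 A]
    (h : ∀ a : A, ∃ c : 𝒪, a - algebraMap 𝒪 A c ∈ maximalIdeal A) :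
    Function.Surjective (IsLocalRing.residue A ∘ algebraMap 𝒪 A) := by
  intro y
  obtain ⟨a, rfl⟩ := residue_surjective y
  obtain ⟨c, hc⟩ := h a
  refine ⟨c, ?_⟩
  rw [← residue_eq_zero_iff, map_sub, sub_eq_zero] at hc
  exact hc.symm

/-- (TA8) An `𝒪`-algebra hom between local `𝒪`-algebras, whose target has residue field
generated by `𝒪`, is automatically a local hom. -/
theorem isLocalHom_of_residue_surjective
    {A B : Type} [CommRing A] [IsLocalRing A] [Algebra 𝒪 A]
    [CommRing B] [IsLocalRing B] [Algebra 𝒪 B]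
    (hB : Function.Surjective (IsLocalRing.residue B ∘ algebraMap 𝒪 B)) (φ : A →ₐ[𝒪] B) :
    IsLocalHom (φ : A →+* B) := by
  refine ⟨fun a ha => ?_⟩
  by_contra hna
  have ham : a ∈ maximalIdeal A := hna
  obtain ⟨u, hu⟩ := ha
  obtain ⟨c, hc⟩ := exists_sub_algebraMap_mem_maximalIdeal 𝒪 hB (-(↑u⁻¹ : B))
  -- `1 + a * c` is a unit of `A`
  have h1 : IsUnit (1 + a * algebraMap 𝒪 A c) := by
    by_contra h
    have h' : 1 + a * algebraMap 𝒪 A c ∈ maximalIdeal A := h
    have h2 : a * algebraMap 𝒪 A c ∈ maximalIdeal A := Ideal.mul_mem_right _ _ ham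
    have h3 : (1 : A) ∈ maximalIdeal A := by
      have := Ideal.sub_mem _ h' h2
      simp at this
    exact (Ideal.ne_top_iff_one _).mp (maximalIdeal.isMaximal A).ne_top h3
  have h2 : IsUnit ((φ : A →+* B) (1 + a * algebraMap 𝒪 A c)) := h1.map _
  have h3 : (φ : A →+* B) (1 + a * algebraMap 𝒪 A c) ∈ maximalIdeal B := by
    have e : (φ : A →+* B) (1 + a * algebraMap 𝒪 A c) =
        -(↑u * (-(↑u⁻¹ : B) - algebraMap 𝒪 B c)) := by
      have hu' : (φ : A →+* B) a = ↑u := hu.symm
      simp only [map_add, map_one, map_mul, hu', RingHom.coe_coe, AlgHom.commutes]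
      have : (↑u : B) * ↑u⁻¹ = 1 := Units.mul_inv u
      linear_combination (-1 : B) * this
    rw [e]
    exact neg_mem (Ideal.mul_mem_left _ _ hc)
  exact h3 h2

/-- (TA3/TA5) A local Artinian surjective image of a local `𝒪`-algebra with residue field
generated by `𝒪` is an Artinian test algebra. -/
theorem testAlg_of_surjective
    {A B : Type} [CommRing A] [IsLocalRing A] [Algebra 𝒪 A]
    [CommRing B] [IsLocalRing B] [Algebra 𝒪 B] [IsArtinianRing B]
    (hloc : IsLocalHom (algebraMap 𝒪 A))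
    (hres : Function.Surjective (IsLocalRing.residue A ∘ algebraMap 𝒪 A))
    (q : A →ₐ[𝒪] B) (hq : Function.Surjective q) : IsArtinianTestAlgebra 𝒪 B := by
  haveI hql : IsLocalHom (q : A →+* B) := IsLocalHom.of_surjective (q : A →+* B) hq
  refine ⟨⟨fun c hc => ?_⟩, ?_, inferInstance⟩
  · have h1 : IsUnit ((q : A →+* B) (algebraMap 𝒪 A c)) := by
      simpa using hc
    exact hloc.map_nonunit c (hql.map_nonunit _ h1)
  · refine residue_surjective_of_forall_exists 𝒪 fun b => ?_
    obtain ⟨a, rfl⟩ := hq b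
    obtain ⟨c, hc⟩ := exists_sub_algebraMap_mem_maximalIdeal 𝒪 hres a
    refine ⟨c, ?_⟩
    have : q a - algebraMap 𝒪 B c = (q : A →+* B) (a - algebraMap 𝒪 A c) := by simp
    rw [this]
    intro hu
    exact hc (hql.map_nonunit _ hu)


/-! ### (TA2) descent along injective maps -/

/-- In a finite commutative ring, an element whose image under an injective ring hom is a unit
is itself a unit. -/
theorem isUnit_of_injective_of_finite {A B : Type*} [CommRing A] [CommRing B] [Finite B]
    (φ : B →+* A) (hφ : Function.Injective φ) (b : B) (h : IsUnit (φ b)) : IsUnit b := by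
  have hinj : Function.Injective (fun c : B => b * c) := by
    intro c c' hcc
    apply hφ
    have : φ b * φ c = φ b * φ c' := by rw [← map_mul, ← map_mul]; exact congrArg φ hcc
    exact h.mul_left_cancel this
  obtain ⟨c, hc⟩ := Finite.surjective_of_injective hinj 1
  exact IsUnit.of_mul_eq_one c hc

section injective

variable [IsLocalRing 𝒪] [Finite (ResidueField 𝒪)]
variable {A B : Type} [CommRing A] [IsLocalRing A] [Algebra 𝒪 A] [CommRing B] [Algebra 𝒪 B]

/-- (TA2a) A commutative `𝒪`-algebra injecting into an Artinian test algebra is finite. -/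
theorem finite_of_injective (hA : IsArtinianTestAlgebra 𝒪 A) (φ : B →ₐ[𝒪] A)
    (hφ : Function.Injective φ) : Finite B :=
  haveI := testAlg_finite 𝒪 hA
  Finite.of_injective _ hφ

/-- (TA2b) A commutative `𝒪`-algebra injecting into an Artinian test algebra is local. -/
theorem isLocalRing_of_injective (hA : IsArtinianTestAlgebra 𝒪 A) (φ : B →ₐ[𝒪] A)
    (hφ : Function.Injective φ) : IsLocalRing B := by
  haveI := finite_of_injective 𝒪 hA φ hφ
  haveI : Nontrivial B := ⟨⟨0, 1, fun h => zero_ne_one (α := A) (by simpa using congrArg φ h)⟩⟩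
  refine IsLocalRing.of_isUnit_or_isUnit_one_sub_self fun b => ?_
  rcases IsLocalRing.isUnit_or_isUnit_one_sub_self (φ b) with h | h
  · exact Or.inl (isUnit_of_injective_of_finite (φ : B →+* A) hφ b h)
  · refine Or.inr (isUnit_of_injective_of_finite (φ : B →+* A) hφ (1 - b) ?_)
    simpa using h

/-- (TA2c) An injective `𝒪`-algebra hom into an Artinian test algebra is a local hom. -/
theorem isLocalHom_of_injective (hA : IsArtinianTestAlgebra 𝒪 A) (φ : B →ₐ[𝒪] A)
    (hφ : Function.Injective φ) : IsLocalHom (φ : B →+* A) := by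
  haveI := finite_of_injective 𝒪 hA φ hφ
  exact ⟨fun b hb => isUnit_of_injective_of_finite (φ : B →+* A) hφ b hb⟩

/-- (TA2d) A local `𝒪`-algebra injecting into an Artinian test algebra is an Artinian test
algebra. -/
theorem testAlg_of_injective [IsLocalRing B] (hA : IsArtinianTestAlgebra 𝒪 A) (φ : B →ₐ[𝒪] A)
    (hφ : Function.Injective φ) : IsArtinianTestAlgebra 𝒪 B := by
  haveI := finite_of_injective 𝒪 hA φ hφ
  haveI hl := isLocalHom_of_injective 𝒪 hA φ hφ
  refine ⟨⟨fun c hc => ?_⟩, ?_, inferInstance⟩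
  · have h1 : IsUnit (algebraMap 𝒪 A c) := by
      have := hc.map (φ : B →+* A)
      simpa using this
    exact hA.isLocalHom.map_nonunit c h1
  · refine residue_surjective_of_forall_exists 𝒪 fun b => ?_
    obtain ⟨c, hc⟩ := exists_sub_algebraMap_mem_maximalIdeal 𝒪 hA.residue_surjective (φ b)
    refine ⟨c, fun hu => hc ?_⟩
    have := hu.map (φ : B →+* A)
    simpa using this

end injective

/-! ### (TA4) fibre products -/

section fibre

variable {A B C : Type} [CommRing A] [IsLocalRing A] [Algebra 𝒪 A]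
  [CommRing B] [IsLocalRing B] [Algebra 𝒪 B] [CommRing C] [IsLocalRing C] [Algebra 𝒪 C]

/-- The fibre product `A ×_C B` as a subalgebra of `A × B`. -/
def fibreProd (f : A →ₐ[𝒪] C) (g : B →ₐ[𝒪] C) : Subalgebra 𝒪 (A × B) :=
  AlgHom.equalizer (f.comp (AlgHom.fst 𝒪 A B)) (g.comp (AlgHom.snd 𝒪 A B))

variable {𝒪}

theorem mem_fibreProd {f : A →ₐ[𝒪] C} {g : B →ₐ[𝒪] C} {x : A × B} :
    x ∈ fibreProd 𝒪 f g ↔ f x.1 = g x.2 := Iff.rfl

/-- First projection of the fibre product. -/
def fibreProdFst (f : A →ₐ[𝒪] C) (g : B →ₐ[𝒪] C) : fibreProd 𝒪 f g →ₐ[𝒪] A :=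
  (AlgHom.fst 𝒪 A B).comp (fibreProd 𝒪 f g).val

/-- Second projection of the fibre product. -/
def fibreProdSnd (f : A →ₐ[𝒪] C) (g : B →ₐ[𝒪] C) : fibreProd 𝒪 f g →ₐ[𝒪] B :=
  (AlgHom.snd 𝒪 A B).comp (fibreProd 𝒪 f g).val

@[simp] theorem fibreProdFst_apply (f : A →ₐ[𝒪] C) (g : B →ₐ[𝒪] C) (x : fibreProd 𝒪 f g) :
    fibreProdFst f g x = x.1.1 := rfl

@[simp] theorem fibreProdSnd_apply (f : A →ₐ[𝒪] C) (g : B →ₐ[𝒪] C) (x : fibreProd 𝒪 f g) :
    fibreProdSnd f g x = x.1.2 := rfl

theorem fibreProd_comm (f : A →ₐ[𝒪] C) (g : B →ₐ[𝒪] C) :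
    f.comp (fibreProdFst f g) = g.comp (fibreProdSnd f g) := by
  ext x
  exact x.2

theorem fibreProd_injective (f : A →ₐ[𝒪] C) (g : B →ₐ[𝒪] C) :
    Function.Injective (fun x : fibreProd 𝒪 f g => (fibreProdFst f g x, fibreProdSnd f g x)) := by
  intro x y h
  exact Subtype.ext h

theorem fibreProd_exists (f : A →ₐ[𝒪] C) (g : B →ₐ[𝒪] C) (a : A) (b : B) (h : f a = g b) :
    ∃ x : fibreProd 𝒪 f g, fibreProdFst f g x = a ∧ fibreProdSnd f g x = b :=
  ⟨⟨(a, b), h⟩, rfl, rfl⟩

/-- An element of the fibre product is a unit iff its first component is. -/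
theorem fibreProd_isUnit_iff (hC : Function.Surjective (IsLocalRing.residue C ∘ algebraMap 𝒪 C))
    (f : A →ₐ[𝒪] C) (g : B →ₐ[𝒪] C) (x : fibreProd 𝒪 f g) :
    IsUnit x ↔ IsUnit x.1.1 := by
  constructor
  · intro h
    exact h.map (fibreProdFst f g)
  · intro h
    haveI hf := isLocalHom_of_residue_surjective 𝒪 hC f
    haveI hg := isLocalHom_of_residue_surjective 𝒪 hC g
    have hx : f x.1.1 = g x.1.2 := x.2
    have h2 : IsUnit x.1.2 := by
      apply hg.map_nonunit
      have : IsUnit (f x.1.1) := h.map f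
      rw [hx] at this
      exact this
    obtain ⟨u, hu⟩ := h
    obtain ⟨v, hv⟩ := h2
    have hmem : ((↑u⁻¹ : A), (↑v⁻¹ : B)) ∈ fibreProd 𝒪 f g := by
      rw [mem_fibreProd]
      have h1 : f ↑u * f ↑u⁻¹ = 1 := by rw [← map_mul, Units.mul_inv, map_one]
      have h3 : g ↑v * g ↑v⁻¹ = 1 := by rw [← map_mul, Units.mul_inv, map_one]
      have h4 : f ↑u = g ↑v := by rw [hu, hv]; exact hx
      rw [h4] at h1
      have hgu : IsUnit (g ↑v) := IsUnit.of_mul_eq_one _ h1
      exact hgu.mul_left_cancel (h1.trans h3.symm)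
    refine IsUnit.of_mul_eq_one ⟨_, hmem⟩ ?_
    apply Subtype.ext
    apply Prod.ext
    · show x.1.1 * ↑u⁻¹ = 1
      rw [← hu, Units.mul_inv]
    · show x.1.2 * ↑v⁻¹ = 1
      rw [← hv, Units.mul_inv]

/-- (TA4a) The fibre product of local `𝒪`-algebras over a local `𝒪`-algebra with residue field
generated by `𝒪` is local. -/
theorem fibreProd_isLocalRing
    (hC : Function.Surjective (IsLocalRing.residue C ∘ algebraMap 𝒪 C))
    (f : A →ₐ[𝒪] C) (g : B →ₐ[𝒪] C) : IsLocalRing (fibreProd 𝒪 f g) := by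
  haveI : Nontrivial (fibreProd 𝒪 f g) :=
    ⟨⟨0, 1, fun h => zero_ne_one (α := A) (congrArg (fun x => x.1.1) h)⟩⟩
  refine IsLocalRing.of_nonunits_add fun x y hx hy => ?_
  rw [mem_nonunits_iff, fibreProd_isUnit_iff hC] at hx hy ⊢
  have hx' : x.1.1 ∈ maximalIdeal A := hx
  have hy' : y.1.1 ∈ maximalIdeal A := hy
  exact Ideal.add_mem _ hx' hy'

/-- (TA4b) The first projection of the fibre product is a local hom. -/
theorem fibreProdFst_isLocalHom
    (hC : Function.Surjective (IsLocalRing.residue C ∘ algebraMap 𝒪 C))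
    (f : A →ₐ[𝒪] C) (g : B →ₐ[𝒪] C) :
    IsLocalHom (fibreProdFst f g : fibreProd 𝒪 f g →+* A) :=
  ⟨fun x hx => (fibreProd_isUnit_iff hC f g x).mpr hx⟩

/-- (TA4b') The second projection of the fibre product is a local hom. -/
theorem fibreProdSnd_isLocalHom
    (hC : Function.Surjective (IsLocalRing.residue C ∘ algebraMap 𝒪 C))
    (f : A →ₐ[𝒪] C) (g : B →ₐ[𝒪] C) :
    IsLocalHom (fibreProdSnd f g : fibreProd 𝒪 f g →+* B) := by
  refine ⟨fun x hx => (fibreProd_isUnit_iff hC f g x).mpr ?_⟩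
  haveI hf := isLocalHom_of_residue_surjective 𝒪 hC f
  apply hf.map_nonunit
  have hx2 : IsUnit x.1.2 := hx
  have h : f x.1.1 = g x.1.2 := x.2
  have : IsUnit (g x.1.2) := hx2.map g
  rw [← h] at this
  exact this

/-- (TA4c) The fibre product of Artinian test algebras is an Artinian test algebra. -/
theorem fibreProd_testAlg [IsLocalRing 𝒪] [Finite (ResidueField 𝒪)]
    (hA : IsArtinianTestAlgebra 𝒪 A) (hB : IsArtinianTestAlgebra 𝒪 B)
    (f : A →ₐ[𝒪] C) (g : B →ₐ[𝒪] C) [IsLocalRing (fibreProd 𝒪 f g)] :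
    IsArtinianTestAlgebra 𝒪 (fibreProd 𝒪 f g) := by
  haveI := testAlg_finite 𝒪 hA
  haveI := testAlg_finite 𝒪 hB
  haveI : Finite (fibreProd 𝒪 f g) := Finite.of_injective _ Subtype.val_injective
  refine ⟨⟨fun c hc => ?_⟩, ?_, inferInstance⟩
  · have h1 : IsUnit (algebraMap 𝒪 A c) := by
      have := hc.map (fibreProdFst f g)
      simpa using this
    exact hA.isLocalHom.map_nonunit c h1
  · refine residue_surjective_of_forall_exists 𝒪 fun x => ?_
    obtain ⟨c, hc⟩ := exists_sub_algebraMap_mem_maximalIdeal 𝒪 hA.residue_surjective x.1.1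
    refine ⟨c, fun hu => hc ?_⟩
    have := hu.map (fibreProdFst f g)
    simpa using this

/-- (TA4d) A deformation condition descends to the fibre product. -/
theorem D_fibreProd [IsLocalRing 𝒪] [Finite (ResidueField 𝒪)]
    {𝒟 : ∀ ⦃A : Type⦄ [CommRing A] [IsLocalRing A] [Algebra 𝒪 A], GaloisRepAdic A → Prop}
    (h𝒟 : IsDeformationCondition 𝒪 𝒟)
    (hA : IsArtinianTestAlgebra 𝒪 A) (hB : IsArtinianTestAlgebra 𝒪 B)
    (hC : IsArtinianTestAlgebra 𝒪 C)
    (f : A →ₐ[𝒪] C) (g : B →ₐ[𝒪] C) [IsLocalRing (fibreProd 𝒪 f g)]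
    (hpA : IsLocalHom (fibreProdFst f g : fibreProd 𝒪 f g →+* A))
    (hpB : IsLocalHom (fibreProdSnd f g : fibreProd 𝒪 f g →+* B))
    {ρ : GaloisRepAdic (fibreProd 𝒪 f g)}
    (h1 : 𝒟 (ρ.baseChangeAlong (fibreProdFst f g : fibreProd 𝒪 f g →+* A) hpA))
    (h2 : 𝒟 (ρ.baseChangeAlong (fibreProdSnd f g : fibreProd 𝒪 f g →+* B) hpB)) : 𝒟 ρ :=
  h𝒟.of_fibreProduct hA hB hC (fibreProd_testAlg hA hB f g) f g
    (fibreProdFst f g) (fibreProdSnd f g) hpA hpB (fibreProd_comm f g)
    (fibreProd_injective f g) (fibreProd_exists f g) h1 h2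

end fibre

/-! ### (TA5) quotients of complete local algebras by powers of the maximal ideal -/

section quotient

variable {A : Type} [CommRing A] [IsLocalRing A] [Algebra 𝒪 A]

/-- (TA5a) `A ⧸ m^n` is local for `n ≠ 0`. -/
theorem isLocalRing_quot_maxPow (n : ℕ) (hn : n ≠ 0) :
    IsLocalRing (A ⧸ maximalIdeal A ^ n) := by
  haveI : Nontrivial (A ⧸ maximalIdeal A ^ n) := by
    apply Ideal.Quotient.nontrivial_iff.mpr
    intro h
    have h1 : (1 : A) ∈ maximalIdeal A ^ n := by rw [h]; trivial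
    have h2 : (1 : A) ∈ maximalIdeal A := Ideal.pow_le_self hn h1
    exact (Ideal.ne_top_iff_one _).mp (maximalIdeal.isMaximal A).ne_top h2
  exact IsLocalRing.of_surjective' (Ideal.Quotient.mk _) Ideal.Quotient.mk_surjective

/-- (TA5b) `A ⧸ m^n` is Artinian if `A` is Noetherian local. -/
theorem isArtinianRing_quot_maxPow [IsNoetherianRing A] (n : ℕ)
    [IsLocalRing (A ⧸ maximalIdeal A ^ n)] : IsArtinianRing (A ⧸ maximalIdeal A ^ n) := by
  rw [isArtinianRing_iff_isNilpotent_maximalIdeal]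
  refine ⟨n, ?_⟩
  rw [← IsLocalRing.map_maximalIdeal_of_surjective (Ideal.Quotient.mk (maximalIdeal A ^ n))
    Ideal.Quotient.mk_surjective, ← Ideal.map_pow, Ideal.zero_eq_bot, Ideal.map_eq_bot_iff_le_ker,
    Ideal.mk_ker]

/-- (TA5c) For a Noetherian local `𝒪`-algebra `A` with residue field generated by `𝒪`,
`A ⧸ m^n` is an Artinian test algebra. -/
theorem testAlg_quot_maxPow [IsNoetherianRing A]
    (hloc : IsLocalHom (algebraMap 𝒪 A))
    (hres : Function.Surjective (IsLocalRing.residue A ∘ algebraMap 𝒪 A)) (n : ℕ)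
    [IsLocalRing (A ⧸ maximalIdeal A ^ n)] :
    IsArtinianTestAlgebra 𝒪 (A ⧸ maximalIdeal A ^ n) := by
  haveI := isArtinianRing_quot_maxPow (A := A) n
  exact testAlg_of_surjective 𝒪 hloc hres (Ideal.Quotient.mkₐ 𝒪 (maximalIdeal A ^ n))
    (Ideal.Quotient.mkₐ_surjective 𝒪 _)

/-- (TA5d) A local hom to an Artinian local ring kills a power of the maximal ideal. -/
theorem exists_maxPow_le_ker {B : Type} [CommRing B] [IsLocalRing B] [IsArtinianRing B]
    (q : A →+* B) [IsLocalHom q] : ∃ n : ℕ, n ≠ 0 ∧ maximalIdeal A ^ n ≤ RingHom.ker q := by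
  obtain ⟨n, hn⟩ := IsArtinianRing.isNilpotent_jacobson_bot (R := B)
  rw [jacobson_eq_maximalIdeal _ bot_ne_top] at hn
  refine ⟨n + 1, Nat.succ_ne_zero n, ?_⟩
  rw [← Ideal.map_eq_bot_iff_le_ker, Ideal.map_pow, eq_bot_iff]
  calc (maximalIdeal A).map q ^ (n + 1) ≤ maximalIdeal B ^ (n + 1) :=
        Ideal.pow_right_mono (map_maximalIdeal_le q) _
    _ ≤ maximalIdeal B ^ n := Ideal.pow_le_pow_right (Nat.le_succ n)
    _ = ⊥ := hn

end quotient

/-! ### (TA3) quotients of test algebras -/

/-- (TA3) A quotient of an Artinian test algebra by a proper ideal is an Artinian test algebra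
(the local ring instance on the quotient is taken as an argument; see `isLocalRing_quot`). -/
theorem testAlg_quot {A : Type} [CommRing A] [IsLocalRing A] [Algebra 𝒪 A]
    (hA : IsArtinianTestAlgebra 𝒪 A) (I : Ideal A) [IsLocalRing (A ⧸ I)] :
    IsArtinianTestAlgebra 𝒪 (A ⧸ I) := by
  haveI := hA.isArtinian
  haveI : IsArtinianRing (A ⧸ I) :=
    Function.Surjective.isArtinianRing (f := Ideal.Quotient.mk I) Ideal.Quotient.mk_surjective
  exact testAlg_of_surjective 𝒪 hA.isLocalHom hA.residue_surjective (Ideal.Quotient.mkₐ 𝒪 I)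
    (Ideal.Quotient.mkₐ_surjective 𝒪 _)

/-- The quotient of a local ring by a proper ideal is local. -/
theorem isLocalRing_quot {A : Type} [CommRing A] [IsLocalRing A] (I : Ideal A) (hI : I ≠ ⊤) :
    IsLocalRing (A ⧸ I) := by
  haveI : Nontrivial (A ⧸ I) := Ideal.Quotient.nontrivial_iff.mpr hI
  exact IsLocalRing.of_surjective' (Ideal.Quotient.mk _) Ideal.Quotient.mk_surjective

/-! ### (TA6) dual numbers -/

section dual

variable [IsLocalRing 𝒪]

/-- The `𝒪`-algebra structure on the dual numbers over the residue field used in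
`GaloisRep.TangentFinite` (syntactically the same term as the `letI` there). -/
@[reducible] noncomputable def dualNumberAlgebra : Algebra 𝒪 (DualNumber (ResidueField 𝒪)) :=
  ((algebraMap (ResidueField 𝒪) (DualNumber (ResidueField 𝒪))).comp
    (algebraMap 𝒪 (ResidueField 𝒪))).toAlgebra

theorem dualNumberAlgebra_algebraMap (c : 𝒪) :
    letI := dualNumberAlgebra 𝒪
    algebraMap 𝒪 (DualNumber (ResidueField 𝒪)) c = TrivSqZeroExt.inl (residue 𝒪 c) := rfl

/-- (TA6) The dual numbers over the residue field, with the algebra structure of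
`GaloisRep.TangentFinite`, form an Artinian test algebra. -/
theorem dualNumber_testAlg [Finite (ResidueField 𝒪)] :
    letI := dualNumberAlgebra 𝒪
    IsArtinianTestAlgebra 𝒪 (DualNumber (ResidueField 𝒪)) := by
  letI := dualNumberAlgebra 𝒪
  have hmap : ∀ c : 𝒪, algebraMap 𝒪 (DualNumber (ResidueField 𝒪)) c =
      TrivSqZeroExt.inl (residue 𝒪 c) := fun c => rfl
  refine ⟨⟨fun c hc => ?_⟩, ?_, ?_⟩
  · rw [hmap, TrivSqZeroExt.isUnit_iff_isUnit_fst, TrivSqZeroExt.fst_inl] at hc
    by_contra h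
    have : residue 𝒪 c = 0 := (residue_eq_zero_iff c).mpr h
    rw [this] at hc
    exact not_isUnit_zero hc
  · intro y
    obtain ⟨x, rfl⟩ := residue_surjective y
    obtain ⟨c, hc⟩ := residue_surjective (R := 𝒪) x.fst
    refine ⟨c, ?_⟩
    show residue _ (algebraMap 𝒪 (DualNumber (ResidueField 𝒪)) c) = residue _ x
    rw [← sub_eq_zero, ← map_sub, residue_eq_zero_iff, hmap]
    intro hu
    rw [TrivSqZeroExt.isUnit_iff_isUnit_fst] at hu
    simp [hc] at hu
  · haveI : Finite (DualNumber (ResidueField 𝒪)) :=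
      inferInstanceAs (Finite (ResidueField 𝒪 × ResidueField 𝒪))
    infer_instance

end dual

/-! ### (TA7) invariance of the deformation condition under equivalence, complete case -/

/-- (TA7) A deformation condition is invariant under equivalence over complete Noetherian local
`𝒪`-algebras with residue field generated by `𝒪`. -/
theorem D_of_isEquiv_complete [IsLocalRing 𝒪]
    {𝒟 : ∀ ⦃A : Type⦄ [CommRing A] [IsLocalRing A] [Algebra 𝒪 A], GaloisRepAdic A → Prop}
    (h𝒟 : IsDeformationCondition 𝒪 𝒟)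
    {A : Type} [CommRing A] [IsLocalRing A] [IsNoetherianRing A]
    [IsAdicComplete (maximalIdeal A) A] [Algebra 𝒪 A]
    (hloc : IsLocalHom (algebraMap 𝒪 A))
    (hres : Function.Surjective (IsLocalRing.residue A ∘ algebraMap 𝒪 A))
    {ρ ρ' : GaloisRepAdic A} (e : ρ.IsEquiv ρ') (h : 𝒟 ρ) : 𝒟 ρ' := by
  obtain ⟨e⟩ := e
  refine (h𝒟.iff_forall_surjective hloc hres ρ').mpr fun B _ _ _ hB q hq hsurj => ?_
  exact h𝒟.of_isEquiv hB ⟨e.baseChangeAlong (q : A →+* B) hq⟩
    ((h𝒟.iff_forall_surjective hloc hres ρ).mp h hB q hq hsurj)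

end general

end Fermat.Agent.S53.helper533
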