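import Mathlib
import Fermat.Prelude.Def_GaloisRep_DeformationRingData
import Fermat.Prelude.Def_GaloisRep_DeformationCondition
import Fermat.Agent.S53.helper533_TestAlg

/-!
# S53: the tangent bound (route independent)

`exists_card_bound`: from `TangentFinite 𝒪 ρbar 𝒟` we get a uniform bound on the cardinality of
every square-zero, `π`-torsion Artinian test algebra `A` carrying a "hom-rigid" deformation of
type `𝒟`.  Also: a small matrix dictionary (`AdicHasMat`, `ResHasMat`) and the intrinsic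
functoriality lemmas `residual_baseChangeAlong`, `resBaseChangeAlong_comp`,
`adicBaseChangeAlong_comp`.
-/

set_option autoImplicit false
set_option linter.style.haveILetI false
set_option linter.unusedSectionVars false

namespace Fermat.Agent.S53.helper1793

open IsLocalRing GaloisRep TensorProduct

/-- Notation for the absolute Galois group. -/
abbrev Gal : Type := AlgebraicClosure ℚ ≃ₐ[ℚ] AlgebraicClosure ℚ

/-- A residual representation has matrices `M` in some basis. -/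
def ResHasMat {K : Type} [Field K] (ρ : ResidualGaloisRep K)
    (M : Gal → Matrix (Fin 2) (Fin 2) K) : Prop :=
  ∃ b : Module.Basis (Fin 2) K ρ.V, ∀ σ, LinearMap.toMatrix b b (ρ.ρ σ) = M σ

/-- An adic representation has matrices `M` in some basis. -/
def AdicHasMat {A : Type} [CommRing A] [IsLocalRing A] (ρ : GaloisRepAdic A)
    (M : Gal → Matrix (Fin 2) (Fin 2) A) : Prop :=
  ∃ b : Module.Basis (Fin 2) A ρ.V, ∀ σ, LinearMap.toMatrix b b (ρ.ρ σ) = M σ

theorem exists_resHasMat {K : Type} [Field K] (ρ : ResidualGaloisRep K) :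
    ∃ M, ResHasMat ρ M :=
  ⟨_, Module.finBasisOfFinrankEq K ρ.V ρ.finrank_eq, fun _ => rfl⟩

theorem exists_adicHasMat {A : Type} [CommRing A] [IsLocalRing A] (ρ : GaloisRepAdic A) :
    ∃ M, AdicHasMat ρ M :=
  ⟨_, Module.finBasisOfFinrankEq A ρ.V ρ.finrank_eq, fun _ => rfl⟩

theorem ResHasMat.isEquiv {K : Type} [Field K] {ρ₁ ρ₂ : ResidualGaloisRep K}
    {M : Gal → Matrix (Fin 2) (Fin 2) K} (h₁ : ResHasMat ρ₁ M) (h₂ : ResHasMat ρ₂ M) :
    ρ₁.IsEquiv ρ₂ := by
  obtain ⟨b₁, hb₁⟩ := h₁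
  obtain ⟨b₂, hb₂⟩ := h₂
  refine ⟨⟨b₁.equiv b₂ (Equiv.refl _), fun σ x => ?_⟩⟩
  have key : (b₁.equiv b₂ (Equiv.refl _)).toLinearMap ∘ₗ ρ₁.ρ σ =
      ρ₂.ρ σ ∘ₗ (b₁.equiv b₂ (Equiv.refl _)).toLinearMap := by
    apply (LinearMap.toMatrix b₁ b₂).injective
    rw [LinearMap.toMatrix_comp b₁ b₁ b₂, LinearMap.toMatrix_comp b₁ b₂ b₂,
      LinearMap.toMatrix_basis_equiv, hb₁, hb₂, one_mul, mul_one]
  exact LinearMap.congr_fun key x

theorem ResHasMat.of_isEquiv {K : Type} [Field K] {ρ₁ ρ₂ : ResidualGaloisRep K}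
    {M : Gal → Matrix (Fin 2) (Fin 2) K} (h₁ : ResHasMat ρ₁ M) (h : ρ₁.IsEquiv ρ₂) :
    ResHasMat ρ₂ M := by
  obtain ⟨b₁, hb₁⟩ := h₁
  obtain ⟨e⟩ := h
  refine ⟨b₁.map e.toLinearEquiv, fun σ => ?_⟩
  rw [← hb₁ σ]
  ext i j
  simp only [LinearMap.toMatrix_apply, Module.Basis.map_apply, Module.Basis.map_repr,
    LinearEquiv.trans_apply]
  rw [← e.map_apply, LinearEquiv.symm_apply_apply]

theorem AdicHasMat.isEquiv {A : Type} [CommRing A] [IsLocalRing A] {ρ₁ ρ₂ : GaloisRepAdic A}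
    {M : Gal → Matrix (Fin 2) (Fin 2) A} (h₁ : AdicHasMat ρ₁ M) (h₂ : AdicHasMat ρ₂ M) :
    ρ₁.IsEquiv ρ₂ := by
  obtain ⟨b₁, hb₁⟩ := h₁
  obtain ⟨b₂, hb₂⟩ := h₂
  refine ⟨⟨b₁.equiv b₂ (Equiv.refl _), fun σ x => ?_⟩⟩
  have key : (b₁.equiv b₂ (Equiv.refl _)).toLinearMap ∘ₗ ρ₁.ρ σ =
      ρ₂.ρ σ ∘ₗ (b₁.equiv b₂ (Equiv.refl _)).toLinearMap := by
    apply (LinearMap.toMatrix b₁ b₂).injective
    rw [LinearMap.toMatrix_comp b₁ b₁ b₂, LinearMap.toMatrix_comp b₁ b₂ b₂,
      LinearMap.toMatrix_basis_equiv, hb₁, hb₂, one_mul, mul_one]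
  exact LinearMap.congr_fun key x

theorem AdicHasMat.of_isEquiv {A : Type} [CommRing A] [IsLocalRing A] {ρ₁ ρ₂ : GaloisRepAdic A}
    {M : Gal → Matrix (Fin 2) (Fin 2) A} (h₁ : AdicHasMat ρ₁ M) (h : ρ₁.IsEquiv ρ₂) :
    AdicHasMat ρ₂ M := by
  obtain ⟨b₁, hb₁⟩ := h₁
  obtain ⟨e⟩ := h
  refine ⟨b₁.map e.toLinearEquiv, fun σ => ?_⟩
  rw [← hb₁ σ]
  ext i j
  simp only [LinearMap.toMatrix_apply, Module.Basis.map_apply, Module.Basis.map_repr,
    LinearEquiv.trans_apply]
  rw [← e.map_apply, LinearEquiv.symm_apply_apply]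

theorem ResHasMat.baseChangeAlong {K K' : Type} [Field K] [Field K'] (f : K →+* K')
    {ρ : ResidualGaloisRep K} {M : Gal → Matrix (Fin 2) (Fin 2) K} (h : ResHasMat ρ M) :
    ResHasMat (ρ.baseChangeAlong f) (fun σ => (M σ).map f) := by
  obtain ⟨b, hb⟩ := h
  let _ : Algebra K K' := f.toAlgebra
  refine ⟨Algebra.TensorProduct.basis K' b, fun σ => ?_⟩
  beta_reduce
  rw [← hb σ]
  exact LinearMap.toMatrix_baseChange K' (ρ.ρ σ) b b

theorem AdicHasMat.baseChangeAlong {A B : Type} [CommRing A] [IsLocalRing A] [CommRing B]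
    [IsLocalRing B] (φ : A →+* B) (hφ : IsLocalHom φ)
    {ρ : GaloisRepAdic A} {M : Gal → Matrix (Fin 2) (Fin 2) A} (h : AdicHasMat ρ M) :
    AdicHasMat (ρ.baseChangeAlong φ hφ) (fun σ => (M σ).map φ) := by
  obtain ⟨b, hb⟩ := h
  let _ : Algebra A B := φ.toAlgebra
  refine ⟨Algebra.TensorProduct.basis B b, fun σ => ?_⟩
  beta_reduce
  rw [← hb σ]
  exact LinearMap.toMatrix_baseChange B (ρ.ρ σ) b b

theorem AdicHasMat.residual {A : Type} [CommRing A] [IsLocalRing A]
    {ρ : GaloisRepAdic A} {M : Gal → Matrix (Fin 2) (Fin 2) A} (h : AdicHasMat ρ M) :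
    ResHasMat ρ.residual (fun σ => (M σ).map (IsLocalRing.residue A)) := by
  obtain ⟨b, hb⟩ := h
  refine ⟨Algebra.TensorProduct.basis (ResidueField A) b, fun σ => ?_⟩
  beta_reduce
  rw [← hb σ]
  exact LinearMap.toMatrix_baseChange (ResidueField A) (ρ.ρ σ) b b

/-- The residual representation of a base change is the base change of the residual
representation. -/
theorem residual_baseChangeAlong {A B : Type} [CommRing A] [IsLocalRing A] [CommRing B]
    [IsLocalRing B] (φ : A →+* B) [hφ : IsLocalHom φ] (ρ : GaloisRepAdic A) :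
    (ρ.baseChangeAlong φ hφ).residual.IsEquiv
      (ρ.residual.baseChangeAlong (IsLocalRing.ResidueField.map φ)) := by
  obtain ⟨M, hM⟩ := exists_adicHasMat ρ
  have h1 := (hM.baseChangeAlong φ hφ).residual
  have h2 := hM.residual.baseChangeAlong (IsLocalRing.ResidueField.map φ)
  have : (fun σ => ((M σ).map φ).map (IsLocalRing.residue B)) =
      (fun σ => ((M σ).map (IsLocalRing.residue A)).map (IsLocalRing.ResidueField.map φ)) := by
    funext σ
    ext i j
    simp [Matrix.map_apply]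
  rw [this] at h1
  exact h1.isEquiv h2

/-- Composition of base changes of residual representations. -/
theorem resBaseChangeAlong_comp {K K' K'' : Type} [Field K] [Field K'] [Field K'']
    (f : K →+* K') (g : K' →+* K'') (ρ : ResidualGaloisRep K) :
    ((ρ.baseChangeAlong f).baseChangeAlong g).IsEquiv (ρ.baseChangeAlong (g.comp f)) := by
  obtain ⟨M, hM⟩ := exists_resHasMat ρ
  have h1 := (hM.baseChangeAlong f).baseChangeAlong g
  have h2 := hM.baseChangeAlong (g.comp f)
  have : (fun σ => ((M σ).map f).map g) = (fun σ => (M σ).map (g.comp f)) := by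
    funext σ
    ext i j
    simp [Matrix.map_apply]
  rw [this] at h1
  exact h1.isEquiv h2

/-- Composition of base changes of adic representations. -/
theorem adicBaseChangeAlong_comp {A B C : Type} [CommRing A] [IsLocalRing A] [CommRing B]
    [IsLocalRing B] [CommRing C] [IsLocalRing C] (φ : A →+* B) (hφ : IsLocalHom φ)
    (ψ : B →+* C) (hψ : IsLocalHom ψ) (hψφ : IsLocalHom (ψ.comp φ)) (ρ : GaloisRepAdic A) :
    ((ρ.baseChangeAlong φ hφ).baseChangeAlong ψ hψ).IsEquiv
      (ρ.baseChangeAlong (ψ.comp φ) hψφ) := by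
  obtain ⟨M, hM⟩ := exists_adicHasMat ρ
  have h1 := (hM.baseChangeAlong φ hφ).baseChangeAlong ψ hψ
  have h2 := hM.baseChangeAlong (ψ.comp φ) hψφ
  have : (fun σ => ((M σ).map φ).map ψ) = (fun σ => (M σ).map (ψ.comp φ)) := by
    funext σ
    ext i j
    simp [Matrix.map_apply]
  rw [this] at h1
  exact h1.isEquiv h2


/-! ### The setoid of `TangentFinite` -/

section TangentSetoid

variable (𝒪 : Type) [CommRing 𝒪] [IsLocalRing 𝒪]

/-- The algebra structure on the residue field of the dual numbers used in `TangentFinite`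
(syntactically the `letI` there). -/
@[reducible] noncomputable def dualResAlgebra :
    Algebra (ResidueField 𝒪) (ResidueField (DualNumber (ResidueField 𝒪))) :=
  ((IsLocalRing.residue (DualNumber (ResidueField 𝒪))).comp
      (algebraMap (ResidueField 𝒪) (DualNumber (ResidueField 𝒪)))).toAlgebra

/-- The predicate cutting out the tangent deformations in `TangentFinite`. -/
def TangentPred (ρbar : ResidualGaloisRep (ResidueField 𝒪))
    (𝒟 : ∀ ⦃A : Type⦄ [CommRing A] [IsLocalRing A] [Algebra 𝒪 A], GaloisRepAdic A → Prop)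
    (ρ : GaloisRepAdic (DualNumber (ResidueField 𝒪))) : Prop :=
  letI : Algebra 𝒪 (DualNumber (ResidueField 𝒪)) := helper533.dualNumberAlgebra 𝒪
  letI : Algebra (ResidueField 𝒪) (ResidueField (DualNumber (ResidueField 𝒪))) :=
    dualResAlgebra 𝒪
  𝒟 ρ ∧ ρ.residual.IsEquiv (ρbar.baseChange (ResidueField (DualNumber (ResidueField 𝒪))))

/-- The setoid of `TangentFinite`. -/
def tangentSetoid (ρbar : ResidualGaloisRep (ResidueField 𝒪))
    (𝒟 : ∀ ⦃A : Type⦄ [CommRing A] [IsLocalRing A] [Algebra 𝒪 A], GaloisRepAdic A → Prop) :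
    Setoid {ρ : GaloisRepAdic (DualNumber (ResidueField 𝒪)) // TangentPred 𝒪 ρbar 𝒟 ρ} :=
  ⟨fun ρ ρ' => ρ.1.IsEquiv ρ'.1, ⟨fun ρ => ⟨GaloisRepAdic.Equiv.refl ρ.1⟩,
        fun ⟨e⟩ => ⟨e.symm⟩, fun ⟨e⟩ ⟨e'⟩ => ⟨e.trans e'⟩⟩⟩

/-- `TangentFinite` unfolded. -/
theorem tangentFinite_iff (ρbar : ResidualGaloisRep (ResidueField 𝒪))
    (𝒟 : ∀ ⦃A : Type⦄ [CommRing A] [IsLocalRing A] [Algebra 𝒪 A], GaloisRepAdic A → Prop) :
    TangentFinite 𝒪 ρbar 𝒟 ↔ Finite (Quotient (tangentSetoid 𝒪 ρbar 𝒟)) := Iff.rfl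

end TangentSetoid

/-! ### A counting lemma -/

/-- If a family of maps `φ i : A → K` separates the points of `A` and factors through a map
`F : ι → Q` into a finite type, then `A` has at most `|K| ^ |Q|` elements. -/
theorem card_le_pow_of_separating {A K Q ι : Type*} [Zero K] [Finite K] [Finite Q]
    (φ : ι → A → K) (F : ι → Q) (hF : ∀ i j, F i = F j → φ i = φ j)
    (hsep : ∀ a b : A, (∀ i, φ i a = φ i b) → a = b) :
    Nat.card A ≤ Nat.card K ^ Nat.card Q := by
  classical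
  let ev : A → (Q → K) := fun a q => if h : ∃ i, F i = q then φ h.choose a else 0
  have hinj : Function.Injective ev := by
    intro a b hab
    apply hsep
    intro i
    have h : ∃ j, F j = F i := ⟨i, rfl⟩
    have h1 := congrFun hab (F i)
    simp only [ev, dif_pos h] at h1
    rwa [hF _ _ h.choose_spec] at h1
  calc Nat.card A ≤ Nat.card (Q → K) := Nat.card_le_card_of_injective ev hinj
    _ = Nat.card K ^ Nat.card Q := Nat.card_fun

/-! ### Square-zero test algebras killed by the maximal ideal of `𝒪` -/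

section SqZero

variable (𝒪 : Type) [CommRing 𝒪] [IsLocalRing 𝒪]
variable {A : Type} [CommRing A] [IsLocalRing A] [Algebra 𝒪 A] [IsLocalHom (algebraMap 𝒪 A)]

/-- The section `k → A` of a test algebra killed by the maximal ideal of `𝒪`. -/
noncomputable def sec (hkill : ∀ c ∈ maximalIdeal 𝒪, algebraMap 𝒪 A c = 0) :
    ResidueField 𝒪 →+* A :=
  Ideal.Quotient.lift (maximalIdeal 𝒪) (algebraMap 𝒪 A) hkill

theorem sec_residue (hkill : ∀ c ∈ maximalIdeal 𝒪, algebraMap 𝒪 A c = 0) (c : 𝒪) :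
    sec 𝒪 hkill (residue 𝒪 c) = algebraMap 𝒪 A c :=
  Ideal.Quotient.lift_mk _ _ _

theorem resMap_surjective
    (hres : Function.Surjective (IsLocalRing.residue A ∘ algebraMap 𝒪 A)) :
    Function.Surjective (ResidueField.map (algebraMap 𝒪 A)) := by
  intro y
  obtain ⟨c, hc⟩ := hres y
  exact ⟨residue 𝒪 c, by rw [ResidueField.map_residue]; exact hc⟩

/-- The retraction `A → k` of a test algebra. -/
noncomputable def ret (hres : Function.Surjective (IsLocalRing.residue A ∘ algebraMap 𝒪 A)) :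
    A →+* ResidueField 𝒪 :=
  ((RingEquiv.ofBijective (ResidueField.map (algebraMap 𝒪 A))
    ⟨RingHom.injective _, resMap_surjective 𝒪 hres⟩).symm : ResidueField A →+* ResidueField 𝒪).comp
    (residue A)

theorem ret_algebraMap (hres : Function.Surjective (IsLocalRing.residue A ∘ algebraMap 𝒪 A))
    (c : 𝒪) : ret 𝒪 hres (algebraMap 𝒪 A c) = residue 𝒪 c := by
  unfold ret
  rw [RingHom.comp_apply, RingHom.coe_coe, RingEquiv.symm_apply_eq]
  exact (ResidueField.map_residue (algebraMap 𝒪 A) c).symm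

theorem ret_eq_zero_iff (hres : Function.Surjective (IsLocalRing.residue A ∘ algebraMap 𝒪 A))
    (x : A) : ret 𝒪 hres x = 0 ↔ x ∈ maximalIdeal A := by
  unfold ret
  rw [RingHom.comp_apply, RingHom.coe_coe, map_eq_zero_iff _ (RingEquiv.injective _),
    residue_eq_zero_iff]

theorem ret_sec (hres : Function.Surjective (IsLocalRing.residue A ∘ algebraMap 𝒪 A))
    (hkill : ∀ c ∈ maximalIdeal 𝒪, algebraMap 𝒪 A c = 0) (α : ResidueField 𝒪) :
    ret 𝒪 hres (sec 𝒪 hkill α) = α := by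
  obtain ⟨c, rfl⟩ := residue_surjective α
  rw [sec_residue, ret_algebraMap]

theorem sub_sec_ret_mem (hres : Function.Surjective (IsLocalRing.residue A ∘ algebraMap 𝒪 A))
    (hkill : ∀ c ∈ maximalIdeal 𝒪, algebraMap 𝒪 A c = 0) (x : A) :
    x - sec 𝒪 hkill (ret 𝒪 hres x) ∈ maximalIdeal A := by
  rw [← ret_eq_zero_iff 𝒪 hres, map_sub, ret_sec, sub_self]

/-- In a square-zero test algebra, multiplication is determined by the retraction. -/
theorem mul_eq_of_sq_zero (hres : Function.Surjective (IsLocalRing.residue A ∘ algebraMap 𝒪 A))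
    (hkill : ∀ c ∈ maximalIdeal 𝒪, algebraMap 𝒪 A c = 0) (hsq : maximalIdeal A ^ 2 = ⊥)
    (x y : A) :
    x * y = sec 𝒪 hkill (ret 𝒪 hres x) * y + sec 𝒪 hkill (ret 𝒪 hres y) * x
      - sec 𝒪 hkill (ret 𝒪 hres x * ret 𝒪 hres y) * 1 := by
  have h : (x - sec 𝒪 hkill (ret 𝒪 hres x)) * (y - sec 𝒪 hkill (ret 𝒪 hres y)) ∈
      maximalIdeal A ^ 2 := by
    rw [pow_two]
    exact Ideal.mul_mem_mul (sub_sec_ret_mem 𝒪 hres hkill x) (sub_sec_ret_mem 𝒪 hres hkill y)
  rw [hsq, Ideal.mem_bot] at h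
  rw [map_mul]
  linear_combination h

/-- The ring hom `A → k[ε]` attached to a `k`-linear functional `f` on a square-zero test
algebra: `x ↦ ret x + (f x - ret x * f 1) ε`. -/
noncomputable def tanHom (hres : Function.Surjective (IsLocalRing.residue A ∘ algebraMap 𝒪 A))
    (hkill : ∀ c ∈ maximalIdeal 𝒪, algebraMap 𝒪 A c = 0) (hsq : maximalIdeal A ^ 2 = ⊥)
    (f : A →+ ResidueField 𝒪) (hf : ∀ α x, f (sec 𝒪 hkill α * x) = α * f x) :
    A →+* DualNumber (ResidueField 𝒪) where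
  toFun x := TrivSqZeroExt.inl (ret 𝒪 hres x) + TrivSqZeroExt.inr (f x - ret 𝒪 hres x * f 1)
  map_one' := by
    rw [map_one, one_mul, sub_self, TrivSqZeroExt.inr_zero, add_zero, TrivSqZeroExt.inl_one]
  map_mul' x y := by
    have h := congrArg f (mul_eq_of_sq_zero 𝒪 hres hkill hsq x y)
    rw [map_sub, map_add, hf, hf, hf] at h
    ext
    · simp
    · simp only [TrivSqZeroExt.snd_add, TrivSqZeroExt.snd_inl, TrivSqZeroExt.snd_inr, zero_add,
        TrivSqZeroExt.snd_mul, TrivSqZeroExt.fst_add, TrivSqZeroExt.fst_inl,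
        TrivSqZeroExt.fst_inr, add_zero, smul_eq_mul, MulOpposite.smul_eq_mul_unop,
        MulOpposite.unop_op, map_mul]
      rw [h]
      ring
  map_zero' := by simp
  map_add' x y := by
    ext
    · simp
    · simp only [map_add, TrivSqZeroExt.snd_add, TrivSqZeroExt.snd_inl, TrivSqZeroExt.snd_inr,
        zero_add]
      ring

theorem tanHom_apply (hres : Function.Surjective (IsLocalRing.residue A ∘ algebraMap 𝒪 A))
    (hkill : ∀ c ∈ maximalIdeal 𝒪, algebraMap 𝒪 A c = 0) (hsq : maximalIdeal A ^ 2 = ⊥)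
    (f : A →+ ResidueField 𝒪) (hf : ∀ α x, f (sec 𝒪 hkill α * x) = α * f x) (x : A) :
    tanHom 𝒪 hres hkill hsq f hf x =
      TrivSqZeroExt.inl (ret 𝒪 hres x) + TrivSqZeroExt.inr (f x - ret 𝒪 hres x * f 1) := rfl

theorem tanHom_algebraMap (hres : Function.Surjective (IsLocalRing.residue A ∘ algebraMap 𝒪 A))
    (hkill : ∀ c ∈ maximalIdeal 𝒪, algebraMap 𝒪 A c = 0) (hsq : maximalIdeal A ^ 2 = ⊥)
    (f : A →+ ResidueField 𝒪) (hf : ∀ α x, f (sec 𝒪 hkill α * x) = α * f x) (c : 𝒪) :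
    tanHom 𝒪 hres hkill hsq f hf (algebraMap 𝒪 A c) = TrivSqZeroExt.inl (residue 𝒪 c) := by
  rw [tanHom_apply, ret_algebraMap]
  have h1 : f (algebraMap 𝒪 A c) = residue 𝒪 c * f 1 := by
    rw [← hf, sec_residue, mul_one]
  rw [h1, sub_self, TrivSqZeroExt.inr_zero, add_zero]

end SqZero

/-! ### The tangent bound -/

section Main

variable (𝒪 : Type) [CommRing 𝒪] [IsLocalRing 𝒪] [Finite (ResidueField 𝒪)]

/-- **Tangent bound.** If the tangent space of the deformation condition is finite, then there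
is a uniform bound on the cardinality of every Artinian test algebra `A` with
`maximalIdeal A ^ 2 = ⊥`, killed by the maximal ideal of `𝒪`, that carries a deformation `ρ` of
type `𝒟` which is *hom-rigid*: two `𝒪`-algebra homs from `A` to a test algebra with equivalent
push-forwards of `ρ` are equal. -/
theorem exists_card_bound
    (ρbar : ResidualGaloisRep (ResidueField 𝒪))
    (𝒟 : ∀ ⦃A : Type⦄ [CommRing A] [IsLocalRing A] [Algebra 𝒪 A], GaloisRepAdic A → Prop)
    (h𝒟 : IsDeformationCondition 𝒪 𝒟)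
    (hfin : TangentFinite 𝒪 ρbar 𝒟) :
    ∃ N : ℕ, ∀ (A : Type) [CommRing A] [IsLocalRing A] [Algebra 𝒪 A]
      [IsLocalHom (algebraMap 𝒪 A)],
      IsArtinianTestAlgebra 𝒪 A → maximalIdeal A ^ 2 = ⊥ →
      (∀ c ∈ maximalIdeal 𝒪, algebraMap 𝒪 A c = 0) →
      ∀ ρ : GaloisRepAdic A, 𝒟 ρ →
        ρ.residual.IsEquiv (ρbar.baseChangeAlong (ResidueField.map (algebraMap 𝒪 A))) →
        (∀ (B : Type) [CommRing B] [IsLocalRing B] [Algebra 𝒪 B], IsArtinianTestAlgebra 𝒪 B →
          ∀ (φ φ' : A →ₐ[𝒪] B) (hφ : IsLocalHom (φ : A →+* B)) (hφ' : IsLocalHom (φ' : A →+* B)),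
            (ρ.baseChangeAlong (φ : A →+* B) hφ).IsEquiv (ρ.baseChangeAlong (φ' : A →+* B) hφ') →
            φ = φ') →
        Nat.card A ≤ N := by
  rw [tangentFinite_iff] at hfin
  haveI := hfin
  letI instK : Algebra 𝒪 (DualNumber (ResidueField 𝒪)) := helper533.dualNumberAlgebra 𝒪
  have hK : IsArtinianTestAlgebra 𝒪 (DualNumber (ResidueField 𝒪)) :=
    helper533.dualNumber_testAlg 𝒪
  haveI : Finite (DualNumber (ResidueField 𝒪)) := helper533.testAlg_finite 𝒪 hK
  refine ⟨Nat.card (DualNumber (ResidueField 𝒪)) ^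
    Nat.card (Quotient (tangentSetoid 𝒪 ρbar 𝒟)), ?_⟩
  intro A _ _ _ _ hA hsq hkill ρ hρ hρres hrig
  have hres := hA.residue_surjective
  -- index type: `k`-linear functionals on `A`
  let ι := {f : A →+ ResidueField 𝒪 // ∀ α x, f (sec 𝒪 hkill α * x) = α * f x}
  -- the algebra homs into the dual numbers
  let Φ : ι → (A →ₐ[𝒪] DualNumber (ResidueField 𝒪)) := fun f =>
    { tanHom 𝒪 hres hkill hsq f.1 f.2 with
      commutes' := fun c => tanHom_algebraMap 𝒪 hres hkill hsq f.1 f.2 c }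
  have hΦ : ∀ (f : ι) (x : A), Φ f x =
      TrivSqZeroExt.inl (ret 𝒪 hres x) + TrivSqZeroExt.inr (f.1 x - ret 𝒪 hres x * f.1 1) :=
    fun f x => rfl
  have hΦloc : ∀ f : ι, IsLocalHom ((Φ f : A →ₐ[𝒪] DualNumber (ResidueField 𝒪)) :
      A →+* DualNumber (ResidueField 𝒪)) := fun f =>
    helper533.isLocalHom_of_residue_surjective 𝒪 hK.residue_surjective (Φ f)
  -- the push-forwards are tangent deformations
  have hP : ∀ f : ι, TangentPred 𝒪 ρbar 𝒟
      (ρ.baseChangeAlong ((Φ f : A →ₐ[𝒪] DualNumber (ResidueField 𝒪)) :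
        A →+* DualNumber (ResidueField 𝒪)) (hΦloc f)) := by
    intro f
    refine ⟨h𝒟.baseChangeAlong hA hK (Φ f) (hΦloc f) hρ, ?_⟩
    haveI := hΦloc f
    obtain ⟨e1⟩ := residual_baseChangeAlong ((Φ f : A →ₐ[𝒪] DualNumber (ResidueField 𝒪)) :
        A →+* DualNumber (ResidueField 𝒪)) ρ
    obtain ⟨e⟩ := hρres
    have e2 := e.baseChangeAlong (IsLocalRing.ResidueField.map
      ((Φ f : A →ₐ[𝒪] DualNumber (ResidueField 𝒪)) : A →+* DualNumber (ResidueField 𝒪)))
    have h3 := resBaseChangeAlong_comp (ResidueField.map (algebraMap 𝒪 A))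
      (IsLocalRing.ResidueField.map
        ((Φ f : A →ₐ[𝒪] DualNumber (ResidueField 𝒪)) : A →+* DualNumber (ResidueField 𝒪))) ρbar
    have h4 : (IsLocalRing.ResidueField.map
        ((Φ f : A →ₐ[𝒪] DualNumber (ResidueField 𝒪)) : A →+* DualNumber (ResidueField 𝒪))).comp
          (ResidueField.map (algebraMap 𝒪 A)) =
        (IsLocalRing.residue (DualNumber (ResidueField 𝒪))).comp
          (algebraMap (ResidueField 𝒪) (DualNumber (ResidueField 𝒪))) := by
      ext x
      obtain ⟨c, rfl⟩ := residue_surjective x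
      rw [RingHom.comp_apply, ResidueField.map_residue, ResidueField.map_residue,
        RingHom.comp_apply]
      congr 1
      exact tanHom_algebraMap 𝒪 hres hkill hsq f.1 f.2 c
    rw [h4] at h3
    obtain ⟨e3⟩ := h3
    exact ⟨(e1.trans e2).trans e3⟩
  let F : ι → Quotient (tangentSetoid 𝒪 ρbar 𝒟) := fun f =>
    Quotient.mk _ ⟨_, hP f⟩
  refine card_le_pow_of_separating
    (fun (f : ι) => ((Φ f : A →ₐ[𝒪] DualNumber (ResidueField 𝒪)) : A → DualNumber (ResidueField 𝒪)))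
    F ?_ ?_
  · intro f g hfg
    have h1 : (ρ.baseChangeAlong ((Φ f : A →ₐ[𝒪] DualNumber (ResidueField 𝒪)) :
        A →+* DualNumber (ResidueField 𝒪)) (hΦloc f)).IsEquiv
        (ρ.baseChangeAlong ((Φ g : A →ₐ[𝒪] DualNumber (ResidueField 𝒪)) :
        A →+* DualNumber (ResidueField 𝒪)) (hΦloc g)) := Quotient.exact hfg
    have h2 : Φ f = Φ g := hrig _ hK (Φ f) (Φ g) (hΦloc f) (hΦloc g) h1
    show ((Φ f : A →ₐ[𝒪] DualNumber (ResidueField 𝒪)) : A → DualNumber (ResidueField 𝒪)) = Φ g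
    rw [h2]
  · intro a b hab
    -- the zero functional shows `ret (a - b) = 0`
    have hd : ∀ f : ι, Φ f (a - b) = 0 := fun f => by
      rw [map_sub, sub_eq_zero]
      exact hab f
    have hret : ret 𝒪 hres (a - b) = 0 := by
      have h0 := hd ⟨0, fun α x => by simp⟩
      rw [hΦ] at h0
      have := congrArg TrivSqZeroExt.fst h0
      simpa using this
    have hf0 : ∀ f : ι, f.1 (a - b) = 0 := fun f => by
      have h0 := hd f
      rw [hΦ, hret] at h0
      have := congrArg TrivSqZeroExt.snd h0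
      simpa using this
    -- now use the `k`-vector space structure on `A`
    letI : Algebra (ResidueField 𝒪) A := (sec 𝒪 hkill).toAlgebra
    have hzero : a - b = 0 := by
      rw [← Module.forall_dual_apply_eq_zero_iff (ResidueField 𝒪) (a - b)]
      intro g
      exact hf0 ⟨g.toAddMonoidHom, fun α x => by
        show g (α • x) = α * g x
        rw [map_smul, smul_eq_mul]⟩
    exact sub_eq_zero.mp hzero

end Main

end Fermat.Agent.S53.helper1793
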