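import Mathlib
import Fermat.Prelude.Def_GaloisRep_DeformationCondition

set_option autoImplicit false

namespace Fermat.Agent.S53.helper413

open IsLocalRing

/-! ## The reduction map of a test algebra -/

section Red

variable {𝒪 : Type} [CommRing 𝒪] [IsLocalRing 𝒪]
variable {A : Type} [CommRing A] [IsLocalRing A] [Algebra 𝒪 A] [IsLocalHom (algebraMap 𝒪 A)]

/-- For a local `𝒪`-algebra `A` whose residue field is generated by `𝒪`, the residue-field
comparison map is bijective. -/
theorem residueMap_bijective (hs : Function.Surjective (residue A ∘ algebraMap 𝒪 A)) :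
    Function.Bijective (ResidueField.map (algebraMap 𝒪 A)) := by
  refine ⟨(ResidueField.map (algebraMap 𝒪 A)).injective, fun y => ?_⟩
  obtain ⟨x, hx⟩ := hs y
  exact ⟨residue 𝒪 x, by rw [ResidueField.map_residue]; exact hx⟩

/-- The reduction map `A → k = ResidueField 𝒪` of a test algebra. -/
noncomputable def red (hs : Function.Surjective (residue A ∘ algebraMap 𝒪 A)) :
    A →+* ResidueField 𝒪 :=
  ((RingEquiv.ofBijective _ (residueMap_bijective hs)).symm :
    ResidueField A →+* ResidueField 𝒪).comp (residue A)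

theorem map_red (hs : Function.Surjective (residue A ∘ algebraMap 𝒪 A)) (a : A) :
    ResidueField.map (algebraMap 𝒪 A) (red hs a) = residue A a := by
  unfold red
  simp only [RingHom.coe_comp, RingHom.coe_coe, Function.comp_apply]
  exact (RingEquiv.ofBijective _ (residueMap_bijective hs)).apply_symm_apply _

theorem red_algebraMap (hs : Function.Surjective (residue A ∘ algebraMap 𝒪 A)) (x : 𝒪) :
    red hs (algebraMap 𝒪 A x) = residue 𝒪 x := by
  apply (residueMap_bijective hs).1
  rw [map_red, ResidueField.map_residue]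

theorem red_eq_zero_iff (hs : Function.Surjective (residue A ∘ algebraMap 𝒪 A)) (a : A) :
    red hs a = 0 ↔ a ∈ maximalIdeal A := by
  rw [← residue_eq_zero_iff, ← map_red hs a]
  constructor
  · intro h; rw [h, map_zero]
  · intro h
    apply (residueMap_bijective hs).1
    rw [h, map_zero]

theorem exists_sub_mem (hs : Function.Surjective (residue A ∘ algebraMap 𝒪 A)) (a : A) :
    ∃ u : 𝒪, a - algebraMap 𝒪 A u ∈ maximalIdeal A ∧ red hs a = residue 𝒪 u := by
  obtain ⟨u, hu⟩ := residue_surjective (red hs a)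
  refine ⟨u, ?_, hu.symm⟩
  rw [← red_eq_zero_iff hs, map_sub, red_algebraMap, hu, sub_self]

theorem red_surjective (hs : Function.Surjective (residue A ∘ algebraMap 𝒪 A)) :
    Function.Surjective (red hs) := by
  intro c
  obtain ⟨u, rfl⟩ := residue_surjective c
  exact ⟨algebraMap 𝒪 A u, red_algebraMap hs u⟩

end Red

/-! ## The dual numbers as a test algebra -/

section Dual

variable (𝒪 : Type) [CommRing 𝒪] [IsLocalRing 𝒪]

/-- The `𝒪`-algebra structure on `k[ε]` used by the frozen `GaloisRep.TangentFinite`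
(syntactically the same term as its `letI`). -/
@[reducible] noncomputable def dualAlgebra : Algebra 𝒪 (DualNumber (ResidueField 𝒪)) :=
  ((algebraMap (ResidueField 𝒪) (DualNumber (ResidueField 𝒪))).comp
    (algebraMap 𝒪 (ResidueField 𝒪))).toAlgebra

attribute [local instance] dualAlgebra

theorem dual_algebraMap_apply (x : 𝒪) :
    algebraMap 𝒪 (DualNumber (ResidueField 𝒪)) x = TrivSqZeroExt.inl (residue 𝒪 x) := rfl

theorem dual_mem_maximalIdeal_iff (z : DualNumber (ResidueField 𝒪)) :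
    z ∈ maximalIdeal (DualNumber (ResidueField 𝒪)) ↔ TrivSqZeroExt.fst z = 0 := by
  rw [mem_maximalIdeal, mem_nonunits_iff, TrivSqZeroExt.isUnit_iff_isUnit_fst, isUnit_iff_ne_zero,
    not_not]

instance dual_isLocalHom : IsLocalHom (algebraMap 𝒪 (DualNumber (ResidueField 𝒪))) := by
  constructor
  intro x hx
  rw [dual_algebraMap_apply, TrivSqZeroExt.isUnit_iff_isUnit_fst, TrivSqZeroExt.fst_inl] at hx
  exact (IsLocalRing.residue_ne_zero_iff_isUnit x).mp hx.ne_zero

theorem dual_residue_surjective :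
    Function.Surjective (residue (DualNumber (ResidueField 𝒪)) ∘
      algebraMap 𝒪 (DualNumber (ResidueField 𝒪))) := by
  intro y
  obtain ⟨z, rfl⟩ := residue_surjective y
  obtain ⟨u, hu⟩ := residue_surjective (TrivSqZeroExt.fst z)
  refine ⟨u, ?_⟩
  rw [Function.comp_apply, ← sub_eq_zero, ← map_sub, residue_eq_zero_iff,
    dual_mem_maximalIdeal_iff, dual_algebraMap_apply, TrivSqZeroExt.fst_sub, TrivSqZeroExt.fst_inl,
    hu, sub_self]

instance dual_moduleFinite : Module.Finite (ResidueField 𝒪) (DualNumber (ResidueField 𝒪)) :=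
  inferInstanceAs (Module.Finite (ResidueField 𝒪) (ResidueField 𝒪 × ResidueField 𝒪))

instance dual_isArtinianRing : IsArtinianRing (DualNumber (ResidueField 𝒪)) :=
  IsArtinianRing.of_finite (ResidueField 𝒪) _

instance dual_finite [Finite (ResidueField 𝒪)] : Finite (DualNumber (ResidueField 𝒪)) :=
  inferInstanceAs (Finite (ResidueField 𝒪 × ResidueField 𝒪))

/-- `k[ε]`, with the `𝒪`-algebra structure of the frozen `TangentFinite`, is an Artinian test
algebra. -/
theorem dual_isArtinianTestAlgebra :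
    GaloisRep.IsArtinianTestAlgebra 𝒪 (DualNumber (ResidueField 𝒪)) where
  isLocalHom := dual_isLocalHom 𝒪
  residue_surjective := dual_residue_surjective 𝒪
  isArtinian := dual_isArtinianRing 𝒪

end Dual

/-! ## Constructing `𝒪`-algebra maps into the dual numbers -/

section ToDual

variable {𝒪 : Type} [CommRing 𝒪] [IsLocalRing 𝒪]
variable {A : Type} [CommRing A] [IsLocalRing A] [Algebra 𝒪 A] [IsLocalHom (algebraMap 𝒪 A)]

attribute [local instance] dualAlgebra

/-- An `𝒪`-linear "derivation" `δ : A → k` (with respect to the reduction map) gives an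
`𝒪`-algebra map `A → k[ε]`, `a ↦ red a + δ a • ε`. -/
noncomputable def toDual (hs : Function.Surjective (residue A ∘ algebraMap 𝒪 A))
    (δ : A →ₗ[𝒪] ResidueField 𝒪) (h1 : δ 1 = 0)
    (hmul : ∀ a b, δ (a * b) = red hs a * δ b + red hs b * δ a) :
    A →ₐ[𝒪] DualNumber (ResidueField 𝒪) where
  toFun a := TrivSqZeroExt.inl (red hs a) + TrivSqZeroExt.inr (δ a)
  map_one' := by
    rw [map_one, h1, TrivSqZeroExt.inr_zero, add_zero, TrivSqZeroExt.inl_one]
  map_mul' a b := by
    apply TrivSqZeroExt.ext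
    · simp
    · simp [hmul, mul_comm]
  map_zero' := by simp
  map_add' a b := by
    apply TrivSqZeroExt.ext
    · simp
    · simp
  commutes' x := by
    rw [dual_algebraMap_apply, red_algebraMap]
    have : δ (algebraMap 𝒪 A x) = 0 := by
      rw [Algebra.algebraMap_eq_smul_one, map_smul, h1, smul_zero]
    rw [this, TrivSqZeroExt.inr_zero, add_zero]

theorem toDual_apply (hs : Function.Surjective (residue A ∘ algebraMap 𝒪 A))
    (δ : A →ₗ[𝒪] ResidueField 𝒪) (h1 : δ 1 = 0)
    (hmul : ∀ a b, δ (a * b) = red hs a * δ b + red hs b * δ a) (a : A) :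
    toDual hs δ h1 hmul a = TrivSqZeroExt.inl (red hs a) + TrivSqZeroExt.inr (δ a) := rfl

theorem fst_toDual (hs : Function.Surjective (residue A ∘ algebraMap 𝒪 A))
    (δ : A →ₗ[𝒪] ResidueField 𝒪) (h1 : δ 1 = 0)
    (hmul : ∀ a b, δ (a * b) = red hs a * δ b + red hs b * δ a) (a : A) :
    TrivSqZeroExt.fst (toDual hs δ h1 hmul a) = red hs a := by
  simp [toDual_apply]

theorem snd_toDual (hs : Function.Surjective (residue A ∘ algebraMap 𝒪 A))
    (δ : A →ₗ[𝒪] ResidueField 𝒪) (h1 : δ 1 = 0)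
    (hmul : ∀ a b, δ (a * b) = red hs a * δ b + red hs b * δ a) (a : A) :
    TrivSqZeroExt.snd (toDual hs δ h1 hmul a) = δ a := by
  simp [toDual_apply]

/-- The trivial map `A → k[ε]`, `a ↦ red a`. -/
noncomputable def trivDual (hs : Function.Surjective (residue A ∘ algebraMap 𝒪 A)) :
    A →ₐ[𝒪] DualNumber (ResidueField 𝒪) :=
  toDual hs 0 (by simp) (by simp)

theorem trivDual_apply (hs : Function.Surjective (residue A ∘ algebraMap 𝒪 A)) (a : A) :
    trivDual hs a = TrivSqZeroExt.inl (red hs a) := by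
  simp [trivDual, toDual_apply]

theorem trivDual_eq_zero (hs : Function.Surjective (residue A ∘ algebraMap 𝒪 A)) {a : A}
    (ha : a ∈ maximalIdeal A) : trivDual hs a = 0 := by
  rw [trivDual_apply, (red_eq_zero_iff hs a).mpr ha, TrivSqZeroExt.inl_zero]

/-- Every `𝒪`-algebra map from a test algebra to `k[ε]` has first component `red`. -/
theorem fst_algHom (hs : Function.Surjective (residue A ∘ algebraMap 𝒪 A))
    (f : A →ₐ[𝒪] DualNumber (ResidueField 𝒪)) (a : A) :
    TrivSqZeroExt.fst (f a) = red hs a := by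
  obtain ⟨u, hu, hr⟩ := exists_sub_mem hs a
  have h1 : TrivSqZeroExt.fst (f (a - algebraMap 𝒪 A u)) = 0 := by
    by_contra hne
    have hunit : IsUnit (f (a - algebraMap 𝒪 A u)) := by
      rw [TrivSqZeroExt.isUnit_iff_isUnit_fst]; exact isUnit_iff_ne_zero.mpr hne
    -- then `f (a - u)` is a unit although `a - u ∈ 𝔪`: use `a - u - c` trick
    obtain ⟨c, hc⟩ := residue_surjective (TrivSqZeroExt.fst (f (a - algebraMap 𝒪 A u)))
    have hcu : IsUnit c := by
      rw [← IsLocalRing.residue_ne_zero_iff_isUnit, hc]; exact hne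
    have hunit2 : IsUnit (a - algebraMap 𝒪 A u - algebraMap 𝒪 A c) := by
      have : IsUnit (algebraMap 𝒪 A c) := hcu.map _
      have h2 : a - algebraMap 𝒪 A u - algebraMap 𝒪 A c ∉ maximalIdeal A := by
        intro h
        have : algebraMap 𝒪 A c ∈ maximalIdeal A := by
          have := (maximalIdeal A).sub_mem hu h
          simpa using this
        exact (mem_maximalIdeal _).mp this ‹IsUnit (algebraMap 𝒪 A c)›
      simpa [mem_maximalIdeal] using h2
    have h3 := hunit2.map f
    rw [map_sub, AlgHom.commutes, TrivSqZeroExt.isUnit_iff_isUnit_fst, TrivSqZeroExt.fst_sub,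
      dual_algebraMap_apply, TrivSqZeroExt.fst_inl, hc, sub_self] at h3
    exact not_isUnit_zero h3
  rw [map_sub, AlgHom.commutes, TrivSqZeroExt.fst_sub, dual_algebraMap_apply,
    TrivSqZeroExt.fst_inl, sub_eq_zero] at h1
  rw [h1, hr]

/-- A module killed by `𝔪_𝒪` has enough `𝒪`-linear functionals to `k`. -/
theorem exists_functional_ne_zero {T : Type} [AddCommGroup T] [Module 𝒪 T]
    (hT : ∀ x ∈ maximalIdeal 𝒪, ∀ t : T, x • t = 0) {t : T} (ht : t ≠ 0) :
    ∃ l : T →ₗ[𝒪] ResidueField 𝒪, l t ≠ 0 := by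
  have htors : Module.IsTorsionBySet 𝒪 T (maximalIdeal 𝒪 : Set 𝒪) := by
    intro t x
    exact hT x.1 x.2 t
  let _i1 : Module (𝒪 ⧸ maximalIdeal 𝒪) T := htors.module
  let _i2 : Module (ResidueField 𝒪) T := _i1
  have _i3 : IsScalarTower 𝒪 (ResidueField 𝒪) T := htors.isScalarTower
  have h := (Module.forall_dual_apply_eq_zero_iff (ResidueField 𝒪) t).not.mpr ht
  obtain ⟨φ, hφ⟩ := not_forall.mp h
  exact ⟨φ.restrictScalars 𝒪, hφ⟩

/-- **Key lemma**: for an ideal `J` of a test algebra `A` with `𝔪_𝒪 A + 𝔪_A² ≤ J` and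
`x ∈ 𝔪_A \ J`, there is an `𝒪`-algebra map `A → k[ε]` killing `J` but not `x`. -/
theorem exists_algHom_dual (hs : Function.Surjective (residue A ∘ algebraMap 𝒪 A))
    (J : Ideal A) (hJ1 : (maximalIdeal 𝒪).map (algebraMap 𝒪 A) ≤ J)
    (hJ2 : maximalIdeal A ^ 2 ≤ J) {x : A} (hx : x ∈ maximalIdeal A) (hxJ : x ∉ J) :
    ∃ f : A →ₐ[𝒪] DualNumber (ResidueField 𝒪), (∀ j ∈ J, j ∈ maximalIdeal A → f j = 0) ∧
      f x ≠ 0 := by
  classical
  -- the `𝒪`-submodule `W = J + 𝒪·1`
  let W : Submodule 𝒪 A := J.restrictScalars 𝒪 ⊔ LinearMap.range (Algebra.linearMap 𝒪 A)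
  have hJW : ∀ j ∈ J, j ∈ W := fun j hj => Submodule.mem_sup_left (by simpa using hj)
  have hOW : ∀ u : 𝒪, algebraMap 𝒪 A u ∈ W := fun u =>
    Submodule.mem_sup_right ⟨u, rfl⟩
  have hkill : ∀ u ∈ maximalIdeal 𝒪, ∀ t : A ⧸ W, u • t = 0 := by
    intro u hu t
    obtain ⟨a, rfl⟩ := Submodule.Quotient.mk_surjective W t
    rw [← Submodule.Quotient.mk_smul, Submodule.Quotient.mk_eq_zero]
    apply hJW
    rw [Algebra.smul_def]
    exact J.mul_mem_right _ (hJ1 (Ideal.mem_map_of_mem _ hu))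
  have hxW : (Submodule.Quotient.mk x : A ⧸ W) ≠ 0 := by
    rw [Ne, Submodule.Quotient.mk_eq_zero]
    intro hxW
    obtain ⟨j, hj, y, ⟨u, rfl⟩, hsum⟩ := Submodule.mem_sup.mp hxW
    have hj' : j ∈ J := by simpa using hj
    have hu : algebraMap 𝒪 A u ∈ maximalIdeal A := by
      have : algebraMap 𝒪 A u = x - j := by
        rw [← hsum]; simp
      rw [this]
      by_contra hcon
      -- `x - j` is a unit, `x ∈ 𝔪`, so `j` is a unit, so `J = ⊤`, so `x ∈ J`
      have hjunit : IsUnit j := by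
        by_contra hjn
        exact hcon ((maximalIdeal A).sub_mem hx ((mem_maximalIdeal _).mpr hjn))
      exact hxJ ((Ideal.eq_top_of_isUnit_mem J hj' hjunit) ▸ Submodule.mem_top)
    have hu' : u ∈ maximalIdeal 𝒪 := by
      rw [mem_maximalIdeal, mem_nonunits_iff]
      intro hunit
      exact (mem_maximalIdeal _).mp hu (hunit.map _)
    apply hxJ
    rw [← hsum]
    exact J.add_mem hj' (hJ1 (Ideal.mem_map_of_mem _ hu'))
  obtain ⟨l, hl⟩ := exists_functional_ne_zero hkill hxW
  let δ : A →ₗ[𝒪] ResidueField 𝒪 := l.comp W.mkQ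
  have hδW : ∀ w ∈ W, δ w = 0 := by
    intro w hw
    show l (Submodule.Quotient.mk w) = 0
    rw [(Submodule.Quotient.mk_eq_zero W).mpr hw, map_zero]
  have h1 : δ 1 = 0 := by
    apply hδW
    have := hOW 1
    rwa [map_one] at this
  have hmul : ∀ a b, δ (a * b) = red hs a * δ b + red hs b * δ a := by
    intro a b
    obtain ⟨u, hu, hru⟩ := exists_sub_mem hs a
    obtain ⟨v, hv, hrv⟩ := exists_sub_mem hs b
    have hab : a * b = algebraMap 𝒪 A (u * v) + u • (b - algebraMap 𝒪 A v) +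
        v • (a - algebraMap 𝒪 A u) + (a - algebraMap 𝒪 A u) * (b - algebraMap 𝒪 A v) := by
      rw [Algebra.smul_def, Algebra.smul_def, map_mul]; ring
    have hmm : (a - algebraMap 𝒪 A u) * (b - algebraMap 𝒪 A v) ∈ W := by
      apply hJW
      apply hJ2
      rw [pow_two]
      exact Ideal.mul_mem_mul hu hv
    have ha' : δ (a - algebraMap 𝒪 A u) = δ a := by
      rw [map_sub, hδW _ (hOW u), sub_zero]
    have hb' : δ (b - algebraMap 𝒪 A v) = δ b := by
      rw [map_sub, hδW _ (hOW v), sub_zero]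
    rw [hab, map_add, map_add, map_add, hδW _ (hOW _), hδW _ hmm, map_smul, map_smul, ha', hb',
      hru, hrv, zero_add, add_zero]
    rfl
  refine ⟨toDual hs δ h1 hmul, ?_, ?_⟩
  · intro j hj hjm
    rw [toDual_apply, (red_eq_zero_iff hs j).mpr hjm, hδW j (hJW j hj)]
    simp
  · intro h0
    apply hl
    have := congrArg TrivSqZeroExt.snd h0
    rw [snd_toDual] at this
    exact this

/-- Two `𝒪`-algebra maps `A → k[ε]` agree on `𝔪_𝒪 A + 𝔪_A²` (both vanish there). -/
theorem algHom_dual_eq_zero_of_mem (hs : Function.Surjective (residue A ∘ algebraMap 𝒪 A))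
    (f : A →ₐ[𝒪] DualNumber (ResidueField 𝒪)) {a : A}
    (ha : a ∈ (maximalIdeal 𝒪).map (algebraMap 𝒪 A) ⊔ maximalIdeal A ^ 2) : f a = 0 := by
  have hm : ∀ b ∈ maximalIdeal A, TrivSqZeroExt.fst (f b) = 0 := fun b hb => by
    rw [fst_algHom hs, (red_eq_zero_iff hs b).mpr hb]
  have h1 : (maximalIdeal 𝒪).map (algebraMap 𝒪 A) ≤
      RingHom.ker (f : A →+* DualNumber (ResidueField 𝒪)) := by
    rw [Ideal.map_le_iff_le_comap]
    intro u hu
    rw [Ideal.mem_comap, RingHom.mem_ker, RingHom.coe_coe, AlgHom.commutes,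
      dual_algebraMap_apply, (residue_eq_zero_iff u).mpr hu, TrivSqZeroExt.inl_zero]
  have h2 : maximalIdeal A ^ 2 ≤ RingHom.ker (f : A →+* DualNumber (ResidueField 𝒪)) := by
    rw [pow_two, Ideal.mul_le]
    intro b hb c hc
    rw [RingHom.mem_ker, RingHom.coe_coe, map_mul]
    apply TrivSqZeroExt.ext
    · simp [hm b hb]
    · simp [hm b hb, hm c hc]
  exact (sup_le h1 h2) ha

/-- For a square-zero test algebra killed by `𝔪_𝒪`, the `𝒪`-algebra maps to `k[ε]` separate
points. -/
theorem eq_of_forall_algHom_dual_eq (hs : Function.Surjective (residue A ∘ algebraMap 𝒪 A))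
    (h1 : ∀ c ∈ maximalIdeal 𝒪, algebraMap 𝒪 A c = 0) (h2 : maximalIdeal A ^ 2 = ⊥)
    {a b : A} (hab : ∀ f : A →ₐ[𝒪] DualNumber (ResidueField 𝒪), f a = f b) : a = b := by
  by_contra hne
  have hm : a - b ∈ maximalIdeal A := by
    rw [← red_eq_zero_iff hs, map_sub, sub_eq_zero]
    have := congrArg TrivSqZeroExt.fst (hab (trivDual hs))
    rwa [fst_algHom hs, fst_algHom hs] at this
  have hJ1 : (maximalIdeal 𝒪).map (algebraMap 𝒪 A) ≤ (⊥ : Ideal A) := by
    rw [Ideal.map_le_iff_le_comap]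
    intro u hu
    rw [Ideal.mem_comap, h1 u hu]
    exact Submodule.zero_mem _
  obtain ⟨f, -, hf⟩ := exists_algHom_dual hs ⊥ hJ1 (le_of_eq h2) hm
    (by rw [Ideal.mem_bot, sub_eq_zero]; exact hne)
  apply hf
  rw [map_sub, hab f, sub_self]

/-- Cardinality bound for square-zero test algebras killed by `𝔪_𝒪` (this is the shape of
`h_tan` in the abstract ring construction): if there are at most `N` maps to `k[ε]`, then
`#A ≤ (#k[ε])^N`. -/
theorem card_le_of_sq_zero [Finite (ResidueField 𝒪)]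
    (hs : Function.Surjective (residue A ∘ algebraMap 𝒪 A))
    (h1 : ∀ c ∈ maximalIdeal 𝒪, algebraMap 𝒪 A c = 0) (h2 : maximalIdeal A ^ 2 = ⊥)
    [Finite (A →ₐ[𝒪] DualNumber (ResidueField 𝒪))] :
    Nat.card A ≤ Nat.card (DualNumber (ResidueField 𝒪)) ^
      Nat.card (A →ₐ[𝒪] DualNumber (ResidueField 𝒪)) := by
  have hinj : Function.Injective
      (fun (a : A) (f : A →ₐ[𝒪] DualNumber (ResidueField 𝒪)) => f a) := by
    intro a b hab
    exact eq_of_forall_algHom_dual_eq hs h1 h2 (fun f => congrFun hab f)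
  have := Nat.card_le_card_of_injective _ hinj
  rwa [Nat.card_fun] at this

/-- **Generator bound.** If a test algebra `A` has at most `N` `𝒪`-algebra maps to `k[ε]`
(any finite set of such maps has at most `N` elements), then `𝔪_A` is generated modulo
`𝔪_𝒪 A + 𝔪_A²` by fewer than `N` elements. -/
theorem exists_finset_generators (hs : Function.Surjective (residue A ∘ algebraMap 𝒪 A)) (N : ℕ)
    (hN : ∀ F : Finset (A →ₐ[𝒪] DualNumber (ResidueField 𝒪)), F.card ≤ N) :
    ∃ s : Finset A, s.card < N ∧ (∀ y ∈ s, y ∈ maximalIdeal A) ∧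
      maximalIdeal A ≤ (maximalIdeal 𝒪).map (algebraMap 𝒪 A) ⊔ maximalIdeal A ^ 2 ⊔
        Ideal.span (s : Set A) := by
  classical
  by_contra hcon
  have key : ∀ d ≤ N, ∃ (s : Finset A) (F : Finset (A →ₐ[𝒪] DualNumber (ResidueField 𝒪))),
      s.card ≤ d ∧ (∀ y ∈ s, y ∈ maximalIdeal A) ∧ F.card = d + 1 ∧
      ∀ f ∈ F, f = trivDual hs ∨ ∃ j ∈ (maximalIdeal 𝒪).map (algebraMap 𝒪 A) ⊔
        maximalIdeal A ^ 2 ⊔ Ideal.span (s : Set A), f j ≠ 0 := by
    intro d
    induction d with
    | zero =>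
      intro _
      exact ⟨∅, {trivDual hs}, by simp, by simp, by simp, by simp⟩
    | succ d ih =>
      intro hd
      obtain ⟨s, F, hsc, hsm, hFc, hF⟩ := ih (Nat.le_of_succ_le hd)
      have hnot : ¬ maximalIdeal A ≤ (maximalIdeal 𝒪).map (algebraMap 𝒪 A) ⊔
          maximalIdeal A ^ 2 ⊔ Ideal.span (s : Set A) := fun hle =>
        hcon ⟨s, lt_of_le_of_lt hsc hd, hsm, hle⟩
      obtain ⟨x, hxm, hxJ⟩ := Set.not_subset.mp hnot
      have hJm : (maximalIdeal 𝒪).map (algebraMap 𝒪 A) ⊔ maximalIdeal A ^ 2 ⊔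
          Ideal.span (s : Set A) ≤ maximalIdeal A := by
        refine sup_le (sup_le ?_ ?_) ?_
        · rw [Ideal.map_le_iff_le_comap]
          intro u hu
          exact (mem_maximalIdeal _).mpr (fun hunit =>
            (mem_maximalIdeal _).mp hu (isUnit_of_map_unit (algebraMap 𝒪 A) u hunit))
        · exact Ideal.pow_le_self two_ne_zero
        · rw [Ideal.span_le]
          exact fun y hy => hsm y hy
      obtain ⟨f, hfJ, hfx⟩ := exists_algHom_dual hs _
        (le_sup_of_le_left le_sup_left) (le_sup_of_le_left le_sup_right) hxm hxJ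
      have hfF : f ∉ F := by
        intro hfF
        rcases hF f hfF with h | ⟨j, hj, hfj⟩
        · exact hfx (by rw [h]; exact trivDual_eq_zero hs hxm)
        · exact hfj (hfJ j hj (hJm hj))
      refine ⟨insert x s, insert f F, ?_, ?_, ?_, ?_⟩
      · exact (Finset.card_insert_le x s).trans (Nat.succ_le_succ hsc)
      · intro y hy
        rcases Finset.mem_insert.mp hy with rfl | hy
        · exact hxm
        · exact hsm y hy
      · rw [Finset.card_insert_of_notMem hfF, hFc]
      · intro g hg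
        have hmono : (maximalIdeal 𝒪).map (algebraMap 𝒪 A) ⊔ maximalIdeal A ^ 2 ⊔
            Ideal.span (s : Set A) ≤ (maximalIdeal 𝒪).map (algebraMap 𝒪 A) ⊔
            maximalIdeal A ^ 2 ⊔ Ideal.span ((insert x s : Finset A) : Set A) :=
          sup_le_sup_left (Ideal.span_mono (by simp)) _
        rcases Finset.mem_insert.mp hg with rfl | hg
        · right
          refine ⟨x, ?_, hfx⟩
          exact Ideal.mem_sup_right (Ideal.subset_span (by simp))
        · rcases hF g hg with h | ⟨j, hj, hgj⟩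
          · exact Or.inl h
          · exact Or.inr ⟨j, hmono hj, hgj⟩
  obtain ⟨s, F, -, -, hFc, -⟩ := key N le_rfl
  have := hN F
  omega

/-- Version of `exists_finset_generators` with a family indexed by `Fin N`. -/
theorem exists_fin_generators (hs : Function.Surjective (residue A ∘ algebraMap 𝒪 A)) (N : ℕ)
    (hN : ∀ F : Finset (A →ₐ[𝒪] DualNumber (ResidueField 𝒪)), F.card ≤ N) :
    ∃ x : Fin N → A, (∀ i, x i ∈ maximalIdeal A) ∧
      maximalIdeal A ≤ (maximalIdeal 𝒪).map (algebraMap 𝒪 A) ⊔ maximalIdeal A ^ 2 ⊔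
        Ideal.span (Set.range x) := by
  classical
  obtain ⟨s, hsc, hsm, hle⟩ := exists_finset_generators hs N hN
  let e := s.equivFin
  refine ⟨fun i => if h : (i : ℕ) < s.card then (e.symm ⟨i, h⟩ : A) else 0, ?_, ?_⟩
  · intro i
    by_cases h : (i : ℕ) < s.card
    · simp only [h, dite_true]
      exact hsm _ (e.symm ⟨i, h⟩).2
    · simp only [h, dite_false]
      exact Submodule.zero_mem _
  · refine hle.trans (sup_le_sup_left (Ideal.span_mono ?_) _)
    intro y hy
    have hlt : ((e ⟨y, hy⟩ : Fin s.card) : ℕ) < N := lt_trans (e ⟨y, hy⟩).2 hsc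
    refine ⟨⟨(e ⟨y, hy⟩ : Fin s.card), hlt⟩, ?_⟩
    simp

end ToDual

/-! ## Consequences for Artinian test algebras -/

section Artinian

variable {𝒪 : Type} [CommRing 𝒪] [IsLocalRing 𝒪]
variable {A : Type} [CommRing A] [IsLocalRing A] [Algebra 𝒪 A] [IsLocalHom (algebraMap 𝒪 A)]

/-- Nakayama: generators of `𝔪_A` modulo `𝔪_A²` generate `𝔪_A` (Noetherian local `A`). -/
theorem maximalIdeal_le_of_le_sup_sq [IsNoetherianRing A] (I : Ideal A)
    (h : maximalIdeal A ≤ I ⊔ maximalIdeal A ^ 2) : maximalIdeal A ≤ I := by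
  refine Submodule.le_of_le_smul_of_le_jacobson_bot (I := maximalIdeal A)
    (IsNoetherian.noetherian _) (IsLocalRing.maximalIdeal_le_jacobson _) ?_
  rwa [smul_eq_mul, ← pow_two]

/-- If `𝔪_A` is nilpotent and `𝔪_A = 𝔪_𝒪 A + (x_i)`, then `A` is generated by the `x_i` as an
`𝒪`-algebra. -/
theorem adjoin_eq_top_of_nilpotent {ι : Type} (hs : Function.Surjective (residue A ∘ algebraMap 𝒪 A))
    (hnil : IsNilpotent (maximalIdeal A)) (x : ι → A) (hx : ∀ i, x i ∈ maximalIdeal A)
    (h : maximalIdeal A ≤ (maximalIdeal 𝒪).map (algebraMap 𝒪 A) ⊔ Ideal.span (Set.range x)) :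
    Algebra.adjoin 𝒪 (Set.range x) = ⊤ := by
  set B := Algebra.adjoin 𝒪 (Set.range x) with hB
  have hI : (maximalIdeal 𝒪).map (algebraMap 𝒪 A) ⊔ Ideal.span (Set.range x) =
      Ideal.span ((algebraMap 𝒪 A) '' (maximalIdeal 𝒪 : Set 𝒪) ∪ Set.range x) := by
    rw [Ideal.span_union]; rfl
  have hSm : ∀ y ∈ (algebraMap 𝒪 A) '' (maximalIdeal 𝒪 : Set 𝒪) ∪ Set.range x,
      y ∈ maximalIdeal A ∧ y ∈ B := by
    rintro y (⟨c, hc, rfl⟩ | ⟨i, rfl⟩)
    · exact ⟨(mem_maximalIdeal _).mpr (fun hunit =>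
        (mem_maximalIdeal _).mp hc (isUnit_of_map_unit (algebraMap 𝒪 A) c hunit)),
        B.algebraMap_mem c⟩
    · exact ⟨hx i, Algebra.subset_adjoin ⟨i, rfl⟩⟩
  have step : ∀ n : ℕ, (∀ a : A, ∃ b ∈ B, a - b ∈ maximalIdeal A ^ n) →
      ∀ y ∈ Ideal.span ((algebraMap 𝒪 A) '' (maximalIdeal 𝒪 : Set 𝒪) ∪ Set.range x),
        y ∈ maximalIdeal A ∧ ∃ b ∈ B, y - b ∈ maximalIdeal A ^ (n + 1) := by
    intro n hn y hy
    induction hy using Submodule.span_induction with
    | mem y hy =>
      exact ⟨(hSm y hy).1, y, (hSm y hy).2, by rw [sub_self]; exact Submodule.zero_mem _⟩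
    | zero => exact ⟨Submodule.zero_mem _, 0, B.zero_mem, by simp⟩
    | add y z _ _ hy hz =>
      obtain ⟨hy1, b, hb, hyb⟩ := hy
      obtain ⟨hz1, c, hc, hzc⟩ := hz
      refine ⟨Submodule.add_mem _ hy1 hz1, b + c, B.add_mem hb hc, ?_⟩
      have : y + z - (b + c) = (y - b) + (z - c) := by ring
      rw [this]
      exact Submodule.add_mem _ hyb hzc
    | smul a y _ hy =>
      obtain ⟨hy1, b, hb, hyb⟩ := hy
      obtain ⟨b', hb', hab'⟩ := hn a
      refine ⟨Ideal.mul_mem_left _ a hy1, b' * b, B.mul_mem hb' hb, ?_⟩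
      have : a • y - b' * b = (a - b') * y + b' * (y - b) := by rw [smul_eq_mul]; ring
      rw [this, pow_succ]
      exact Submodule.add_mem _ (Ideal.mul_mem_mul hab' hy1) (Ideal.mul_mem_left _ b' hyb)
  have all : ∀ n : ℕ, ∀ a : A, ∃ b ∈ B, a - b ∈ maximalIdeal A ^ n := by
    intro n
    induction n with
    | zero => intro a; exact ⟨0, B.zero_mem, by simp⟩
    | succ n ih =>
      intro a
      obtain ⟨u, hu, -⟩ := exists_sub_mem hs a
      obtain ⟨-, b, hb, hab⟩ := step n ih _ (hI ▸ h hu)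
      refine ⟨algebraMap 𝒪 A u + b, B.add_mem (B.algebraMap_mem u) hb, ?_⟩
      have : a - (algebraMap 𝒪 A u + b) = a - algebraMap 𝒪 A u - b := by ring
      rwa [this]
  obtain ⟨n, hn⟩ := hnil
  rw [eq_top_iff]
  intro a _
  obtain ⟨b, hb, hab⟩ := all n a
  rw [hn, Ideal.zero_eq_bot, Ideal.mem_bot, sub_eq_zero] at hab
  rw [hab]; exact hb

/-- **Main corollary.** An Artinian test algebra with at most `N` maps to `k[ε]` is a quotient of
the polynomial ring in `N` variables over `𝒪`, the variables going into `𝔪_A`. -/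
theorem exists_aeval_surjective [IsArtinianRing A]
    (hs : Function.Surjective (residue A ∘ algebraMap 𝒪 A)) (N : ℕ)
    (hN : letI := dualAlgebra 𝒪
      ∀ F : Finset (A →ₐ[𝒪] DualNumber (ResidueField 𝒪)), F.card ≤ N) :
    ∃ x : Fin N → A, (∀ i, x i ∈ maximalIdeal A) ∧
      maximalIdeal A = (maximalIdeal 𝒪).map (algebraMap 𝒪 A) ⊔ Ideal.span (Set.range x) ∧
      Function.Surjective (MvPolynomial.aeval x : MvPolynomial (Fin N) 𝒪 →ₐ[𝒪] A) := by
  obtain ⟨x, hx, hle⟩ := exists_fin_generators hs N hN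
  have hle' : maximalIdeal A ≤ (maximalIdeal 𝒪).map (algebraMap 𝒪 A) ⊔ Ideal.span (Set.range x) := by
    apply maximalIdeal_le_of_le_sup_sq
    rwa [sup_right_comm] at hle
  have hnil : IsNilpotent (maximalIdeal A) := by
    rw [← IsLocalRing.jacobson_eq_maximalIdeal (⊥ : Ideal A) bot_ne_top]
    exact IsArtinianRing.isNilpotent_jacobson_bot
  refine ⟨x, hx, le_antisymm hle' ?_, ?_⟩
  · refine sup_le ?_ ?_
    · rw [Ideal.map_le_iff_le_comap]
      intro u hu
      exact (mem_maximalIdeal _).mpr (fun hunit =>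
        (mem_maximalIdeal _).mp hu (isUnit_of_map_unit (algebraMap 𝒪 A) u hunit))
    · rw [Ideal.span_le]
      rintro _ ⟨i, rfl⟩
      exact hx i
  · have := adjoin_eq_top_of_nilpotent hs hnil x hx hle'
    rw [Algebra.adjoin_range_eq_range_aeval] at this
    exact (AlgHom.range_eq_top _).mp this

end Artinian

/-! ## Unpacking the frozen `TangentFinite` -/

section Unpack

variable (𝒪 : Type) [CommRing 𝒪] [IsLocalRing 𝒪]

attribute [local instance] dualAlgebra

/-- The residue-field algebra structure used in the frozen `TangentFinite` is the one induced by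
`ResidueField.map (algebraMap 𝒪 k[ε])`. -/
theorem dual_residue_comp_eq_map :
    (residue (DualNumber (ResidueField 𝒪))).comp
        (algebraMap (ResidueField 𝒪) (DualNumber (ResidueField 𝒪))) =
      ResidueField.map (algebraMap 𝒪 (DualNumber (ResidueField 𝒪))) := by
  apply RingHom.ext
  intro c
  obtain ⟨u, rfl⟩ := residue_surjective c
  rw [ResidueField.map_residue]
  rfl

/-- The residual condition of the frozen `TangentFinite`, restated with `baseChangeAlong`
(the form used in `DeformationRingData`). -/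
theorem dual_residual_isEquiv_iff (ρbar : ResidualGaloisRep (ResidueField 𝒪))
    (ρ : GaloisRepAdic (DualNumber (ResidueField 𝒪))) :
    (letI : Algebra (ResidueField 𝒪) (ResidueField (DualNumber (ResidueField 𝒪))) :=
      ((IsLocalRing.residue (DualNumber (ResidueField 𝒪))).comp
        (algebraMap (ResidueField 𝒪) (DualNumber (ResidueField 𝒪)))).toAlgebra
     ρ.residual.IsEquiv (ρbar.baseChange (ResidueField (DualNumber (ResidueField 𝒪))))) ↔
    ρ.residual.IsEquiv (ρbar.baseChangeAlong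
      (ResidueField.map (algebraMap 𝒪 (DualNumber (ResidueField 𝒪))))) := by
  rw [← dual_residue_comp_eq_map]
  rfl

theorem exists_finite_reps_aux {α : Type 1} {p : α → Prop} {r : α → α → Prop}
    (hsymm : ∀ a b, r a b → r b a) (s : Setoid {a // p a})
    (hs : ∀ a b : {a // p a}, s.r a b → r a.1 b.1) (hfin : Finite (Quotient s)) :
    ∃ T : Set α, T.Finite ∧ ∀ a, p a → ∃ b ∈ T, r a b := by
  refine ⟨Set.range (fun q : Quotient s => (Quotient.out q).1), Set.finite_range _,
    fun a ha => ?_⟩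
  refine ⟨_, ⟨Quotient.mk s ⟨a, ha⟩, rfl⟩, ?_⟩
  exact hsymm _ _ (hs _ _ (Quotient.mk_out (s := s) ⟨a, ha⟩))

/-- **`TangentFinite` unpacked**: there is a finite set of representatives of the
`𝒟`-deformations of `ρbar` to `k[ε]` (with the `𝒪`-algebra structure `dualAlgebra 𝒪`). -/
theorem exists_finite_reps_of_tangentFinite (ρbar : ResidualGaloisRep (ResidueField 𝒪))
    (𝒟 : ∀ ⦃A : Type⦄ [CommRing A] [IsLocalRing A] [Algebra 𝒪 A], GaloisRepAdic A → Prop)
    (hfin : GaloisRep.TangentFinite 𝒪 ρbar 𝒟) :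
    ∃ T : Set (GaloisRepAdic (DualNumber (ResidueField 𝒪))), T.Finite ∧
      ∀ ρ : GaloisRepAdic (DualNumber (ResidueField 𝒪)), 𝒟 ρ →
        ρ.residual.IsEquiv (ρbar.baseChangeAlong
          (ResidueField.map (algebraMap 𝒪 (DualNumber (ResidueField 𝒪))))) →
        ∃ ρ' ∈ T, ρ.IsEquiv ρ' := by
  unfold GaloisRep.TangentFinite at hfin
  obtain ⟨T, hT, h⟩ := exists_finite_reps_aux
    (r := fun ρ ρ' : GaloisRepAdic (DualNumber (ResidueField 𝒪)) => ρ.IsEquiv ρ')
    (fun a b ⟨e⟩ => ⟨e.symm⟩) _ (fun a b h => h) hfin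
  exact ⟨T, hT, fun ρ hD hres => h ρ ⟨hD, (dual_residual_isEquiv_iff 𝒪 ρbar ρ).mpr hres⟩⟩

end Unpack

end Fermat.Agent.S53.helper413
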