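import Mathlib

set_option autoImplicit false

/-!
# Normal form ("slice") for 2x2 matrix families over a local ring

Pure matrix algebra: no Galois groups, no deformation conditions.
-/

namespace Fermat.Agent.S53.helper1253

open IsLocalRing Polynomial

/-- Quadratic Hensel: `α + β y + γ y² = 0` has a root in the maximal ideal when `α ∈ m`, `β` unit. -/
theorem quad_hensel {A : Type*} [CommRing A] [IsLocalRing A] [HenselianRing A (maximalIdeal A)]
    (α β γ : A) (hα : α ∈ maximalIdeal A) (hβ : IsUnit β) :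
    ∃ y ∈ maximalIdeal A, α + β * y + γ * y ^ 2 = 0 := by
  obtain ⟨b, hb⟩ := hβ.exists_right_inv
  set δ : A := γ * α * b ^ 2 with hδ
  have hδm : δ ∈ maximalIdeal A := by
    rw [hδ]
    have : γ * α * b ^ 2 = (γ * b ^ 2) * α := by ring
    rw [this]
    exact Ideal.mul_mem_left _ _ hα
  let f : A[X] := X ^ 2 - X + C δ
  have hf : f.Monic := by
    have h1 : (X ^ 2 - X + C δ : A[X]) = X ^ 2 - (X - C δ) := by ring
    show (X ^ 2 - X + C δ : A[X]).Monic
    rw [h1]
    have : (X - C δ : A[X]).degree < ((2 : ℕ) : WithBot ℕ) := by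
      refine lt_of_le_of_lt (Polynomial.degree_X_sub_C_le δ) ?_
      exact_mod_cast (by norm_num : (1 : ℕ) < 2)
    exact Polynomial.monic_X_pow_sub this
  have he : f.eval 1 = δ := by simp [f]
  have hd : f.derivative.eval 1 = 1 := by
    simp [f]
  obtain ⟨u, hu, hu1⟩ := HenselianRing.is_henselian (I := maximalIdeal A) f hf 1
    (by rw [he]; exact hδm) (by rw [hd, map_one]; exact isUnit_one)
  have huu : IsUnit u := by
    by_contra hcon
    have hum : u ∈ maximalIdeal A := hcon
    have h1 : u - (u - 1) ∈ maximalIdeal A := Ideal.sub_mem _ hum hu1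
    rw [sub_sub_cancel] at h1
    exact (Ideal.ne_top_iff_one _).mp (IsLocalRing.maximalIdeal.isMaximal A).ne_top h1
  obtain ⟨w, hw⟩ := huu.exists_right_inv
  have hroot : u ^ 2 - u + δ = 0 := by
    have := hu
    simp [f, Polynomial.IsRoot] at this
    exact this
  refine ⟨-(α * b * w), ?_, ?_⟩
  · have : -(α * b * w) = (-(b * w)) * α := by ring
    rw [this]
    exact Ideal.mul_mem_left _ _ hα
  · have h1 : α + β * -(α * b * w) + γ * (-(α * b * w)) ^ 2
        = α * w ^ 2 * (u ^ 2 - u + δ) + α * (1 - (u * w) ^ 2) + α * w * ((u * w) - (β * b))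
          + α * w * (β * b) * (1 - 1) := by
      rw [hδ]; ring
    rw [h1, hroot, hw, hb]; ring

section Mat

variable {A : Type*} [CommRing A]

/-- Entrywise congruence of 2x2 matrices modulo an ideal. -/
def MatCong (I : Ideal A) (M N : Matrix (Fin 2) (Fin 2) A) : Prop :=
  ∀ i j, M i j - N i j ∈ I

theorem MatCong.refl (I : Ideal A) (M : Matrix (Fin 2) (Fin 2) A) : MatCong I M M := by
  intro i j; simp

theorem MatCong.symm {I : Ideal A} {M N : Matrix (Fin 2) (Fin 2) A} (h : MatCong I M N) :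
    MatCong I N M := by
  intro i j
  have := I.neg_mem (h i j)
  simpa using this

theorem MatCong.trans {I : Ideal A} {M N K : Matrix (Fin 2) (Fin 2) A} (h : MatCong I M N)
    (h' : MatCong I N K) : MatCong I M K := by
  intro i j
  have := I.add_mem (h i j) (h' i j)
  simpa using this

theorem MatCong.add {I : Ideal A} {M N M' N' : Matrix (Fin 2) (Fin 2) A} (h : MatCong I M N)
    (h' : MatCong I M' N') : MatCong I (M + M') (N + N') := by
  intro i j
  have := I.add_mem (h i j) (h' i j)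
  have e : (M + M') i j - (N + N') i j = M i j - N i j + (M' i j - N' i j) := by
    simp only [Matrix.add_apply]; ring
  rw [e]; exact this

theorem MatCong.sub {I : Ideal A} {M N M' N' : Matrix (Fin 2) (Fin 2) A} (h : MatCong I M N)
    (h' : MatCong I M' N') : MatCong I (M - M') (N - N') := by
  intro i j
  have := I.sub_mem (h i j) (h' i j)
  have e : (M - M') i j - (N - N') i j = M i j - N i j - (M' i j - N' i j) := by
    simp only [Matrix.sub_apply]; ring
  rw [e]; exact this

theorem MatCong.mul {I : Ideal A} {M N M' N' : Matrix (Fin 2) (Fin 2) A} (h : MatCong I M N)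
    (h' : MatCong I M' N') : MatCong I (M * M') (N * N') := by
  intro i j
  have e : (M * M') i j - (N * N') i j =
      (M i 0 - N i 0) * M' 0 j + N i 0 * (M' 0 j - N' 0 j) +
      ((M i 1 - N i 1) * M' 1 j + N i 1 * (M' 1 j - N' 1 j)) := by
    simp only [Matrix.mul_apply, Fin.sum_univ_two]; ring
  rw [e]
  exact I.add_mem (I.add_mem (I.mul_mem_right _ (h i 0)) (I.mul_mem_left _ (h' 0 j)))
    (I.add_mem (I.mul_mem_right _ (h i 1)) (I.mul_mem_left _ (h' 1 j)))

theorem MatCong.smul {I : Ideal A} {M N : Matrix (Fin 2) (Fin 2) A} (a : A) (h : MatCong I M N) :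
    MatCong I (a • M) (a • N) := by
  intro i j
  have e : (a • M) i j - (a • N) i j = a * (M i j - N i j) := by
    simp only [Matrix.smul_apply, smul_eq_mul]; ring
  rw [e]; exact I.mul_mem_left _ (h i j)

theorem MatCong.smul_of_mem {I : Ideal A} {a : A} (ha : a ∈ I) (M : Matrix (Fin 2) (Fin 2) A) :
    MatCong I (a • M) 0 := by
  intro i j
  simp only [Matrix.smul_apply, smul_eq_mul, Matrix.zero_apply, sub_zero]
  exact I.mul_mem_right _ ha

theorem MatCong.smul_left {I : Ideal A} {a b : A} (h : a - b ∈ I)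
    {M N : Matrix (Fin 2) (Fin 2) A} (h' : MatCong I M N) : MatCong I (a • M) (b • N) := by
  intro i j
  have e : (a • M) i j - (b • N) i j = (a - b) * M i j + b * (M i j - N i j) := by
    simp only [Matrix.smul_apply, smul_eq_mul]; ring
  rw [e]; exact I.add_mem (I.mul_mem_right _ h) (I.mul_mem_left _ (h' i j))

theorem MatCong.conj {I : Ideal A} {P Q M : Matrix (Fin 2) (Fin 2) A} (hP : MatCong I P 1)
    (hQ : MatCong I Q 1) : MatCong I (P * M * Q) M := by
  have := (hP.mul (MatCong.refl I M)).mul hQ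
  simpa using this

/-- Conjugation of a matrix family by `P` with inverse `Q`. -/
def conjHom {Γ : Type*} [Monoid Γ] (P Q : Matrix (Fin 2) (Fin 2) A) (hPQ : P * Q = 1)
    (hQP : Q * P = 1) (r : Γ →* Matrix (Fin 2) (Fin 2) A) : Γ →* Matrix (Fin 2) (Fin 2) A where
  toFun σ := P * r σ * Q
  map_one' := by rw [map_one, Matrix.mul_one, hPQ]
  map_mul' σ τ := by
    rw [map_mul]
    calc P * (r σ * r τ) * Q = P * r σ * (1 : Matrix (Fin 2) (Fin 2) A) * r τ * Q := by
          simp [Matrix.mul_assoc]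
      _ = P * r σ * (Q * P) * r τ * Q := by rw [hQP]
      _ = P * r σ * Q * (P * r τ * Q) := by simp [Matrix.mul_assoc]

@[simp] theorem conjHom_apply {Γ : Type*} [Monoid Γ] (P Q : Matrix (Fin 2) (Fin 2) A)
    (hPQ : P * Q = 1) (hQP : Q * P = 1) (r : Γ →* Matrix (Fin 2) (Fin 2) A) (σ : Γ) :
    conjHom P Q hPQ hQP r σ = P * r σ * Q := rfl

end Mat

section NF

variable {A : Type*} [CommRing A] [IsLocalRing A]

theorem isUnit_of_sub_mem {a u : A} (hu : IsUnit u) (h : a - u ∈ maximalIdeal A) : IsUnit a := by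
  by_contra hcon
  have ha : a ∈ maximalIdeal A := hcon
  have : u ∈ maximalIdeal A := by
    have := Ideal.sub_mem _ ha h
    simpa using this
  exact this hu

omit [IsLocalRing A] in
theorem matCong_one_iff {I : Ideal A} {P : Matrix (Fin 2) (Fin 2) A} :
    MatCong I P 1 ↔ P 0 0 - 1 ∈ I ∧ P 0 1 ∈ I ∧ P 1 0 ∈ I ∧ P 1 1 - 1 ∈ I := by
  constructor
  · intro h
    have h00 := h 0 0
    have h01 := h 0 1
    have h10 := h 1 0
    have h11 := h 1 1
    simp only [Matrix.one_apply_eq, Matrix.one_apply_ne (show (0 : Fin 2) ≠ 1 by decide),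
      Matrix.one_apply_ne (show (1 : Fin 2) ≠ 0 by decide), sub_zero] at h00 h01 h10 h11
    exact ⟨h00, h01, h10, h11⟩
  · rintro ⟨h00, h01, h10, h11⟩ i j
    fin_cases i <;> fin_cases j
    · simpa using h00
    · simpa using h01
    · simpa using h10
    · simpa using h11

omit [IsLocalRing A] in
theorem mul_mul_apply_two (P C Q : Matrix (Fin 2) (Fin 2) A) (i j : Fin 2) :
    (P * C * Q) i j = (P i 0 * C 0 0 + P i 1 * C 1 0) * Q 0 j +
      (P i 0 * C 0 1 + P i 1 * C 1 1) * Q 1 j := by
  simp only [Matrix.mul_apply, Fin.sum_univ_two]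

/-- Step 1: conjugate a matrix congruent to a companion matrix into companion form. -/
theorem companion_conj (C : Matrix (Fin 2) (Fin 2) A) (h0 : C 0 0 ∈ maximalIdeal A)
    (h1 : C 1 0 - 1 ∈ maximalIdeal A) :
    ∃ P Q : Matrix (Fin 2) (Fin 2) A, P * Q = 1 ∧ Q * P = 1 ∧
      MatCong (maximalIdeal A) P 1 ∧ MatCong (maximalIdeal A) Q 1 ∧
      (P * C * Q) 0 0 = 0 ∧ (P * C * Q) 1 0 = 1 := by
  have hb : IsUnit (C 1 0) := isUnit_of_sub_mem isUnit_one h1
  obtain ⟨b', hb'⟩ := hb.exists_right_inv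
  have hb'1 : b' - 1 ∈ maximalIdeal A := by
    have : b' - 1 = -(b' * (C 1 0 - 1)) := by linear_combination hb'
    rw [this]
    exact neg_mem (Ideal.mul_mem_left _ _ h1)
  refine ⟨!![1, -(C 0 0 * b'); 0, b'], !![1, C 0 0; 0, C 1 0], ?_, ?_, ?_, ?_, ?_, ?_⟩
  · ext i j
    fin_cases i <;> fin_cases j <;> simp [Matrix.mul_apply, Fin.sum_univ_two]
    · linear_combination (-(C 0 0)) * hb'
    · linear_combination hb'
  · ext i j
    fin_cases i <;> fin_cases j <;> simp [Matrix.mul_apply, Fin.sum_univ_two]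
    · linear_combination hb'
  · refine matCong_one_iff.mpr ⟨?_, ?_, ?_, ?_⟩
    · show (1 : A) - 1 ∈ _
      simp
    · show -(C 0 0 * b') ∈ _
      exact neg_mem (Ideal.mul_mem_right _ _ h0)
    · show (0 : A) ∈ _
      simp
    · exact hb'1
  · refine matCong_one_iff.mpr ⟨?_, ?_, ?_, ?_⟩
    · show (1 : A) - 1 ∈ _
      simp
    · exact h0
    · show (0 : A) ∈ _
      simp
    · exact h1
  · rw [mul_mul_apply_two]
    show ((1 : A) * C 0 0 + -(C 0 0 * b') * C 1 0) * 1 + (1 * C 0 1 + -(C 0 0 * b') * C 1 1) * 0 = 0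
    linear_combination (-(C 0 0)) * hb'
  · rw [mul_mul_apply_two]
    show ((0 : A) * C 0 0 + b' * C 1 0) * 1 + (0 * C 0 1 + b' * C 1 1) * 0 = 1
    linear_combination hb'

omit [IsLocalRing A] in
/-- Cayley–Hamilton for a companion matrix. -/
theorem companion_sq (C : Matrix (Fin 2) (Fin 2) A) (h0 : C 0 0 = 0) (h1 : C 1 0 = 1) :
    C * C = C 1 1 • C - (-(C 0 1)) • (1 : Matrix (Fin 2) (Fin 2) A) := by
  ext i j
  fin_cases i <;> fin_cases j <;>
    simp [Matrix.mul_apply, Fin.sum_univ_two, h0, h1] <;> ring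

/-- Step 2: conjugating by `1 + y C` (which fixes the companion matrix `C`) one can prescribe
one entry of `N`, provided the corresponding entry of the commutator is a unit. -/
theorem slot_conj [HenselianRing A (maximalIdeal A)] (C N : Matrix (Fin 2) (Fin 2) A)
    (h0 : C 0 0 = 0) (h1 : C 1 0 = 1) (i0 j0 : Fin 2)
    (hcomm : IsUnit ((N * C - C * N) i0 j0)) (c : A) (hc : N i0 j0 - c ∈ maximalIdeal A) :
    ∃ P Q : Matrix (Fin 2) (Fin 2) A, P * Q = 1 ∧ Q * P = 1 ∧
      MatCong (maximalIdeal A) P 1 ∧ MatCong (maximalIdeal A) Q 1 ∧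
      P * C * Q = C ∧ (P * N * Q) i0 j0 = c := by
  set t : A := C 1 1 with ht
  set d : A := -(C 0 1) with hd
  have hCC : C * C = t • C - d • (1 : Matrix (Fin 2) (Fin 2) A) := companion_sq C h0 h1
  set X : Matrix (Fin 2) (Fin 2) A := t • N - C * N + N * C with hX
  set Y : Matrix (Fin 2) (Fin 2) A := t • (N * C) - C * N * C with hY
  set α : A := N i0 j0 - c with hα
  set β : A := X i0 j0 - c * t with hβ
  set γ : A := Y i0 j0 - c * d with hγ
  have hβu : IsUnit β := by
    refine isUnit_of_sub_mem hcomm ?_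
    have : β - (N * C - C * N) i0 j0 = t * α := by
      rw [hβ, hX, hα]
      simp only [Matrix.add_apply, Matrix.sub_apply, Matrix.smul_apply, smul_eq_mul]
      ring
    rw [this]
    exact Ideal.mul_mem_left _ _ hc
  obtain ⟨y, hy, hroot⟩ := quad_hensel α β γ hc hβu
  set u : A := 1 + t * y + d * y ^ 2 with hu
  have hu1 : u - 1 ∈ maximalIdeal A := by
    have : u - 1 = (t + d * y) * y := by rw [hu]; ring
    rw [this]
    exact Ideal.mul_mem_left _ _ hy
  have huu : IsUnit u := isUnit_of_sub_mem isUnit_one hu1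
  obtain ⟨u', hu'⟩ := huu.exists_right_inv
  have hu'1 : u' - 1 ∈ maximalIdeal A := by
    have : u' - 1 = -(u' * (u - 1)) := by linear_combination hu'
    rw [this]
    exact neg_mem (Ideal.mul_mem_left _ _ hu1)
  set Q : Matrix (Fin 2) (Fin 2) A := 1 + y • C with hQ
  set P0 : Matrix (Fin 2) (Fin 2) A := (1 + t * y) • (1 : Matrix (Fin 2) (Fin 2) A) - y • C with hP0
  have hP0Q : P0 * Q = u • (1 : Matrix (Fin 2) (Fin 2) A) := by
    have e : P0 * Q = (1 + t * y) • (1 : Matrix (Fin 2) (Fin 2) A) + ((1 + t * y) * y - y) • C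
        - (y * y) • (C * C) := by
      rw [hP0, hQ]
      simp only [sub_mul, mul_add, Matrix.smul_mul, Matrix.mul_smul, Matrix.one_mul,
        Matrix.mul_one, smul_smul]
      module
    rw [e, hCC, hu]
    module
  have hCQ : C * Q = Q * C := by
    rw [hQ]
    simp only [mul_add, add_mul, Matrix.mul_one, Matrix.one_mul, Matrix.smul_mul,
      Matrix.mul_smul]
  have hPQ : (u' • P0) * Q = 1 := by
    rw [Matrix.smul_mul, hP0Q, smul_smul, mul_comm, hu', one_smul]
  have hQP : Q * (u' • P0) = 1 := mul_eq_one_comm.mp hPQ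
  have hQ1 : MatCong (maximalIdeal A) Q 1 := by
    have := (MatCong.refl (maximalIdeal A) 1).add (MatCong.smul_of_mem hy C)
    simpa [hQ] using this
  have hP1 : MatCong (maximalIdeal A) (u' • P0) 1 := by
    have h1' : MatCong (maximalIdeal A) P0 1 := by
      have h2 : MatCong (maximalIdeal A) ((1 + t * y) • (1 : Matrix (Fin 2) (Fin 2) A))
          ((1 : A) • (1 : Matrix (Fin 2) (Fin 2) A)) := by
        refine MatCong.smul_left ?_ (MatCong.refl _ _)
        have : 1 + t * y - 1 = t * y := by ring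
        rw [this]
        exact Ideal.mul_mem_left _ _ hy
      have := h2.sub (MatCong.smul_of_mem hy C)
      simpa [hP0] using this
    have := MatCong.smul_left hu'1 h1'
    simpa using this
  refine ⟨u' • P0, Q, hPQ, hQP, hP1, hQ1, ?_, ?_⟩
  · rw [Matrix.mul_assoc, hCQ, ← Matrix.mul_assoc, hPQ, Matrix.one_mul]
  · have e : P0 * N * Q = N + y • X + (y * y) • Y := by
      rw [hP0, hQ, hX, hY]
      simp only [sub_mul, mul_add, Matrix.smul_mul, Matrix.mul_smul, Matrix.one_mul,
        Matrix.mul_one, smul_smul, smul_add, smul_sub, Matrix.mul_assoc]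
      module
    have e2 : (P0 * N * Q) i0 j0 = c * u := by
      rw [e]
      simp only [Matrix.add_apply, Matrix.smul_apply, smul_eq_mul]
      have h3 : N i0 j0 = α + c := by rw [hα]; ring
      have h4 : X i0 j0 = β + c * t := by rw [hβ]; ring
      have h5 : Y i0 j0 = γ + c * d := by rw [hγ]; ring
      rw [h3, h4, h5, hu]
      linear_combination hroot
    rw [Matrix.smul_mul, Matrix.smul_mul, Matrix.smul_apply, e2, smul_eq_mul]
    linear_combination c * hu'

variable {Γ : Type*} [Monoid Γ]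

/-- **Existence of the normal form** (Henselian local ring).  `s` is a reference family
(only its values at `g0`, `g1` matter), whose value at `g0` is congruent to a companion
matrix and such that the `(i0,j0)` entry of the commutator `[s g0, s g1]` is a unit. Every
family `r` congruent to `s` at `g0, g1` is conjugate, by a matrix congruent to `1`, to a family
`r'` with `r' g0` in companion form and `r' g1 i0 j0 = c` (any prescribed `c ≡ s g1 i0 j0`). -/
theorem nf_exists [HenselianRing A (maximalIdeal A)]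
    (s : Γ → Matrix (Fin 2) (Fin 2) A) (g0 g1 : Γ) (i0 j0 : Fin 2)
    (hs00 : s g0 0 0 ∈ maximalIdeal A) (hs10 : s g0 1 0 - 1 ∈ maximalIdeal A)
    (hcomm : IsUnit ((s g0 * s g1 - s g1 * s g0) i0 j0))
    (c : A) (hc : c - s g1 i0 j0 ∈ maximalIdeal A)
    (r : Γ →* Matrix (Fin 2) (Fin 2) A)
    (hr0 : MatCong (maximalIdeal A) (r g0) (s g0))
    (hr1 : MatCong (maximalIdeal A) (r g1) (s g1)) :
    ∃ (P Q : Matrix (Fin 2) (Fin 2) A) (r' : Γ →* Matrix (Fin 2) (Fin 2) A),
      P * Q = 1 ∧ Q * P = 1 ∧ MatCong (maximalIdeal A) P 1 ∧ MatCong (maximalIdeal A) Q 1 ∧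
      (∀ σ, r' σ = P * r σ * Q) ∧ r' g0 0 0 = 0 ∧ r' g0 1 0 = 1 ∧ r' g1 i0 j0 = c := by
  have hC0 : r g0 0 0 ∈ maximalIdeal A := by
    have := Ideal.add_mem _ (hr0 0 0) hs00
    simpa using this
  have hC1 : r g0 1 0 - 1 ∈ maximalIdeal A := by
    have := Ideal.add_mem _ (hr0 1 0) hs10
    simpa using this
  obtain ⟨P1, Q1, hPQ1, hQP1, hP1, hQ1, h00, h10⟩ := companion_conj (r g0) hC0 hC1
  set C1 : Matrix (Fin 2) (Fin 2) A := P1 * r g0 * Q1 with hC1def
  set N1 : Matrix (Fin 2) (Fin 2) A := P1 * r g1 * Q1 with hN1def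
  have hC1s : MatCong (maximalIdeal A) C1 (s g0) := (MatCong.conj hP1 hQ1).trans hr0
  have hN1s : MatCong (maximalIdeal A) N1 (s g1) := (MatCong.conj hP1 hQ1).trans hr1
  have hcomm1 : IsUnit ((N1 * C1 - C1 * N1) i0 j0) := by
    have h := (hN1s.mul hC1s).sub (hC1s.mul hN1s) i0 j0
    have hneg : IsUnit ((s g1 * s g0 - s g0 * s g1) i0 j0) := by
      have : (s g1 * s g0 - s g0 * s g1) i0 j0 = -((s g0 * s g1 - s g1 * s g0) i0 j0) := by
        simp only [Matrix.sub_apply]; ring
      rw [this]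
      exact hcomm.neg
    exact isUnit_of_sub_mem hneg h
  have hc1 : N1 i0 j0 - c ∈ maximalIdeal A := by
    have := Ideal.sub_mem _ (hN1s i0 j0) hc
    have e : N1 i0 j0 - s g1 i0 j0 - (c - s g1 i0 j0) = N1 i0 j0 - c := by ring
    rwa [e] at this
  obtain ⟨P2, Q2, hPQ2, hQP2, hP2, hQ2, hfix, hslot⟩ := slot_conj C1 N1 h00 h10 i0 j0 hcomm1 c hc1
  have hPQ : (P2 * P1) * (Q1 * Q2) = 1 := by
    calc (P2 * P1) * (Q1 * Q2) = P2 * (P1 * Q1) * Q2 := by simp only [Matrix.mul_assoc]
      _ = 1 := by rw [hPQ1, Matrix.mul_one, hPQ2]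
  have hQP : (Q1 * Q2) * (P2 * P1) = 1 := by
    calc (Q1 * Q2) * (P2 * P1) = Q1 * (Q2 * P2) * P1 := by simp only [Matrix.mul_assoc]
      _ = 1 := by rw [hQP2, Matrix.mul_one, hQP1]
  have hconj : ∀ M : Matrix (Fin 2) (Fin 2) A,
      (P2 * P1) * M * (Q1 * Q2) = P2 * (P1 * M * Q1) * Q2 := by
    intro M; simp only [Matrix.mul_assoc]
  refine ⟨P2 * P1, Q1 * Q2, conjHom (P2 * P1) (Q1 * Q2) hPQ hQP r, hPQ, hQP, ?_, ?_,
    fun σ => rfl, ?_, ?_, ?_⟩
  · have := hP2.mul hP1
    simpa using this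
  · have := hQ1.mul hQ2
    simpa using this
  · rw [conjHom_apply, hconj, hfix]; exact h00
  · rw [conjHom_apply, hconj, hfix]; exact h10
  · rw [conjHom_apply, hconj]; exact hslot

/-- **Uniqueness of the normal form** (any local ring, no completeness).  Two families in
normal form, congruent to the same reference family at `g0, g1`, which are intertwined by an
invertible matrix, are equal. -/
theorem nf_unique (s : Γ → Matrix (Fin 2) (Fin 2) A) (g0 g1 : Γ) (i0 j0 : Fin 2)
    (hcomm : IsUnit ((s g0 * s g1 - s g1 * s g0) i0 j0))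
    (r r' : Γ →* Matrix (Fin 2) (Fin 2) A)
    (hr0 : MatCong (maximalIdeal A) (r g0) (s g0))
    (hr1 : MatCong (maximalIdeal A) (r g1) (s g1))
    (hr1' : MatCong (maximalIdeal A) (r' g1) (s g1))
    (h00 : r g0 0 0 = 0) (h10 : r g0 1 0 = 1) (h00' : r' g0 0 0 = 0) (h10' : r' g0 1 0 = 1)
    (h1 : r g1 i0 j0 = r' g1 i0 j0)
    (P : Matrix (Fin 2) (Fin 2) A) (hP : IsUnit P.det) (hPr : ∀ σ, P * r σ = r' σ * P) :
    r = r' := by
  have hPu : IsUnit P := (Matrix.isUnit_iff_isUnit_det P).mpr hP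
  set C := r g0 with hCdef
  set C' := r' g0 with hC'def
  set x : A := P 0 0 with hx
  set y : A := P 1 0 with hy
  have hPC : P * C = C' * P := hPr g0
  -- `P = x + y C'`
  have hPform : P = x • (1 : Matrix (Fin 2) (Fin 2) A) + y • C' := by
    have e0 := congrFun (congrFun hPC 0) 0
    have e1 := congrFun (congrFun hPC 1) 0
    simp only [Matrix.mul_apply, Fin.sum_univ_two, h00, h10, h00', h10'] at e0 e1
    ext i j
    fin_cases i <;> fin_cases j <;> simp [h00', h10', hx, hy]
    · linear_combination e0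
    · linear_combination e1
  have hcommP : P * C' = C' * P := by
    rw [hPform]
    simp only [mul_add, add_mul, Matrix.mul_one, Matrix.one_mul, Matrix.smul_mul,
      Matrix.mul_smul]
  have hCC' : C = C' := by
    have : P * C = P * C' := by rw [hPC, hcommP]
    exact hPu.mul_left_cancel this
  -- now use the slot at `g1`
  set N := r g1 with hNdef
  set N' := r' g1 with hN'def
  have hPN : P * N = N' * P := hPr g1
  have hC's : MatCong (maximalIdeal A) C' (s g0) := hCC' ▸ hr0
  have hunit : IsUnit ((C' * N - N' * C') i0 j0) := by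
    have h := (hC's.mul hr1).sub (hr1'.mul hC's) i0 j0
    exact isUnit_of_sub_mem hcomm h
  have hy0 : y = 0 := by
    have e : (P * N - N' * P) i0 j0 = x * (N i0 j0 - N' i0 j0) + y * (C' * N - N' * C') i0 j0 := by
      rw [hPform]
      simp only [add_mul, mul_add, Matrix.smul_mul, Matrix.mul_smul, Matrix.one_mul,
        Matrix.mul_one, Matrix.add_apply, Matrix.sub_apply, Matrix.smul_apply, smul_eq_mul]
      ring
    rw [hPN, sub_self, Matrix.zero_apply, h1, sub_self, mul_zero, zero_add] at e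
    exact (hunit.mul_left_eq_zero).mp e.symm
  have hPx : P = x • (1 : Matrix (Fin 2) (Fin 2) A) := by
    rw [hPform, hy0, zero_smul, add_zero]
  have hxu : IsUnit x := by
    have hdet : P.det = x * x := by
      rw [hPx, Matrix.det_fin_two]
      simp
    rw [hdet] at hP
    exact isUnit_of_mul_isUnit_left hP
  apply MonoidHom.ext
  intro σ
  have h := hPr σ
  rw [hPx, Matrix.smul_mul, Matrix.mul_smul, Matrix.one_mul, Matrix.mul_one] at h
  ext i j
  have hij := congrFun (congrFun h i) j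
  simp only [Matrix.smul_apply, smul_eq_mul] at hij
  exact hxu.mul_left_cancel hij

end NF

end Fermat.Agent.S53.helper1253
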