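import Fermat.Agent.S53.helper53_Spec
import Fermat.Agent.S53.helper3173_Burnside
import Fermat.Agent.S53.helper1253_NormalForm

set_option autoImplicit false

/-!
# SLICE: proof of `Stmt_Slice` (captain spec) via the companion + one-slot normal form
-/

namespace Fermat.Agent.S53.helper1253

open IsLocalRing Fermat.Agent.S53.helper53

/-- Setup from absolute irreducibility: a basis in which `ρbar g0` is a companion matrix and
an entry of the commutator `[ρbar g0, ρbar g1]` is nonzero. -/
theorem exists_slice_data {k : Type} [Field k] (ρbar : ResidualGaloisRep k)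
    (habs : ρbar.IsAbsolutelyIrreducible) :
    ∃ (b : Module.Basis (Fin 2) k ρbar.V) (g0 g1 : Gal) (i0 j0 : Fin 2),
      matOfBasis ρbar b g0 0 0 = 0 ∧ matOfBasis ρbar b g0 1 0 = 1 ∧
      (matOfBasis ρbar b g0 * matOfBasis ρbar b g1
        - matOfBasis ρbar b g1 * matOfBasis ρbar b g0) i0 j0 ≠ 0 := by
  obtain ⟨σ, τ, hne⟩ := Fermat.Agent.S53.helper3173.exists_not_commute ρbar habs
  -- `ρbar σ` is not scalar, so it has a cyclic vector
  have hcyc : ∃ v : ρbar.V, LinearIndependent k ![v, ρbar.ρ σ v] := by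
    by_contra hno
    push Not at hno
    obtain ⟨a, ha⟩ := LinearMap.exists_eq_smul_id_of_forall_notLinearIndependent hno
    apply hne
    rw [ha]
    simp
  obtain ⟨v, hv⟩ := hcyc
  let b : Module.Basis (Fin 2) k ρbar.V :=
    basisOfLinearIndependentOfCardEqFinrank hv (by simp [ρbar.finrank_eq])
  have hb0 : b 0 = v := by simp [b]
  have hb1 : b 1 = ρbar.ρ σ v := by simp [b]
  have hcol : ∀ i : Fin 2, matOfBasis ρbar b σ i 0 = if i = 1 then 1 else 0 := by
    intro i
    rw [matOfBasis_apply, LinearMap.toMatrix_apply, hb0, ← hb1, Module.Basis.repr_self,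
      Finsupp.single_apply]
    simp [eq_comm]
  have hmat : matOfBasis ρbar b σ * matOfBasis ρbar b τ ≠
      matOfBasis ρbar b τ * matOfBasis ρbar b σ := by
    intro h
    apply hne
    have h' : LinearMap.toMatrix b b (ρbar.ρ σ * ρbar.ρ τ) =
        LinearMap.toMatrix b b (ρbar.ρ τ * ρbar.ρ σ) := by
      rw [LinearMap.toMatrix_mul, LinearMap.toMatrix_mul]; exact h
    exact (LinearMap.toMatrix b b).injective h'
  have hex : ∃ i0 j0 : Fin 2, (matOfBasis ρbar b σ * matOfBasis ρbar b τ
        - matOfBasis ρbar b τ * matOfBasis ρbar b σ) i0 j0 ≠ 0 := by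
    by_contra hno
    push Not at hno
    apply hmat
    rw [← sub_eq_zero]
    ext i j
    exact hno i j
  obtain ⟨i0, j0, hij⟩ := hex
  refine ⟨b, σ, τ, i0, j0, ?_, ?_, hij⟩
  · rw [hcol]; simp
  · rw [hcol]; simp

section Strict

variable {𝒪 : Type} [CommRing 𝒪] [IsLocalRing 𝒪]

/-- A set-theoretic section of the residue map. -/
noncomputable def liftRes (x : ResidueField 𝒪) : 𝒪 :=
  Function.surjInv (IsLocalRing.residue_surjective (R := 𝒪)) x

@[simp] theorem residue_liftRes (x : ResidueField 𝒪) : residue 𝒪 (liftRes x) = x :=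
  Function.surjInv_eq _ x

/-- The reference family: entrywise lifts to `𝒪` of the matrices of `rbar`. -/
noncomputable def refFam (rbar : Gal →* M2 (ResidueField 𝒪)) (σ : Gal) : M2 𝒪 :=
  Matrix.of fun i j => liftRes (rbar σ i j)

theorem algebraMap_mem_of_residue_eq_zero {A : Type} [CommRing A] [IsLocalRing A] [Algebra 𝒪 A]
    [IsLocalHom (algebraMap 𝒪 A)] {c : 𝒪} (hc : residue 𝒪 c = 0) :
    algebraMap 𝒪 A c ∈ maximalIdeal A := by
  have hc' : c ∈ maximalIdeal 𝒪 := (IsLocalRing.residue_eq_zero_iff c).mp hc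
  exact map_nonunit (algebraMap 𝒪 A) c hc'

theorem isStrictLift_iff (rbar : Gal →* M2 (ResidueField 𝒪)) {A : Type} [CommRing A]
    [IsLocalRing A] [Algebra 𝒪 A] [IsLocalHom (algebraMap 𝒪 A)] (r : Gal → M2 A) :
    IsStrictLift rbar r ↔
      ∀ σ, MatCong (maximalIdeal A) (r σ) ((refFam rbar σ).map (algebraMap 𝒪 A)) := by
  constructor
  · intro h σ i j
    obtain ⟨c, hc, hmem⟩ := h σ i j
    have h0 : residue 𝒪 (c - liftRes (rbar σ i j)) = 0 := by
      rw [map_sub, hc, residue_liftRes, sub_self]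
    have h1 := algebraMap_mem_of_residue_eq_zero (A := A) h0
    have e : r σ i j - ((refFam rbar σ).map (algebraMap 𝒪 A)) i j =
        (r σ i j - algebraMap 𝒪 A c) + algebraMap 𝒪 A (c - liftRes (rbar σ i j)) := by
      simp only [refFam, Matrix.map_apply, Matrix.of_apply, map_sub]; ring
    rw [e]
    exact Ideal.add_mem _ hmem h1
  · intro h σ i j
    exact ⟨liftRes (rbar σ i j), residue_liftRes _, h σ i j⟩

end Strict

/-- **SLICE**: the captain's `Stmt_Slice`. -/
theorem slice (𝒪 : Type) [CommRing 𝒪] [IsLocalRing 𝒪] : Stmt_Slice 𝒪 := by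
  intro ρbar habs
  obtain ⟨b, g0, g1, i0, j0, h00, h10, hcomm⟩ := exists_slice_data ρbar habs
  set rbar : Gal →* M2 (ResidueField 𝒪) := matOfBasis ρbar b with hrbar
  set c0 : 𝒪 := liftRes (rbar g1 i0 j0) with hc0
  let Sig : Set (Lam 𝒪) :=
    {MvPolynomial.X (g0, 0, 0), MvPolynomial.X (g0, 1, 0) - 1,
      MvPolynomial.X (g1, i0, j0) - MvPolynomial.C c0}
  -- normalisation in terms of entries
  have hnorm : ∀ {A : Type} [CommRing A] [Algebra 𝒪 A] (r : Gal → M2 A),
      IsNormalized Sig r ↔ r g0 0 0 = 0 ∧ r g0 1 0 = 1 ∧ r g1 i0 j0 = algebraMap 𝒪 A c0 := by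
    intro A _ _ r
    constructor
    · intro h
      have h1 := h (MvPolynomial.X (g0, 0, 0)) (by simp [Sig])
      have h2 := h (MvPolynomial.X (g0, 1, 0) - 1) (by simp [Sig])
      have h3 := h (MvPolynomial.X (g1, i0, j0) - MvPolynomial.C c0) (by simp [Sig])
      rw [evalMat_X] at h1
      rw [map_sub, evalMat_X, map_one, sub_eq_zero] at h2
      rw [map_sub, evalMat_X, sub_eq_zero] at h3
      refine ⟨h1, h2, ?_⟩
      rw [h3]
      simp [evalMat]
    · rintro ⟨h1, h2, h3⟩ f hf
      simp only [Sig, Set.mem_insert_iff, Set.mem_singleton_iff] at hf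
      rcases hf with rfl | rfl | rfl
      · rw [evalMat_X, h1]
      · rw [map_sub, evalMat_X, map_one, h2, sub_self]
      · rw [map_sub, evalMat_X, h3]
        simp [evalMat]
  -- facts about the reference family over a local `𝒪`-algebra
  have href : ∀ {A : Type} [CommRing A] [IsLocalRing A] [Algebra 𝒪 A]
      [IsLocalHom (algebraMap 𝒪 A)],
      ((refFam rbar g0).map (algebraMap 𝒪 A)) 0 0 ∈ maximalIdeal A ∧
      ((refFam rbar g0).map (algebraMap 𝒪 A)) 1 0 - 1 ∈ maximalIdeal A ∧
      IsUnit ((((refFam rbar g0).map (algebraMap 𝒪 A)) * ((refFam rbar g1).map (algebraMap 𝒪 A))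
        - ((refFam rbar g1).map (algebraMap 𝒪 A)) * ((refFam rbar g0).map (algebraMap 𝒪 A)))
          i0 j0) ∧
      algebraMap 𝒪 A c0 - ((refFam rbar g1).map (algebraMap 𝒪 A)) i0 j0 ∈ maximalIdeal A := by
    intro A _ _ _ _
    refine ⟨?_, ?_, ?_, ?_⟩
    · apply algebraMap_mem_of_residue_eq_zero
      simp only [refFam, Matrix.of_apply, residue_liftRes]
      exact h00
    · have : ((refFam rbar g0).map (algebraMap 𝒪 A)) 1 0 - 1 =
          algebraMap 𝒪 A (liftRes (rbar g0 1 0) - 1) := by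
        simp [refFam]
      rw [this]
      apply algebraMap_mem_of_residue_eq_zero
      rw [map_sub, residue_liftRes, map_one, h10, sub_self]
    · have e : (((refFam rbar g0).map (algebraMap 𝒪 A)) * ((refFam rbar g1).map (algebraMap 𝒪 A))
          - ((refFam rbar g1).map (algebraMap 𝒪 A)) * ((refFam rbar g0).map (algebraMap 𝒪 A)))
            i0 j0 = algebraMap 𝒪 A ((refFam rbar g0 * refFam rbar g1
              - refFam rbar g1 * refFam rbar g0) i0 j0) := by
        simp only [Matrix.sub_apply, Matrix.mul_apply, Matrix.map_apply, map_sub, map_sum,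
          map_mul]
      rw [e]
      apply IsUnit.map
      have hres : residue 𝒪 ((refFam rbar g0 * refFam rbar g1
              - refFam rbar g1 * refFam rbar g0) i0 j0) =
          (rbar g0 * rbar g1 - rbar g1 * rbar g0) i0 j0 := by
        simp only [Matrix.sub_apply, Matrix.mul_apply, map_sub, map_sum, map_mul, refFam,
          Matrix.of_apply, residue_liftRes]
      by_contra hnu
      have : residue 𝒪 ((refFam rbar g0 * refFam rbar g1
              - refFam rbar g1 * refFam rbar g0) i0 j0) = 0 :=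
        (IsLocalRing.residue_eq_zero_iff _).mpr hnu
      rw [hres] at this
      exact hcomm this
    · have : algebraMap 𝒪 A c0 - ((refFam rbar g1).map (algebraMap 𝒪 A)) i0 j0 =
          algebraMap 𝒪 A (c0 - liftRes (rbar g1 i0 j0)) := by
        simp [refFam]
      rw [this]
      apply algebraMap_mem_of_residue_eq_zero
      rw [map_sub, hc0, sub_self]
  refine ⟨b, Sig, ?_, ?_, ?_⟩
  · -- the residual matrices are normalised
    rw [hnorm]
    refine ⟨h00, h10, ?_⟩
    rw [hc0, IsLocalRing.ResidueField.algebraMap_eq, residue_liftRes]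
  · -- existence
    intro A _ _ _ _ _ r hr
    rw [isStrictLift_iff] at hr
    obtain ⟨hs00, hs10, hu, hc⟩ := href (A := A)
    obtain ⟨P, Q, r', hPQ, hQP, hP1, hQ1, hr', hn1, hn2, hn3⟩ :=
      nf_exists (fun σ => (refFam rbar σ).map (algebraMap 𝒪 A)) g0 g1 i0 j0 hs00 hs10 hu
        (algebraMap 𝒪 A c0) hc r (hr g0) (hr g1)
    refine ⟨⟨P, Q, hPQ, hQP⟩, r', ?_, ?_, ?_⟩
    · rw [isStrictLift_iff]
      intro σ
      rw [hr' σ]
      exact (MatCong.conj hP1 hQ1).trans (hr σ)
    · rw [hnorm]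
      exact ⟨hn1, hn2, hn3⟩
    · intro σ
      show P * r σ = r' σ * P
      rw [hr' σ, Matrix.mul_assoc, hQP, Matrix.mul_one]
  · -- uniqueness
    intro A _ _ _ _ _ r r' hr hr' hn hn' M hM
    rw [isStrictLift_iff] at hr hr'
    rw [hnorm] at hn hn'
    obtain ⟨hs00, hs10, hu, hc⟩ := href (A := A)
    refine nf_unique (fun σ => (refFam rbar σ).map (algebraMap 𝒪 A)) g0 g1 i0 j0 hu r r'
      (hr g0) (hr g1) (hr' g1) hn.1 hn.2.1 hn'.1 hn'.2.1 (hn.2.2.trans hn'.2.2.symm)
      (M : M2 A) ?_ hM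
    exact (Matrix.isUnit_iff_isUnit_det _).mp M.isUnit

end Fermat.Agent.S53.helper1253
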