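/-
S53 (universal deformation ring): shared definitions / interface for the
"normalized matrix lifts" route.  Captain file (helper53).  No sorry here.
-/
import Mathlib
import Fermat.Prelude.Def_GaloisRep_DeformationRingData
import Fermat.Prelude.Def_GaloisRep_DeformationCondition

set_option autoImplicit false

namespace Fermat.Agent.S53.helper53

open IsLocalRing

/-- The absolute Galois group of `ℚ`. -/
abbrev Gal : Type := AlgebraicClosure ℚ ≃ₐ[ℚ] AlgebraicClosure ℚ

/-- `2 × 2` matrices. -/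
abbrev M2 (A : Type) : Type := Matrix (Fin 2) (Fin 2) A

/-- Matrix version of `GaloisActionIsAdicContinuous`: for every `n` the representation is
trivial modulo `m^n` on the subgroup fixing some finite extension. -/
def MatCont {A : Type} [CommRing A] [IsLocalRing A] (r : Gal →* M2 A) : Prop :=
  ∀ n : ℕ, ∃ L : IntermediateField ℚ (AlgebraicClosure ℚ), FiniteDimensional ℚ L ∧
    ∀ σ : Gal, (∀ x ∈ L, σ x = x) → ∀ i j, (r σ - 1) i j ∈ maximalIdeal A ^ n

theorem mem_smul_top_of_forall_mem {A : Type} [CommRing A] (I : Ideal A) (w : Fin 2 → A)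
    (hw : ∀ i, w i ∈ I) : w ∈ I • (⊤ : Submodule A (Fin 2 → A)) := by
  have h : w = ∑ i, w i • (Pi.single i 1 : Fin 2 → A) := by
    ext j
    simp [Finset.sum_apply, Pi.single_apply]
  rw [h]
  exact Submodule.sum_mem _ fun i _ => Submodule.smul_mem_smul (hw i) Submodule.mem_top

/-- The `GaloisRepAdic` attached to a continuous matrix representation: `V = Fin 2 → A`,
`ρ σ v = (r σ).mulVec v`. -/
noncomputable def ofMat {A : Type} [CommRing A] [IsLocalRing A] (r : Gal →* M2 A)
    (hr : MatCont r) : GaloisRepAdic A where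
  V := Fin 2 → A
  finrank_eq := by simp
  ρ :=
    { toFun := fun σ => Matrix.toLin' (r σ)
      map_one' := by rw [map_one, Matrix.toLin'_one]; rfl
      map_mul' := fun σ τ => by rw [map_mul, Matrix.toLin'_mul]; rfl }
  isAdicContinuous := by
    intro n
    obtain ⟨L, hL, h⟩ := hr n
    refine ⟨L, hL, fun σ hσ v => ?_⟩
    have e : (Matrix.toLin' (r σ)) v - v = (r σ - 1).mulVec v := by
      rw [Matrix.toLin'_apply, Matrix.sub_mulVec, Matrix.one_mulVec]
    show (Matrix.toLin' (r σ)) v - v ∈ _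
    rw [e]
    refine mem_smul_top_of_forall_mem _ _ fun i => ?_
    rw [Matrix.mulVec, dotProduct]
    exact Ideal.sum_mem _ fun j _ => Ideal.mul_mem_right _ _ (h σ hσ i j)

@[simp] theorem ofMat_V {A : Type} [CommRing A] [IsLocalRing A] (r : Gal →* M2 A)
    (hr : MatCont r) : (ofMat r hr).V = (Fin 2 → A) := rfl

theorem ofMat_ρ_apply {A : Type} [CommRing A] [IsLocalRing A] (r : Gal →* M2 A)
    (hr : MatCont r) (σ : Gal) (v : Fin 2 → A) :
    (ofMat r hr).ρ σ v = (r σ).mulVec v := rfl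

/-- Push a matrix representation forward along a ring homomorphism (entrywise). -/
noncomputable def mapMat {A B : Type} [CommRing A] [CommRing B] (φ : A →+* B) (r : Gal →* M2 A) :
    Gal →* M2 B :=
  (φ.mapMatrix : M2 A →+* M2 B).toMonoidHom.comp r

@[simp] theorem mapMat_apply {A B : Type} [CommRing A] [CommRing B] (φ : A →+* B)
    (r : Gal →* M2 A) (σ : Gal) (i j : Fin 2) : mapMat φ r σ i j = φ (r σ i j) := rfl

theorem mapMat_apply' {A B : Type} [CommRing A] [CommRing B] (φ : A →+* B)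
    (r : Gal →* M2 A) (σ : Gal) : mapMat φ r σ = (r σ).map φ := rfl

/-- The matrices of a residual representation in a basis. -/
noncomputable def matOfBasis {k : Type} [Field k] (ρbar : ResidualGaloisRep k)
    (b : Module.Basis (Fin 2) k ρbar.V) : Gal →* M2 k where
  toFun σ := LinearMap.toMatrix b b (ρbar.ρ σ)
  map_one' := by rw [map_one]; exact LinearMap.toMatrix_one b
  map_mul' σ τ := by rw [map_mul]; exact LinearMap.toMatrix_mul b _ _

theorem matOfBasis_apply {k : Type} [Field k] (ρbar : ResidualGaloisRep k)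
    (b : Module.Basis (Fin 2) k ρbar.V) (σ : Gal) :
    matOfBasis ρbar b σ = LinearMap.toMatrix b b (ρbar.ρ σ) := rfl

/-- `r` reduces entrywise to `rbar`: every entry of `r σ` is congruent modulo the maximal ideal
to (the image of) a lift to `𝒪` of the corresponding entry of `rbar σ`.  (Stated without
`ResidueField.map` so that no `IsLocalHom` instance is needed.) -/
def IsStrictLift {𝒪 : Type} [CommRing 𝒪] [IsLocalRing 𝒪] (rbar : Gal →* M2 (ResidueField 𝒪))
    {A : Type} [CommRing A] [IsLocalRing A] [Algebra 𝒪 A] (r : Gal → M2 A) : Prop :=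
  ∀ σ i j, ∃ c : 𝒪, residue 𝒪 c = rbar σ i j ∧ r σ i j - algebraMap 𝒪 A c ∈ maximalIdeal A

/-- The polynomial ring on the matrix entries `X (σ, i, j)`. -/
abbrev Lam (𝒪 : Type) [CommRing 𝒪] : Type := MvPolynomial (Gal × Fin 2 × Fin 2) 𝒪

/-- Evaluation of polynomials at the entries of a matrix valued function. -/
noncomputable def evalMat {𝒪 : Type} [CommRing 𝒪] {A : Type} [CommRing A] [Algebra 𝒪 A]
    (r : Gal → M2 A) : Lam 𝒪 →ₐ[𝒪] A :=
  MvPolynomial.aeval (fun x : Gal × Fin 2 × Fin 2 => r x.1 x.2.1 x.2.2)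

@[simp] theorem evalMat_X {𝒪 : Type} [CommRing 𝒪] {A : Type} [CommRing A] [Algebra 𝒪 A]
    (r : Gal → M2 A) (σ : Gal) (i j : Fin 2) :
    evalMat (𝒪 := 𝒪) r (MvPolynomial.X (σ, i, j)) = r σ i j := by
  simp [evalMat]

/-- A normalization condition is the vanishing of a set `Sig` of polynomials in the entries. -/
def IsNormalized {𝒪 : Type} [CommRing 𝒪] (Sig : Set (Lam 𝒪)) {A : Type} [CommRing A]
    [Algebra 𝒪 A] (r : Gal → M2 A) : Prop :=
  ∀ f ∈ Sig, evalMat r f = 0

/-- `Sig` is a slice for the conjugation action on strict lifts of `rbar`: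
over every complete local `𝒪`-algebra every strict lift is conjugate to a normalized strict lift,
and two conjugate normalized strict lifts are equal. -/
structure IsSlice {𝒪 : Type} [CommRing 𝒪] [IsLocalRing 𝒪] (rbar : Gal →* M2 (ResidueField 𝒪))
    (Sig : Set (Lam 𝒪)) : Prop where
  norm_rbar : IsNormalized Sig (rbar : Gal → M2 (ResidueField 𝒪))
  exists_normalized : ∀ {A : Type} [CommRing A] [IsLocalRing A] [Algebra 𝒪 A]
    [IsLocalHom (algebraMap 𝒪 A)] [IsAdicComplete (maximalIdeal A) A] (r : Gal →* M2 A),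
    IsStrictLift rbar r →
      ∃ (M : (M2 A)ˣ) (r' : Gal →* M2 A), IsStrictLift rbar r' ∧ IsNormalized Sig r' ∧
        ∀ σ, (M : M2 A) * r σ = r' σ * (M : M2 A)
  eq_of_conj : ∀ {A : Type} [CommRing A] [IsLocalRing A] [Algebra 𝒪 A]
    [IsLocalHom (algebraMap 𝒪 A)] [IsAdicComplete (maximalIdeal A) A] (r r' : Gal →* M2 A),
    IsStrictLift rbar r → IsStrictLift rbar r' → IsNormalized Sig r → IsNormalized Sig r' →
      ∀ M : (M2 A)ˣ, (∀ σ, (M : M2 A) * r σ = r' σ * (M : M2 A)) → r = r'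

/-- Normalized lifts of type `𝒟`. -/
structure IsNLift {𝒪 : Type} [CommRing 𝒪] [IsLocalRing 𝒪] (rbar : Gal →* M2 (ResidueField 𝒪))
    (Sig : Set (Lam 𝒪))
    (𝒟 : ∀ ⦃A : Type⦄ [CommRing A] [IsLocalRing A] [Algebra 𝒪 A], GaloisRepAdic A → Prop)
    {A : Type} [CommRing A] [IsLocalRing A] [Algebra 𝒪 A] (r : Gal →* M2 A) : Prop where
  cont : MatCont r
  strict : IsStrictLift rbar r
  norm : IsNormalized Sig r
  type : 𝒟 (ofMat r cont)

/-- The family of ideals `J` of `Lam 𝒪` such that `Lam 𝒪 ⧸ J` is an Artinian test algebra and the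
tautological matrices `(X (σ,i,j) mod J)` form a normalized lift of type `𝒟`. -/
def InFamily {𝒪 : Type} [CommRing 𝒪] [IsLocalRing 𝒪] (rbar : Gal →* M2 (ResidueField 𝒪))
    (Sig : Set (Lam 𝒪))
    (𝒟 : ∀ ⦃A : Type⦄ [CommRing A] [IsLocalRing A] [Algebra 𝒪 A], GaloisRepAdic A → Prop)
    (J : Ideal (Lam 𝒪)) : Prop :=
  ∃ (_ : IsLocalRing (Lam 𝒪 ⧸ J)), GaloisRep.IsArtinianTestAlgebra 𝒪 (Lam 𝒪 ⧸ J) ∧
    ∃ r : Gal →* M2 (Lam 𝒪 ⧸ J),
      (∀ σ i j, r σ i j = Ideal.Quotient.mk J (MvPolynomial.X (σ, i, j))) ∧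
        IsNLift rbar Sig 𝒟 r

/-- The augmentation ideal: kernel of evaluation at `rbar`. -/
noncomputable def augIdeal {𝒪 : Type} [CommRing 𝒪] [IsLocalRing 𝒪]
    (rbar : Gal →* M2 (ResidueField 𝒪)) : Ideal (Lam 𝒪) :=
  RingHom.ker (evalMat (𝒪 := 𝒪) (A := ResidueField 𝒪) rbar)

/-- The `𝒪`-algebra structure on the dual numbers used in `GaloisRep.TangentFinite`. -/
@[reducible] noncomputable def dualAlg (𝒪 : Type) [CommRing 𝒪] [IsLocalRing 𝒪] :
    Algebra 𝒪 (DualNumber (ResidueField 𝒪)) :=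
  ((algebraMap (ResidueField 𝒪) (DualNumber (ResidueField 𝒪))).comp
    (algebraMap 𝒪 (ResidueField 𝒪))).toAlgebra

/-- Output of the abstract ring construction (RING) -- interface of finding #725 (helper773),
copied verbatim: a complete noetherian local `𝒪`-algebra `R` with residue field `k` and a map
`ι : Λ → R` with dense image such that `ι⁻¹(m_R^n)` is the least element of the family `𝒥`
above `𝔪₀^n`. -/
structure ProRep (𝒪 Λ : Type) [CommRing 𝒪] [IsLocalRing 𝒪] [CommRing Λ] [Algebra 𝒪 Λ]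
    (𝔪₀ : Ideal Λ) (𝒥 : Set (Ideal Λ)) : Type 1 where
  R : Type
  [instCommRing : CommRing R]
  [instIsLocalRing : IsLocalRing R]
  [instIsNoetherianRing : IsNoetherianRing R]
  [instIsAdicComplete : IsAdicComplete (maximalIdeal R) R]
  [instAlgebra : Algebra 𝒪 R]
  [instIsLocalHom : IsLocalHom (algebraMap 𝒪 R)]
  residue_surjective : Function.Surjective (IsLocalRing.residue R ∘ algebraMap 𝒪 R)
  ι : Λ →ₐ[𝒪] R
  ι_dense : ∀ (n : ℕ) (x : R), ∃ y : Λ, x - ι y ∈ maximalIdeal R ^ n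
  comap_mem : ∀ n : ℕ, 0 < n → (maximalIdeal R ^ n).comap ι ∈ 𝒥
  comap_le : ∀ n : ℕ, ∀ 𝔞 ∈ 𝒥, 𝔪₀ ^ n ≤ 𝔞 → (maximalIdeal R ^ n).comap ι ≤ 𝔞

attribute [instance] ProRep.instCommRing ProRep.instIsLocalRing ProRep.instIsNoetherianRing
  ProRep.instIsAdicComplete ProRep.instAlgebra ProRep.instIsLocalHom

end Fermat.Agent.S53.helper53
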