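/-
S53 blueprint (captain helper53): every intermediate result of the "normalized matrix lifts"
route as a Prop-valued definition `Stmt_*`.  Workers prove
  theorem foo (h1 : Stmt_A ..) (h2 : Stmt_B ..) : Stmt_C ..
in their own files (hypothesis-passing style; never a sorry).  This file is sorry-free and
APPEND-ONLY: existing statements are never changed; corrections get a new name.

Notation (see helper53_Defs): `Gal`, `M2 A`, `MatCont r`, `ofMat r hr : GaloisRepAdic A`,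
`mapMat φ r`, `matOfBasis ρbar b`, `IsStrictLift rbar r`, `Lam 𝒪`, `evalMat r`, `IsNormalized Sig r`,
`IsSlice rbar Sig`, `IsNLift rbar Sig 𝒟 r`, `InFamily rbar Sig 𝒟 J`, `augIdeal rbar`, `dualAlg 𝒪`,
`ProRep 𝒪 Λ 𝔪₀ 𝒥`.
-/
import Fermat.Agent.S53.helper53_Defs

set_option autoImplicit false

namespace Fermat.Agent.S53.helper53

open IsLocalRing

/-! ## DICT: dictionary between `GaloisRepAdic` and matrix representations (no dependencies) -/

/-- DICT-A. Every `GaloisRepAdic` is equivalent to `ofMat` of a continuous matrix representation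
(choose a basis of the free rank 2 module). -/
def Stmt_DictExists : Prop :=
  ∀ (A : Type) [CommRing A] [IsLocalRing A] (ρ : GaloisRepAdic A),
    ∃ (r : Gal →* M2 A) (hr : MatCont r), ρ.IsEquiv (ofMat r hr)

/-- DICT-B0. Pushing forward along a local homomorphism preserves continuity. -/
def Stmt_MatContMap : Prop :=
  ∀ (A B : Type) [CommRing A] [IsLocalRing A] [CommRing B] [IsLocalRing B] (φ : A →+* B),
    IsLocalHom φ → ∀ r : Gal →* M2 A, MatCont r → MatCont (mapMat φ r)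

/-- DICT-B. `baseChangeAlong` of `ofMat r` is equivalent to `ofMat` of the pushed-forward
matrices. -/
def Stmt_DictBaseChange : Prop :=
  ∀ (A B : Type) [CommRing A] [IsLocalRing A] [CommRing B] [IsLocalRing B] (φ : A →+* B)
    (hφ : IsLocalHom φ) (r : Gal →* M2 A) (hr : MatCont r) (hr' : MatCont (mapMat φ r)),
    ((ofMat r hr).baseChangeAlong φ hφ).IsEquiv (ofMat (mapMat φ r) hr')

/-- DICT-C0. Conjugation preserves continuity. -/
def Stmt_MatContConj : Prop :=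
  ∀ (A : Type) [CommRing A] [IsLocalRing A] (r r' : Gal →* M2 A) (M : (M2 A)ˣ),
    (∀ σ, (M : M2 A) * r σ = r' σ * (M : M2 A)) → MatCont r → MatCont r'

/-- DICT-C. Equivalence of `ofMat`s is conjugacy by an invertible matrix. -/
def Stmt_DictEquiv : Prop :=
  ∀ (A : Type) [CommRing A] [IsLocalRing A] (r r' : Gal →* M2 A) (hr : MatCont r)
    (hr' : MatCont r'),
    (ofMat r hr).IsEquiv (ofMat r' hr') ↔
      ∃ M : (M2 A)ˣ, ∀ σ, (M : M2 A) * r σ = r' σ * (M : M2 A)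

/-- DICT-D. The residual condition of `DeformationRingData` means: equivalent to `ofMat` of a
strict lift of the matrices of `ρbar` in any fixed basis `b`. -/
def Stmt_DictResidual (𝒪 : Type) [CommRing 𝒪] [IsLocalRing 𝒪] : Prop :=
  ∀ (ρbar : ResidualGaloisRep (ResidueField 𝒪))
    (b : Module.Basis (Fin 2) (ResidueField 𝒪) ρbar.V)
    (A : Type) [CommRing A] [IsLocalRing A] [Algebra 𝒪 A] [IsLocalHom (algebraMap 𝒪 A)]
    (ρ : GaloisRepAdic A),
    ρ.residual.IsEquiv (ρbar.baseChangeAlong (IsLocalRing.ResidueField.map (algebraMap 𝒪 A))) ↔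
      ∃ (r : Gal →* M2 A) (hr : MatCont r),
        IsStrictLift (matOfBasis ρbar b) r ∧ ρ.IsEquiv (ofMat r hr)

/-- DICT-E0. The matrices of a residual representation are continuous. -/
def Stmt_MatContRes : Prop :=
  ∀ (k : Type) [Field k] (ρbar : ResidualGaloisRep k) (b : Module.Basis (Fin 2) k ρbar.V),
    MatCont (matOfBasis ρbar b)

/-- DICT-E. `ofResidualGaloisRep ρbar` is equivalent to `ofMat` of its matrices. -/
def Stmt_DictOfResidual : Prop :=
  ∀ (k : Type) [Field k] (ρbar : ResidualGaloisRep k) (b : Module.Basis (Fin 2) k ρbar.V)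
    (hr : MatCont (matOfBasis ρbar b)),
    (GaloisRepAdic.ofResidualGaloisRep ρbar).IsEquiv (ofMat (matOfBasis ρbar b) hr)

/-- DICT-F. For complete noetherian local `𝒪`-algebras the condition `𝒟` is invariant under
equivalence (from `iff_forall_surjective` + `of_isEquiv` on Artinian quotients). -/
def Stmt_TypeEquiv (𝒪 : Type) [CommRing 𝒪] [IsLocalRing 𝒪]
    (𝒟 : ∀ ⦃A : Type⦄ [CommRing A] [IsLocalRing A] [Algebra 𝒪 A], GaloisRepAdic A → Prop) : Prop :=
  ∀ (A : Type) [CommRing A] [IsLocalRing A] [IsNoetherianRing A]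
    [IsAdicComplete (maximalIdeal A) A] [Algebra 𝒪 A],
    IsLocalHom (algebraMap 𝒪 A) → Function.Surjective (IsLocalRing.residue A ∘ algebraMap 𝒪 A) →
    ∀ ρ ρ' : GaloisRepAdic A, ρ.IsEquiv ρ' → 𝒟 ρ → 𝒟 ρ'

/-! ## SLICE (no dependencies; uses only absolute irreducibility) -/

/-- SLICE. For an absolutely irreducible `ρbar` there are a basis and a set of polynomial
normalization conditions forming a slice for conjugation on strict lifts. -/
def Stmt_Slice (𝒪 : Type) [CommRing 𝒪] [IsLocalRing 𝒪] : Prop :=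
  ∀ ρbar : ResidualGaloisRep (ResidueField 𝒪), ρbar.IsAbsolutelyIrreducible →
    ∃ (b : Module.Basis (Fin 2) (ResidueField 𝒪) ρbar.V) (Sig : Set (Lam 𝒪)),
      IsSlice (matOfBasis ρbar b) Sig

/-! ## FUNCT: the family of ideals `{J | InFamily rbar Sig 𝒟 J}` of `Lam 𝒪` -/

section Family

variable (𝒪 : Type) [CommRing 𝒪] [IsLocalRing 𝒪] (rbar : Gal →* M2 (ResidueField 𝒪))
  (Sig : Set (Lam 𝒪))
  (𝒟 : ∀ ⦃A : Type⦄ [CommRing A] [IsLocalRing A] [Algebra 𝒪 A], GaloisRepAdic A → Prop)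

/-- FUNCT-0. Normalized `𝒟`-lifts push forward along `𝒪`-algebra maps of Artinian test
algebras (any such map is local). -/
def Stmt_NLiftMap : Prop :=
  ∀ (A B : Type) [CommRing A] [IsLocalRing A] [Algebra 𝒪 A] [CommRing B] [IsLocalRing B]
    [Algebra 𝒪 B], GaloisRep.IsArtinianTestAlgebra 𝒪 A → GaloisRep.IsArtinianTestAlgebra 𝒪 B →
    ∀ (φ : A →ₐ[𝒪] B) (r : Gal →* M2 A), IsNLift rbar Sig 𝒟 r →
      IsNLift rbar Sig 𝒟 (mapMat (φ : A →+* B) r)

/-- FUNCT-1. A normalized `𝒟`-lift over an Artinian test algebra gives a member of the family: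
the kernel of evaluation at its entries (injective descent to the subalgebra generated by the
entries). -/
def Stmt_FamKer : Prop :=
  ∀ (A : Type) [CommRing A] [IsLocalRing A] [Algebra 𝒪 A],
    GaloisRep.IsArtinianTestAlgebra 𝒪 A → ∀ r : Gal →* M2 A, IsNLift rbar Sig 𝒟 r →
      InFamily rbar Sig 𝒟 (RingHom.ker (evalMat (𝒪 := 𝒪) r))

/-- FUNCT-2. Members of the family lie below the augmentation ideal. -/
def Stmt_FamLe : Prop :=
  ∀ J : Ideal (Lam 𝒪), InFamily rbar Sig 𝒟 J → J ≤ augIdeal rbar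

/-- FUNCT-3. Members of the family contain a power of the augmentation ideal. -/
def Stmt_FamNil : Prop :=
  ∀ J : Ideal (Lam 𝒪), InFamily rbar Sig 𝒟 J → ∃ n : ℕ, augIdeal rbar ^ n ≤ J

/-- FUNCT-4. Members of the family have finite quotient (needs `Finite (ResidueField 𝒪)`). -/
def Stmt_FamFin : Prop :=
  ∀ J : Ideal (Lam 𝒪), InFamily rbar Sig 𝒟 J → Finite (Lam 𝒪 ⧸ J)

/-- FUNCT-5. The family is closed under binary intersections (`of_fibreProduct` applied to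
`Λ/(J ⊓ J') = Λ/J ×_{Λ/(J ⊔ J')} Λ/J'`). -/
def Stmt_FamInf : Prop :=
  ∀ J J' : Ideal (Lam 𝒪), InFamily rbar Sig 𝒟 J → InFamily rbar Sig 𝒟 J' →
    InFamily rbar Sig 𝒟 (J ⊓ J')

/-- FUNCT-6. The family is upward closed below the augmentation ideal. -/
def Stmt_FamUp : Prop :=
  ∀ J J' : Ideal (Lam 𝒪), InFamily rbar Sig 𝒟 J → J ≤ J' → J' ≤ augIdeal rbar →
    InFamily rbar Sig 𝒟 J'

/-- FUNCT-7. The augmentation ideal belongs to the family (this is where `hbar` enters). -/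
def Stmt_FamTop : Prop :=
  InFamily rbar Sig 𝒟 (augIdeal rbar)

/-- TAN-1. There are finitely many normalized `𝒟`-lifts over the dual numbers (with the
`𝒪`-algebra structure `dualAlg 𝒪` used by `TangentFinite`). -/
def Stmt_TanFinite : Prop :=
  letI := dualAlg 𝒪
  Finite {r : Gal →* M2 (DualNumber (ResidueField 𝒪)) // IsNLift rbar Sig 𝒟 r}

/-- TAN-2. Uniform bound on the tangent-level members of the family. -/
def Stmt_FamTan : Prop :=
  ∃ N : ℕ, ∀ J : Ideal (Lam 𝒪), InFamily rbar Sig 𝒟 J → augIdeal rbar ^ 2 ≤ J →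
    (∀ c ∈ maximalIdeal 𝒪, algebraMap 𝒪 (Lam 𝒪) c ∈ J) → Nat.card (Lam 𝒪 ⧸ J) ≤ N

end Family

/-! ## RING: the abstract pro-representability theorem (finding #725, no dependencies) -/

/-- RING. A family of ideals that is inf-closed, upward closed, consists of finite-index ideals
containing powers of `𝔪₀`, with bounded tangent level, is "pro-represented" by a complete
noetherian local ring. -/
def Stmt_Ring (𝒪 : Type) [CommRing 𝒪] [IsLocalRing 𝒪] : Prop :=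
  ∀ (Λ : Type) [CommRing Λ] [Algebra 𝒪 Λ] (𝔪₀ : Ideal Λ) (𝒥 : Set (Ideal Λ)),
    𝔪₀ ≠ ⊤ → (∀ x : Λ, ∃ c : 𝒪, x - algebraMap 𝒪 Λ c ∈ 𝔪₀) →
    (∀ c ∈ maximalIdeal 𝒪, algebraMap 𝒪 Λ c ∈ 𝔪₀) →
    𝔪₀ ∈ 𝒥 → (∀ 𝔞 ∈ 𝒥, 𝔞 ≤ 𝔪₀) → (∀ 𝔞 ∈ 𝒥, ∀ 𝔟 ∈ 𝒥, 𝔞 ⊓ 𝔟 ∈ 𝒥) →
    (∀ 𝔞 ∈ 𝒥, ∀ 𝔟 : Ideal Λ, 𝔞 ≤ 𝔟 → 𝔟 ≤ 𝔪₀ → 𝔟 ∈ 𝒥) →
    (∀ 𝔞 ∈ 𝒥, Finite (Λ ⧸ 𝔞)) → (∀ 𝔞 ∈ 𝒥, ∃ n : ℕ, 𝔪₀ ^ n ≤ 𝔞) →
    (∃ N : ℕ, ∀ 𝔞 ∈ 𝒥, 𝔪₀ ^ 2 ≤ 𝔞 → (∀ c ∈ maximalIdeal 𝒪, algebraMap 𝒪 Λ c ∈ 𝔞) →
      Nat.card (Λ ⧸ 𝔞) ≤ N) →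
    Nonempty (ProRep 𝒪 Λ 𝔪₀ 𝒥)

/-! ## ASM: the universal representation and its universal property -/

section Assembly

variable (𝒪 : Type) [CommRing 𝒪] [IsLocalRing 𝒪] (rbar : Gal →* M2 (ResidueField 𝒪))
  (Sig : Set (Lam 𝒪))
  (𝒟 : ∀ ⦃A : Type⦄ [CommRing A] [IsLocalRing A] [Algebra 𝒪 A], GaloisRepAdic A → Prop)

/-- ASM-1. Over the ring of a `ProRep` of the family, the matrices `ι (X (σ,i,j))` form a
normalized `𝒟`-lift. -/
def Stmt_UnivRep : Prop :=
  ∀ P : ProRep 𝒪 (Lam 𝒪) (augIdeal rbar) {J | InFamily rbar Sig 𝒟 J},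
    ∃ runiv : Gal →* M2 P.R,
      (∀ σ i j, runiv σ i j = P.ι (MvPolynomial.X (σ, i, j))) ∧ IsNLift rbar Sig 𝒟 runiv

/-- ASM-2. Existence part of the universal property in matrix form: a normalized `𝒟`-lift over
a complete noetherian local `𝒪`-algebra is the push-forward of the universal matrices along a
local `𝒪`-algebra map. -/
def Stmt_UnivLift : Prop :=
  ∀ (P : ProRep 𝒪 (Lam 𝒪) (augIdeal rbar) {J | InFamily rbar Sig 𝒟 J})
    (A : Type) [CommRing A] [IsLocalRing A] [IsNoetherianRing A]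
    [IsAdicComplete (maximalIdeal A) A] [Algebra 𝒪 A],
    IsLocalHom (algebraMap 𝒪 A) → Function.Surjective (IsLocalRing.residue A ∘ algebraMap 𝒪 A) →
    ∀ r : Gal →* M2 A, IsNLift rbar Sig 𝒟 r →
      ∃ φ : P.R →ₐ[𝒪] A, IsLocalHom (φ : P.R →+* A) ∧
        ∀ σ i j, φ (P.ι (MvPolynomial.X (σ, i, j))) = r σ i j

/-- ASM-3. Uniqueness part: two local `𝒪`-algebra maps out of the ring of a `ProRep` that agree
on the generators `ι (X (σ,i,j))` are equal (density + Hausdorff). -/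
def Stmt_UnivUnique : Prop :=
  ∀ (P : ProRep 𝒪 (Lam 𝒪) (augIdeal rbar) {J | InFamily rbar Sig 𝒟 J})
    (A : Type) [CommRing A] [IsLocalRing A] [IsNoetherianRing A]
    [IsAdicComplete (maximalIdeal A) A] [Algebra 𝒪 A] (φ φ' : P.R →ₐ[𝒪] A),
    IsLocalHom (φ : P.R →+* A) → IsLocalHom (φ' : P.R →+* A) →
    (∀ σ i j, φ (P.ι (MvPolynomial.X (σ, i, j))) = φ' (P.ι (MvPolynomial.X (σ, i, j)))) →
      φ = φ'

end Assembly

end Fermat.Agent.S53.helper53
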