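/-
S53, FUNCT-7 (`Stmt_FamTop` of the captain blueprint `helper53_Spec`): the augmentation ideal
belongs to the family.  Hypothesis-passing; the only blueprint statements used are
`Stmt_DictBaseChange` and `Stmt_DictOfResidual` (continuity is proved inline).
-/
import Fermat.Agent.S53.helper53_Spec

set_option autoImplicit false

namespace Fermat.Agent.S53.helper1390

open IsLocalRing Fermat.Agent.S53.helper53

section

variable {𝒪 : Type} [CommRing 𝒪] [IsLocalRing 𝒪]

/-- Evaluation at `rbar` is surjective onto the residue field. -/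
theorem evalMat_rbar_surjective (rbar : Gal →* M2 (ResidueField 𝒪)) :
    Function.Surjective (evalMat (𝒪 := 𝒪) (A := ResidueField 𝒪) rbar) := by
  intro x
  obtain ⟨c, rfl⟩ := IsLocalRing.residue_surjective x
  refine ⟨MvPolynomial.C c, ?_⟩
  simp [evalMat]

/-- The quotient of `Lam 𝒪` by the augmentation ideal is the residue field. -/
noncomputable def augEquiv (rbar : Gal →* M2 (ResidueField 𝒪)) :
    (Lam 𝒪 ⧸ augIdeal rbar) ≃ₐ[𝒪] ResidueField 𝒪 :=
  Ideal.quotientKerAlgEquivOfSurjective (evalMat_rbar_surjective rbar)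

theorem augEquiv_mk (rbar : Gal →* M2 (ResidueField 𝒪)) (f : Lam 𝒪) :
    augEquiv rbar (Ideal.Quotient.mk (augIdeal rbar) f) = evalMat rbar f := rfl

end

section

variable (𝒪 : Type) [CommRing 𝒪] [IsLocalRing 𝒪]

/-- The residue field of `𝒪` is an Artinian test algebra. -/
theorem testAlg_residueField : GaloisRep.IsArtinianTestAlgebra 𝒪 (ResidueField 𝒪) where
  isLocalHom := by
    rw [IsLocalRing.ResidueField.algebraMap_eq]
    infer_instance
  residue_surjective := by
    rw [IsLocalRing.ResidueField.algebraMap_eq]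
    exact (IsLocalRing.residue_surjective (R := ResidueField 𝒪)).comp
      (IsLocalRing.residue_surjective (R := 𝒪))
  isArtinian := inferInstance

/-- A local `𝒪`-algebra isomorphic to the residue field of `𝒪` is an Artinian test algebra. -/
theorem testAlg_of_algEquiv {A : Type} [CommRing A] [IsLocalRing A] [Algebra 𝒪 A]
    (e : A ≃ₐ[𝒪] ResidueField 𝒪) : GaloisRep.IsArtinianTestAlgebra 𝒪 A where
  isLocalHom := ⟨fun c hc => by
    have h1 : IsUnit (e (algebraMap 𝒪 A c)) := hc.map e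
    rw [e.commutes, IsLocalRing.ResidueField.algebraMap_eq] at h1
    exact (isUnit_map_iff (IsLocalRing.residue 𝒪) c).mp h1⟩
  residue_surjective := by
    intro y
    obtain ⟨x, rfl⟩ := IsLocalRing.residue_surjective y
    obtain ⟨c, hc⟩ := IsLocalRing.residue_surjective (e x)
    refine ⟨c, ?_⟩
    have h : algebraMap 𝒪 A c = x := by
      apply e.injective
      rw [e.commutes, IsLocalRing.ResidueField.algebraMap_eq, hc]
    simp [h]
  isArtinian := RingEquiv.isArtinianRing e.symm.toRingEquiv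

end

section

variable (𝒪 : Type) [CommRing 𝒪] [IsLocalRing 𝒪]

/-- FUNCT-7 in a general form: for any multiplicative `rbar : Gal →* M2 k` which is trivial on the
absolute Galois group of a finite extension, is normalized, and whose `ofMat` is of type `𝒟`,
the augmentation ideal belongs to the family. -/
theorem inFamily_augIdeal
    (𝒟 : ∀ ⦃A : Type⦄ [CommRing A] [IsLocalRing A] [Algebra 𝒪 A], GaloisRepAdic A → Prop)
    (hD : GaloisRep.IsDeformationCondition 𝒪 𝒟)
    (rbar : Gal →* M2 (ResidueField 𝒪)) (Sig : Set (Lam 𝒪))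
    (hfl : GaloisFactorsThroughFiniteLevel rbar)
    (hnorm : IsNormalized Sig (rbar : Gal → M2 (ResidueField 𝒪)))
    (hcont : MatCont rbar) (htype : 𝒟 (ofMat rbar hcont))
    (hDBC : Stmt_DictBaseChange) :
    InFamily rbar Sig 𝒟 (augIdeal rbar) := by
  -- the quotient is the residue field
  let e : (Lam 𝒪 ⧸ augIdeal rbar) ≃ₐ[𝒪] ResidueField 𝒪 := augEquiv rbar
  have hloc : IsLocalRing (Lam 𝒪 ⧸ augIdeal rbar) := e.symm.toRingEquiv.isLocalRing
  have hA : GaloisRep.IsArtinianTestAlgebra 𝒪 (Lam 𝒪 ⧸ augIdeal rbar) := testAlg_of_algEquiv 𝒪 e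
  have hk : GaloisRep.IsArtinianTestAlgebra 𝒪 (ResidueField 𝒪) := testAlg_residueField 𝒪
  let φ : ResidueField 𝒪 →ₐ[𝒪] (Lam 𝒪 ⧸ augIdeal rbar) := e.symm.toAlgHom
  have hφ : IsLocalHom (φ : ResidueField 𝒪 →+* (Lam 𝒪 ⧸ augIdeal rbar)) :=
    ⟨fun a ha => by
      have h1 : IsUnit (e (φ a)) := ha.map e
      have h2 : e (φ a) = a := e.apply_symm_apply a
      rwa [h2] at h1⟩
  let r : Gal →* M2 (Lam 𝒪 ⧸ augIdeal rbar) :=
    mapMat (φ : ResidueField 𝒪 →+* (Lam 𝒪 ⧸ augIdeal rbar)) rbar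
  have hentry : ∀ σ i j, r σ i j =
      Ideal.Quotient.mk (augIdeal rbar) (MvPolynomial.X (σ, i, j)) := by
    intro σ i j
    show e.symm (rbar σ i j) = _
    rw [AlgEquiv.symm_apply_eq, augEquiv_mk, evalMat_X]
  have hrcont : MatCont r := by
    intro n
    obtain ⟨L, hL, h⟩ := hfl
    refine ⟨L, hL, fun σ hσ i j => ?_⟩
    have h1 : r σ = 1 := by
      show mapMat _ rbar σ = 1
      rw [mapMat_apply', h σ hσ]
      exact Matrix.map_one _ (map_zero _) (map_one _)
    rw [h1, sub_self]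
    exact Ideal.zero_mem _
  refine ⟨hloc, hA, r, hentry, ⟨hrcont, ?_, ?_, ?_⟩⟩
  · -- strict
    intro σ i j
    obtain ⟨c, hc⟩ := IsLocalRing.residue_surjective (rbar σ i j)
    refine ⟨c, hc, ?_⟩
    have h0 : r σ i j - algebraMap 𝒪 (Lam 𝒪 ⧸ augIdeal rbar) c = 0 := by
      apply e.injective
      rw [map_sub, map_zero, e.commutes, IsLocalRing.ResidueField.algebraMap_eq, hc]
      show e (e.symm (rbar σ i j)) - _ = 0
      rw [e.apply_symm_apply, sub_self]
    rw [h0]
    exact Ideal.zero_mem _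
  · -- normalized
    intro f hf
    have hev : evalMat (𝒪 := 𝒪) (r : Gal → M2 (Lam 𝒪 ⧸ augIdeal rbar)) =
        Ideal.Quotient.mkₐ 𝒪 (augIdeal rbar) := by
      apply MvPolynomial.algHom_ext
      rintro ⟨σ, i, j⟩
      rw [evalMat_X, hentry]
      rfl
    rw [hev]
    show Ideal.Quotient.mk (augIdeal rbar) f = 0
    rw [Ideal.Quotient.eq_zero_iff_mem]
    exact hnorm f hf
  · -- type
    have h3 := hD.baseChangeAlong hk hA φ hφ htype
    have h4 := hDBC (ResidueField 𝒪) (Lam 𝒪 ⧸ augIdeal rbar)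
      (φ : ResidueField 𝒪 →+* (Lam 𝒪 ⧸ augIdeal rbar)) hφ rbar hcont hrcont
    exact hD.of_isEquiv hA h4 h3

end

section

/-- The matrices of a residual representation factor through a finite level. -/
theorem matOfBasis_factors {k : Type} [Field k] (ρbar : ResidualGaloisRep k)
    (b : Module.Basis (Fin 2) k ρbar.V) : GaloisFactorsThroughFiniteLevel (matOfBasis ρbar b) := by
  obtain ⟨L, hL, h⟩ := ρbar.factorsThroughFiniteLevel
  refine ⟨L, hL, fun σ hσ => ?_⟩
  rw [matOfBasis_apply, h σ hσ]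
  exact LinearMap.toMatrix_one b

/-- A matrix representation over a local ring which factors through a finite level is
continuous. -/
theorem matCont_of_factors {A : Type} [CommRing A] [IsLocalRing A] (r : Gal →* M2 A)
    (h : GaloisFactorsThroughFiniteLevel r) : MatCont r := by
  intro n
  obtain ⟨L, hL, h⟩ := h
  refine ⟨L, hL, fun σ hσ i j => ?_⟩
  rw [h σ hσ, sub_self]
  exact Ideal.zero_mem _

/-- DICT-E0 (`Stmt_MatContRes`). -/
theorem matContRes : Stmt_MatContRes :=
  fun _ _ ρbar b => matCont_of_factors _ (matOfBasis_factors ρbar b)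

/-- DICT-E (`Stmt_DictOfResidual`). -/
theorem dictOfResidual : Stmt_DictOfResidual :=
  fun _ _ ρbar b _ =>
    ⟨{ toLinearEquiv := b.equivFun
       map_apply := fun σ x => (LinearMap.toMatrix_mulVec_repr b b (ρbar.ρ σ) x).symm }⟩

end

section

variable (𝒪 : Type) [CommRing 𝒪] [IsLocalRing 𝒪]

/-- FUNCT-7 with the two dictionary statements as hypotheses (exact captain statement). -/
theorem famTop_of
    (𝒟 : ∀ ⦃A : Type⦄ [CommRing A] [IsLocalRing A] [Algebra 𝒪 A], GaloisRepAdic A → Prop)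
    (hD : GaloisRep.IsDeformationCondition 𝒪 𝒟)
    (ρbar : ResidualGaloisRep (ResidueField 𝒪))
    (b : Module.Basis (Fin 2) (ResidueField 𝒪) ρbar.V) (Sig : Set (Lam 𝒪))
    (hbar : 𝒟 (GaloisRepAdic.ofResidualGaloisRep ρbar))
    (hnorm : IsNormalized Sig (matOfBasis ρbar b : Gal → M2 (ResidueField 𝒪)))
    (hDBC : Stmt_DictBaseChange) (hDOR : Stmt_DictOfResidual) :
    Stmt_FamTop 𝒪 (matOfBasis ρbar b) Sig 𝒟 := by
  have hfl := matOfBasis_factors ρbar b
  have hcont : MatCont (matOfBasis ρbar b) := matCont_of_factors _ hfl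
  have htype : 𝒟 (ofMat (matOfBasis ρbar b) hcont) :=
    hD.of_isEquiv (testAlg_residueField 𝒪) (hDOR _ ρbar b hcont) hbar
  exact inFamily_augIdeal 𝒪 𝒟 hD (matOfBasis ρbar b) Sig hfl hnorm hcont htype hDBC

/-- FUNCT-7 (`Stmt_FamTop`): the augmentation ideal belongs to the family.  Only
`Stmt_DictBaseChange` is needed from the blueprint. -/
theorem famTop
    (𝒟 : ∀ ⦃A : Type⦄ [CommRing A] [IsLocalRing A] [Algebra 𝒪 A], GaloisRepAdic A → Prop)
    (hD : GaloisRep.IsDeformationCondition 𝒪 𝒟)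
    (ρbar : ResidualGaloisRep (ResidueField 𝒪))
    (b : Module.Basis (Fin 2) (ResidueField 𝒪) ρbar.V) (Sig : Set (Lam 𝒪))
    (hbar : 𝒟 (GaloisRepAdic.ofResidualGaloisRep ρbar))
    (hS : IsSlice (matOfBasis ρbar b) Sig)
    (hDBC : Stmt_DictBaseChange) :
    Stmt_FamTop 𝒪 (matOfBasis ρbar b) Sig 𝒟 :=
  famTop_of 𝒪 𝒟 hD ρbar b Sig hbar hS.norm_rbar hDBC dictOfResidual

end

end Fermat.Agent.S53.helper1390
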