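/-
S53, ASM group of the captain blueprint (helper53_Spec): the universal representation over the
ring of a `ProRep` and its universal property (hypothesis-passing style).  helper1493.
-/
import Fermat.Agent.S53.helper53_Spec
import Fermat.Agent.S53.helper533_TestAlg

set_option autoImplicit false

namespace Fermat.Agent.S53.helper1493

open IsLocalRing Fermat.Agent.S53.helper53

/-- A local ring homomorphism maps the `n`-th power of the maximal ideal into the `n`-th power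
of the maximal ideal. -/
theorem map_mem_maxPow {R A : Type} [CommRing R] [IsLocalRing R] [CommRing A] [IsLocalRing A]
    (ψ : R →+* A) (hψ : IsLocalHom ψ) (n : ℕ) {x : R} (hx : x ∈ maximalIdeal R ^ n) :
    ψ x ∈ maximalIdeal A ^ n := by
  have h1 : (maximalIdeal R).map ψ ≤ maximalIdeal A :=
    Ideal.map_le_iff_le_comap.mpr fun a ha => Ideal.mem_comap.mpr (map_nonunit ψ a ha)
  have h2 : (maximalIdeal R ^ n).map ψ ≤ maximalIdeal A ^ n := by
    rw [Ideal.map_pow]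
    exact Ideal.pow_right_mono h1 n
  exact h2 (Ideal.mem_map_of_mem ψ hx)

/-- In an adically Hausdorff ring, an element lying in all powers of the ideal is zero. -/
theorem eq_zero_of_forall_mem_pow {A : Type} [CommRing A] (I : Ideal A) [IsHausdorff I A]
    (x : A) (h : ∀ n : ℕ, x ∈ I ^ n) : x = 0 := by
  refine IsHausdorff.haus' (I := I) x fun n => ?_
  rw [SModEq.zero, smul_eq_mul, Ideal.mul_top]
  exact h n

/-- If `ι : Λ → R` has dense image modulo an ideal `I`, an algebra map `g : Λ → B` killing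
`ι⁻¹(I)` extends to an algebra map `R → B` killing `I`. -/
theorem exists_algHom_of_dense {𝒪 Λ R B : Type} [CommRing 𝒪] [CommRing Λ] [CommRing R]
    [CommRing B] [Algebra 𝒪 Λ] [Algebra 𝒪 R] [Algebra 𝒪 B] (ι : Λ →ₐ[𝒪] R) (I : Ideal R)
    (hd : ∀ x : R, ∃ y : Λ, x - ι y ∈ I) (g : Λ →ₐ[𝒪] B)
    (hg : ∀ y : Λ, ι y ∈ I → g y = 0) :
    ∃ f : R →ₐ[𝒪] B, (∀ y, f (ι y) = g y) ∧ ∀ x ∈ I, f x = 0 := by
  let J : Ideal Λ := I.comap (ι : Λ →+* R)
  let ιq : Λ ⧸ J →ₐ[𝒪] R ⧸ I := Ideal.quotientMapₐ I ι le_rfl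
  have hinj : Function.Injective ιq :=
    Ideal.quotientMap_injective (I := I) (f := (ι : Λ →+* R))
  have hsurj : Function.Surjective ιq := by
    intro z
    obtain ⟨x, rfl⟩ := Ideal.Quotient.mk_surjective z
    obtain ⟨y, hy⟩ := hd x
    refine ⟨Ideal.Quotient.mk J y, ?_⟩
    show Ideal.Quotient.mk I (ι y) = Ideal.Quotient.mk I x
    rw [eq_comm, Ideal.Quotient.eq]
    exact hy
  let e : (Λ ⧸ J) ≃ₐ[𝒪] (R ⧸ I) := AlgEquiv.ofBijective ιq ⟨hinj, hsurj⟩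
  let gq : Λ ⧸ J →ₐ[𝒪] B := Ideal.Quotient.liftₐ J g (fun a ha => hg a ha)
  refine ⟨gq.comp ((e.symm : (R ⧸ I) →ₐ[𝒪] (Λ ⧸ J)).comp (Ideal.Quotient.mkₐ 𝒪 I)), ?_, ?_⟩
  · intro y
    have h1 : e.symm (Ideal.Quotient.mk I (ι y)) = Ideal.Quotient.mk J y := by
      rw [AlgEquiv.symm_apply_eq]; rfl
    show gq (e.symm (Ideal.Quotient.mk I (ι y))) = g y
    rw [h1]
    rfl
  · intro x hx
    have h0 : Ideal.Quotient.mk I x = 0 := Ideal.Quotient.eq_zero_iff_mem.mpr hx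
    show gq (e.symm (Ideal.Quotient.mk I x)) = 0
    rw [h0, map_zero, map_zero]

/-- For a strict lift `r` of `rbar`, evaluation at `r` is congruent modulo the maximal ideal to a
lift of the evaluation at `rbar`. -/
theorem strict_eval {𝒪 : Type} [CommRing 𝒪] [IsLocalRing 𝒪] (rbar : Gal →* M2 (ResidueField 𝒪))
    {A : Type} [CommRing A] [IsLocalRing A] [Algebra 𝒪 A] (r : Gal → M2 A)
    (hs : IsStrictLift rbar r) (x : Lam 𝒪) :
    ∃ c : 𝒪, residue 𝒪 c = evalMat (𝒪 := 𝒪) (A := ResidueField 𝒪) rbar x ∧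
      evalMat r x - algebraMap 𝒪 A c ∈ maximalIdeal A := by
  induction x using MvPolynomial.induction_on with
  | C a =>
    refine ⟨a, ?_, ?_⟩
    · simp [evalMat, IsLocalRing.ResidueField.algebraMap_eq]
    · simp [evalMat]
  | add p q hp hq =>
    obtain ⟨c, hc, hc'⟩ := hp
    obtain ⟨d, hd, hd'⟩ := hq
    refine ⟨c + d, by rw [map_add, map_add, hc, hd], ?_⟩
    have e : evalMat r (p + q) - algebraMap 𝒪 A (c + d) =
        (evalMat r p - algebraMap 𝒪 A c) + (evalMat r q - algebraMap 𝒪 A d) := by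
      rw [map_add, map_add]; ring
    rw [e]
    exact Ideal.add_mem _ hc' hd'
  | mul_X p x hp =>
    obtain ⟨σ, i, j⟩ := x
    obtain ⟨c, hc, hc'⟩ := hp
    obtain ⟨d, hd, hd'⟩ := hs σ i j
    refine ⟨c * d, by rw [map_mul, map_mul, hc, hd, evalMat_X], ?_⟩
    have e : evalMat r (p * MvPolynomial.X (σ, i, j)) - algebraMap 𝒪 A (c * d) =
        (evalMat r p - algebraMap 𝒪 A c) * r σ i j +
          algebraMap 𝒪 A c * (r σ i j - algebraMap 𝒪 A d) := by
      rw [map_mul, map_mul, evalMat_X]; ring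
    rw [e]
    exact Ideal.add_mem _ (Ideal.mul_mem_right _ _ hc') (Ideal.mul_mem_left _ _ hd')

/-- Evaluation at a strict lift maps the augmentation ideal into the maximal ideal. -/
theorem augIdeal_le_comap_evalMat {𝒪 : Type} [CommRing 𝒪] [IsLocalRing 𝒪]
    (rbar : Gal →* M2 (ResidueField 𝒪))
    {A : Type} [CommRing A] [IsLocalRing A] [Algebra 𝒪 A] (hloc : IsLocalHom (algebraMap 𝒪 A))
    (r : Gal → M2 A) (hs : IsStrictLift rbar r) :
    augIdeal rbar ≤ (maximalIdeal A).comap (evalMat (𝒪 := 𝒪) r : Lam 𝒪 →+* A) := by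
  intro x hx
  obtain ⟨c, hc, hc'⟩ := strict_eval rbar r hs x
  have hx0 : evalMat (𝒪 := 𝒪) (A := ResidueField 𝒪) rbar x = 0 := hx
  rw [hx0, residue_eq_zero_iff] at hc
  have hc2 : algebraMap 𝒪 A c ∈ maximalIdeal A := fun hu => hc (hloc.map_nonunit c hu)
  have e : evalMat (𝒪 := 𝒪) r x = (evalMat r x - algebraMap 𝒪 A c) + algebraMap 𝒪 A c := by ring
  show evalMat (𝒪 := 𝒪) r x ∈ maximalIdeal A
  rw [e]
  exact Ideal.add_mem _ hc' hc2

/-- Evaluation at the pushed-forward matrices is the composite. -/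
theorem evalMat_mapMat {𝒪 : Type} [CommRing 𝒪] {A B : Type} [CommRing A] [CommRing B]
    [Algebra 𝒪 A] [Algebra 𝒪 B] (φ : A →ₐ[𝒪] B) (r : Gal →* M2 A) :
    evalMat (𝒪 := 𝒪) (mapMat (φ : A →+* B) r) = φ.comp (evalMat (𝒪 := 𝒪) r) := by
  refine MvPolynomial.algHom_ext fun x => ?_
  obtain ⟨σ, i, j⟩ := x
  simp [evalMat]

section

variable (𝒪 : Type) [CommRing 𝒪] [IsLocalRing 𝒪] (rbar : Gal →* M2 (ResidueField 𝒪))
  (Sig : Set (Lam 𝒪))
  (𝒟 : ∀ ⦃A : Type⦄ [CommRing A] [IsLocalRing A] [Algebra 𝒪 A], GaloisRepAdic A → Prop)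

/-- ASM-3 of the blueprint. -/
theorem univUnique : Stmt_UnivUnique 𝒪 rbar Sig 𝒟 := by
  intro P A _ _ _ _ _ φ φ' hφ hφ' h
  have hcomp : φ.comp P.ι = φ'.comp P.ι :=
    MvPolynomial.algHom_ext fun x => by
      obtain ⟨σ, i, j⟩ := x
      exact h σ i j
  refine AlgHom.ext fun x => ?_
  rw [← sub_eq_zero]
  refine eq_zero_of_forall_mem_pow (maximalIdeal A) _ fun n => ?_
  obtain ⟨y, hy⟩ := P.ι_dense n x
  have h1 : φ (x - P.ι y) ∈ maximalIdeal A ^ n := map_mem_maxPow (φ : P.R →+* A) hφ n hy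
  have h2 : φ' (x - P.ι y) ∈ maximalIdeal A ^ n := map_mem_maxPow (φ' : P.R →+* A) hφ' n hy
  have h3 : φ (P.ι y) = φ' (P.ι y) := congrArg (fun f : Lam 𝒪 →ₐ[𝒪] A => f y) hcomp
  have h4 : φ x - φ' x = φ (x - P.ι y) - φ' (x - P.ι y) := by
    rw [map_sub, map_sub, h3]; ring
  rw [h4]
  exact Ideal.sub_mem _ h1 h2

/-- Push-forward of a normalized `𝒟`-lift over a complete noetherian local `𝒪`-algebra to the
Artinian quotient `A ⧸ m^n` (`n ≠ 0`). -/
theorem isNLift_quot_maxPow (h𝒟 : GaloisRep.IsDeformationCondition 𝒪 𝒟)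
    (hMap : Stmt_MatContMap) (hBC : Stmt_DictBaseChange)
    {A : Type} [CommRing A] [IsLocalRing A] [IsNoetherianRing A]
    [IsAdicComplete (maximalIdeal A) A] [Algebra 𝒪 A]
    (hloc : IsLocalHom (algebraMap 𝒪 A))
    (hres : Function.Surjective (IsLocalRing.residue A ∘ algebraMap 𝒪 A))
    (r : Gal →* M2 A) (hr : IsNLift rbar Sig 𝒟 r) (n : ℕ)
    [IsLocalRing (A ⧸ maximalIdeal A ^ n)] :
    IsNLift rbar Sig 𝒟
      (mapMat (Ideal.Quotient.mkₐ 𝒪 (maximalIdeal A ^ n) : A →+* A ⧸ maximalIdeal A ^ n) r) := by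
  have hT : GaloisRep.IsArtinianTestAlgebra 𝒪 (A ⧸ maximalIdeal A ^ n) :=
    helper533.testAlg_quot_maxPow 𝒪 hloc hres n
  have hsurj : Function.Surjective (Ideal.Quotient.mkₐ 𝒪 (maximalIdeal A ^ n)) :=
    Ideal.Quotient.mkₐ_surjective 𝒪 _
  have hq : IsLocalHom
      ((Ideal.Quotient.mkₐ 𝒪 (maximalIdeal A ^ n) : A →ₐ[𝒪] A ⧸ maximalIdeal A ^ n) :
        A →+* A ⧸ maximalIdeal A ^ n) :=
    helper533.isLocalHom_of_residue_surjective 𝒪 hT.residue_surjective _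
  have hcont : MatCont (mapMat
      (Ideal.Quotient.mkₐ 𝒪 (maximalIdeal A ^ n) : A →+* A ⧸ maximalIdeal A ^ n) r) :=
    hMap A (A ⧸ maximalIdeal A ^ n) _ hq r hr.cont
  refine ⟨hcont, ?_, ?_, ?_⟩
  · intro σ i j
    obtain ⟨c, hc, hmem⟩ := hr.strict σ i j
    refine ⟨c, hc, ?_⟩
    have e : mapMat (Ideal.Quotient.mkₐ 𝒪 (maximalIdeal A ^ n) : A →+* A ⧸ maximalIdeal A ^ n)
        r σ i j - algebraMap 𝒪 (A ⧸ maximalIdeal A ^ n) c =
        (Ideal.Quotient.mkₐ 𝒪 (maximalIdeal A ^ n) : A →+* A ⧸ maximalIdeal A ^ n)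
          (r σ i j - algebraMap 𝒪 A c) := by
      rw [mapMat_apply, map_sub]
      rfl
    rw [e]
    intro hu
    exact hmem (hq.map_nonunit _ hu)
  · intro f hf
    rw [evalMat_mapMat, AlgHom.comp_apply, hr.norm f hf, map_zero]
  · have h1 := (h𝒟.iff_forall_surjective hloc hres (ofMat r hr.cont)).mp hr.type hT
      (Ideal.Quotient.mkₐ 𝒪 (maximalIdeal A ^ n)) hq hsurj
    exact h𝒟.of_isEquiv hT (hBC A (A ⧸ maximalIdeal A ^ n) _ hq r hr.cont hcont) h1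

/-- ASM-2 of the blueprint. -/
theorem univLift (h𝒟 : GaloisRep.IsDeformationCondition 𝒪 𝒟)
    (hMap : Stmt_MatContMap) (hBC : Stmt_DictBaseChange)
    (hKer : Stmt_FamKer 𝒪 rbar Sig 𝒟) : Stmt_UnivLift 𝒪 rbar Sig 𝒟 := by
  intro P A _ _ _ _ _ hloc hres r hr
  -- the key inclusion of ideals of `Lam 𝒪`
  have hle : ∀ n : ℕ, (maximalIdeal P.R ^ n).comap (P.ι : Lam 𝒪 →+* P.R) ≤
      (maximalIdeal A ^ n).comap (evalMat (𝒪 := 𝒪) r : Lam 𝒪 →+* A) := by
    intro n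
    rcases Nat.eq_zero_or_pos n with rfl | hn
    · simp
    · have : IsLocalRing (A ⧸ maximalIdeal A ^ n) :=
        helper533.isLocalRing_quot_maxPow (A := A) n hn.ne'
      have hT : GaloisRep.IsArtinianTestAlgebra 𝒪 (A ⧸ maximalIdeal A ^ n) :=
        helper533.testAlg_quot_maxPow 𝒪 hloc hres n
      have hNL := isNLift_quot_maxPow 𝒪 rbar Sig 𝒟 h𝒟 hMap hBC hloc hres r hr n
      have hmem := hKer (A ⧸ maximalIdeal A ^ n) hT _ hNL
      have hker : RingHom.ker (evalMat (𝒪 := 𝒪) (mapMat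
          (Ideal.Quotient.mkₐ 𝒪 (maximalIdeal A ^ n) : A →+* A ⧸ maximalIdeal A ^ n) r)) =
          (maximalIdeal A ^ n).comap (evalMat (𝒪 := 𝒪) r : Lam 𝒪 →+* A) := by
        ext x
        rw [RingHom.mem_ker, evalMat_mapMat, AlgHom.comp_apply, Ideal.mem_comap,
          Ideal.Quotient.mkₐ_eq_mk, Ideal.Quotient.eq_zero_iff_mem]
        rfl
      rw [hker] at hmem
      refine P.comap_le n _ hmem ?_
      calc augIdeal rbar ^ n
          ≤ ((maximalIdeal A).comap (evalMat (𝒪 := 𝒪) r : Lam 𝒪 →+* A)) ^ n :=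
            Ideal.pow_right_mono (augIdeal_le_comap_evalMat rbar hloc r hr.strict) n
        _ ≤ (maximalIdeal A ^ n).comap (evalMat (𝒪 := 𝒪) r : Lam 𝒪 →+* A) :=
            Ideal.le_comap_pow _ n
  -- the maps `R → A ⧸ m^n`
  have hex : ∀ n : ℕ, ∃ f : P.R →ₐ[𝒪] A ⧸ maximalIdeal A ^ n,
      (∀ y, f (P.ι y) = Ideal.Quotient.mk (maximalIdeal A ^ n) (evalMat (𝒪 := 𝒪) r y)) ∧
        ∀ x ∈ maximalIdeal P.R ^ n, f x = 0 := by
    intro n
    refine exists_algHom_of_dense P.ι (maximalIdeal P.R ^ n) (P.ι_dense n)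
      ((Ideal.Quotient.mkₐ 𝒪 (maximalIdeal A ^ n)).comp (evalMat (𝒪 := 𝒪) r)) fun y hy => ?_
    have h1 : evalMat (𝒪 := 𝒪) r y ∈ maximalIdeal A ^ n := hle n hy
    rw [AlgHom.comp_apply, Ideal.Quotient.mkₐ_eq_mk]
    exact Ideal.Quotient.eq_zero_iff_mem.mpr h1
  choose f hf1 hf2 using hex
  have hcompat : ∀ {m n : ℕ} (hmn : m ≤ n),
      (Ideal.Quotient.factorₐ 𝒪 (Ideal.pow_le_pow_right hmn)).comp (f n) = f m := by
    intro m n hmn
    refine AlgHom.ext fun x => ?_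
    obtain ⟨y, hy⟩ := P.ι_dense n x
    have hy' : x - P.ι y ∈ maximalIdeal P.R ^ m := Ideal.pow_le_pow_right hmn hy
    have e1 : f n x = Ideal.Quotient.mk (maximalIdeal A ^ n) (evalMat (𝒪 := 𝒪) r y) := by
      have h0 : f n x = f n (P.ι y) + f n (x - P.ι y) := by
        rw [← map_add]; congr 1; ring
      rw [h0, hf1, hf2 n _ hy, add_zero]
    have e2 : f m x = Ideal.Quotient.mk (maximalIdeal A ^ m) (evalMat (𝒪 := 𝒪) r y) := by
      have h0 : f m x = f m (P.ι y) + f m (x - P.ι y) := by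
        rw [← map_add]; congr 1; ring
      rw [h0, hf1, hf2 m _ hy', add_zero]
    rw [AlgHom.comp_apply, e1, e2]
    rfl
  let φ : P.R →ₐ[𝒪] A := IsAdicComplete.liftAlgHom (maximalIdeal A) f hcompat
  have hφ : ∀ n, (Ideal.Quotient.mkₐ 𝒪 (maximalIdeal A ^ n)).comp φ = f n :=
    fun n => IsAdicComplete.mkₐ_comp_liftAlgHom (maximalIdeal A) f hcompat n
  refine ⟨φ, helper533.isLocalHom_of_residue_surjective 𝒪 hres φ, fun σ i j => ?_⟩
  rw [← sub_eq_zero]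
  refine eq_zero_of_forall_mem_pow (maximalIdeal A) _ fun n => ?_
  have h1 : Ideal.Quotient.mk (maximalIdeal A ^ n) (φ (P.ι (MvPolynomial.X (σ, i, j)))) =
      Ideal.Quotient.mk (maximalIdeal A ^ n) (r σ i j) := by
    have h2 := congrArg (fun g : P.R →ₐ[𝒪] A ⧸ maximalIdeal A ^ n =>
      g (P.ι (MvPolynomial.X (σ, i, j)))) (hφ n)
    simp only [AlgHom.comp_apply, Ideal.Quotient.mkₐ_eq_mk] at h2
    rw [h2, hf1, evalMat_X]
  exact (Ideal.Quotient.eq).mp h1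

end

end Fermat.Agent.S53.helper1493
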