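/-
S53, board row 182: FUNCT-4 `Stmt_FamFin` of the captain blueprint `helper53_Spec`.
Members of the family have finite quotient: an Artinian test algebra over `𝒪` with finite
residue field is a finite ring (`helper533.testAlg_finite`).
-/
import Fermat.Agent.S53.helper53_Spec
import Fermat.Agent.S53.helper533_TestAlg

set_option autoImplicit false

namespace Fermat.Agent.S53.helper1542

open IsLocalRing Fermat.Agent.S53.helper53

/-- FUNCT-4. Members of the family have finite quotient. -/
theorem famFin (𝒪 : Type) [CommRing 𝒪] [IsLocalRing 𝒪] [Finite (ResidueField 𝒪)]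
    (rbar : Gal →* M2 (ResidueField 𝒪)) (Sig : Set (Lam 𝒪))
    (𝒟 : ∀ ⦃A : Type⦄ [CommRing A] [IsLocalRing A] [Algebra 𝒪 A], GaloisRepAdic A → Prop) :
    Stmt_FamFin 𝒪 rbar Sig 𝒟 := by
  intro J hJ
  obtain ⟨hloc, htest, -⟩ := hJ
  exact Fermat.Agent.S53.helper533.testAlg_finite 𝒪 htest

end Fermat.Agent.S53.helper1542
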