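/-
S53, ASM-1 of the captain blueprint (`helper53_Spec`): the universal matrices over the ring of a
`ProRep` of the family form a normalized `𝒟`-lift.  Hypothesis-passing; no sorry.
-/
import Fermat.Agent.S53.helper53_Spec
import Fermat.Agent.S53.helper533_TestAlg

set_option autoImplicit false

namespace Fermat.Agent.S53.helper1673

open IsLocalRing Fermat.Agent.S53.helper53

/-- In an Artinian local ring some power of the maximal ideal vanishes. -/
theorem exists_maxPow_eq_bot (B : Type) [CommRing B] [IsLocalRing B] [IsArtinianRing B] :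
    ∃ N : ℕ, maximalIdeal B ^ N = ⊥ := by
  obtain ⟨n, hn⟩ := (isArtinianRing_iff_isNilpotent_maximalIdeal B).mp inferInstance
  exact ⟨n, by simpa using hn⟩

section

variable {𝒪 : Type} [CommRing 𝒪] [IsLocalRing 𝒪] {rbar : Gal →* M2 (ResidueField 𝒪)}
  {Sig : Set (Lam 𝒪)}
  {𝒟 : ∀ ⦃A : Type⦄ [CommRing A] [IsLocalRing A] [Algebra 𝒪 A], GaloisRepAdic A → Prop}

/-- An element of `Lam` lying in all the ideals `ι⁻¹(m_R^n)`, `n ≥ 1`, is killed by `ι`. -/
theorem iota_eq_zero_of_forall_mem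
    (P : ProRep 𝒪 (Lam 𝒪) (augIdeal rbar) {J | InFamily rbar Sig 𝒟 J}) (f : Lam 𝒪)
    (hf : ∀ n : ℕ, 0 < n → f ∈ (maximalIdeal P.R ^ n).comap P.ι) : P.ι f = 0 := by
  have h : P.ι f ∈ ⨅ n : ℕ, maximalIdeal P.R ^ n := by
    rw [Ideal.mem_iInf]
    intro n
    rcases Nat.eq_zero_or_pos n with rfl | hn
    · simp
    · exact hf n hn
  rw [Ideal.iInf_pow_eq_bot_of_isLocalRing (maximalIdeal P.R) (Ideal.IsMaximal.ne_top inferInstance)]
    at h
  exact h

/-- Two polynomials with the same image in every quotient `Lam ⧸ ι⁻¹(m_R^n)`, `n ≥ 1`, have the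
same image under `ι`. -/
theorem iota_eq_of_forall_mk_eq
    (P : ProRep 𝒪 (Lam 𝒪) (augIdeal rbar) {J | InFamily rbar Sig 𝒟 J}) (f g : Lam 𝒪)
    (h : ∀ n : ℕ, 0 < n → Ideal.Quotient.mk ((maximalIdeal P.R ^ n).comap P.ι) f =
      Ideal.Quotient.mk ((maximalIdeal P.R ^ n).comap P.ι) g) : P.ι f = P.ι g := by
  rw [← sub_eq_zero, ← map_sub]
  apply iota_eq_zero_of_forall_mem P
  intro n hn
  have := h n hn
  rwa [Ideal.Quotient.eq] at this

/-- The universal matrices. -/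
noncomputable def univMat (P : ProRep 𝒪 (Lam 𝒪) (augIdeal rbar) {J | InFamily rbar Sig 𝒟 J}) :
    Gal →* M2 P.R where
  toFun σ := Matrix.of fun i j => P.ι (MvPolynomial.X (σ, i, j))
  map_one' := by
    ext i j
    simp only [Matrix.of_apply]
    have h1 : P.ι (MvPolynomial.X ((1 : Gal), i, j)) =
        P.ι (MvPolynomial.C (if i = j then (1 : 𝒪) else 0)) := by
      apply iota_eq_of_forall_mk_eq P
      intro n hn
      obtain ⟨hloc, htest, r, hr, hNL⟩ := P.comap_mem n hn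
      rw [← hr, map_one, Matrix.one_apply]
      split_ifs <;> simp
    rw [h1, Matrix.one_apply]
    split_ifs <;> simp
  map_mul' σ τ := by
    ext i j
    simp only [Matrix.of_apply, Matrix.mul_apply]
    have h1 : P.ι (MvPolynomial.X (σ * τ, i, j)) =
        P.ι (∑ k, MvPolynomial.X (σ, i, k) * MvPolynomial.X (τ, k, j)) := by
      apply iota_eq_of_forall_mk_eq P
      intro n hn
      obtain ⟨hloc, htest, r, hr, hNL⟩ := P.comap_mem n hn
      rw [← hr, map_mul, Matrix.mul_apply, map_sum]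
      simp only [map_mul, hr]
    rw [h1, map_sum]
    simp only [map_mul]

@[simp] theorem univMat_apply
    (P : ProRep 𝒪 (Lam 𝒪) (augIdeal rbar) {J | InFamily rbar Sig 𝒟 J}) (σ : Gal) (i j : Fin 2) :
    univMat P σ i j = P.ι (MvPolynomial.X (σ, i, j)) := rfl

theorem evalMat_univMat
    (P : ProRep 𝒪 (Lam 𝒪) (augIdeal rbar) {J | InFamily rbar Sig 𝒟 J}) :
    (evalMat (𝒪 := 𝒪) (univMat P : Gal → M2 P.R) : Lam 𝒪 →ₐ[𝒪] P.R) = P.ι := by
  apply MvPolynomial.algHom_ext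
  rintro ⟨σ, i, j⟩
  simp [evalMat]

theorem univMat_cont
    (P : ProRep 𝒪 (Lam 𝒪) (augIdeal rbar) {J | InFamily rbar Sig 𝒟 J}) :
    MatCont (univMat P) := by
  intro n
  rcases Nat.eq_zero_or_pos n with rfl | hn
  · obtain ⟨hloc, htest, r, hr, hNL⟩ := P.comap_mem 1 one_pos
    obtain ⟨L, hL, -⟩ := hNL.cont 0
    exact ⟨L, hL, fun σ _ i j => by simp⟩
  · obtain ⟨hloc, htest, r, hr, hNL⟩ := P.comap_mem n hn
    have := htest.isArtinian
    obtain ⟨N, hN⟩ := exists_maxPow_eq_bot (Lam 𝒪 ⧸ (maximalIdeal P.R ^ n).comap P.ι)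
    obtain ⟨L, hL, h⟩ := hNL.cont N
    refine ⟨L, hL, fun σ hσ i j => ?_⟩
    have h1 := h σ hσ i j
    rw [hN, Ideal.mem_bot, Matrix.sub_apply, hr, Matrix.one_apply] at h1
    have h2 : (MvPolynomial.X (σ, i, j) - MvPolynomial.C (if i = j then (1 : 𝒪) else 0) : Lam 𝒪) ∈
        (maximalIdeal P.R ^ n).comap P.ι := by
      rw [← Ideal.Quotient.eq_zero_iff_mem, map_sub]
      rw [← h1]
      congr 1
      split_ifs <;> simp
    rw [Ideal.mem_comap, map_sub] at h2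
    rw [Matrix.sub_apply, univMat_apply, Matrix.one_apply]
    convert h2 using 2
    split_ifs <;> simp

theorem univMat_strict
    (P : ProRep 𝒪 (Lam 𝒪) (augIdeal rbar) {J | InFamily rbar Sig 𝒟 J}) :
    IsStrictLift rbar (univMat P : Gal → M2 P.R) := by
  intro σ i j
  obtain ⟨hloc, htest, r, hr, hNL⟩ := P.comap_mem 1 one_pos
  have := htest.isArtinian
  obtain ⟨c, hc, hmem⟩ := hNL.strict σ i j
  refine ⟨c, hc, ?_⟩
  obtain ⟨N, hN⟩ := exists_maxPow_eq_bot (Lam 𝒪 ⧸ (maximalIdeal P.R ^ 1).comap P.ι)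
  have h1 : (r σ i j - algebraMap 𝒪 _ c) ^ N = 0 := by
    have := Ideal.pow_mem_pow hmem N
    rwa [hN, Ideal.mem_bot] at this
  rw [hr] at h1
  have h2 : (MvPolynomial.X (σ, i, j) - MvPolynomial.C c : Lam 𝒪) ^ N ∈
      (maximalIdeal P.R ^ 1).comap P.ι := by
    rw [← Ideal.Quotient.eq_zero_iff_mem, map_pow, map_sub]
    exact h1
  rw [Ideal.mem_comap, pow_one, map_pow] at h2
  have h3 := (Ideal.IsMaximal.isPrime' (maximalIdeal P.R)).mem_of_pow_mem N h2
  rw [map_sub, ← MvPolynomial.algebraMap_eq, AlgHom.commutes] at h3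
  exact h3

theorem univMat_norm
    (P : ProRep 𝒪 (Lam 𝒪) (augIdeal rbar) {J | InFamily rbar Sig 𝒟 J}) :
    IsNormalized Sig (univMat P : Gal → M2 P.R) := by
  intro f hf
  rw [evalMat_univMat]
  apply iota_eq_zero_of_forall_mem P
  intro n hn
  obtain ⟨hloc, htest, r, hr, hNL⟩ := P.comap_mem n hn
  have h1 := hNL.norm f hf
  have h2 : (evalMat (𝒪 := 𝒪) (r : Gal → M2 (Lam 𝒪 ⧸ (maximalIdeal P.R ^ n).comap P.ι)) :
      Lam 𝒪 →ₐ[𝒪] _) = Ideal.Quotient.mkₐ 𝒪 _ := by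
    apply MvPolynomial.algHom_ext
    rintro ⟨σ, i, j⟩
    simp [evalMat, hr]
  rw [h2] at h1
  exact Ideal.Quotient.eq_zero_iff_mem.mp h1

theorem univMat_type
    (P : ProRep 𝒪 (Lam 𝒪) (augIdeal rbar) {J | InFamily rbar Sig 𝒟 J})
    (h𝒟 : GaloisRep.IsDeformationCondition 𝒪 𝒟)
    (hMap : Stmt_NLiftMap 𝒪 rbar Sig 𝒟) (hBC : Stmt_DictBaseChange) :
    𝒟 (ofMat (univMat P) (univMat_cont P)) := by
  rw [h𝒟.iff_forall_surjective P.instIsLocalHom P.residue_surjective]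
  intro B _ _ _ hB q hq hqs
  have := hB.isArtinian
  obtain ⟨N, hN0, hN⟩ := helper533.exists_maxPow_le_ker (A := P.R) (q : P.R →+* B)
  obtain ⟨hloc, htest, r, hr, hNL⟩ := P.comap_mem N (Nat.pos_of_ne_zero hN0)
  -- the induced map on the quotient
  have hker : ∀ a ∈ (maximalIdeal P.R ^ N).comap P.ι, (q.comp P.ι) a = 0 := fun a ha => by
    have : P.ι a ∈ RingHom.ker (q : P.R →+* B) := hN ha
    simpa using this
  let qbar : (Lam 𝒪 ⧸ (maximalIdeal P.R ^ N).comap P.ι) →ₐ[𝒪] B :=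
    Ideal.Quotient.liftₐ _ (q.comp P.ι) hker
  have hpush := hMap _ B htest hB qbar r hNL
  have heq : mapMat (qbar : _ →+* B) r = mapMat (q : P.R →+* B) (univMat P) := by
    ext σ i j
    rw [mapMat_apply, mapMat_apply, hr, univMat_apply]
    rfl
  have key : ∀ (s : Gal →* M2 B) (hs : MatCont s), s = mapMat (qbar : _ →+* B) r →
      𝒟 (ofMat s hs) := by
    rintro s hs rfl
    exact hpush.type
  have hcont' : MatCont (mapMat (q : P.R →+* B) (univMat P)) := heq ▸ hpush.cont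
  have h1 := key _ hcont' heq.symm
  obtain ⟨e⟩ := hBC P.R B (q : P.R →+* B) hq (univMat P) (univMat_cont P) hcont'
  exact h𝒟.of_isEquiv hB ⟨e.symm⟩ h1

end

/-- **ASM-1** (`Stmt_UnivRep` of the captain blueprint). -/
theorem univRep (𝒪 : Type) [CommRing 𝒪] [IsLocalRing 𝒪] (rbar : Gal →* M2 (ResidueField 𝒪))
    (Sig : Set (Lam 𝒪))
    (𝒟 : ∀ ⦃A : Type⦄ [CommRing A] [IsLocalRing A] [Algebra 𝒪 A], GaloisRepAdic A → Prop)
    (h𝒟 : GaloisRep.IsDeformationCondition 𝒪 𝒟)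
    (hMap : Stmt_NLiftMap 𝒪 rbar Sig 𝒟) (hBC : Stmt_DictBaseChange) :
    Stmt_UnivRep 𝒪 rbar Sig 𝒟 := by
  intro P
  exact ⟨univMat P, fun σ i j => rfl,
    ⟨univMat_cont P, univMat_strict P, univMat_norm P, univMat_type P h𝒟 hMap hBC⟩⟩

end Fermat.Agent.S53.helper1673
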