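/-
S53, board rows 180 and 181 (captain blueprint `helper53_Spec`):
  * `famLe  : Stmt_FamLe 𝒪 rbar Sig 𝒟`   (FUNCT-2: members of the family lie below `augIdeal`)
  * `famNil : Stmt_FamNil 𝒪 rbar Sig 𝒟`  (FUNCT-3: members contain a power of `augIdeal`)
Both are unconditional (no hypotheses beyond `[CommRing 𝒪] [IsLocalRing 𝒪]`).
helper189.  No sorry.
-/
import Fermat.Agent.S53.helper53_Spec

set_option autoImplicit false

namespace Fermat.Agent.S53.helper189

open IsLocalRing Fermat.Agent.S53.helper53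

section

variable {𝒪 : Type} [CommRing 𝒪] [IsLocalRing 𝒪] (rbar : Gal →* M2 (ResidueField 𝒪))

/-- Key compatibility: for a strict lift `r` of `rbar` over a local `𝒪`-algebra `A` (with local
structure map) whose entries are the images of the variables under an `𝒪`-algebra map
`q : Lam 𝒪 →ₐ[𝒪] A`, reduction of `q` modulo the maximal ideal is evaluation at `rbar` followed by
the residue field map. -/
theorem residue_comp_eq_map_evalMat {A : Type} [CommRing A] [IsLocalRing A] [Algebra 𝒪 A]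
    [IsLocalHom (algebraMap 𝒪 A)] (q : Lam 𝒪 →ₐ[𝒪] A) (r : Gal → M2 A)
    (hq : ∀ σ i j, r σ i j = q (MvPolynomial.X (σ, i, j))) (hr : IsStrictLift rbar r)
    (x : Lam 𝒪) :
    residue A (q x) =
      ResidueField.map (algebraMap 𝒪 A) (evalMat (𝒪 := 𝒪) (A := ResidueField 𝒪) rbar x) := by
  have key : ((residue A).comp (q : Lam 𝒪 →+* A)) =
      (ResidueField.map (algebraMap 𝒪 A)).comp
        ((evalMat (𝒪 := 𝒪) (A := ResidueField 𝒪) rbar : Lam 𝒪 →ₐ[𝒪] ResidueField 𝒪) :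
          Lam 𝒪 →+* ResidueField 𝒪) := by
    apply MvPolynomial.ringHom_ext
    · intro c
      simp only [RingHom.comp_apply, RingHom.coe_coe]
      rw [← MvPolynomial.algebraMap_eq, AlgHom.commutes, AlgHom.commutes]
      rw [IsLocalRing.ResidueField.algebraMap_eq, IsLocalRing.ResidueField.map_residue]
    · rintro ⟨σ, i, j⟩
      simp only [RingHom.comp_apply, RingHom.coe_coe]
      rw [evalMat_X, ← hq σ i j]
      obtain ⟨c, hc, hmem⟩ := hr σ i j
      rw [← hc, IsLocalRing.ResidueField.map_residue]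
      rw [← sub_eq_zero, ← map_sub]
      exact (residue_eq_zero_iff _).mpr hmem
  exact congrArg (fun f : Lam 𝒪 →+* ResidueField A => f x) key

variable (Sig : Set (Lam 𝒪))
  (𝒟 : ∀ ⦃A : Type⦄ [CommRing A] [IsLocalRing A] [Algebra 𝒪 A], GaloisRepAdic A → Prop)

/-- For a member `J` of the family, reduction of `Lam 𝒪 ⧸ J` modulo its maximal ideal is
evaluation at `rbar` followed by the residue field map. -/
theorem residue_mk_eq_of_inFamily (J : Ideal (Lam 𝒪)) [IsLocalRing (Lam 𝒪 ⧸ J)]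
    [IsLocalHom (algebraMap 𝒪 (Lam 𝒪 ⧸ J))] (r : Gal →* M2 (Lam 𝒪 ⧸ J))
    (hr : ∀ σ i j, r σ i j = Ideal.Quotient.mk J (MvPolynomial.X (σ, i, j)))
    (hs : IsStrictLift rbar r) (x : Lam 𝒪) :
    residue (Lam 𝒪 ⧸ J) (Ideal.Quotient.mk J x) =
      ResidueField.map (algebraMap 𝒪 (Lam 𝒪 ⧸ J))
        (evalMat (𝒪 := 𝒪) (A := ResidueField 𝒪) rbar x) :=
  residue_comp_eq_map_evalMat rbar (Ideal.Quotient.mkₐ 𝒪 J) r hr hs x

/-- FUNCT-2 (board row 180). Members of the family lie below the augmentation ideal. -/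
theorem famLe : Stmt_FamLe 𝒪 rbar Sig 𝒟 := by
  rintro J ⟨hloc, hA, r, hr, hN⟩ x hx
  have := hA.isLocalHom
  have h := residue_mk_eq_of_inFamily rbar J r hr hN.strict x
  rw [Ideal.Quotient.eq_zero_iff_mem.mpr hx, map_zero] at h
  show x ∈ RingHom.ker _
  rw [RingHom.mem_ker]
  exact (map_eq_zero (ResidueField.map (algebraMap 𝒪 (Lam 𝒪 ⧸ J)))).mp h.symm

/-- The augmentation ideal maps into the maximal ideal of `Lam 𝒪 ⧸ J` for `J` in the family. -/
theorem mk_mem_maximalIdeal_of_mem_augIdeal (J : Ideal (Lam 𝒪)) [IsLocalRing (Lam 𝒪 ⧸ J)]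
    [IsLocalHom (algebraMap 𝒪 (Lam 𝒪 ⧸ J))] (r : Gal →* M2 (Lam 𝒪 ⧸ J))
    (hr : ∀ σ i j, r σ i j = Ideal.Quotient.mk J (MvPolynomial.X (σ, i, j)))
    (hs : IsStrictLift rbar r) {x : Lam 𝒪} (hx : x ∈ augIdeal rbar) :
    Ideal.Quotient.mk J x ∈ maximalIdeal (Lam 𝒪 ⧸ J) := by
  rw [← residue_eq_zero_iff, residue_mk_eq_of_inFamily rbar J r hr hs x]
  have hx' : evalMat (𝒪 := 𝒪) (A := ResidueField 𝒪) rbar x = 0 := hx
  rw [hx', map_zero]

/-- FUNCT-3 (board row 181). Members of the family contain a power of the augmentation ideal. -/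
theorem famNil : Stmt_FamNil 𝒪 rbar Sig 𝒟 := by
  rintro J ⟨hloc, hA, r, hr, hN⟩
  have := hA.isLocalHom
  have := hA.isArtinian
  obtain ⟨n, hn⟩ := IsArtinianRing.isNilpotent_jacobson_bot (R := Lam 𝒪 ⧸ J)
  rw [IsLocalRing.jacobson_eq_maximalIdeal ⊥ bot_ne_top] at hn
  refine ⟨n, ?_⟩
  have hle : augIdeal rbar ≤ (maximalIdeal (Lam 𝒪 ⧸ J)).comap (Ideal.Quotient.mk J) :=
    fun x hx => mk_mem_maximalIdeal_of_mem_augIdeal rbar J r hr hN.strict hx
  have h1 : (augIdeal rbar ^ n).map (Ideal.Quotient.mk J) ≤ maximalIdeal (Lam 𝒪 ⧸ J) ^ n := by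
    rw [Ideal.map_pow]
    exact Ideal.pow_right_mono (Ideal.map_le_iff_le_comap.mpr hle) n
  intro x hx
  have h2 : Ideal.Quotient.mk J x ∈ maximalIdeal (Lam 𝒪 ⧸ J) ^ n :=
    h1 (Ideal.mem_map_of_mem _ hx)
  rw [hn] at h2
  exact Ideal.Quotient.eq_zero_iff_mem.mp ((Submodule.mem_bot _).mp h2)

end

end Fermat.Agent.S53.helper189
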