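/-
S53, piece (d): interface of the abstract pro-representing ring construction.
Pure commutative algebra, no Galois representations.  The theorem proving
`Stmt_nonempty_proRep` lives in `Fermat.Agent.S53.helper773_ProRep`.
-/
import Mathlib

set_option autoImplicit false

namespace Fermat.Agent.S53.helper773

/-- A pro-representing object for an admissible family `𝒥` of ideals of an `𝒪`-algebra `Λ`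
(with distinguished maximal ideal `𝔪₀`): a complete Noetherian local `𝒪`-algebra `R` with residue
field a quotient of `𝒪`, and an `𝒪`-algebra map `ι : Λ → R` with dense image such that the kernel of
`Λ → R ⧸ 𝔪_R ^ n` is the least element of `{𝔞 ∈ 𝒥 | 𝔪₀ ^ n ≤ 𝔞}` for every `n > 0`. -/
structure ProRep (𝒪 Λ : Type) [CommRing 𝒪] [IsLocalRing 𝒪] [CommRing Λ] [Algebra 𝒪 Λ]
    (𝔪₀ : Ideal Λ) (𝒥 : Set (Ideal Λ)) : Type 1 where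
  R : Type
  [instCommRing : CommRing R]
  [instIsLocalRing : IsLocalRing R]
  [instIsNoetherianRing : IsNoetherianRing R]
  [instIsAdicComplete : IsAdicComplete (IsLocalRing.maximalIdeal R) R]
  [instAlgebra : Algebra 𝒪 R]
  [instIsLocalHom : IsLocalHom (algebraMap 𝒪 R)]
  residue_surjective : Function.Surjective (IsLocalRing.residue R ∘ algebraMap 𝒪 R)
  ι : Λ →ₐ[𝒪] R
  ι_dense : ∀ (n : ℕ) (x : R), ∃ y : Λ, x - ι y ∈ IsLocalRing.maximalIdeal R ^ n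
  comap_mem : ∀ n : ℕ, 0 < n → (IsLocalRing.maximalIdeal R ^ n).comap ι ∈ 𝒥
  comap_le : ∀ (n : ℕ), ∀ 𝔞 ∈ 𝒥, 𝔪₀ ^ n ≤ 𝔞 → (IsLocalRing.maximalIdeal R ^ n).comap ι ≤ 𝔞

attribute [instance] ProRep.instCommRing ProRep.instIsLocalRing ProRep.instIsNoetherianRing
  ProRep.instIsAdicComplete ProRep.instAlgebra ProRep.instIsLocalHom

/-- The statement of the abstract existence theorem (proved as `nonempty_proRep` in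
`Fermat.Agent.S53.helper773_ProRep`). -/
def Stmt_nonempty_proRep : Prop :=
  ∀ (𝒪 Λ : Type) [CommRing 𝒪] [IsLocalRing 𝒪] [IsNoetherianRing 𝒪]
    [Finite (IsLocalRing.ResidueField 𝒪)] [CommRing Λ] [Algebra 𝒪 Λ]
    (𝔪₀ : Ideal Λ) (𝒥 : Set (Ideal Λ)),
    𝔪₀ ≠ ⊤ →
    (∀ x : Λ, ∃ c : 𝒪, x - algebraMap 𝒪 Λ c ∈ 𝔪₀) →
    (∀ c ∈ IsLocalRing.maximalIdeal 𝒪, algebraMap 𝒪 Λ c ∈ 𝔪₀) →
    𝔪₀ ∈ 𝒥 →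
    (∀ 𝔞 ∈ 𝒥, 𝔞 ≤ 𝔪₀) →
    (∀ 𝔞 ∈ 𝒥, ∀ 𝔟 ∈ 𝒥, 𝔞 ⊓ 𝔟 ∈ 𝒥) →
    (∀ 𝔞 ∈ 𝒥, ∀ 𝔟 : Ideal Λ, 𝔞 ≤ 𝔟 → 𝔟 ≤ 𝔪₀ → 𝔟 ∈ 𝒥) →
    (∀ 𝔞 ∈ 𝒥, Finite (Λ ⧸ 𝔞)) →
    (∀ 𝔞 ∈ 𝒥, ∃ n : ℕ, 𝔪₀ ^ n ≤ 𝔞) →
    (∃ N : ℕ, ∀ 𝔞 ∈ 𝒥, 𝔪₀ ^ 2 ≤ 𝔞 →
      (∀ c ∈ IsLocalRing.maximalIdeal 𝒪, algebraMap 𝒪 Λ c ∈ 𝔞) → Nat.card (Λ ⧸ 𝔞) ≤ N) →
    Nonempty (ProRep 𝒪 Λ 𝔪₀ 𝒥)

end Fermat.Agent.S53.helper773
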