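/-
S53, board row 189 ([Spec] L0 RING adapter): the captain's `Stmt_Ring` (helper53_Spec) follows from
helper773's `Stmt_nonempty_proRep` (finding #725), since `helper53.ProRep` is a field-by-field
copy of `helper773.ProRep`.
-/
import Fermat.Agent.S53.helper53_Spec
import Fermat.Agent.S53.helper773_ProRepSpec

set_option autoImplicit false

namespace Fermat.Agent.S53.helper2288

open IsLocalRing

/-- Convert helper773's `ProRep` into the captain's (verbatim copy) `ProRep`. -/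
noncomputable def proRepConv {𝒪 Λ : Type} [CommRing 𝒪] [IsLocalRing 𝒪] [CommRing Λ] [Algebra 𝒪 Λ]
    {𝔪₀ : Ideal Λ} {𝒥 : Set (Ideal Λ)} (P : Fermat.Agent.S53.helper773.ProRep 𝒪 Λ 𝔪₀ 𝒥) :
    Fermat.Agent.S53.helper53.ProRep 𝒪 Λ 𝔪₀ 𝒥 where
  R := P.R
  residue_surjective := P.residue_surjective
  ι := P.ι
  ι_dense := P.ι_dense
  comap_mem := P.comap_mem
  comap_le := P.comap_le

/-- Convert the captain's `ProRep` back into helper773's `ProRep`. -/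
noncomputable def proRepConvBack {𝒪 Λ : Type} [CommRing 𝒪] [IsLocalRing 𝒪] [CommRing Λ]
    [Algebra 𝒪 Λ] {𝔪₀ : Ideal Λ} {𝒥 : Set (Ideal Λ)}
    (P : Fermat.Agent.S53.helper53.ProRep 𝒪 Λ 𝔪₀ 𝒥) :
    Fermat.Agent.S53.helper773.ProRep 𝒪 Λ 𝔪₀ 𝒥 where
  R := P.R
  residue_surjective := P.residue_surjective
  ι := P.ι
  ι_dense := P.ι_dense
  comap_mem := P.comap_mem
  comap_le := P.comap_le

/-- RING adapter (board row 189): helper773's abstract pro-representability statement implies the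
captain's `Stmt_Ring 𝒪` for every noetherian local ring `𝒪` with finite residue field. -/
theorem stmt_ring_of_nonempty_proRep (𝒪 : Type) [CommRing 𝒪] [IsLocalRing 𝒪] [IsNoetherianRing 𝒪]
    [Finite (ResidueField 𝒪)] (h : Fermat.Agent.S53.helper773.Stmt_nonempty_proRep) :
    Fermat.Agent.S53.helper53.Stmt_Ring 𝒪 := by
  intro Λ _ _ 𝔪₀ 𝒥 h1 h2 h3 h4 h5 h6 h7 h8 h9 h10
  obtain ⟨P⟩ := h 𝒪 Λ 𝔪₀ 𝒥 h1 h2 h3 h4 h5 h6 h7 h8 h9 h10
  exact ⟨proRepConv P⟩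

/-- Converse direction, for completeness: the captain's `Stmt_Ring 𝒪` for all `𝒪` gives back
helper773's statement. -/
theorem nonempty_proRep_of_stmt_ring
    (h : ∀ (𝒪 : Type) [CommRing 𝒪] [IsLocalRing 𝒪] [IsNoetherianRing 𝒪]
      [Finite (ResidueField 𝒪)], Fermat.Agent.S53.helper53.Stmt_Ring 𝒪) :
    Fermat.Agent.S53.helper773.Stmt_nonempty_proRep := by
  intro 𝒪 Λ _ _ _ _ _ _ 𝔪₀ 𝒥 h1 h2 h3 h4 h5 h6 h7 h8 h9 h10
  obtain ⟨P⟩ := h 𝒪 Λ 𝔪₀ 𝒥 h1 h2 h3 h4 h5 h6 h7 h8 h9 h10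
  exact ⟨proRepConvBack P⟩

end Fermat.Agent.S53.helper2288
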