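/-
S53, blueprint item ASM-2: `Stmt_UnivLift` (existence part of the universal property in
matrix form), in hypothesis-passing style.  Inputs: the deformation condition axioms `h𝒟`,
`Stmt_DictBaseChange` and `Stmt_FamKer`.
-/
import Fermat.Agent.S53.helper53_Spec
import Fermat.Agent.S53.helper533_TestAlg

set_option autoImplicit false
set_option linter.style.haveILetI false
set_option linter.unusedSectionVars false

namespace Fermat.Agent.S53.helper3121

open IsLocalRing GaloisRep Fermat.Agent.S53.helper53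

/-- Pushing a continuous matrix representation forward along a local homomorphism keeps it
continuous. -/
theorem matCont_mapMat {A B : Type} [CommRing A] [IsLocalRing A] [CommRing B] [IsLocalRing B]
    (φ : A →+* B) (hφ : IsLocalHom φ) (r : Gal →* M2 A) (hr : MatCont r) :
    MatCont (mapMat φ r) := by
  intro n
  obtain ⟨L, hL, h⟩ := hr n
  refine ⟨L, hL, fun σ hσ i j => ?_⟩
  have hmap : (maximalIdeal A ^ n).map φ ≤ maximalIdeal B ^ n := by
    rw [Ideal.map_pow]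
    exact Ideal.pow_right_mono (Ideal.map_le_iff_le_comap.mpr fun a ha =>
      Ideal.mem_comap.mpr (haveI := hφ; map_nonunit φ a ha)) n
  have e : (mapMat φ r σ - 1) i j = φ ((r σ - 1) i j) := by
    rw [Matrix.sub_apply, Matrix.sub_apply, mapMat_apply, map_sub]
    congr 1
    by_cases hij : i = j
    · subst hij; simp
    · simp [hij]
  rw [e]
  exact hmap (Ideal.mem_map_of_mem φ (h σ hσ i j))

section

variable {𝒪 : Type} [CommRing 𝒪] [IsLocalRing 𝒪]

/-- `evalMat` commutes with pushing forward along an algebra homomorphism. -/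
theorem evalMat_mapMat {A B : Type} [CommRing A] [CommRing B] [Algebra 𝒪 A] [Algebra 𝒪 B]
    (φ : A →ₐ[𝒪] B) (r : Gal →* M2 A) (f : Lam 𝒪) :
    evalMat (𝒪 := 𝒪) (mapMat (φ : A →+* B) r) f = φ (evalMat (𝒪 := 𝒪) r f) := by
  have h : evalMat (𝒪 := 𝒪) (mapMat (φ : A →+* B) r) = φ.comp (evalMat (𝒪 := 𝒪) r) := by
    apply MvPolynomial.algHom_ext
    intro x
    simp [evalMat]
  rw [h, AlgHom.comp_apply]

/-- For a strict lift `r` of `rbar` over a local `𝒪`-algebra with local structure map, the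
evaluation map sends the augmentation ideal into the maximal ideal. -/
theorem evalMat_mem_maximalIdeal_of_mem_augIdeal (rbar : Gal →* M2 (ResidueField 𝒪))
    {A : Type} [CommRing A] [IsLocalRing A] [Algebra 𝒪 A] (hloc : IsLocalHom (algebraMap 𝒪 A))
    (r : Gal →* M2 A) (hr : IsStrictLift rbar r) {f : Lam 𝒪} (hf : f ∈ augIdeal rbar) :
    evalMat (𝒪 := 𝒪) r f ∈ maximalIdeal A := by
  haveI := hloc
  have key : ∀ g : Lam 𝒪, ∃ c : 𝒪, residue 𝒪 c = evalMat (𝒪 := 𝒪) (A := ResidueField 𝒪) rbar g ∧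
      evalMat (𝒪 := 𝒪) r g - algebraMap 𝒪 A c ∈ maximalIdeal A := by
    intro g
    induction g using MvPolynomial.induction_on with
    | C a =>
      refine ⟨a, ?_, ?_⟩
      · rw [← MvPolynomial.algebraMap_eq, AlgHom.commutes]; rfl
      · rw [← MvPolynomial.algebraMap_eq, AlgHom.commutes, sub_self]
        exact zero_mem _
    | add p q hp hq =>
      obtain ⟨c1, h1, h1'⟩ := hp
      obtain ⟨c2, h2, h2'⟩ := hq
      refine ⟨c1 + c2, ?_, ?_⟩
      · rw [map_add, map_add, h1, h2]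
      · rw [map_add, map_add, add_sub_add_comm]
        exact add_mem h1' h2'
    | mul_X p x hp =>
      obtain ⟨c1, h1, h1'⟩ := hp
      obtain ⟨σ, i, j⟩ := x
      obtain ⟨c2, h2, h2'⟩ := hr σ i j
      refine ⟨c1 * c2, ?_, ?_⟩
      · rw [map_mul, map_mul, h1, h2, evalMat_X]
      · rw [map_mul, map_mul, evalMat_X]
        have e : evalMat (𝒪 := 𝒪) r p * r σ i j - algebraMap 𝒪 A c1 * algebraMap 𝒪 A c2 =
            evalMat (𝒪 := 𝒪) r p * (r σ i j - algebraMap 𝒪 A c2) +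
              algebraMap 𝒪 A c2 * (evalMat (𝒪 := 𝒪) r p - algebraMap 𝒪 A c1) := by ring
        rw [e]
        exact add_mem (Ideal.mul_mem_left _ _ h2') (Ideal.mul_mem_left _ _ h1')
  obtain ⟨c, hc, hc'⟩ := key f
  have hf' : evalMat (𝒪 := 𝒪) (A := ResidueField 𝒪) rbar f = 0 := hf
  rw [hf', residue_eq_zero_iff] at hc
  have hc2 : algebraMap 𝒪 A c ∈ maximalIdeal A := map_nonunit (algebraMap 𝒪 A) c hc
  have := add_mem hc' hc2
  simpa using this

end

/-- Extension along a dense map: if `ι : Λ → R` has `I`-adically dense image, `A` is `K`-adically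
complete and `ψ : Λ → A` satisfies `ι⁻¹(I^n) ≤ ψ⁻¹(K^n)` for all `n`, then `ψ` factors through
`ι`. -/
theorem exists_algHom_of_dense {𝒪 Λ R A : Type} [CommRing 𝒪] [CommRing Λ] [CommRing R]
    [CommRing A] [Algebra 𝒪 Λ] [Algebra 𝒪 R] [Algebra 𝒪 A] (I : Ideal R) (K : Ideal A)
    [IsAdicComplete K A] (ι : Λ →ₐ[𝒪] R) (ψ : Λ →ₐ[𝒪] A)
    (hdense : ∀ (n : ℕ) (x : R), ∃ y : Λ, x - ι y ∈ I ^ n)
    (hle : ∀ n : ℕ, (I ^ n).comap ι ≤ (K ^ n).comap ψ) :
    ∃ φ : R →ₐ[𝒪] A, ∀ y, φ (ι y) = ψ y := by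
  -- the maps `Λ → R ⧸ I^n`
  let g : ∀ n : ℕ, Λ →ₐ[𝒪] R ⧸ I ^ n := fun n => (Ideal.Quotient.mkₐ 𝒪 (I ^ n)).comp ι
  have hg : ∀ n, Function.Surjective (g n) := by
    intro n y
    obtain ⟨x, rfl⟩ := Ideal.Quotient.mk_surjective y
    obtain ⟨z, hz⟩ := hdense n x
    exact ⟨z, (Ideal.Quotient.eq.mpr hz).symm⟩
  have hgker : ∀ n, ∀ f : Λ, f ∈ RingHom.ker (g n) → ψ f ∈ K ^ n := by
    intro n f hf
    have h1 : ι f ∈ I ^ n := Ideal.Quotient.eq_zero_iff_mem.mp hf
    exact hle n h1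
  let e : ∀ n, (Λ ⧸ RingHom.ker (g n)) ≃ₐ[𝒪] (R ⧸ I ^ n) := fun n =>
    Ideal.quotientKerAlgEquivOfSurjective (hg n)
  let h : ∀ n, (Λ ⧸ RingHom.ker (g n)) →ₐ[𝒪] A ⧸ K ^ n := fun n =>
    Ideal.Quotient.liftₐ (RingHom.ker (g n)) ((Ideal.Quotient.mkₐ 𝒪 (K ^ n)).comp ψ)
      (fun f hf => Ideal.Quotient.eq_zero_iff_mem.mpr (hgker n f hf))
  let φn : ∀ n, R →ₐ[𝒪] A ⧸ K ^ n := fun n =>
    (h n).comp (((e n).symm : (R ⧸ I ^ n) →ₐ[𝒪] (Λ ⧸ RingHom.ker (g n))).comp
      (Ideal.Quotient.mkₐ 𝒪 (I ^ n)))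
  have key : ∀ (n : ℕ) (x : R) (y : Λ), x - ι y ∈ I ^ n →
      φn n x = Ideal.Quotient.mk (K ^ n) (ψ y) := by
    intro n x y hxy
    have h1 : Ideal.Quotient.mk (I ^ n) x = g n y := Ideal.Quotient.eq.mpr hxy
    have h2 : (e n).symm (Ideal.Quotient.mk (I ^ n) x) = Ideal.Quotient.mk _ y := by
      rw [h1, AlgEquiv.symm_apply_eq]
      rfl
    show h n ((e n).symm (Ideal.Quotient.mk (I ^ n) x)) = _
    rw [h2]
    rfl
  have hcompat : ∀ {m n : ℕ} (hmn : m ≤ n),
      (Ideal.Quotient.factorₐ 𝒪 (Ideal.pow_le_pow_right hmn)).comp (φn n) = φn m := by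
    intro m n hmn
    ext x
    obtain ⟨y, hy⟩ := hdense n x
    rw [AlgHom.comp_apply, key n x y hy, key m x y (Ideal.pow_le_pow_right hmn hy)]
    rfl
  refine ⟨IsAdicComplete.liftAlgHom K φn hcompat, fun y => ?_⟩
  have hsub : ∀ n : ℕ, IsAdicComplete.liftAlgHom K φn hcompat (ι y) - ψ y ∈ K ^ n := by
    intro n
    rw [← Ideal.Quotient.eq, IsAdicComplete.mk_liftAlgHom]
    exact key n (ι y) y (by rw [sub_self]; exact zero_mem _)
  have hH : IsHausdorff K A := inferInstance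
  have := hH.haus' (IsAdicComplete.liftAlgHom K φn hcompat (ι y) - ψ y) (fun n => by
    rw [SModEq.zero, smul_eq_mul, Ideal.mul_top]
    exact hsub n)
  exact sub_eq_zero.mp this

section

variable {𝒪 : Type} [CommRing 𝒪] [IsLocalRing 𝒪] (rbar : Gal →* M2 (ResidueField 𝒪))
  (Sig : Set (Lam 𝒪))
  (𝒟 : ∀ ⦃A : Type⦄ [CommRing A] [IsLocalRing A] [Algebra 𝒪 A], GaloisRepAdic A → Prop)

/-- Normalized `𝒟`-lifts over a complete noetherian local `𝒪`-algebra push forward to Artinian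
test quotients. -/
theorem isNLift_mapMat_of_surjective (h𝒟 : IsDeformationCondition 𝒪 𝒟)
    (hBC : Stmt_DictBaseChange)
    {A : Type} [CommRing A] [IsLocalRing A] [IsNoetherianRing A]
    [IsAdicComplete (maximalIdeal A) A] [Algebra 𝒪 A]
    (hloc : IsLocalHom (algebraMap 𝒪 A))
    (hres : Function.Surjective (IsLocalRing.residue A ∘ algebraMap 𝒪 A))
    {B : Type} [CommRing B] [IsLocalRing B] [Algebra 𝒪 B] (hB : IsArtinianTestAlgebra 𝒪 B)
    (q : A →ₐ[𝒪] B) (hq : Function.Surjective q) (r : Gal →* M2 A)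
    (hr : IsNLift rbar Sig 𝒟 r) :
    IsNLift rbar Sig 𝒟 (mapMat (q : A →+* B) r) := by
  have hql : IsLocalHom (q : A →+* B) := IsLocalHom.of_surjective (q : A →+* B) hq
  have hcont : MatCont (mapMat (q : A →+* B) r) := matCont_mapMat _ hql r hr.cont
  refine ⟨hcont, ?_, ?_, ?_⟩
  · intro σ i j
    obtain ⟨c, hc, hc'⟩ := hr.strict σ i j
    refine ⟨c, hc, ?_⟩
    have e : mapMat (q : A →+* B) r σ i j - algebraMap 𝒪 B c =
        (q : A →+* B) (r σ i j - algebraMap 𝒪 A c) := by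
      rw [mapMat_apply, map_sub]
      simp
    rw [e]
    exact map_nonunit (q : A →+* B) _ hc'
  · intro f hf
    rw [evalMat_mapMat, hr.norm f hf, map_zero]
  · exact h𝒟.of_isEquiv hB (hBC A B (q : A →+* B) hql r hr.cont hcont)
      ((h𝒟.iff_forall_surjective hloc hres (ofMat r hr.cont)).mp hr.type hB q hql hq)

/-- ASM-2: existence part of the universal property in matrix form. -/
theorem univLift (h𝒟 : IsDeformationCondition 𝒪 𝒟) (hBC : Stmt_DictBaseChange)
    (hKer : Stmt_FamKer 𝒪 rbar Sig 𝒟) : Stmt_UnivLift 𝒪 rbar Sig 𝒟 := by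
  intro P A _ _ _ _ _ hloc hres r hr
  have hle : ∀ n : ℕ, (maximalIdeal P.R ^ n).comap P.ι ≤
      (maximalIdeal A ^ n).comap (evalMat (𝒪 := 𝒪) r) := by
    intro n
    rcases Nat.eq_zero_or_pos n with rfl | hn
    · intro f _
      simp
    · haveI := Fermat.Agent.S53.helper533.isLocalRing_quot_maxPow (A := A) n hn.ne'
      have hB := Fermat.Agent.S53.helper533.testAlg_quot_maxPow 𝒪 hloc hres n
      let q : A →ₐ[𝒪] A ⧸ maximalIdeal A ^ n := Ideal.Quotient.mkₐ 𝒪 (maximalIdeal A ^ n)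
      have hN := isNLift_mapMat_of_surjective rbar Sig 𝒟 h𝒟 hBC hloc hres hB
        q (Ideal.Quotient.mkₐ_surjective 𝒪 _) r hr
      have hJ := hKer (A ⧸ maximalIdeal A ^ n) hB _ hN
      have hJeq : RingHom.ker (evalMat (𝒪 := 𝒪)
          (mapMat (q : A →+* A ⧸ maximalIdeal A ^ n) r)) =
          (maximalIdeal A ^ n).comap (evalMat (𝒪 := 𝒪) r) := by
        ext f
        rw [RingHom.mem_ker, evalMat_mapMat, Ideal.mem_comap]
        exact Ideal.Quotient.eq_zero_iff_mem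
      rw [hJeq] at hJ
      refine P.comap_le n _ hJ ?_
      have h1 : augIdeal rbar ≤ (maximalIdeal A).comap (evalMat (𝒪 := 𝒪) r) := fun f hf =>
        evalMat_mem_maximalIdeal_of_mem_augIdeal rbar hloc r hr.strict hf
      calc augIdeal rbar ^ n ≤ ((maximalIdeal A).comap (evalMat (𝒪 := 𝒪) r)) ^ n :=
            Ideal.pow_right_mono h1 n
        _ ≤ (maximalIdeal A ^ n).comap (evalMat (𝒪 := 𝒪) r) := Ideal.le_comap_pow _ n
  obtain ⟨φ, hφ⟩ := exists_algHom_of_dense (maximalIdeal P.R) (maximalIdeal A) P.ι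
    (evalMat (𝒪 := 𝒪) r) P.ι_dense hle
  refine ⟨φ, Fermat.Agent.S53.helper533.isLocalHom_of_residue_surjective 𝒪 hres φ, fun σ i j => ?_⟩
  rw [hφ, evalMat_X]

end

end Fermat.Agent.S53.helper3121
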