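/-
S53, FUNCT-5 (board row 184): the family of ideals of the captain blueprint
(`Fermat.Agent.S53.helper53_Spec`) is closed under binary intersections.
Hypothesis-passing style: `famInf` takes `Stmt_FamLe` and `Stmt_DictBaseChange` as hypotheses.
-/
import Fermat.Agent.S53.helper53_Spec
import Fermat.Agent.S53.helper533_TestAlg

set_option autoImplicit false
set_option linter.style.haveILetI false
set_option linter.unusedSectionVars false

namespace Fermat.Agent.S53.helper3281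

open IsLocalRing GaloisRep Fermat.Agent.S53.helper53 Fermat.Agent.S53.helper533

/-- Over an Artinian local ring a continuous matrix representation is trivial on the subgroup
fixing some finite extension. -/
theorem exists_level_of_matCont {A : Type} [CommRing A] [IsLocalRing A] [IsArtinianRing A]
    (r : Gal →* M2 A) (hr : MatCont r) :
    ∃ L : IntermediateField ℚ (AlgebraicClosure ℚ), FiniteDimensional ℚ L ∧
      ∀ σ : Gal, (∀ x ∈ L, σ x = x) → r σ = 1 := by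
  obtain ⟨n, hn⟩ := IsArtinianRing.isNilpotent_jacobson_bot (R := A)
  rw [jacobson_eq_maximalIdeal _ bot_ne_top] at hn
  obtain ⟨L, hL, h⟩ := hr n
  refine ⟨L, hL, fun σ hσ => ?_⟩
  ext i j
  have h1 := h σ hσ i j
  rw [hn] at h1
  have h2 : (r σ - 1) i j = 0 := by simpa using h1
  have h3 : r σ i j - (1 : M2 A) i j = 0 := by simpa using h2
  exact sub_eq_zero.mp h3

variable {𝒪 : Type} [CommRing 𝒪] [IsLocalRing 𝒪]

/-- `evalMat` at the tautological matrices over a quotient of `Lam 𝒪` is the quotient map. -/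
theorem evalMat_eq_mkₐ (J : Ideal (Lam 𝒪)) (r : Gal → M2 (Lam 𝒪 ⧸ J))
    (hr : ∀ σ i j, r σ i j = Ideal.Quotient.mk J (MvPolynomial.X (σ, i, j))) :
    evalMat (𝒪 := 𝒪) r = Ideal.Quotient.mkₐ 𝒪 J := by
  apply MvPolynomial.algHom_ext
  rintro ⟨σ, i, j⟩
  rw [evalMat_X, hr]
  rfl

/-- The tautological matrices over `Lam 𝒪 ⧸ J` are normalized iff `Sig ⊆ J`. -/
theorem isNormalized_taut_iff (Sig : Set (Lam 𝒪)) (J : Ideal (Lam 𝒪)) (r : Gal → M2 (Lam 𝒪 ⧸ J))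
    (hr : ∀ σ i j, r σ i j = Ideal.Quotient.mk J (MvPolynomial.X (σ, i, j))) :
    IsNormalized Sig r ↔ ∀ f ∈ Sig, f ∈ J := by
  unfold IsNormalized
  rw [evalMat_eq_mkₐ J r hr]
  refine forall₂_congr fun f _ => ?_
  rw [Ideal.Quotient.mkₐ_eq_mk, Ideal.Quotient.eq_zero_iff_mem]

theorem augIdeal_ne_top (rbar : Gal →* M2 (ResidueField 𝒪)) : augIdeal rbar ≠ ⊤ := by
  intro h
  have h1 : (1 : Lam 𝒪) ∈ augIdeal rbar := by rw [h]; trivial
  rw [augIdeal, RingHom.mem_ker, map_one] at h1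
  exact one_ne_zero h1

/-- FUNCT-5 of the captain blueprint: the family is closed under binary intersections. -/
theorem famInf [Finite (ResidueField 𝒪)] (rbar : Gal →* M2 (ResidueField 𝒪)) (Sig : Set (Lam 𝒪))
    (𝒟 : ∀ ⦃A : Type⦄ [CommRing A] [IsLocalRing A] [Algebra 𝒪 A], GaloisRepAdic A → Prop)
    (h𝒟 : IsDeformationCondition 𝒪 𝒟) (hLe : Stmt_FamLe 𝒪 rbar Sig 𝒟)
    (hBC : Stmt_DictBaseChange) : Stmt_FamInf 𝒪 rbar Sig 𝒟 := by
  intro J J' hJ hJ'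
  have hJle := hLe J hJ
  have hJ'le := hLe J' hJ'
  obtain ⟨hlocA, htA, rA, hrA, hNA⟩ := hJ
  obtain ⟨hlocB, htB, rB, hrB, hNB⟩ := hJ'
  haveI := hlocA
  haveI := hlocB
  have hsupne : J ⊔ J' ≠ ⊤ := fun h =>
    augIdeal_ne_top rbar (top_le_iff.mp (h ▸ sup_le hJle hJ'le))
  -- the four quotient maps
  let f : (Lam 𝒪 ⧸ J) →ₐ[𝒪] (Lam 𝒪 ⧸ (J ⊔ J')) := Ideal.Quotient.factorₐ 𝒪 le_sup_left
  let g : (Lam 𝒪 ⧸ J') →ₐ[𝒪] (Lam 𝒪 ⧸ (J ⊔ J')) := Ideal.Quotient.factorₐ 𝒪 le_sup_right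
  let pA : (Lam 𝒪 ⧸ (J ⊓ J')) →ₐ[𝒪] (Lam 𝒪 ⧸ J) := Ideal.Quotient.factorₐ 𝒪 inf_le_left
  let pB : (Lam 𝒪 ⧸ (J ⊓ J')) →ₐ[𝒪] (Lam 𝒪 ⧸ J') := Ideal.Quotient.factorₐ 𝒪 inf_le_right
  have hf_mk : ∀ u : Lam 𝒪, f (Ideal.Quotient.mk J u) = Ideal.Quotient.mk (J ⊔ J') u :=
    fun u => rfl
  have hg_mk : ∀ u : Lam 𝒪, g (Ideal.Quotient.mk J' u) = Ideal.Quotient.mk (J ⊔ J') u :=
    fun u => rfl
  have hpA_mk : ∀ u : Lam 𝒪, pA (Ideal.Quotient.mk (J ⊓ J') u) = Ideal.Quotient.mk J u :=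
    fun u => rfl
  have hpB_mk : ∀ u : Lam 𝒪, pB (Ideal.Quotient.mk (J ⊓ J') u) = Ideal.Quotient.mk J' u :=
    fun u => rfl
  have hfsurj : Function.Surjective f := by
    intro y
    obtain ⟨u, rfl⟩ := Ideal.Quotient.mk_surjective y
    exact ⟨Ideal.Quotient.mk J u, hf_mk u⟩
  -- the base `C = Lam ⧸ (J ⊔ J')`
  haveI : Nontrivial (Lam 𝒪 ⧸ (J ⊔ J')) := Ideal.Quotient.nontrivial_iff.mpr hsupne
  haveI hlocC : IsLocalRing (Lam 𝒪 ⧸ (J ⊔ J')) :=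
    IsLocalRing.of_surjective' (f : (Lam 𝒪 ⧸ J) →+* (Lam 𝒪 ⧸ (J ⊔ J'))) hfsurj
  haveI := htA.isArtinian
  haveI := htB.isArtinian
  haveI : IsArtinianRing (Lam 𝒪 ⧸ (J ⊔ J')) :=
    Function.Surjective.isArtinianRing (f := (f : (Lam 𝒪 ⧸ J) →+* (Lam 𝒪 ⧸ (J ⊔ J')))) hfsurj
  have htC : IsArtinianTestAlgebra 𝒪 (Lam 𝒪 ⧸ (J ⊔ J')) :=
    testAlg_of_surjective 𝒪 htA.isLocalHom htA.residue_surjective f hfsurj
  -- the fibre product and the comparison map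
  haveI hlocF : IsLocalRing (fibreProd 𝒪 f g) := fibreProd_isLocalRing htC.residue_surjective f g
  have htF : IsArtinianTestAlgebra 𝒪 (fibreProd 𝒪 f g) := fibreProd_testAlg htA htB f g
  have hcomm : f.comp pA = g.comp pB := by
    apply Ideal.Quotient.algHom_ext
    rfl
  have hinj : Function.Injective (fun x : Lam 𝒪 ⧸ (J ⊓ J') => (pA x, pB x)) := by
    intro x y hxy
    obtain ⟨u, rfl⟩ := Ideal.Quotient.mk_surjective x
    obtain ⟨v, rfl⟩ := Ideal.Quotient.mk_surjective y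
    have h1 : Ideal.Quotient.mk J u = Ideal.Quotient.mk J v := congrArg Prod.fst hxy
    have h2 : Ideal.Quotient.mk J' u = Ideal.Quotient.mk J' v := congrArg Prod.snd hxy
    rw [Ideal.Quotient.eq] at h1 h2 ⊢
    exact ⟨h1, h2⟩
  have hex : ∀ (a : Lam 𝒪 ⧸ J) (b : Lam 𝒪 ⧸ J'), f a = g b → ∃ x, pA x = a ∧ pB x = b := by
    intro a b hab
    obtain ⟨u, rfl⟩ := Ideal.Quotient.mk_surjective a
    obtain ⟨v, rfl⟩ := Ideal.Quotient.mk_surjective b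
    rw [hf_mk, hg_mk, Ideal.Quotient.eq] at hab
    obtain ⟨j, hj, j', hj', hjj⟩ := Submodule.mem_sup.mp hab
    refine ⟨Ideal.Quotient.mk (J ⊓ J') (u - j), ?_, ?_⟩
    · rw [hpA_mk, Ideal.Quotient.eq]
      have : u - j - u = -j := by ring
      rw [this]
      exact neg_mem hj
    · rw [hpB_mk, Ideal.Quotient.eq]
      have : u - j - v = j' := by linear_combination (-1 : Lam 𝒪) * hjj
      rw [this]
      exact hj'
  let ψ : (Lam 𝒪 ⧸ (J ⊓ J')) →ₐ[𝒪] fibreProd 𝒪 f g :=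
    AlgHom.codRestrict (pA.prod pB) (fibreProd 𝒪 f g) (fun x => by
      rw [mem_fibreProd]
      exact AlgHom.congr_fun hcomm x)
  have hψinj : Function.Injective ψ := by
    intro x y hxy
    apply hinj
    exact congrArg Subtype.val hxy
  haveI hlocP : IsLocalRing (Lam 𝒪 ⧸ (J ⊓ J')) := isLocalRing_of_injective 𝒪 htF ψ hψinj
  have htP : IsArtinianTestAlgebra 𝒪 (Lam 𝒪 ⧸ (J ⊓ J')) := testAlg_of_injective 𝒪 htF ψ hψinj
  have hpA : IsLocalHom (pA : (Lam 𝒪 ⧸ (J ⊓ J')) →+* (Lam 𝒪 ⧸ J)) :=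
    isLocalHom_of_residue_surjective 𝒪 htA.residue_surjective pA
  have hpB : IsLocalHom (pB : (Lam 𝒪 ⧸ (J ⊓ J')) →+* (Lam 𝒪 ⧸ J')) :=
    isLocalHom_of_residue_surjective 𝒪 htB.residue_surjective pB
  -- the tautological matrices over `P`
  let T : Gal → M2 (Lam 𝒪 ⧸ (J ⊓ J')) := fun σ =>
    Matrix.of fun i j => Ideal.Quotient.mk (J ⊓ J') (MvPolynomial.X (σ, i, j))
  have hTA : ∀ σ, (T σ).map pA = rA σ := by
    intro σ
    ext i j
    rw [Matrix.map_apply, hrA]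
    rfl
  have hTB : ∀ σ, (T σ).map pB = rB σ := by
    intro σ
    ext i j
    rw [Matrix.map_apply, hrB]
    rfl
  have hMinj : ∀ M N : M2 (Lam 𝒪 ⧸ (J ⊓ J')), M.map pA = N.map pA → M.map pB = N.map pB →
      M = N := by
    intro M N h1 h2
    ext i j
    apply hinj
    have e1 := congrFun (congrFun h1 i) j
    have e2 := congrFun (congrFun h2 i) j
    simp only [Matrix.map_apply] at e1 e2
    exact Prod.ext e1 e2
  have hmapA : ∀ M N : M2 (Lam 𝒪 ⧸ (J ⊓ J')), (M * N).map pA = M.map pA * N.map pA :=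
    fun M N => Matrix.map_mul
  have hmapB : ∀ M N : M2 (Lam 𝒪 ⧸ (J ⊓ J')), (M * N).map pB = M.map pB * N.map pB :=
    fun M N => Matrix.map_mul
  let rP : Gal →* M2 (Lam 𝒪 ⧸ (J ⊓ J')) :=
    { toFun := T
      map_one' := by
        apply hMinj
        · rw [hTA, map_one, Matrix.map_one _ (map_zero _) (map_one _)]
        · rw [hTB, map_one, Matrix.map_one _ (map_zero _) (map_one _)]
      map_mul' := fun σ τ => by
        apply hMinj
        · rw [hTA, hmapA, hTA, hTA, map_mul]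
        · rw [hTB, hmapB, hTB, hTB, map_mul] }
  have hrP : ∀ σ i j, rP σ i j = Ideal.Quotient.mk (J ⊓ J') (MvPolynomial.X (σ, i, j)) :=
    fun σ i j => rfl
  have heA : mapMat (pA : (Lam 𝒪 ⧸ (J ⊓ J')) →+* (Lam 𝒪 ⧸ J)) rP = rA :=
    MonoidHom.ext fun σ => hTA σ
  have heB : mapMat (pB : (Lam 𝒪 ⧸ (J ⊓ J')) →+* (Lam 𝒪 ⧸ J')) rP = rB :=
    MonoidHom.ext fun σ => hTB σ
  -- continuity
  have hcont : MatCont rP := by
    obtain ⟨LA, hLA, hA1⟩ := exists_level_of_matCont rA hNA.cont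
    obtain ⟨LB, hLB, hB1⟩ := exists_level_of_matCont rB hNB.cont
    intro n
    refine ⟨LA ⊔ LB, IntermediateField.finiteDimensional_sup LA LB, fun σ hσ i j => ?_⟩
    have h1 : rP σ = 1 := by
      apply hMinj
      · show (T σ).map pA = _
        rw [hTA, Matrix.map_one _ (map_zero _) (map_one _)]
        exact hA1 σ fun x hx => hσ x ((le_sup_left : LA ≤ LA ⊔ LB) hx)
      · show (T σ).map pB = _
        rw [hTB, Matrix.map_one _ (map_zero _) (map_one _)]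
        exact hB1 σ fun x hx => hσ x ((le_sup_right : LB ≤ LA ⊔ LB) hx)
    rw [h1, sub_self]
    exact Ideal.zero_mem _
  -- strictness
  have hstrict : IsStrictLift rbar rP := by
    intro σ i j
    obtain ⟨c, hc, hmem⟩ := hNA.strict σ i j
    refine ⟨c, hc, ?_⟩
    by_contra hu
    have hu' : IsUnit (rP σ i j - algebraMap 𝒪 (Lam 𝒪 ⧸ (J ⊓ J')) c) := by
      by_contra h
      exact hu h
    have h2 := hu'.map pA
    have h3 : pA (rP σ i j - algebraMap 𝒪 (Lam 𝒪 ⧸ (J ⊓ J')) c) =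
        rA σ i j - algebraMap 𝒪 (Lam 𝒪 ⧸ J) c := by
      rw [map_sub, AlgHom.commutes, hrA]
      rfl
    rw [h3] at h2
    exact hmem h2
  -- normalization
  have hnorm : IsNormalized Sig rP := by
    rw [isNormalized_taut_iff Sig (J ⊓ J') rP hrP]
    intro p hp
    exact ⟨(isNormalized_taut_iff Sig J rA hrA).mp hNA.norm p hp,
      (isNormalized_taut_iff Sig J' rB hrB).mp hNB.norm p hp⟩
  -- the deformation condition
  have hkeyA : ∀ (r' : Gal →* M2 (Lam 𝒪 ⧸ J)) (h' : MatCont r'), r' = rA → 𝒟 (ofMat r' h') := by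
    rintro r' h' rfl
    exact hNA.type
  have hkeyB : ∀ (r' : Gal →* M2 (Lam 𝒪 ⧸ J')) (h' : MatCont r'), r' = rB → 𝒟 (ofMat r' h') := by
    rintro r' h' rfl
    exact hNB.type
  have hcA : MatCont (mapMat (pA : (Lam 𝒪 ⧸ (J ⊓ J')) →+* (Lam 𝒪 ⧸ J)) rP) := by
    rw [heA]; exact hNA.cont
  have hcB : MatCont (mapMat (pB : (Lam 𝒪 ⧸ (J ⊓ J')) →+* (Lam 𝒪 ⧸ J')) rP) := by
    rw [heB]; exact hNB.cont
  have hDA : 𝒟 ((ofMat rP hcont).baseChangeAlong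
      (pA : (Lam 𝒪 ⧸ (J ⊓ J')) →+* (Lam 𝒪 ⧸ J)) hpA) := by
    obtain ⟨e⟩ := hBC _ _ (pA : (Lam 𝒪 ⧸ (J ⊓ J')) →+* (Lam 𝒪 ⧸ J)) hpA rP hcont hcA
    exact h𝒟.of_isEquiv htA ⟨e.symm⟩ (hkeyA _ hcA heA)
  have hDB : 𝒟 ((ofMat rP hcont).baseChangeAlong
      (pB : (Lam 𝒪 ⧸ (J ⊓ J')) →+* (Lam 𝒪 ⧸ J')) hpB) := by
    obtain ⟨e⟩ := hBC _ _ (pB : (Lam 𝒪 ⧸ (J ⊓ J')) →+* (Lam 𝒪 ⧸ J')) hpB rP hcont hcB
    exact h𝒟.of_isEquiv htB ⟨e.symm⟩ (hkeyB _ hcB heB)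
  have htype : 𝒟 (ofMat rP hcont) :=
    h𝒟.of_fibreProduct htA htB htC htP f g pA pB hpA hpB hcomm hinj hex hDA hDB
  exact ⟨hlocP, htP, rP, hrP, ⟨hcont, hstrict, hnorm, htype⟩⟩

end Fermat.Agent.S53.helper3281
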