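/-
S53, TANGENT block of the blueprint `helper53_Spec` in hypothesis-passing style (helper413):
* `tanFinite_of`  : TAN-1 (`Stmt_TanFinite`) from `TangentFinite`, the slice and the dictionary;
* `famTan_of`     : TAN-2 (`Stmt_FamTan`) from TAN-1 and FUNCT-0 (`Stmt_NLiftMap`).
-/
import Fermat.Agent.S53.helper53_Spec
import Fermat.Agent.S53.helper413_Tangent

set_option autoImplicit false

namespace Fermat.Agent.S53.helper413

open IsLocalRing Fermat.Agent.S53.helper53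

section

variable (𝒪 : Type) [CommRing 𝒪] [IsLocalRing 𝒪]

attribute [local instance] dualAlgebra

/-- TAN-1: finitely many normalized `𝒟`-lifts over the dual numbers. -/
theorem tanFinite_of (ρbar : ResidualGaloisRep (ResidueField 𝒪))
    (b : Module.Basis (Fin 2) (ResidueField 𝒪) ρbar.V) (Sig : Set (Lam 𝒪))
    (𝒟 : ∀ ⦃A : Type⦄ [CommRing A] [IsLocalRing A] [Algebra 𝒪 A], GaloisRepAdic A → Prop)
    (hslice : IsSlice (matOfBasis ρbar b) Sig) (hDE : Stmt_DictEquiv)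
    (hDR : Stmt_DictResidual 𝒪) (hfin : GaloisRep.TangentFinite 𝒪 ρbar 𝒟) :
    Stmt_TanFinite 𝒪 (matOfBasis ρbar b) Sig 𝒟 := by
  show Finite {r : Gal →* M2 (DualNumber (ResidueField 𝒪)) //
    IsNLift (matOfBasis ρbar b) Sig 𝒟 r}
  obtain ⟨T, hT, hrep⟩ := exists_finite_reps_of_tangentFinite 𝒪 ρbar 𝒟 hfin
  have hex : ∀ r : {r : Gal →* M2 (DualNumber (ResidueField 𝒪)) //
      IsNLift (matOfBasis ρbar b) Sig 𝒟 r}, ∃ ρ' ∈ T, (ofMat r.1 r.2.cont).IsEquiv ρ' := by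
    intro r
    refine hrep _ r.2.type ?_
    exact (hDR ρbar b (DualNumber (ResidueField 𝒪)) (ofMat r.1 r.2.cont)).mpr
      ⟨r.1, r.2.cont, r.2.strict, ⟨GaloisRepAdic.Equiv.refl _⟩⟩
  choose c hcT hc using hex
  have : Finite T := hT
  refine Finite.of_injective (fun r => (⟨c r, hcT r⟩ : T)) ?_
  intro r₁ r₂ h12
  have h12' : c r₁ = c r₂ := congrArg Subtype.val h12
  obtain ⟨e₁⟩ := hc r₁
  obtain ⟨e₂⟩ := hc r₂
  have hequiv : (ofMat r₁.1 r₁.2.cont).IsEquiv (ofMat r₂.1 r₂.2.cont) :=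
    ⟨e₁.trans (h12' ▸ e₂.symm)⟩
  obtain ⟨M, hM⟩ := (hDE _ r₁.1 r₂.1 r₁.2.cont r₂.2.cont).mp hequiv
  exact Subtype.ext (hslice.eq_of_conj r₁.1 r₂.1 r₁.2.strict r₂.2.strict r₁.2.norm r₂.2.norm M hM)

/-- In a member of the family, reduction of the class of a polynomial is evaluation at `rbar`. -/
theorem red_mk_eq_evalMat (rbar : Gal →* M2 (ResidueField 𝒪)) (J : Ideal (Lam 𝒪))
    [IsLocalRing (Lam 𝒪 ⧸ J)] [IsLocalHom (algebraMap 𝒪 (Lam 𝒪 ⧸ J))]
    (hs : Function.Surjective (residue (Lam 𝒪 ⧸ J) ∘ algebraMap 𝒪 (Lam 𝒪 ⧸ J)))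
    (r : Gal →* M2 (Lam 𝒪 ⧸ J))
    (hr : ∀ σ i j, r σ i j = Ideal.Quotient.mk J (MvPolynomial.X (σ, i, j)))
    (hstrict : IsStrictLift rbar r) (p : Lam 𝒪) :
    red hs (Ideal.Quotient.mk J p) = evalMat (𝒪 := 𝒪) (A := ResidueField 𝒪) rbar p := by
  have h : ((red hs).comp (Ideal.Quotient.mk J) : Lam 𝒪 →+* ResidueField 𝒪) =
      (evalMat (𝒪 := 𝒪) (A := ResidueField 𝒪) rbar : Lam 𝒪 →+* ResidueField 𝒪) := by
    apply MvPolynomial.ringHom_ext
    · intro c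
      have h1 : Ideal.Quotient.mk J (MvPolynomial.C c) = algebraMap 𝒪 (Lam 𝒪 ⧸ J) c := rfl
      have h2 : (evalMat (𝒪 := 𝒪) (A := ResidueField 𝒪) rbar) (MvPolynomial.C c) =
          residue 𝒪 c := by
        rw [← MvPolynomial.algebraMap_eq, AlgHom.commutes]; rfl
      rw [RingHom.comp_apply, h1, red_algebraMap, RingHom.coe_coe, h2]
    · rintro ⟨σ, i, j⟩
      obtain ⟨c, hc, hmem⟩ := hstrict σ i j
      rw [RingHom.comp_apply, RingHom.coe_coe, evalMat_X, ← hr, ← hc, ← red_algebraMap hs c,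
        ← sub_eq_zero, ← map_sub, red_eq_zero_iff]
      exact hmem
  exact congrArg (fun f : Lam 𝒪 →+* ResidueField 𝒪 => f p) h

/-- TAN-2: uniform bound on the tangent-level members of the family. -/
theorem famTan_of [Finite (ResidueField 𝒪)] (rbar : Gal →* M2 (ResidueField 𝒪))
    (Sig : Set (Lam 𝒪))
    (𝒟 : ∀ ⦃A : Type⦄ [CommRing A] [IsLocalRing A] [Algebra 𝒪 A], GaloisRepAdic A → Prop)
    (hmap : Stmt_NLiftMap 𝒪 rbar Sig 𝒟) (htan : Stmt_TanFinite 𝒪 rbar Sig 𝒟) :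
    Stmt_FamTan 𝒪 rbar Sig 𝒟 := by
  have htan' : Finite {r : Gal →* M2 (DualNumber (ResidueField 𝒪)) //
      IsNLift rbar Sig 𝒟 r} := htan
  refine ⟨Nat.card (DualNumber (ResidueField 𝒪)) ^
    Nat.card {r : Gal →* M2 (DualNumber (ResidueField 𝒪)) // IsNLift rbar Sig 𝒟 r}, ?_⟩
  rintro J ⟨hloc, htest, r, hr, hN⟩ haug hπ
  have hlh : IsLocalHom (algebraMap 𝒪 (Lam 𝒪 ⧸ J)) := htest.isLocalHom
  have hs := htest.residue_surjective
  -- `𝔪_𝒪` dies in the quotient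
  have h1 : ∀ c ∈ maximalIdeal 𝒪, algebraMap 𝒪 (Lam 𝒪 ⧸ J) c = 0 := by
    intro c hc
    exact Ideal.Quotient.eq_zero_iff_mem.mpr (hπ c hc)
  -- the maximal ideal is the image of the augmentation ideal
  have hmax : ∀ p : Lam 𝒪, Ideal.Quotient.mk J p ∈ maximalIdeal (Lam 𝒪 ⧸ J) ↔
      p ∈ augIdeal rbar := by
    intro p
    rw [← red_eq_zero_iff hs, red_mk_eq_evalMat 𝒪 rbar J hs r hr hN.strict p]
    rfl
  have h2 : maximalIdeal (Lam 𝒪 ⧸ J) ^ 2 = ⊥ := by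
    rw [eq_bot_iff, pow_two, Ideal.mul_le]
    intro a ha a' ha'
    obtain ⟨p, rfl⟩ := Ideal.Quotient.mk_surjective a
    obtain ⟨p', rfl⟩ := Ideal.Quotient.mk_surjective a'
    rw [Ideal.mem_bot, ← map_mul, Ideal.Quotient.eq_zero_iff_mem]
    apply haug
    rw [pow_two]
    exact Ideal.mul_mem_mul ((hmax p).mp ha) ((hmax p').mp ha')
  -- maps to the dual numbers inject into normalized lifts over the dual numbers
  let Φ : (Lam 𝒪 ⧸ J →ₐ[𝒪] DualNumber (ResidueField 𝒪)) →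
      {r : Gal →* M2 (DualNumber (ResidueField 𝒪)) // IsNLift rbar Sig 𝒟 r} := fun f =>
    ⟨mapMat (f : Lam 𝒪 ⧸ J →+* DualNumber (ResidueField 𝒪)) r,
      hmap (Lam 𝒪 ⧸ J) (DualNumber (ResidueField 𝒪)) htest (dual_isArtinianTestAlgebra 𝒪) f r hN⟩
  have hΦ : Function.Injective Φ := by
    intro f g hfg
    have hfg' : mapMat (f : Lam 𝒪 ⧸ J →+* DualNumber (ResidueField 𝒪)) r =
        mapMat (g : Lam 𝒪 ⧸ J →+* DualNumber (ResidueField 𝒪)) r := congrArg Subtype.val hfg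
    apply Ideal.Quotient.algHom_ext
    apply MvPolynomial.algHom_ext
    rintro ⟨σ, i, j⟩
    have := congrFun (congrFun (congrFun (congrArg DFunLike.coe hfg') σ) i) j
    simpa [mapMat_apply, hr] using this
  have hfinHom : Finite (Lam 𝒪 ⧸ J →ₐ[𝒪] DualNumber (ResidueField 𝒪)) :=
    Finite.of_injective Φ hΦ
  have hcard := card_le_of_sq_zero hs h1 h2
  have hle : Nat.card (Lam 𝒪 ⧸ J →ₐ[𝒪] DualNumber (ResidueField 𝒪)) ≤
      Nat.card {r : Gal →* M2 (DualNumber (ResidueField 𝒪)) // IsNLift rbar Sig 𝒟 r} :=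
    Nat.card_le_card_of_injective Φ hΦ
  exact hcard.trans (Nat.pow_le_pow_right Nat.card_pos hle)

end

end Fermat.Agent.S53.helper413
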