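/-
S53: small sorry-free lemmas about the definitions of helper53_Defs (captain file).
-/
import Fermat.Agent.S53.helper53_Defs

set_option autoImplicit false

namespace Fermat.Agent.S53.helper53

open IsLocalRing

theorem isEquiv_refl {A : Type} [CommRing A] [IsLocalRing A] (ρ : GaloisRepAdic A) :
    ρ.IsEquiv ρ := ⟨GaloisRepAdic.Equiv.refl ρ⟩

theorem isEquiv_symm {A : Type} [CommRing A] [IsLocalRing A] {ρ₁ ρ₂ : GaloisRepAdic A}
    (h : ρ₁.IsEquiv ρ₂) : ρ₂.IsEquiv ρ₁ := h.elim fun e => ⟨e.symm⟩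

theorem isEquiv_trans {A : Type} [CommRing A] [IsLocalRing A] {ρ₁ ρ₂ ρ₃ : GaloisRepAdic A}
    (h : ρ₁.IsEquiv ρ₂) (h' : ρ₂.IsEquiv ρ₃) : ρ₁.IsEquiv ρ₃ :=
  h.elim fun e => h'.elim fun e' => ⟨e.trans e'⟩

/-- `ofMat` only depends on the matrices. -/
theorem ofMat_congr {A : Type} [CommRing A] [IsLocalRing A] {r r' : Gal →* M2 A} (h : r = r')
    (hr : MatCont r) (hr' : MatCont r') : ofMat r hr = ofMat r' hr' := by
  subst h; rfl

/-- Evaluation commutes with push-forward along an `𝒪`-algebra map. -/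
theorem evalMat_mapMat {𝒪 : Type} [CommRing 𝒪] {A B : Type} [CommRing A] [CommRing B]
    [Algebra 𝒪 A] [Algebra 𝒪 B] (φ : A →ₐ[𝒪] B) (r : Gal →* M2 A) (f : Lam 𝒪) :
    evalMat (𝒪 := 𝒪) (mapMat (φ : A →+* B) r) f = φ (evalMat (𝒪 := 𝒪) r f) := by
  have h : evalMat (𝒪 := 𝒪) (mapMat (φ : A →+* B) r) = φ.comp (evalMat (𝒪 := 𝒪) r) := by
    apply MvPolynomial.algHom_ext
    rintro ⟨σ, i, j⟩
    simp [evalMat]
  rw [h]; rfl

theorem IsNormalized.map {𝒪 : Type} [CommRing 𝒪] {Sig : Set (Lam 𝒪)} {A B : Type}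
    [CommRing A] [CommRing B] [Algebra 𝒪 A] [Algebra 𝒪 B] (φ : A →ₐ[𝒪] B) {r : Gal →* M2 A}
    (h : IsNormalized Sig r) : IsNormalized Sig (mapMat (φ : A →+* B) r) := by
  intro f hf
  rw [evalMat_mapMat, h f hf, map_zero]

theorem IsNormalized.of_map_injective {𝒪 : Type} [CommRing 𝒪] {Sig : Set (Lam 𝒪)} {A B : Type}
    [CommRing A] [CommRing B] [Algebra 𝒪 A] [Algebra 𝒪 B] (φ : A →ₐ[𝒪] B)
    (hφ : Function.Injective φ) {r : Gal →* M2 A}
    (h : IsNormalized Sig (mapMat (φ : A →+* B) r)) : IsNormalized Sig r := by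
  intro f hf
  have := h f hf
  rw [evalMat_mapMat] at this
  exact hφ (by rw [this, map_zero])

theorem IsStrictLift.map {𝒪 : Type} [CommRing 𝒪] [IsLocalRing 𝒪]
    {rbar : Gal →* M2 (ResidueField 𝒪)} {A B : Type} [CommRing A] [IsLocalRing A]
    [CommRing B] [IsLocalRing B] [Algebra 𝒪 A] [Algebra 𝒪 B] (φ : A →ₐ[𝒪] B)
    (hφ : IsLocalHom (φ : A →+* B)) {r : Gal →* M2 A} (h : IsStrictLift rbar r) :
    IsStrictLift rbar (mapMat (φ : A →+* B) r) := by
  intro σ i j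
  obtain ⟨c, hc, hmem⟩ := h σ i j
  refine ⟨c, hc, ?_⟩
  have e : mapMat (φ : A →+* B) r σ i j - algebraMap 𝒪 B c
      = (φ : A →+* B) (r σ i j - algebraMap 𝒪 A c) := by
    rw [mapMat_apply, map_sub]
    congr 1
    exact (φ.commutes c).symm
  rw [e]
  have := hφ
  rw [IsLocalRing.mem_maximalIdeal, mem_nonunits_iff] at hmem ⊢
  exact fun hu => hmem (isUnit_of_map_unit (φ : A →+* B) _ hu)

theorem IsStrictLift.of_map {𝒪 : Type} [CommRing 𝒪] [IsLocalRing 𝒪]
    {rbar : Gal →* M2 (ResidueField 𝒪)} {A B : Type} [CommRing A] [IsLocalRing A]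
    [CommRing B] [IsLocalRing B] [Algebra 𝒪 A] [Algebra 𝒪 B] (φ : A →ₐ[𝒪] B)
    {r : Gal →* M2 A}
    (h : IsStrictLift rbar (mapMat (φ : A →+* B) r)) : IsStrictLift rbar r := by
  intro σ i j
  obtain ⟨c, hc, hmem⟩ := h σ i j
  refine ⟨c, hc, ?_⟩
  have e : mapMat (φ : A →+* B) r σ i j - algebraMap 𝒪 B c
      = (φ : A →+* B) (r σ i j - algebraMap 𝒪 A c) := by
    rw [mapMat_apply, map_sub]
    congr 1
    exact (φ.commutes c).symm
  rw [e] at hmem
  by_contra hnot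
  have hu : IsUnit (r σ i j - algebraMap 𝒪 A c) := by
    by_contra hnu
    exact hnot ((IsLocalRing.mem_maximalIdeal _).mpr hnu)
  exact (IsLocalRing.mem_maximalIdeal _).mp hmem (hu.map (φ : A →+* B))

/-- Equation form of `IsStrictLift` when the structure map is local. -/
theorem isStrictLift_iff {𝒪 : Type} [CommRing 𝒪] [IsLocalRing 𝒪]
    (rbar : Gal →* M2 (ResidueField 𝒪)) {A : Type} [CommRing A] [IsLocalRing A] [Algebra 𝒪 A]
    [IsLocalHom (algebraMap 𝒪 A)] (r : Gal → M2 A) :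
    IsStrictLift rbar r ↔ ∀ σ i j,
      residue A (r σ i j) = IsLocalRing.ResidueField.map (algebraMap 𝒪 A) (rbar σ i j) := by
  constructor
  · intro h σ i j
    obtain ⟨c, hc, hmem⟩ := h σ i j
    rw [← hc, IsLocalRing.ResidueField.map_residue]
    have := (IsLocalRing.residue_eq_zero_iff _).mpr hmem
    rw [map_sub, sub_eq_zero] at this
    exact this
  · intro h σ i j
    obtain ⟨c, hc⟩ := IsLocalRing.residue_surjective (rbar σ i j)
    refine ⟨c, hc, ?_⟩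
    rw [← IsLocalRing.residue_eq_zero_iff, map_sub, sub_eq_zero, h σ i j, ← hc,
      IsLocalRing.ResidueField.map_residue]

end Fermat.Agent.S53.helper53
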