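/-
S53: final assembly from the blueprint statements (captain helper53).
Hypothesis-passing: every `Stmt_*` is an explicit hypothesis.
-/
import Fermat.Agent.S53.helper53_Spec
import Fermat.Agent.S53.helper53_Basic

set_option autoImplicit false

namespace Fermat.Agent.S53.helper53

open IsLocalRing

/-- All family/assembly statements needed for a given slice, bundled. -/
structure FamilyFacts (𝒪 : Type) [CommRing 𝒪] [IsLocalRing 𝒪]
    (rbar : Gal →* M2 (ResidueField 𝒪)) (Sig : Set (Lam 𝒪))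
    (𝒟 : ∀ ⦃A : Type⦄ [CommRing A] [IsLocalRing A] [Algebra 𝒪 A], GaloisRepAdic A → Prop) :
    Prop where
  famLe : Stmt_FamLe 𝒪 rbar Sig 𝒟
  famNil : Stmt_FamNil 𝒪 rbar Sig 𝒟
  famFin : Stmt_FamFin 𝒪 rbar Sig 𝒟
  famInf : Stmt_FamInf 𝒪 rbar Sig 𝒟
  famUp : Stmt_FamUp 𝒪 rbar Sig 𝒟
  famTop : Stmt_FamTop 𝒪 rbar Sig 𝒟
  famTan : Stmt_FamTan 𝒪 rbar Sig 𝒟
  univRep : Stmt_UnivRep 𝒪 rbar Sig 𝒟
  univLift : Stmt_UnivLift 𝒪 rbar Sig 𝒟
  univUnique : Stmt_UnivUnique 𝒪 rbar Sig 𝒟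

theorem final
    (𝒪 : Type) [CommRing 𝒪] [IsDomain 𝒪] [IsDiscreteValuationRing 𝒪]
    [IsAdicComplete (IsLocalRing.maximalIdeal 𝒪) 𝒪] [Finite (IsLocalRing.ResidueField 𝒪)]
    (ρbar : ResidualGaloisRep (IsLocalRing.ResidueField 𝒪))
    (𝒟 : ∀ ⦃A : Type⦄ [CommRing A] [IsLocalRing A] [Algebra 𝒪 A], GaloisRepAdic A → Prop)
    (habs : ρbar.IsAbsolutelyIrreducible)
    (hDictRes : Stmt_DictResidual 𝒪) (hBC : Stmt_DictBaseChange) (hMCM : Stmt_MatContMap)
    (hMCC : Stmt_MatContConj) (hDE : Stmt_DictEquiv) (hTE : Stmt_TypeEquiv 𝒪 𝒟)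
    (hSlice : Stmt_Slice 𝒪) (hRing : Stmt_Ring 𝒪)
    (hFam : ∀ (b : Module.Basis (Fin 2) (ResidueField 𝒪) ρbar.V) (Sig : Set (Lam 𝒪)),
      IsSlice (matOfBasis ρbar b) Sig → FamilyFacts 𝒪 (matOfBasis ρbar b) Sig 𝒟) :
    Nonempty (GaloisRep.DeformationRingData 𝒪 ρbar 𝒟) := by
  obtain ⟨b, Sig, hS⟩ := hSlice ρbar habs
  have hF := hFam b Sig hS
  set rbar := matOfBasis ρbar b with hrbar
  -- hypotheses of the ring construction
  have hne : augIdeal rbar ≠ ⊤ := RingHom.ker_ne_top _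
  have hres : ∀ x : Lam 𝒪, ∃ c : 𝒪, x - algebraMap 𝒪 (Lam 𝒪) c ∈ augIdeal rbar := by
    intro x
    obtain ⟨c, hc⟩ := IsLocalRing.residue_surjective
      (evalMat (𝒪 := 𝒪) (A := ResidueField 𝒪) rbar x)
    refine ⟨c, ?_⟩
    show _ ∈ RingHom.ker _
    rw [RingHom.mem_ker, map_sub, AlgHom.commutes, IsLocalRing.ResidueField.algebraMap_eq, hc,
      sub_self]
  have hloc : ∀ c ∈ maximalIdeal 𝒪, algebraMap 𝒪 (Lam 𝒪) c ∈ augIdeal rbar := by
    intro c hc
    show _ ∈ RingHom.ker _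
    rw [RingHom.mem_ker, AlgHom.commutes, IsLocalRing.ResidueField.algebraMap_eq]
    exact (IsLocalRing.residue_eq_zero_iff c).mpr hc
  obtain ⟨P⟩ := hRing (Lam 𝒪) (augIdeal rbar) {J | InFamily rbar Sig 𝒟 J} hne hres hloc
    hF.famTop hF.famLe (fun J hJ J' hJ' => hF.famInf J J' hJ hJ')
    (fun J hJ J' hle hle' => hF.famUp J J' hJ hle hle') hF.famFin hF.famNil hF.famTan
  obtain ⟨runiv, hruniv, hNL⟩ := hF.univRep P
  refine ⟨{ R := P.R
            residue_surjective := P.residue_surjective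
            absIrr := habs
            ρ := ofMat runiv hNL.cont
            isOfType := hNL.type
            residual_isEquiv := ?_
            universal := ?_ }⟩
  · exact (hDictRes ρbar b P.R (ofMat runiv hNL.cont)).mpr
      ⟨runiv, hNL.cont, hNL.strict, isEquiv_refl _⟩
  · intro A _ _ _ _ _ hloc' hsurj ρA hρA hresA
    obtain ⟨r, hr, hstrict, he⟩ := (hDictRes ρbar b A ρA).mp hresA
    obtain ⟨M, r', hstrict', hnorm', hconj⟩ := hS.exists_normalized r hstrict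
    have hr' : MatCont r' := hMCC A r r' M hconj hr
    have he' : ρA.IsEquiv (ofMat r' hr') :=
      isEquiv_trans he ((hDE A r r' hr hr').mpr ⟨M, hconj⟩)
    have htype' : 𝒟 (ofMat r' hr') := hTE A hloc' hsurj ρA _ he' hρA
    have hNL' : IsNLift rbar Sig 𝒟 r' := ⟨hr', hstrict', hnorm', htype'⟩
    obtain ⟨φ, hφloc, hφ⟩ := hF.univLift P A hloc' hsurj r' hNL'
    have hmap : mapMat (φ : P.R →+* A) runiv = r' := by
      apply MonoidHom.ext
      intro σ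
      ext i j
      rw [mapMat_apply, hruniv]
      exact hφ σ i j
    have key : ∀ (ψ : P.R →ₐ[𝒪] A) (hψ : IsLocalHom (ψ : P.R →+* A)),
        ((ofMat runiv hNL.cont).baseChangeAlong (ψ : P.R →+* A) hψ).IsEquiv
          (ofMat (mapMat (ψ : P.R →+* A) runiv) (hMCM _ _ _ hψ runiv hNL.cont)) :=
      fun ψ hψ => hBC P.R A (ψ : P.R →+* A) hψ runiv hNL.cont _
    refine ⟨φ, ⟨hφloc, ?_⟩, ?_⟩
    · refine isEquiv_trans (key φ hφloc) ?_
      rw [ofMat_congr hmap _ hr']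
      exact isEquiv_symm he'
    · rintro φ' ⟨hφ'loc, he''⟩
      have h1 : (ofMat (mapMat (φ' : P.R →+* A) runiv)
          (hMCM _ _ _ hφ'loc runiv hNL.cont)).IsEquiv (ofMat r' hr') :=
        isEquiv_trans (isEquiv_symm (key φ' hφ'loc)) (isEquiv_trans he'' he')
      obtain ⟨M', hM'⟩ := (hDE A _ _ _ _).mp h1
      have h2 : mapMat (φ' : P.R →+* A) runiv = r' :=
        hS.eq_of_conj _ _ (hNL.strict.map φ' hφ'loc) hstrict' (hNL.norm.map φ') hnorm' M' hM'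
      refine hF.univUnique P A φ' φ hφ'loc hφloc ?_
      intro σ i j
      rw [hφ σ i j, ← hruniv, ← h2, mapMat_apply]
      rfl

end Fermat.Agent.S53.helper53
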