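/-
S53, piece DICT (helper653): the dictionary between `GaloisRepAdic` and matrix representations.
Proves the captain's blueprint statements `Stmt_DictExists`, `Stmt_MatContMap`,
`Stmt_DictBaseChange`, `Stmt_MatContConj`, `Stmt_DictEquiv`, `Stmt_DictResidual`,
`Stmt_MatContRes`, `Stmt_DictOfResidual` of `Fermat.Agent.S53.helper53_Spec`
(all unconditionally), plus some convenient variants.
-/
import Fermat.Agent.S53.helper53_Spec

set_option autoImplicit false

namespace Fermat.Agent.S53.helper653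

open IsLocalRing TensorProduct Fermat.Agent.S53.helper53

/-! ### Generalities -/

section gen

variable {A : Type} [CommRing A]

theorem repr_mem_of_mem_smul_top {V : Type} [AddCommGroup V] [Module A V]
    (b : Module.Basis (Fin 2) A V) (I : Ideal A) {x : V}
    (hx : x ∈ I • (⊤ : Submodule A V)) (i : Fin 2) : b.repr x i ∈ I := by
  refine Submodule.smul_induction_on (p := fun x => b.repr x i ∈ I) hx ?_ ?_
  · intro a ha v _
    rw [map_smul, Finsupp.smul_apply, smul_eq_mul]
    exact I.mul_mem_right _ ha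
  · intro x y hx hy
    rw [map_add, Finsupp.add_apply]
    exact I.add_mem hx hy

theorem toMatrix_eq_of_equiv {K V W : Type} [CommRing K] [AddCommGroup V] [Module K V]
    [AddCommGroup W] [Module K W] (e : V ≃ₗ[K] W) (f : V →ₗ[K] V) (g : W →ₗ[K] W)
    (hfg : ∀ x, e (f x) = g (e x)) (bV : Module.Basis (Fin 2) K V) (bW : Module.Basis (Fin 2) K W)
    (hb : ∀ i, e (bV i) = bW i) : LinearMap.toMatrix bV bV f = LinearMap.toMatrix bW bW g := by
  have hbW : bW = bV.map e := by
    apply Module.Basis.eq_of_apply_eq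
    intro i
    rw [Module.Basis.map_apply, hb]
  ext i j
  rw [LinearMap.toMatrix_apply, LinearMap.toMatrix_apply, ← hb j, ← hfg, hbW,
    Module.Basis.map_repr, LinearEquiv.trans_apply, LinearEquiv.symm_apply_apply]

theorem equiv_comm_of_toMatrix_eq {K V W : Type} [CommRing K] [AddCommGroup V] [Module K V]
    [AddCommGroup W] [Module K W] (f : V →ₗ[K] V) (g : W →ₗ[K] W)
    (bV : Module.Basis (Fin 2) K V) (bW : Module.Basis (Fin 2) K W)
    (h : LinearMap.toMatrix bV bV f = LinearMap.toMatrix bW bW g) (x : V) :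
    (bV.equiv bW (Equiv.refl _)) (f x) = g ((bV.equiv bW (Equiv.refl _)) x) := by
  have key : (bV.equiv bW (Equiv.refl _)).toLinearMap ∘ₗ f =
      g ∘ₗ (bV.equiv bW (Equiv.refl _)).toLinearMap := by
    apply bV.ext
    intro j
    simp only [LinearMap.comp_apply, LinearEquiv.coe_coe, Module.Basis.equiv_apply, Equiv.refl_apply]
    rw [← bV.sum_repr (f (bV j)), ← bW.sum_repr (g (bW j)), map_sum]
    refine Finset.sum_congr rfl fun i _ => ?_
    rw [map_smul, Module.Basis.equiv_apply, Equiv.refl_apply, ← LinearMap.toMatrix_apply bV bV,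
      ← LinearMap.toMatrix_apply bW bW, h]
  exact congrArg (fun l : V →ₗ[K] W => l x) key

/-- Entries of `M * X * N` lie in an ideal containing all entries of `X`. -/
theorem mul_mul_apply_mem (I : Ideal A) (M X N : M2 A) (hX : ∀ i j, X i j ∈ I) (i j : Fin 2) :
    (M * X * N) i j ∈ I := by
  rw [Matrix.mul_apply]
  refine Ideal.sum_mem _ fun l _ => Ideal.mul_mem_right _ _ ?_
  rw [Matrix.mul_apply]
  exact Ideal.sum_mem _ fun l' _ => Ideal.mul_mem_left _ _ (hX l' l)

end gen

/-! ### Matrix families attached to a representation and a basis -/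

section basis

variable {A : Type} [CommRing A] [IsLocalRing A]

/-- The matrix family of a representation in a basis. -/
noncomputable def matOf (ρ : GaloisRepAdic A) (b : Module.Basis (Fin 2) A ρ.V) : Gal →* M2 A where
  toFun σ := LinearMap.toMatrix b b (ρ.ρ σ)
  map_one' := by rw [map_one]; exact LinearMap.toMatrix_one b
  map_mul' σ τ := by rw [map_mul]; exact LinearMap.toMatrix_mul b _ _

@[simp] theorem matOf_apply (ρ : GaloisRepAdic A) (b : Module.Basis (Fin 2) A ρ.V) (σ : Gal) :
    matOf ρ b σ = LinearMap.toMatrix b b (ρ.ρ σ) := rfl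

theorem matOf_cont (ρ : GaloisRepAdic A) (b : Module.Basis (Fin 2) A ρ.V) :
    MatCont (matOf ρ b) := by
  intro n
  obtain ⟨L, hL, h⟩ := ρ.isAdicContinuous n
  refine ⟨L, hL, fun σ hσ i j => ?_⟩
  have : (matOf ρ b σ - 1) i j = b.repr (ρ.ρ σ (b j) - b j) i := by
    rw [Matrix.sub_apply, matOf_apply, LinearMap.toMatrix_apply, map_sub, Finsupp.sub_apply,
      Module.Basis.repr_self, Matrix.one_apply, Finsupp.single_apply]
    simp only [eq_comm]
  rw [this]
  exact repr_mem_of_mem_smul_top b _ (h σ hσ (b j)) i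

/-- Every representation is equivalent to the `ofMat` of its matrix family in any basis. -/
theorem isEquiv_ofMat_matOf (ρ : GaloisRepAdic A) (b : Module.Basis (Fin 2) A ρ.V) :
    ρ.IsEquiv (ofMat (matOf ρ b) (matOf_cont ρ b)) := by
  refine ⟨{ toLinearEquiv := b.equivFun, map_apply := ?_ }⟩
  intro σ x
  show b.equivFun (ρ.ρ σ x) = Matrix.toLin' (LinearMap.toMatrix b b (ρ.ρ σ)) (b.equivFun x)
  rw [Matrix.toLin'_apply]
  exact (LinearMap.toMatrix_mulVec_repr b b (ρ.ρ σ) x).symm

/-- DICT-A. -/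
theorem dictExists : Stmt_DictExists := by
  intro A _ _ ρ
  have b : Module.Basis (Fin 2) A ρ.V := Module.finBasisOfFinrankEq A ρ.V ρ.finrank_eq
  exact ⟨matOf ρ b, matOf_cont ρ b, isEquiv_ofMat_matOf ρ b⟩

end basis

/-! ### Push-forward -/

section map

variable {A B : Type} [CommRing A] [IsLocalRing A] [CommRing B] [IsLocalRing B]

theorem map_pow_maximalIdeal_le (φ : A →+* B) (hφ : IsLocalHom φ) (n : ℕ) {a : A}
    (ha : a ∈ maximalIdeal A ^ n) : φ a ∈ maximalIdeal B ^ n := by
  have hmap : (maximalIdeal A ^ n).map φ ≤ maximalIdeal B ^ n := by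
    rw [Ideal.map_pow]
    exact Ideal.pow_right_mono (Ideal.map_le_iff_le_comap.mpr fun a ha =>
      Ideal.mem_comap.mpr (haveI := hφ; map_nonunit φ a ha)) n
  exact hmap (Ideal.mem_map_of_mem φ ha)

theorem matCont_mapMat {r : Gal →* M2 A} (hr : MatCont r) (φ : A →+* B)
    (hφ : IsLocalHom φ) : MatCont (mapMat φ r) := by
  intro n
  obtain ⟨L, hL, h⟩ := hr n
  refine ⟨L, hL, fun σ hσ i j => ?_⟩
  have : (mapMat φ r σ - 1) i j = φ ((r σ - 1) i j) := by
    simp only [Matrix.sub_apply, mapMat_apply, Matrix.one_apply, map_sub]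
    split_ifs <;> simp
  rw [this]
  exact map_pow_maximalIdeal_le φ hφ n (h σ hσ i j)

/-- DICT-B0. -/
theorem matContMap : Stmt_MatContMap := by
  intro A B _ _ _ _ φ hφ r hr
  exact matCont_mapMat hr φ hφ

omit [IsLocalRing A] [IsLocalRing B] in
theorem piScalarRight_baseChange_toLin' [Algebra A B] (M : M2 A) (x : B ⊗[A] (Fin 2 → A)) :
    TensorProduct.piScalarRight A B B (Fin 2) ((Matrix.toLin' M).baseChange B x) =
      Matrix.toLin' (M.map (algebraMap A B)) (TensorProduct.piScalarRight A B B (Fin 2) x) := by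
  induction x using TensorProduct.induction_on with
  | zero => simp only [map_zero]
  | tmul b v =>
    rw [LinearMap.baseChange_tmul, TensorProduct.piScalarRight_apply,
      TensorProduct.piScalarRightHom_tmul, TensorProduct.piScalarRight_apply,
      TensorProduct.piScalarRightHom_tmul]
    ext i
    simp only [Matrix.toLin'_apply, Matrix.mulVec, dotProduct, Matrix.map_apply, Algebra.smul_def,
      map_sum, map_mul, Finset.sum_mul]
    refine Finset.sum_congr rfl fun j _ => ?_
    ring
  | add x y hx hy => simp only [map_add, hx, hy]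

/-- Base change of `ofMat` is `ofMat` of the entrywise image. -/
theorem ofMat_baseChangeAlong (φ : A →+* B) (hφ : IsLocalHom φ) (r : Gal →* M2 A)
    (hr : MatCont r) (hr' : MatCont (mapMat φ r)) :
    ((ofMat r hr).baseChangeAlong φ hφ).IsEquiv (ofMat (mapMat φ r) hr') := by
  let _ : Algebra A B := φ.toAlgebra
  exact ⟨{ toLinearEquiv := TensorProduct.piScalarRight A B B (Fin 2)
           map_apply := fun σ x => piScalarRight_baseChange_toLin' (r σ) x }⟩

/-- DICT-B. -/
theorem dictBaseChange : Stmt_DictBaseChange := by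
  intro A B _ _ _ _ φ hφ r hr hr'
  exact ofMat_baseChangeAlong φ hφ r hr hr'

end map

/-! ### Equivalence versus conjugacy -/

section equiv

variable {A : Type} [CommRing A] [IsLocalRing A]

/-- Conjugate matrix families give equivalent representations. -/
theorem ofMat_isEquiv_of_conj {r r' : Gal →* M2 A} (hr : MatCont r)
    (hr' : MatCont r') (M N : M2 A) (hMN : M * N = 1) (hNM : N * M = 1)
    (h : ∀ σ, M * r σ = r' σ * M) : (ofMat r hr).IsEquiv (ofMat r' hr') := by
  refine ⟨{ toLinearEquiv := Matrix.toLin'OfInv hNM hMN, map_apply := ?_ }⟩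
  intro σ x
  show Matrix.toLin' M (Matrix.toLin' (r σ) x) = Matrix.toLin' (r' σ) (Matrix.toLin' M x)
  rw [← Matrix.toLin'_mul_apply, ← Matrix.toLin'_mul_apply, h σ]

/-- Equivalent `ofMat` representations are conjugate. -/
theorem conj_of_ofMat_isEquiv {r r' : Gal →* M2 A} (hr : MatCont r)
    (hr' : MatCont r') (h : (ofMat r hr).IsEquiv (ofMat r' hr')) :
    ∃ M N : M2 A, M * N = 1 ∧ N * M = 1 ∧ ∀ σ, M * r σ = r' σ * M := by
  obtain ⟨e⟩ := h
  let f : (Fin 2 → A) ≃ₗ[A] (Fin 2 → A) := e.toLinearEquiv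
  have hf : ∀ σ, f.toLinearMap ∘ₗ Matrix.toLin' (r σ) = Matrix.toLin' (r' σ) ∘ₗ f.toLinearMap :=
    fun σ => LinearMap.ext fun x => e.map_apply σ x
  refine ⟨LinearMap.toMatrix' f.toLinearMap, LinearMap.toMatrix' f.symm.toLinearMap, ?_, ?_, ?_⟩
  · rw [← LinearMap.toMatrix'_comp, LinearEquiv.comp_symm, LinearMap.toMatrix'_id]
  · rw [← LinearMap.toMatrix'_comp, LinearEquiv.symm_comp, LinearMap.toMatrix'_id]
  · intro σ
    have h1 := congrArg LinearMap.toMatrix' (hf σ)
    rwa [LinearMap.toMatrix'_comp, LinearMap.toMatrix'_comp, LinearMap.toMatrix'_toLin',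
      LinearMap.toMatrix'_toLin'] at h1

/-- DICT-C. -/
theorem dictEquiv : Stmt_DictEquiv := by
  intro A _ _ r r' hr hr'
  constructor
  · intro h
    obtain ⟨M, N, hMN, hNM, hc⟩ := conj_of_ofMat_isEquiv hr hr' h
    exact ⟨⟨M, N, hMN, hNM⟩, hc⟩
  · rintro ⟨M, hc⟩
    exact ofMat_isEquiv_of_conj hr hr' (M : M2 A) ((M⁻¹ : (M2 A)ˣ) : M2 A)
      (Units.mul_inv M) (Units.inv_mul M) hc

/-- DICT-C0. -/
theorem matContConj : Stmt_MatContConj := by
  intro A _ _ r r' M hc hr n
  obtain ⟨L, hL, h⟩ := hr n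
  refine ⟨L, hL, fun σ hσ i j => ?_⟩
  have h1 : r' σ - 1 = (M : M2 A) * (r σ - 1) * ((M⁻¹ : (M2 A)ˣ) : M2 A) := by
    have h2 : r' σ = (M : M2 A) * r σ * ((M⁻¹ : (M2 A)ˣ) : M2 A) := by
      rw [hc σ, mul_assoc, Units.mul_inv, mul_one]
    rw [h2, mul_sub, sub_mul, mul_one, Units.mul_inv]
  rw [h1]
  exact mul_mul_apply_mem _ _ _ _ (h σ hσ) i j

end equiv

/-! ### Residual representations -/

section residual

variable {A : Type} [CommRing A] [IsLocalRing A]
variable {k : Type} [Field k]

/-- If the residual representation of `ρ` is equivalent to the base change of `ρbar`, there is a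
basis of `ρ.V` in which the matrices of `ρ` reduce to those of `ρbar` in a given basis. -/
theorem exists_basis_residual (ρbar : ResidualGaloisRep k) (b0 : Module.Basis (Fin 2) k ρbar.V)
    (ι : k →+* ResidueField A) (ρ : GaloisRepAdic A)
    (h : ρ.residual.IsEquiv (ρbar.baseChangeAlong ι)) :
    ∃ b : Module.Basis (Fin 2) A ρ.V, ∀ σ i j,
      residue A (LinearMap.toMatrix b b (ρ.ρ σ) i j) =
        ι (LinearMap.toMatrix b0 b0 (ρbar.ρ σ) i j) := by
  obtain ⟨e⟩ := h
  let _ : Algebra k (ResidueField A) := ι.toAlgebra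
  let b2 : Module.Basis (Fin 2) (ResidueField A) (ResidueField A ⊗[k] ρbar.V) :=
    Algebra.TensorProduct.basis (ResidueField A) b0
  let e' : (ResidueField A ⊗[A] ρ.V) ≃ₗ[ResidueField A] (ResidueField A ⊗[k] ρbar.V) :=
    e.toLinearEquiv
  let b1 : Module.Basis (Fin 2) (ResidueField A) (ResidueField A ⊗[A] ρ.V) := b2.map e'.symm
  have hsurj : Function.Surjective (TensorProduct.mk A (ResidueField A) ρ.V 1) :=
    TensorProduct.mk_surjective A ρ.V (ResidueField A) Ideal.Quotient.mk_surjective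
  choose v hv using fun i => hsurj (b1 i)
  have hli : LinearIndependent A v := by
    apply Module.IsLocalRing.linearIndependent_of_flat
    have : (TensorProduct.mk A (ResidueField A) ρ.V 1) ∘ v = b1 := funext hv
    rw [this]
    exact b1.linearIndependent
  have hsp : Submodule.span A (Set.range v) = ⊤ :=
    IsLocalRing.span_eq_top_of_tmul_eq_basis v b1 hv
  let b : Module.Basis (Fin 2) A ρ.V := Module.Basis.mk hli hsp.ge
  refine ⟨b, fun σ i j => ?_⟩
  let B1 : Module.Basis (Fin 2) (ResidueField A) (ResidueField A ⊗[A] ρ.V) :=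
    Algebra.TensorProduct.basis (ResidueField A) b
  have hB1 : ∀ i, e' (B1 i) = b2 i := by
    intro i
    have : B1 i = b1 i := by
      rw [Algebra.TensorProduct.basis_apply, Module.Basis.mk_apply]
      exact hv i
    rw [this, Module.Basis.map_apply, LinearEquiv.apply_symm_apply]
  have hmat := toMatrix_eq_of_equiv e' ((ρ.ρ σ).baseChange (ResidueField A))
    ((ρbar.ρ σ).baseChange (ResidueField A)) (fun x => e.map_apply σ x) B1 b2 hB1
  rw [LinearMap.toMatrix_baseChange, LinearMap.toMatrix_baseChange] at hmat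
  have := congrFun (congrFun hmat i) j
  rw [Matrix.map_apply, Matrix.map_apply, IsLocalRing.ResidueField.algebraMap_eq] at this
  exact this

/-- Converse: a basis in which the matrices reduce to those of `ρbar` gives a residual
equivalence. -/
theorem residual_isEquiv_of_basis (ρbar : ResidualGaloisRep k) (b0 : Module.Basis (Fin 2) k ρbar.V)
    (ι : k →+* ResidueField A) (ρ : GaloisRepAdic A) (b : Module.Basis (Fin 2) A ρ.V)
    (h : ∀ σ i j, residue A (LinearMap.toMatrix b b (ρ.ρ σ) i j) =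
        ι (LinearMap.toMatrix b0 b0 (ρbar.ρ σ) i j)) :
    ρ.residual.IsEquiv (ρbar.baseChangeAlong ι) := by
  let _ : Algebra k (ResidueField A) := ι.toAlgebra
  let b2 : Module.Basis (Fin 2) (ResidueField A) (ResidueField A ⊗[k] ρbar.V) :=
    Algebra.TensorProduct.basis (ResidueField A) b0
  let B1 : Module.Basis (Fin 2) (ResidueField A) (ResidueField A ⊗[A] ρ.V) :=
    Algebra.TensorProduct.basis (ResidueField A) b
  have hmat : ∀ σ, LinearMap.toMatrix B1 B1 ((ρ.ρ σ).baseChange (ResidueField A)) =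
      LinearMap.toMatrix b2 b2 ((ρbar.ρ σ).baseChange (ResidueField A)) := by
    intro σ
    rw [LinearMap.toMatrix_baseChange, LinearMap.toMatrix_baseChange]
    ext i j
    rw [Matrix.map_apply, Matrix.map_apply, IsLocalRing.ResidueField.algebraMap_eq]
    exact h σ i j
  exact ⟨{ toLinearEquiv := B1.equiv b2 (Equiv.refl _)
           map_apply := fun σ x => equiv_comm_of_toMatrix_eq _ _ B1 b2 (hmat σ) x }⟩

/-- The residual representation of `ofMat r` is the base change of `ρbar` as soon as the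
entries of `r` reduce to the matrices of `ρbar` in the basis `b0`. -/
theorem ofMat_residual_isEquiv (ρbar : ResidualGaloisRep k) (b0 : Module.Basis (Fin 2) k ρbar.V)
    (ι : k →+* ResidueField A) (r : Gal →* M2 A) (hr : MatCont r)
    (h : ∀ σ i j, residue A (r σ i j) = ι (LinearMap.toMatrix b0 b0 (ρbar.ρ σ) i j)) :
    (ofMat r hr).residual.IsEquiv (ρbar.baseChangeAlong ι) := by
  refine residual_isEquiv_of_basis ρbar b0 ι (ofMat r hr) (Pi.basisFun A (Fin 2)) ?_
  intro σ i j
  have : LinearMap.toMatrix (Pi.basisFun A (Fin 2)) (Pi.basisFun A (Fin 2))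
      (Matrix.toLin' (r σ)) i j = r σ i j := by
    rw [LinearMap.toMatrix_eq_toMatrix', LinearMap.toMatrix'_toLin']
  exact (congrArg (residue A) this).trans (h σ i j)

/-- A deformation of `ρbar` is equivalent to `ofMat` of a matrix family lifting the matrices of
`ρbar` in the basis `b0`. -/
theorem exists_matrix_lift (ρbar : ResidualGaloisRep k) (b0 : Module.Basis (Fin 2) k ρbar.V)
    (ι : k →+* ResidueField A) (ρ : GaloisRepAdic A)
    (h : ρ.residual.IsEquiv (ρbar.baseChangeAlong ι)) :
    ∃ (r : Gal →* M2 A) (hr : MatCont r), ρ.IsEquiv (ofMat r hr) ∧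
      ∀ σ i j, residue A (r σ i j) = ι (LinearMap.toMatrix b0 b0 (ρbar.ρ σ) i j) := by
  obtain ⟨b, hb⟩ := exists_basis_residual ρbar b0 ι ρ h
  exact ⟨matOf ρ b, matOf_cont ρ b, isEquiv_ofMat_matOf ρ b, hb⟩

/-- DICT-E0. -/
theorem matContRes : Stmt_MatContRes := by
  intro k _ ρbar b n
  obtain ⟨L, hL, h1⟩ := ρbar.factorsThroughFiniteLevel
  refine ⟨L, hL, fun σ hσ i j => ?_⟩
  have : matOfBasis ρbar b σ - 1 = 0 := by
    rw [matOfBasis_apply, h1 σ hσ, sub_eq_zero]
    exact LinearMap.toMatrix_one b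
  rw [this]
  exact Ideal.zero_mem _

/-- DICT-E. -/
theorem dictOfResidual : Stmt_DictOfResidual := by
  intro k _ ρbar b hr
  refine ⟨{ toLinearEquiv := b.equivFun, map_apply := ?_ }⟩
  intro σ x
  show b.equivFun (ρbar.ρ σ x) = Matrix.toLin' (LinearMap.toMatrix b b (ρbar.ρ σ)) (b.equivFun x)
  rw [Matrix.toLin'_apply]
  exact (LinearMap.toMatrix_mulVec_repr b b (ρbar.ρ σ) x).symm

end residual

/-! ### Strict lifts -/

section strict

variable {𝒪 : Type} [CommRing 𝒪] [IsLocalRing 𝒪]
variable {A : Type} [CommRing A] [IsLocalRing A] [Algebra 𝒪 A] [IsLocalHom (algebraMap 𝒪 A)]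

/-- `IsStrictLift` in terms of `ResidueField.map`. -/
theorem isStrictLift_iff (rbar : Gal →* M2 (ResidueField 𝒪)) (r : Gal → M2 A) :
    IsStrictLift rbar r ↔ ∀ σ i j, residue A (r σ i j) =
      IsLocalRing.ResidueField.map (algebraMap 𝒪 A) (rbar σ i j) := by
  constructor
  · intro h σ i j
    obtain ⟨c, hc, hmem⟩ := h σ i j
    rw [← hc, IsLocalRing.ResidueField.map_residue]
    have h0 : residue A (r σ i j - algebraMap 𝒪 A c) = 0 :=
      (IsLocalRing.residue_eq_zero_iff _).mpr hmem
    rw [map_sub, sub_eq_zero] at h0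
    exact h0
  · intro h σ i j
    obtain ⟨c, hc⟩ := IsLocalRing.residue_surjective (rbar σ i j)
    refine ⟨c, hc, ?_⟩
    rw [← IsLocalRing.residue_eq_zero_iff, map_sub, sub_eq_zero, h σ i j, ← hc,
      IsLocalRing.ResidueField.map_residue]

/-- DICT-D. -/
theorem dictResidual (𝒪 : Type) [CommRing 𝒪] [IsLocalRing 𝒪] : Stmt_DictResidual 𝒪 := by
  intro ρbar b A _ _ _ _ ρ
  constructor
  · intro h
    obtain ⟨r, hr, he, hres⟩ := exists_matrix_lift ρbar b
      (IsLocalRing.ResidueField.map (algebraMap 𝒪 A)) ρ h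
    exact ⟨r, hr, (isStrictLift_iff (matOfBasis ρbar b) r).mpr hres, he⟩
  · rintro ⟨r, hr, hs, ⟨e⟩⟩
    have h1 : (ofMat r hr).residual.IsEquiv
        (ρbar.baseChangeAlong (IsLocalRing.ResidueField.map (algebraMap 𝒪 A))) :=
      ofMat_residual_isEquiv ρbar b _ r hr ((isStrictLift_iff (matOfBasis ρbar b) r).mp hs)
    obtain ⟨e1⟩ := h1
    exact ⟨e.residual.trans e1⟩

end strict

end Fermat.Agent.S53.helper653
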