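/-
S53, DICT-F (helper653): `Stmt_TypeEquiv` of the captain's blueprint, from the toolkit lemma
`helper533.D_of_isEquiv_complete`.
-/
import Fermat.Agent.S53.helper53_Spec
import Fermat.Agent.S53.helper533_TestAlg

set_option autoImplicit false

namespace Fermat.Agent.S53.helper653

open IsLocalRing Fermat.Agent.S53.helper53

/-- DICT-F. -/
theorem typeEquiv (𝒪 : Type) [CommRing 𝒪] [IsLocalRing 𝒪]
    (𝒟 : ∀ ⦃A : Type⦄ [CommRing A] [IsLocalRing A] [Algebra 𝒪 A], GaloisRepAdic A → Prop)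
    (h𝒟 : GaloisRep.IsDeformationCondition 𝒪 𝒟) : Stmt_TypeEquiv 𝒪 𝒟 := by
  intro A _ _ _ _ _ hloc hres ρ ρ' e h
  exact Fermat.Agent.S53.helper533.D_of_isEquiv_complete 𝒪 h𝒟 hloc hres e h

end Fermat.Agent.S53.helper653
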