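/-
S53, board row #179 (FUNCT-0): `Stmt_NLiftMap` of the captain Spec (helper53_Spec).

Normalized lifts of type `𝒟` push forward along `𝒪`-algebra maps between Artinian test algebras.
Hypothesis-passing style: the two dictionary statements `Stmt_DictBaseChange` and
`Stmt_MatContMap` are taken as hypotheses.  No sorry.
-/
import Fermat.Agent.S53.helper53_Spec

set_option autoImplicit false

namespace Fermat.Agent.S53.helper759

open IsLocalRing Fermat.Agent.S53.helper53

/-- A ring homomorphism from an Artinian local ring to a nontrivial ring is a local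
homomorphism (non-units of the source are nilpotent). -/
theorem isLocalHom_of_isArtinianRing {A B : Type} [CommRing A] [IsLocalRing A] [IsArtinianRing A]
    [CommRing B] [Nontrivial B] (φ : A →+* B) : IsLocalHom φ := by
  refine ⟨fun a ha => ?_⟩
  by_contra hna
  have ham : a ∈ maximalIdeal A := hna
  have hnil : IsNilpotent a := by
    have h1 : IsNilpotent (Ideal.jacobson (⊥ : Ideal A)) := IsArtinianRing.isNilpotent_jacobson_bot
    obtain ⟨n, hn⟩ := h1
    have h2 : a ^ n ∈ (Ideal.jacobson (⊥ : Ideal A)) ^ n := by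
      apply Ideal.pow_mem_pow
      rw [IsLocalRing.jacobson_eq_maximalIdeal ⊥ bot_ne_top]
      exact ham
    rw [hn] at h2
    exact ⟨n, h2⟩
  exact (hnil.map φ).not_isUnit ha

/-- Evaluation of polynomials at the entries commutes with entrywise push-forward. -/
theorem evalMat_mapMat {𝒪 : Type} [CommRing 𝒪] {A B : Type} [CommRing A] [Algebra 𝒪 A]
    [CommRing B] [Algebra 𝒪 B] (φ : A →ₐ[𝒪] B) (r : Gal →* M2 A) (f : Lam 𝒪) :
    evalMat (𝒪 := 𝒪) (mapMat (φ : A →+* B) r) f = φ (evalMat (𝒪 := 𝒪) r f) := by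
  have h : φ.comp (evalMat (𝒪 := 𝒪) r) = evalMat (𝒪 := 𝒪) (mapMat (φ : A →+* B) r) := by
    unfold evalMat
    rw [MvPolynomial.comp_aeval]
    rfl
  rw [← h]
  rfl

/-- FUNCT-0 (board #179): `Stmt_NLiftMap` from the dictionary statements `Stmt_DictBaseChange`
and `Stmt_MatContMap`, for a deformation condition `𝒟`. -/
theorem nLiftMap {𝒪 : Type} [CommRing 𝒪] [IsLocalRing 𝒪]
    (rbar : Gal →* M2 (ResidueField 𝒪)) (Sig : Set (Lam 𝒪))
    (𝒟 : ∀ ⦃A : Type⦄ [CommRing A] [IsLocalRing A] [Algebra 𝒪 A], GaloisRepAdic A → Prop)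
    (hD : GaloisRep.IsDeformationCondition 𝒪 𝒟)
    (h : Stmt_DictBaseChange) (h' : Stmt_MatContMap) :
    Stmt_NLiftMap 𝒪 rbar Sig 𝒟 := by
  intro A B _ _ _ _ _ _ hA hB φ r hr
  have : IsArtinianRing A := hA.isArtinian
  have hφ : IsLocalHom (φ : A →+* B) := isLocalHom_of_isArtinianRing (φ : A →+* B)
  have hcont : MatCont (mapMat (φ : A →+* B) r) := h' A B (φ : A →+* B) hφ r hr.cont
  refine ⟨hcont, ?_, ?_, ?_⟩
  · -- strictness
    intro σ i j
    obtain ⟨c, hc, hmem⟩ := hr.strict σ i j
    refine ⟨c, hc, ?_⟩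
    have e : mapMat (φ : A →+* B) r σ i j - algebraMap 𝒪 B c
        = (φ : A →+* B) (r σ i j - algebraMap 𝒪 A c) := by
      rw [mapMat_apply, map_sub]
      simp
    rw [e]
    exact (haveI := hφ; map_nonunit (φ : A →+* B) _ hmem)
  · -- normalization
    intro f hf
    rw [evalMat_mapMat, hr.norm f hf, map_zero]
  · -- type
    exact hD.of_isEquiv hB (h A B (φ : A →+* B) hφ r hr.cont hcont)
      (hD.baseChangeAlong hA hB φ hφ hr.type)

end Fermat.Agent.S53.helper759
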