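/-
S53, piece (d): proof of the abstract pro-representing ring construction
`nonempty_proRep : Stmt_nonempty_proRep` (statement in `helper773_ProRepSpec`).

Outline: a least element of the tangent family gives finitely many generators `s` of `𝔪₀`
modulo every admissible ideal; the power series ring `W = MvPowerSeries s 𝒪` (Noetherian, local,
complete for the ideal of the variables) surjects onto every admissible quotient `Λ ⧸ 𝔞` through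
the finite ring `W ⧸ 𝔪_W ^ n`, which bounds cardinalities and yields the least admissible ideals
`J n ⊇ 𝔪₀ ^ n`; then `R = W ⧸ ⨅ ker (W → Λ ⧸ J n)`, and successive approximation identifies
`R ⧸ 𝔪_R ^ n` with `Λ ⧸ J n`.
-/
import Mathlib
import Fermat.Prelude.Thm_IsAdicComplete_of_module_finite
import Fermat.Agent.S53.helper773_ProRepSpec

set_option autoImplicit false
set_option linter.style.haveILetI false
set_option linter.unusedVariables false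
set_option linter.unusedSectionVars false

namespace Fermat.Agent.S53.helper773

open IsLocalRing

section General

variable {Λ : Type*} [CommRing Λ]

/-- A nonempty family of ideals closed under `⊓`, with finite quotients of bounded cardinality,
has a least element. -/
theorem exists_least_of_card_le (S : Set (Ideal Λ)) (hne : S.Nonempty)
    (hinf : ∀ 𝔞 ∈ S, ∀ 𝔟 ∈ S, 𝔞 ⊓ 𝔟 ∈ S) (hfin : ∀ 𝔞 ∈ S, Finite (Λ ⧸ 𝔞))
    (N : ℕ) (hN : ∀ 𝔞 ∈ S, Nat.card (Λ ⧸ 𝔞) ≤ N) : ∃ 𝔞 ∈ S, ∀ 𝔟 ∈ S, 𝔞 ≤ 𝔟 := by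
  classical
  let C : Set ℕ := (fun 𝔞 : Ideal Λ => Nat.card (Λ ⧸ 𝔞)) '' S
  have hCne : C.Nonempty := hne.image _
  have hCbdd : BddAbove C := ⟨N, by rintro _ ⟨𝔞, h𝔞, rfl⟩; exact hN 𝔞 h𝔞⟩
  obtain ⟨𝔞, h𝔞, h𝔞max⟩ := Nat.sSup_mem hCne hCbdd
  refine ⟨𝔞, h𝔞, fun 𝔟 h𝔟 => ?_⟩
  have hmem : 𝔞 ⊓ 𝔟 ∈ S := hinf 𝔞 h𝔞 𝔟 h𝔟
  haveI := hfin _ hmem
  haveI := hfin _ h𝔞
  have hle : Nat.card (Λ ⧸ (𝔞 ⊓ 𝔟)) ≤ Nat.card (Λ ⧸ 𝔞) := by
    have h1 : Nat.card (Λ ⧸ (𝔞 ⊓ 𝔟)) ≤ sSup C := le_csSup hCbdd ⟨_, hmem, rfl⟩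
    exact h1.trans (le_of_eq h𝔞max.symm)
  have hsurj : Function.Surjective (Ideal.Quotient.factor (inf_le_left : 𝔞 ⊓ 𝔟 ≤ 𝔞)) :=
    Ideal.Quotient.factor_surjective _
  have hge : Nat.card (Λ ⧸ 𝔞) ≤ Nat.card (Λ ⧸ (𝔞 ⊓ 𝔟)) := Nat.card_le_card_of_surjective _ hsurj
  have hbij : Function.Bijective (Ideal.Quotient.factor (inf_le_left : 𝔞 ⊓ 𝔟 ≤ 𝔞)) :=
    (Nat.bijective_iff_surjective_and_card _).mpr ⟨hsurj, le_antisymm hle hge⟩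
  intro x hx
  have h0 : Ideal.Quotient.factor (inf_le_left : 𝔞 ⊓ 𝔟 ≤ 𝔞) (Ideal.Quotient.mk _ x) =
      Ideal.Quotient.factor (inf_le_left : 𝔞 ⊓ 𝔟 ≤ 𝔞) 0 := by
    rw [Ideal.Quotient.factor_mk, map_zero]
    exact Ideal.Quotient.eq_zero_iff_mem.mpr hx
  have h1 := hbij.1 h0
  exact (Ideal.Quotient.eq_zero_iff_mem.mp h1).2

end General

section CLemma

variable {W : Type*} [CommRing W]

theorem tel_mem (I : Ideal W) (z : ℕ → W) (a : ℕ)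
    (hz : ∀ j, z j - z (j + 1) ∈ I ^ (a + j)) :
    ∀ j j', j ≤ j' → z j - z j' ∈ I ^ (a + j) := by
  intro j j' hjj'
  induction j', hjj' using Nat.le_induction with
  | base => simp
  | succ k hk ih =>
    have h1 : z k - z (k + 1) ∈ I ^ (a + j) :=
      Ideal.pow_le_pow_right (by omega) (hz k)
    have : z j - z (k + 1) = (z j - z k) + (z k - z (k + 1)) := by ring
    rw [this]
    exact Ideal.add_mem _ ih h1

/-- Successive approximation: if `W` is `I`-adically precomplete and `K` is a decreasing chain of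
ideals with `I ^ n ≤ K n` and `K n ≤ K (n+1) ⊔ I ^ n`, then `K n ≤ (⨅ m, K m) ⊔ I ^ n`. -/
theorem le_iInf_sup_pow (I : Ideal W) [IsPrecomplete I W]
    (K : ℕ → Ideal W) (hanti : ∀ n, K (n + 1) ≤ K n) (hI : ∀ n, I ^ n ≤ K n)
    (hK : ∀ n, K n ≤ K (n + 1) ⊔ I ^ n) (n : ℕ) : K n ≤ (⨅ m, K m) ⊔ I ^ n := by
  classical
  intro x hx
  have hanti' : ∀ m m', m ≤ m' → K m' ≤ K m := by
    intro m m' h
    induction m', h using Nat.le_induction with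
    | base => exact le_rfl
    | succ k _ ih => exact (hanti k).trans ih
  have step : ∀ (j : ℕ) (y : W), y ∈ K (n + j) →
      ∃ y', y' ∈ K (n + j + 1) ∧ y - y' ∈ I ^ (n + j) := by
    intro j y hy
    obtain ⟨a, ha, b, hb, hab⟩ := Submodule.mem_sup.mp (hK (n + j) hy)
    exact ⟨a, ha, by rw [← hab]; simpa using hb⟩
  let f : ℕ → W → W := fun j y =>
    if h : y ∈ K (n + j) then Classical.choose (step j y h) else 0
  let z : ℕ → W := fun j => Nat.rec x (fun j y => f j y) j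
  have hz0 : z 0 = x := rfl
  have hzs : ∀ j, z (j + 1) = f j (z j) := fun j => rfl
  have hzmem : ∀ j, z j ∈ K (n + j) := by
    intro j
    induction j with
    | zero => simpa [hz0] using hx
    | succ j ih =>
      rw [hzs]
      simp only [f, dif_pos ih]
      exact (Classical.choose_spec (step j (z j) ih)).1
  have hzdiff : ∀ j, z j - z (j + 1) ∈ I ^ (n + j) := by
    intro j
    rw [hzs]
    simp only [f, dif_pos (hzmem j)]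
    exact (Classical.choose_spec (step j (z j) (hzmem j))).2
  have htel := tel_mem I z n hzdiff
  -- the Cauchy sequence
  let g : ℕ → W := fun j => z (j - n)
  have hg : ∀ {m m' : ℕ}, m ≤ m' → g m ≡ g m' [SMOD (I ^ m • ⊤ : Submodule W W)] := by
    intro m m' hmm'
    rw [SModEq.sub_mem, smul_eq_mul, Ideal.mul_top]
    have h1 : g m - g m' ∈ I ^ (n + (m - n)) := htel (m - n) (m' - n) (by omega)
    exact Ideal.pow_le_pow_right (by omega) h1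
  obtain ⟨L, hL⟩ := IsPrecomplete.prec (I := I) (M := W) inferInstance hg
  have hL' : ∀ m, g m - L ∈ I ^ m := by
    intro m
    have := hL m
    rwa [SModEq.sub_mem, smul_eq_mul, Ideal.mul_top] at this
  have hLmem : ∀ m, n ≤ m → L ∈ K m := by
    intro m hm
    have h1 : g m ∈ K m := by
      have := hzmem (m - n)
      have h2 : n + (m - n) = m := by omega
      rwa [h2] at this
    have h2 : g m - L ∈ K m := hI m (hL' m)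
    have : L = g m - (g m - L) := by ring
    rw [this]
    exact Ideal.sub_mem _ h1 h2
  have hLinf : L ∈ ⨅ m, K m := by
    rw [Ideal.mem_iInf]
    intro m
    rcases le_total n m with h | h
    · exact hLmem m h
    · exact hanti' m n h (hLmem n le_rfl)
  have hxL : x - L ∈ I ^ n := by
    have := hL' n
    simpa [g, hz0] using this
  have : x = L + (x - L) := by ring
  rw [this]
  exact Ideal.add_mem _ (Ideal.mem_sup_left hLinf) (Ideal.mem_sup_right hxL)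

end CLemma

section Eval

variable {𝒪 : Type*} [CommRing 𝒪] {σ : Type*} {T : Type*} [CommRing T] [Algebra 𝒪 T]

theorem aeval_mem_pow_of_mem_pow_idealOfVars (t : σ → T) (n : ℕ) (p : MvPolynomial σ 𝒪)
    (hp : p ∈ MvPolynomial.idealOfVars σ 𝒪 ^ n) :
    MvPolynomial.aeval t p ∈ Ideal.span (Set.range t) ^ n := by
  have h1 : Ideal.map (MvPolynomial.aeval t : MvPolynomial σ 𝒪 →ₐ[𝒪] T).toRingHom
      (MvPolynomial.idealOfVars σ 𝒪) = Ideal.span (Set.range t) := by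
    rw [MvPolynomial.idealOfVars, Ideal.map_span]
    congr 1
    ext x
    simp
  have h2 := Ideal.mem_map_of_mem (MvPolynomial.aeval t : MvPolynomial σ 𝒪 →ₐ[𝒪] T).toRingHom hp
  rw [Ideal.map_pow, h1] at h2
  exact h2

variable [Finite σ]

/-- Evaluation of a power series at a family `t` generating an ideal with vanishing `n`-th power,
by truncation. -/
noncomputable def evalTrunc (n : ℕ) (t : σ → T) (ht : Ideal.span (Set.range t) ^ n = ⊥) :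
    MvPowerSeries σ 𝒪 →ₐ[𝒪] T :=
  (Ideal.Quotient.liftₐ (MvPolynomial.idealOfVars σ 𝒪 ^ n) (MvPolynomial.aeval t)
    (fun p hp => by
      have := aeval_mem_pow_of_mem_pow_idealOfVars t n p hp
      rwa [ht, Ideal.mem_bot] at this)).comp
    ((MvPowerSeries.truncTotalAlgHom σ 𝒪 n).restrictScalars 𝒪)

theorem evalTrunc_apply (n : ℕ) (t : σ → T) (ht : Ideal.span (Set.range t) ^ n = ⊥)
    (w : MvPowerSeries σ 𝒪) :
    evalTrunc n t ht w = MvPolynomial.aeval t (MvPowerSeries.truncTotal n w) := rfl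

theorem evalTrunc_coe (n : ℕ) (t : σ → T) (ht : Ideal.span (Set.range t) ^ n = ⊥)
    (p : MvPolynomial σ 𝒪) :
    evalTrunc n t ht (p : MvPowerSeries σ 𝒪) = MvPolynomial.aeval t p := by
  have h := (MvPowerSeries.truncTotalAlgHom σ 𝒪 n).commutes p
  change evalTrunc n t ht (algebraMap (MvPolynomial σ 𝒪) (MvPowerSeries σ 𝒪) p) = _
  simp only [evalTrunc, AlgHom.comp_apply, AlgHom.restrictScalars_apply, h]
  rfl

theorem evalTrunc_X (n : ℕ) (t : σ → T) (ht : Ideal.span (Set.range t) ^ n = ⊥) (i : σ) :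
    evalTrunc n t ht (MvPowerSeries.X i : MvPowerSeries σ 𝒪) = t i := by
  rw [← MvPolynomial.coe_X, evalTrunc_coe, MvPolynomial.aeval_X]

theorem evalTrunc_comp {T' : Type*} [CommRing T'] [Algebra 𝒪 T'] (g : T →ₐ[𝒪] T')
    {m n : ℕ} (hmn : m ≤ n) (t : σ → T) (ht : Ideal.span (Set.range t) ^ n = ⊥)
    (ht' : Ideal.span (Set.range (g ∘ t)) ^ m = ⊥) (w : MvPowerSeries σ 𝒪) :
    g (evalTrunc n t ht w) = evalTrunc m (g ∘ t) ht' w := by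
  rw [evalTrunc_apply, evalTrunc_apply]
  have h1 : g (MvPolynomial.aeval t (MvPowerSeries.truncTotal n w)) =
      MvPolynomial.aeval (g ∘ t) (MvPowerSeries.truncTotal n w) := by
    rw [← AlgHom.comp_apply, MvPolynomial.comp_aeval]
    rfl
  rw [h1, ← sub_eq_zero, ← map_sub]
  have h2 := aeval_mem_pow_of_mem_pow_idealOfVars (𝒪 := 𝒪) (g ∘ t) m _
    (MvPowerSeries.truncTotal_sub_truncTotal_mem_pow_idealOfVars hmn le_rfl w)
  rwa [ht', Ideal.mem_bot] at h2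

theorem map_evalTrunc_span_X (n : ℕ) (t : σ → T) (ht : Ideal.span (Set.range t) ^ n = ⊥) :
    Ideal.map (evalTrunc (𝒪 := 𝒪) n t ht)
      (Ideal.span (Set.range (MvPowerSeries.X : σ → MvPowerSeries σ 𝒪))) =
      Ideal.span (Set.range t) := by
  rw [Ideal.map_span]
  congr 1
  ext x
  constructor
  · rintro ⟨_, ⟨i, rfl⟩, rfl⟩
    exact ⟨i, (evalTrunc_X n t ht i).symm⟩
  · rintro ⟨i, rfl⟩
    exact ⟨_, ⟨i, rfl⟩, evalTrunc_X n t ht i⟩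

/-- Nilpotent Nakayama by hand. -/
theorem le_of_le_sup_sq {T : Type*} [CommRing T] (m N : Ideal T) (n : ℕ) (hmn : m ^ n = ⊥)
    (h : m ≤ N ⊔ m ^ 2) : m ≤ N := by
  have key : ∀ j : ℕ, m ≤ N ⊔ m ^ (j + 1) := by
    intro j
    induction j with
    | zero => simp
    | succ j ih =>
      have h1 : m ^ (j + 1) ≤ N ⊔ m ^ (j + 2) := by
        calc m ^ (j + 1) = m ^ j * m := pow_succ m j
          _ ≤ m ^ j * (N ⊔ m ^ 2) := Ideal.mul_mono_right h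
          _ = m ^ j * N ⊔ m ^ j * m ^ 2 := Ideal.mul_sup _ _ _
          _ ≤ N ⊔ m ^ (j + 2) := by
            refine sup_le_sup Ideal.mul_le_right ?_
            rw [← pow_add]
      exact ih.trans (sup_le le_sup_left h1)
  have h2 := key n
  have h3 : m ^ (n + 1) = ⊥ := by rw [pow_succ, hmn, Ideal.bot_mul]
  rwa [h3, sup_bot_eq] at h2

/-- Surjectivity of the truncated evaluation map onto a ring `T` with a nilpotent ideal `m`,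
`T = 𝒪 + m`, `m` generated by the `t i` modulo `m ^ 2`. -/
theorem evalTrunc_surjective (n : ℕ) (t : σ → T) (m : Ideal T) (hmn : m ^ n = ⊥)
    (hgen : m ≤ Ideal.span (Set.range t) ⊔ m ^ 2)
    (hres : ∀ x : T, ∃ c : 𝒪, x - algebraMap 𝒪 T c ∈ m)
    (ht : Ideal.span (Set.range t) ^ n = ⊥) :
    Function.Surjective (evalTrunc (𝒪 := 𝒪) n t ht) := by
  set ψ := evalTrunc (𝒪 := 𝒪) n t ht with hψ
  set N : Ideal T := Ideal.span (Set.range t) with hN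
  have hmN : m ≤ N := le_of_le_sup_sq m N n hmn hgen
  set I : Ideal (MvPowerSeries σ 𝒪) := Ideal.span (Set.range MvPowerSeries.X) with hI
  have hmap : Ideal.map ψ I = N := map_evalTrunc_span_X n t ht
  have c1 : ∀ x : T, ∃ w : MvPowerSeries σ 𝒪, x - ψ w ∈ N := by
    intro x
    obtain ⟨c, hc⟩ := hres x
    refine ⟨algebraMap 𝒪 _ c, ?_⟩
    rw [AlgHom.commutes]
    exact hmN hc
  have key : ∀ j : ℕ, ∀ x : T, ∃ w : MvPowerSeries σ 𝒪, x - ψ w ∈ N ^ j := by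
    intro j
    induction j with
    | zero => intro x; exact ⟨0, by simp⟩
    | succ j ih =>
      have aux : ∀ e ∈ N ^ j, ∃ w : MvPowerSeries σ 𝒪, e - ψ w ∈ N ^ (j + 1) := by
        intro e he
        rw [← hmap, ← Ideal.map_pow, Ideal.map, ] at he
        induction he using Submodule.span_induction with
        | mem e he =>
          obtain ⟨y, _, rfl⟩ := he
          exact ⟨y, by simp⟩
        | zero => exact ⟨0, by simp⟩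
        | add e1 e2 _ _ h1 h2 =>
          obtain ⟨w1, hw1⟩ := h1
          obtain ⟨w2, hw2⟩ := h2
          refine ⟨w1 + w2, ?_⟩
          have : e1 + e2 - ψ (w1 + w2) = (e1 - ψ w1) + (e2 - ψ w2) := by
            rw [map_add]; ring
          rw [this]
          exact Ideal.add_mem _ hw1 hw2
        | smul a e he h1 =>
          obtain ⟨w', hw'⟩ := h1
          obtain ⟨wa, hwa⟩ := c1 a
          have heN : e ∈ N ^ j := by
            have : Ideal.span (⇑ψ '' ↑(I ^ j)) = N ^ j := by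
              rw [← hmap, ← Ideal.map_pow]; rfl
            rw [← this]
            exact he
          refine ⟨wa * w', ?_⟩
          have : a • e - ψ (wa * w') = ψ wa * (e - ψ w') + (a - ψ wa) * e := by
            rw [map_mul, smul_eq_mul]; ring
          rw [this]
          refine Ideal.add_mem _ (Ideal.mul_mem_left _ _ hw') ?_
          rw [pow_succ']
          exact Ideal.mul_mem_mul hwa heN
      intro x
      obtain ⟨w, hw⟩ := ih x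
      obtain ⟨w', hw'⟩ := aux _ hw
      refine ⟨w + w', ?_⟩
      have : x - ψ (w + w') = x - ψ w - ψ w' := by rw [map_add]; ring
      rw [this]
      exact hw'
  intro x
  obtain ⟨w, hw⟩ := key n x
  rw [hN, ht, Ideal.mem_bot, sub_eq_zero] at hw
  exact ⟨w, hw.symm⟩

end Eval

section Quot

variable {𝒪 Λ : Type*} [CommRing 𝒪] [CommRing Λ] [Algebra 𝒪 Λ]

theorem map_mk_pow_eq_bot {𝔪₀ 𝔞 : Ideal Λ} {n : ℕ} (h : 𝔪₀ ^ n ≤ 𝔞) :
    (𝔪₀.map (Ideal.Quotient.mk 𝔞)) ^ n = ⊥ := by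
  rw [← Ideal.map_pow, Ideal.map_eq_bot_iff_le_ker, Ideal.mk_ker]
  exact h

theorem quot_hres {𝔪₀ : Ideal Λ} (𝔞 : Ideal Λ)
    (hres : ∀ x : Λ, ∃ c : 𝒪, x - algebraMap 𝒪 Λ c ∈ 𝔪₀) :
    ∀ x : Λ ⧸ 𝔞, ∃ c : 𝒪, x - algebraMap 𝒪 (Λ ⧸ 𝔞) c ∈ 𝔪₀.map (Ideal.Quotient.mk 𝔞) := by
  intro x
  obtain ⟨y, rfl⟩ := Ideal.Quotient.mk_surjective x
  obtain ⟨c, hc⟩ := hres y
  refine ⟨c, ?_⟩
  have := Ideal.mem_map_of_mem (Ideal.Quotient.mk 𝔞) hc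
  rwa [map_sub, Ideal.Quotient.mk_algebraMap] at this

theorem map_mk_ne_top {𝔪₀ 𝔞 : Ideal Λ} (hne : 𝔪₀ ≠ ⊤) (h𝔞 : 𝔞 ≤ 𝔪₀) :
    𝔪₀.map (Ideal.Quotient.mk 𝔞) ≠ ⊤ := by
  intro h
  apply hne
  have h1 : Ideal.comap (Ideal.Quotient.mk 𝔞) (𝔪₀.map (Ideal.Quotient.mk 𝔞)) = 𝔪₀ := by
    rw [Ideal.comap_map_of_surjective _ Ideal.Quotient.mk_surjective, ← RingHom.ker_eq_comap_bot,
      Ideal.mk_ker, sup_eq_left]
    exact h𝔞
  rw [← h1, h, Ideal.comap_top]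

end Quot

section Gens

variable {𝒪 Λ : Type*} [CommRing 𝒪] [IsLocalRing 𝒪] [IsNoetherianRing 𝒪] [CommRing Λ] [Algebra 𝒪 Λ]

/-- the auxiliary "tangent" family -/
def tanFamily (𝒪 : Type*) {Λ : Type*} [CommRing 𝒪] [IsLocalRing 𝒪] [CommRing Λ] [Algebra 𝒪 Λ]
    (𝔪₀ : Ideal Λ) (𝒥 : Set (Ideal Λ)) : Set (Ideal Λ) :=
  {𝔞 | 𝔞 ∈ 𝒥 ∧ 𝔪₀ ^ 2 ≤ 𝔞 ∧ ∀ c ∈ maximalIdeal 𝒪, algebraMap 𝒪 Λ c ∈ 𝔞}

theorem exists_gens (𝔪₀ : Ideal Λ) (𝒥 : Set (Ideal Λ))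
    (hloc : ∀ c ∈ maximalIdeal 𝒪, algebraMap 𝒪 Λ c ∈ 𝔪₀)
    (h_top : 𝔪₀ ∈ 𝒥) (h_le : ∀ 𝔞 ∈ 𝒥, 𝔞 ≤ 𝔪₀) (h_inf : ∀ 𝔞 ∈ 𝒥, ∀ 𝔟 ∈ 𝒥, 𝔞 ⊓ 𝔟 ∈ 𝒥)
    (h_up : ∀ 𝔞 ∈ 𝒥, ∀ 𝔟 : Ideal Λ, 𝔞 ≤ 𝔟 → 𝔟 ≤ 𝔪₀ → 𝔟 ∈ 𝒥)
    (h_fin : ∀ 𝔞 ∈ 𝒥, Finite (Λ ⧸ 𝔞))
    (h_tan : ∃ N : ℕ, ∀ 𝔞 ∈ 𝒥, 𝔪₀ ^ 2 ≤ 𝔞 →
      (∀ c ∈ maximalIdeal 𝒪, algebraMap 𝒪 Λ c ∈ 𝔞) → Nat.card (Λ ⧸ 𝔞) ≤ N) :
    ∃ s : Finset Λ, (∀ x ∈ s, x ∈ 𝔪₀) ∧
      ∀ 𝔞 ∈ 𝒥, 𝔪₀ ≤ Ideal.span (s : Set Λ) ⊔ 𝔪₀ ^ 2 ⊔ 𝔞 := by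
  classical
  obtain ⟨N, hN⟩ := h_tan
  -- least element of the tangent family
  have hS_ne : (tanFamily 𝒪 𝔪₀ 𝒥).Nonempty :=
    ⟨𝔪₀, h_top, Ideal.pow_le_self two_ne_zero, hloc⟩
  have hS_inf : ∀ 𝔞 ∈ tanFamily 𝒪 𝔪₀ 𝒥, ∀ 𝔟 ∈ tanFamily 𝒪 𝔪₀ 𝒥, 𝔞 ⊓ 𝔟 ∈ tanFamily 𝒪 𝔪₀ 𝒥 := by
    rintro 𝔞 ⟨ha1, ha2, ha3⟩ 𝔟 ⟨hb1, hb2, hb3⟩
    exact ⟨h_inf 𝔞 ha1 𝔟 hb1, le_inf ha2 hb2, fun c hc => ⟨ha3 c hc, hb3 c hc⟩⟩
  obtain ⟨J', hJ', hJ'min⟩ := exists_least_of_card_le (tanFamily 𝒪 𝔪₀ 𝒥) hS_ne hS_inf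
    (fun 𝔞 h => h_fin 𝔞 h.1) N (fun 𝔞 h => hN 𝔞 h.1 h.2.1 h.2.2)
  haveI : Finite (Λ ⧸ J') := h_fin J' hJ'.1
  -- representatives of the image of `𝔪₀` in `Λ ⧸ J'`
  have hfinset : (Set.univ : Set (Λ ⧸ J')).Finite := Set.finite_univ
  have hrep : ∀ q : Λ ⧸ J', ∃ x : Λ, (q ∈ 𝔪₀.map (Ideal.Quotient.mk J') →
      x ∈ 𝔪₀ ∧ Ideal.Quotient.mk J' x = q) ∧ x ∈ 𝔪₀ := by
    intro q
    by_cases hq : q ∈ 𝔪₀.map (Ideal.Quotient.mk J')
    · obtain ⟨x, hx, rfl⟩ := (Ideal.mem_map_iff_of_surjective _ Ideal.Quotient.mk_surjective).mp hq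
      exact ⟨x, fun _ => ⟨hx, rfl⟩, hx⟩
    · exact ⟨0, fun h => absurd h hq, 𝔪₀.zero_mem⟩
  choose rep hrep1 hrep2 using hrep
  let s₁ : Finset Λ := hfinset.toFinset.image rep
  -- generators of the maximal ideal of `𝒪`
  obtain ⟨s₀, hs₀⟩ := (IsNoetherian.noetherian (maximalIdeal 𝒪) : (maximalIdeal 𝒪).FG)
  let s₂ : Finset Λ := s₀.image (algebraMap 𝒪 Λ)
  refine ⟨s₁ ∪ s₂, ?_, ?_⟩
  · intro x hx
    rcases Finset.mem_union.mp hx with hx | hx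
    · obtain ⟨q, _, rfl⟩ := Finset.mem_image.mp hx
      exact hrep2 q
    · obtain ⟨c, hc, rfl⟩ := Finset.mem_image.mp hx
      exact hloc c (hs₀ ▸ Ideal.subset_span hc)
  · intro 𝔞 h𝔞
    -- `𝔪₀ ≤ span s₁ ⊔ J'`
    have h1 : 𝔪₀ ≤ Ideal.span (s₁ : Set Λ) ⊔ J' := by
      intro x hx
      have hq : Ideal.Quotient.mk J' x ∈ 𝔪₀.map (Ideal.Quotient.mk J') :=
        Ideal.mem_map_of_mem _ hx
      obtain ⟨hr1, hr2⟩ := hrep1 _ hq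
      have h2 : x - rep (Ideal.Quotient.mk J' x) ∈ J' := by
        rw [← Ideal.Quotient.eq_zero_iff_mem, map_sub, hr2, sub_self]
      have h3 : rep (Ideal.Quotient.mk J' x) ∈ Ideal.span (s₁ : Set Λ) :=
        Ideal.subset_span (Finset.mem_image.mpr ⟨_, by simp, rfl⟩)
      have : x = rep (Ideal.Quotient.mk J' x) + (x - rep (Ideal.Quotient.mk J' x)) := by ring
      rw [this]
      exact Ideal.add_mem _ (Ideal.mem_sup_left h3) (Ideal.mem_sup_right h2)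
    -- `J' ≤ 𝔞 ⊔ 𝔪₀ ^ 2 ⊔ span s₂`
    have h2 : ∀ c ∈ maximalIdeal 𝒪, algebraMap 𝒪 Λ c ∈ Ideal.span (s₂ : Set Λ) := by
      intro c hc
      have h3 : algebraMap 𝒪 Λ c ∈ Ideal.map (algebraMap 𝒪 Λ) (maximalIdeal 𝒪) :=
        Ideal.mem_map_of_mem _ hc
      have h4 : Ideal.map (algebraMap 𝒪 Λ) (maximalIdeal 𝒪) = Ideal.span (s₂ : Set Λ) := by
        conv_lhs => rw [← hs₀]
        rw [Ideal.submodule_span_eq, Ideal.map_span]
        simp [s₂]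
      rwa [h4] at h3
    have hs₂ : Ideal.span (s₂ : Set Λ) ≤ 𝔪₀ := by
      rw [Ideal.span_le]
      intro x hx
      obtain ⟨c, hc, rfl⟩ := Finset.mem_image.mp (Finset.mem_coe.mp hx)
      exact hloc c (hs₀ ▸ Ideal.subset_span hc)
    have h3 : 𝔞 ⊔ 𝔪₀ ^ 2 ⊔ Ideal.span (s₂ : Set Λ) ∈ tanFamily 𝒪 𝔪₀ 𝒥 := by
      refine ⟨h_up 𝔞 h𝔞 _ (le_sup_of_le_left le_sup_left) ?_, le_sup_of_le_left le_sup_right,
        fun c hc => Ideal.mem_sup_right (h2 c hc)⟩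
      exact sup_le (sup_le (h_le 𝔞 h𝔞) (Ideal.pow_le_self two_ne_zero)) hs₂
    have h4 : J' ≤ 𝔞 ⊔ 𝔪₀ ^ 2 ⊔ Ideal.span (s₂ : Set Λ) := hJ'min _ h3
    have h5 : Ideal.span (s₁ : Set Λ) ≤ Ideal.span ((s₁ ∪ s₂ : Finset Λ) : Set Λ) :=
      Ideal.span_mono (by simp)
    have h6 : Ideal.span (s₂ : Set Λ) ≤ Ideal.span ((s₁ ∪ s₂ : Finset Λ) : Set Λ) :=
      Ideal.span_mono (by simp)
    refine h1.trans (sup_le (h5.trans (le_sup_of_le_left le_sup_left)) (h4.trans ?_))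
    refine sup_le (sup_le le_sup_right (le_sup_of_le_left le_sup_right)) ?_
    exact h6.trans (le_sup_of_le_left le_sup_left)

end Gens

section PsiMaps

variable {𝒪 Λ : Type*} [CommRing 𝒪] [IsLocalRing 𝒪] [CommRing Λ] [Algebra 𝒪 Λ]
variable (s : Finset Λ)

theorem span_range_mk_le {𝔪₀ : Ideal Λ} (hs : ∀ x ∈ s, x ∈ 𝔪₀) (𝔞 : Ideal Λ) :
    Ideal.span (Set.range fun i : s => Ideal.Quotient.mk 𝔞 (i : Λ)) ≤
      𝔪₀.map (Ideal.Quotient.mk 𝔞) := by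
  rw [Ideal.span_le]
  rintro _ ⟨i, rfl⟩
  exact Ideal.mem_map_of_mem _ (hs i i.2)

theorem span_range_mk_pow_eq_bot {𝔪₀ : Ideal Λ} (hs : ∀ x ∈ s, x ∈ 𝔪₀) (𝔞 : Ideal Λ) (n : ℕ)
    (h : 𝔪₀ ^ n ≤ 𝔞) :
    Ideal.span (Set.range fun i : s => Ideal.Quotient.mk 𝔞 (i : Λ)) ^ n = ⊥ :=
  le_bot_iff.mp ((Ideal.pow_right_mono (span_range_mk_le s hs 𝔞) n).trans
    (le_of_eq (map_mk_pow_eq_bot h)))

theorem map_mk_span_eq (𝔞 : Ideal Λ) :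
    Ideal.map (Ideal.Quotient.mk 𝔞) (Ideal.span (s : Set Λ)) =
      Ideal.span (Set.range fun i : s => Ideal.Quotient.mk 𝔞 (i : Λ)) := by
  rw [Ideal.map_span]
  congr 1
  ext x
  constructor
  · rintro ⟨y, hy, rfl⟩
    exact ⟨⟨y, hy⟩, rfl⟩
  · rintro ⟨i, rfl⟩
    exact ⟨i, i.2, rfl⟩

/-- the evaluation map from the power series ring to `Λ ⧸ 𝔞` -/
noncomputable def psi {𝔪₀ : Ideal Λ} (hs : ∀ x ∈ s, x ∈ 𝔪₀) (𝔞 : Ideal Λ) (n : ℕ)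
    (h : 𝔪₀ ^ n ≤ 𝔞) : MvPowerSeries s 𝒪 →ₐ[𝒪] Λ ⧸ 𝔞 :=
  evalTrunc n (fun i : s => Ideal.Quotient.mk 𝔞 (i : Λ)) (span_range_mk_pow_eq_bot s hs 𝔞 n h)

theorem map_mk_eq_span {𝔪₀ : Ideal Λ} (hs : ∀ x ∈ s, x ∈ 𝔪₀) (𝔞 : Ideal Λ) (n : ℕ)
    (h : 𝔪₀ ^ n ≤ 𝔞) (hgen : 𝔪₀ ≤ Ideal.span (s : Set Λ) ⊔ 𝔪₀ ^ 2 ⊔ 𝔞) :
    𝔪₀.map (Ideal.Quotient.mk 𝔞) =
      Ideal.span (Set.range fun i : s => Ideal.Quotient.mk 𝔞 (i : Λ)) := by
  refine le_antisymm ?_ (span_range_mk_le s hs 𝔞)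
  refine le_of_le_sup_sq _ _ n (map_mk_pow_eq_bot h) ?_
  have h1 := Ideal.map_mono (f := Ideal.Quotient.mk 𝔞) hgen
  rw [Ideal.map_sup, Ideal.map_sup, Ideal.map_pow, map_mk_span_eq,
    Ideal.map_quotient_self, sup_bot_eq] at h1
  exact h1

theorem psi_surjective {𝔪₀ : Ideal Λ} (hs : ∀ x ∈ s, x ∈ 𝔪₀) (𝔞 : Ideal Λ) (n : ℕ)
    (h : 𝔪₀ ^ n ≤ 𝔞) (hgen : 𝔪₀ ≤ Ideal.span (s : Set Λ) ⊔ 𝔪₀ ^ 2 ⊔ 𝔞)
    (hres : ∀ x : Λ, ∃ c : 𝒪, x - algebraMap 𝒪 Λ c ∈ 𝔪₀) :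
    Function.Surjective (psi (𝒪 := 𝒪) s hs 𝔞 n h) := by
  refine evalTrunc_surjective n _ (𝔪₀.map (Ideal.Quotient.mk 𝔞)) (map_mk_pow_eq_bot h) ?_
    (quot_hres 𝔞 hres) _
  rw [← map_mk_eq_span s hs 𝔞 n h hgen]
  exact le_sup_left

theorem psi_mem_of_mem_maximalIdeal {𝔪₀ : Ideal Λ} (hs : ∀ x ∈ s, x ∈ 𝔪₀) (𝔞 : Ideal Λ) (n : ℕ)
    (h : 𝔪₀ ^ n ≤ 𝔞) (hne : 𝔪₀ ≠ ⊤) (h𝔞 : 𝔞 ≤ 𝔪₀)
    (hres : ∀ x : Λ, ∃ c : 𝒪, x - algebraMap 𝒪 Λ c ∈ 𝔪₀)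
    (hloc : ∀ c ∈ maximalIdeal 𝒪, algebraMap 𝒪 Λ c ∈ 𝔪₀)
    (w : MvPowerSeries s 𝒪) (hw : w ∈ maximalIdeal (MvPowerSeries s 𝒪)) :
    psi (𝒪 := 𝒪) s hs 𝔞 n h w ∈ 𝔪₀.map (Ideal.Quotient.mk 𝔞) := by
  obtain ⟨c, hc⟩ := quot_hres 𝔞 hres (psi (𝒪 := 𝒪) s hs 𝔞 n h w)
  by_cases hcm : c ∈ maximalIdeal 𝒪
  · have h1 : algebraMap 𝒪 (Λ ⧸ 𝔞) c ∈ 𝔪₀.map (Ideal.Quotient.mk 𝔞) := by
      rw [← Ideal.Quotient.mk_algebraMap]
      exact Ideal.mem_map_of_mem _ (hloc c hcm)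
    have := Ideal.add_mem _ hc h1
    simpa using this
  · exfalso
    have hcu : IsUnit c := by
      by_contra hcu
      exact hcm ((mem_maximalIdeal c).mpr hcu)
    have hw0 : MvPowerSeries.constantCoeff w ∈ maximalIdeal 𝒪 := by
      rw [mem_maximalIdeal, mem_nonunits_iff]
      intro hu
      exact ((mem_maximalIdeal w).mp hw) (MvPowerSeries.isUnit_iff_constantCoeff.mpr hu)
    have hu : IsUnit (w - algebraMap 𝒪 (MvPowerSeries s 𝒪) c) := by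
      rw [MvPowerSeries.isUnit_iff_constantCoeff, map_sub]
      have h2 : MvPowerSeries.constantCoeff (algebraMap 𝒪 (MvPowerSeries s 𝒪) c) = c := by
        rw [MvPowerSeries.algebraMap_apply, Algebra.algebraMap_self, RingHom.id_apply,
          MvPowerSeries.constantCoeff_C]
      rw [h2]
      by_contra hnu
      have h3 : MvPowerSeries.constantCoeff w - c ∈ maximalIdeal 𝒪 := (mem_maximalIdeal _).mpr hnu
      have h4 : c ∈ maximalIdeal 𝒪 := by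
        have := Ideal.sub_mem _ hw0 h3
        simpa using this
      exact hcm h4
    have hu' : IsUnit (psi (𝒪 := 𝒪) s hs 𝔞 n h w - algebraMap 𝒪 (Λ ⧸ 𝔞) c) := by
      have := hu.map (psi (𝒪 := 𝒪) s hs 𝔞 n h)
      rwa [map_sub, AlgHom.commutes] at this
    exact map_mk_ne_top hne h𝔞 (Ideal.eq_top_of_isUnit_mem _ hc hu')

theorem maximalIdeal_pow_le_ker_psi {𝔪₀ : Ideal Λ} (hs : ∀ x ∈ s, x ∈ 𝔪₀) (𝔞 : Ideal Λ) (n : ℕ)
    (h : 𝔪₀ ^ n ≤ 𝔞) (hne : 𝔪₀ ≠ ⊤) (h𝔞 : 𝔞 ≤ 𝔪₀)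
    (hres : ∀ x : Λ, ∃ c : 𝒪, x - algebraMap 𝒪 Λ c ∈ 𝔪₀)
    (hloc : ∀ c ∈ maximalIdeal 𝒪, algebraMap 𝒪 Λ c ∈ 𝔪₀) :
    maximalIdeal (MvPowerSeries s 𝒪) ^ n ≤ RingHom.ker (psi (𝒪 := 𝒪) s hs 𝔞 n h).toRingHom := by
  have h1 : maximalIdeal (MvPowerSeries s 𝒪) ≤
      Ideal.comap (psi (𝒪 := 𝒪) s hs 𝔞 n h).toRingHom (𝔪₀.map (Ideal.Quotient.mk 𝔞)) :=
    fun w hw => psi_mem_of_mem_maximalIdeal s hs 𝔞 n h hne h𝔞 hres hloc w hw
  have h2 := Ideal.pow_right_mono (Ideal.map_le_iff_le_comap.mpr h1) n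
  rw [← Ideal.map_pow, map_mk_pow_eq_bot h] at h2
  exact (Ideal.map_eq_bot_iff_le_ker _).mp (le_bot_iff.mp h2)

theorem finite_quotient_maximalIdeal_powerSeries [Finite (ResidueField 𝒪)] :
    Finite (MvPowerSeries s 𝒪 ⧸ maximalIdeal (MvPowerSeries s 𝒪)) := by
  let f : 𝒪 →+* MvPowerSeries s 𝒪 ⧸ maximalIdeal (MvPowerSeries s 𝒪) :=
    (Ideal.Quotient.mk _).comp (algebraMap 𝒪 (MvPowerSeries s 𝒪))
  have hconst : ∀ c : 𝒪, MvPowerSeries.constantCoeff (algebraMap 𝒪 (MvPowerSeries s 𝒪) c) = c := by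
    intro c
    rw [MvPowerSeries.algebraMap_apply, Algebra.algebraMap_self, RingHom.id_apply,
      MvPowerSeries.constantCoeff_C]
  have hf : ∀ c ∈ maximalIdeal 𝒪, f c = 0 := by
    intro c hc
    change Ideal.Quotient.mk _ (algebraMap 𝒪 (MvPowerSeries s 𝒪) c) = 0
    rw [Ideal.Quotient.eq_zero_iff_mem, mem_maximalIdeal, mem_nonunits_iff,
      MvPowerSeries.isUnit_iff_constantCoeff, hconst]
    exact (mem_maximalIdeal c).mp hc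
  let g : ResidueField 𝒪 →+* MvPowerSeries s 𝒪 ⧸ maximalIdeal (MvPowerSeries s 𝒪) :=
    Ideal.Quotient.lift (maximalIdeal 𝒪) f hf
  have hg : Function.Surjective g := by
    intro x
    obtain ⟨w, rfl⟩ := Ideal.Quotient.mk_surjective x
    refine ⟨Ideal.Quotient.mk _ (MvPowerSeries.constantCoeff w), ?_⟩
    change Ideal.Quotient.mk _ (algebraMap 𝒪 (MvPowerSeries s 𝒪) (MvPowerSeries.constantCoeff w)) =
      Ideal.Quotient.mk _ w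
    rw [Ideal.Quotient.eq, mem_maximalIdeal, mem_nonunits_iff,
      MvPowerSeries.isUnit_iff_constantCoeff, map_sub, hconst, sub_self]
    exact not_isUnit_zero
  exact Finite.of_surjective g hg

theorem card_quotient_le {𝔪₀ : Ideal Λ} [IsNoetherianRing 𝒪] [Finite (ResidueField 𝒪)]
    (hs : ∀ x ∈ s, x ∈ 𝔪₀) (𝔞 : Ideal Λ) (n : ℕ)
    (h : 𝔪₀ ^ n ≤ 𝔞) (hne : 𝔪₀ ≠ ⊤) (h𝔞 : 𝔞 ≤ 𝔪₀)
    (hgen : 𝔪₀ ≤ Ideal.span (s : Set Λ) ⊔ 𝔪₀ ^ 2 ⊔ 𝔞)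
    (hres : ∀ x : Λ, ∃ c : 𝒪, x - algebraMap 𝒪 Λ c ∈ 𝔪₀)
    (hloc : ∀ c ∈ maximalIdeal 𝒪, algebraMap 𝒪 Λ c ∈ 𝔪₀) :
    Nat.card (Λ ⧸ 𝔞) ≤
      Nat.card (MvPowerSeries s 𝒪 ⧸ maximalIdeal (MvPowerSeries s 𝒪) ^ n) := by
  haveI := finite_quotient_maximalIdeal_powerSeries (𝒪 := 𝒪) s
  haveI : Finite (MvPowerSeries s 𝒪 ⧸ maximalIdeal (MvPowerSeries s 𝒪) ^ n) :=
    Ideal.finite_quotient_pow (IsNoetherian.noetherian _) n
  have hker := maximalIdeal_pow_le_ker_psi (𝒪 := 𝒪) s hs 𝔞 n h hne h𝔞 hres hloc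
  let g : MvPowerSeries s 𝒪 ⧸ maximalIdeal (MvPowerSeries s 𝒪) ^ n →+* Λ ⧸ 𝔞 :=
    Ideal.Quotient.lift _ (psi (𝒪 := 𝒪) s hs 𝔞 n h).toRingHom (fun a ha => hker ha)
  have hg : Function.Surjective g :=
    Ideal.Quotient.lift_surjective_of_surjective _ _ (psi_surjective s hs 𝔞 n h hgen hres)
  exact Nat.card_le_card_of_surjective g hg

end PsiMaps

section Tower

/-- Assembly: from a compatible tower of surjections `Ψ n : W → Λ ⧸ J n` out of a Noetherian local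
ring `W` which is `I`-adically complete, build the pro-representing ring `R = W ⧸ ⨅ ker Ψ n`. -/
theorem proRep_of_tower {𝒪 Λ : Type} [CommRing 𝒪] [IsLocalRing 𝒪] [CommRing Λ] [Algebra 𝒪 Λ]
    (𝔪₀ : Ideal Λ) (𝒥 : Set (Ideal Λ))
    (W : Type) [CommRing W] [Algebra 𝒪 W] [IsLocalRing W] [IsNoetherianRing W]
    (I : Ideal W) [IsAdicComplete I W] (hI : I ≤ maximalIdeal W)
    (hW𝒪 : ∀ c ∈ maximalIdeal 𝒪, algebraMap 𝒪 W c ∈ maximalIdeal W)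
    (hWres : ∀ w : W, ∃ c : 𝒪, w - algebraMap 𝒪 W c ∈ maximalIdeal W)
    (J : ℕ → Ideal Λ) (hJanti : ∀ {m n : ℕ}, m ≤ n → J n ≤ J m)
    (hJmem : ∀ n, 0 < n → J n ∈ 𝒥)
    (hJle : ∀ n, ∀ 𝔞 ∈ 𝒥, 𝔪₀ ^ n ≤ 𝔞 → J n ≤ 𝔞)
    (hJ1 : J 1 ≠ ⊤)
    (Ψ : ∀ n, W →ₐ[𝒪] Λ ⧸ J n) (hΨsurj : ∀ n, Function.Surjective (Ψ n))
    (hΨcompat : ∀ {m n : ℕ} (h : m ≤ n) (w : W),
      Ideal.Quotient.factor (hJanti h) (Ψ n w) = Ψ m w)
    (hK1 : ∀ n, I ^ n ≤ RingHom.ker (Ψ n).toRingHom)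
    (hK3 : ∀ n, RingHom.ker (Ψ n).toRingHom ≤ RingHom.ker (Ψ (n + 1)).toRingHom ⊔ I ^ n)
    (hKm : maximalIdeal W ≤ RingHom.ker (Ψ 1).toRingHom) :
    Nonempty (ProRep 𝒪 Λ 𝔪₀ 𝒥) := by
  classical
  set K : ℕ → Ideal W := fun n => RingHom.ker (Ψ n).toRingHom with hKdef
  have hKmem : ∀ n (w : W), w ∈ K n ↔ Ψ n w = 0 := fun n w => Iff.rfl
  have hKanti : ∀ n, K (n + 1) ≤ K n := by
    intro n w hw
    rw [hKmem] at hw ⊢
    rw [← hΨcompat (Nat.le_succ n) w, hw, map_zero]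
  set Jinf : Ideal W := ⨅ n, K n with hJinf
  have hC : ∀ n, K n ≤ Jinf ⊔ I ^ n := le_iInf_sup_pow I K hKanti hK1 hK3
  have hJinf_le : ∀ n, Jinf ≤ K n := fun n => iInf_le K n
  -- nontriviality
  have hJinf_ne : Jinf ≠ ⊤ := by
    intro h
    apply hJ1
    have h1 : (1 : W) ∈ K 1 := hJinf_le 1 (h ▸ Submodule.mem_top)
    rw [hKmem, map_one] at h1
    rw [Ideal.eq_top_iff_one, ← Ideal.Quotient.eq_zero_iff_mem, map_one]
    exact h1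
  haveI : Nontrivial (W ⧸ Jinf) := Ideal.Quotient.nontrivial_iff.mpr hJinf_ne
  haveI : IsLocalRing (W ⧸ Jinf) :=
    IsLocalRing.of_surjective' (Ideal.Quotient.mk Jinf) Ideal.Quotient.mk_surjective
  -- the maximal ideal
  have hmaxW : Ideal.map (Ideal.Quotient.mk Jinf) (maximalIdeal W) = maximalIdeal (W ⧸ Jinf) := by
    have h1 : Ideal.comap (Ideal.Quotient.mk Jinf) (maximalIdeal (W ⧸ Jinf)) = maximalIdeal W :=
      IsLocalRing.eq_maximalIdeal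
        (Ideal.comap_isMaximal_of_surjective _ Ideal.Quotient.mk_surjective)
    rw [← h1, Ideal.map_comap_of_surjective _ Ideal.Quotient.mk_surjective]
  have hmax : maximalIdeal (W ⧸ Jinf) = Ideal.map (Ideal.Quotient.mk Jinf) I := by
    apply le_antisymm
    · rw [← hmaxW]
      have h3 : maximalIdeal W ≤ Jinf ⊔ I := by
        have := hKm.trans (hC 1)
        rwa [pow_one] at this
      have h4 := Ideal.map_mono (f := Ideal.Quotient.mk Jinf) h3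
      rwa [Ideal.map_sup, Ideal.map_quotient_self, bot_sup_eq] at h4
    · rw [← hmaxW]
      exact Ideal.map_mono hI
  have hmaxpow : ∀ n, maximalIdeal (W ⧸ Jinf) ^ n = Ideal.map (Ideal.Quotient.mk Jinf) (I ^ n) := by
    intro n
    rw [hmax, Ideal.map_pow]
  -- completeness
  haveI hcomp : IsAdicComplete (maximalIdeal (W ⧸ Jinf)) (W ⧸ Jinf) := by
    have h1 : IsAdicComplete I (W ⧸ Jinf) := IsAdicComplete.of_module_finite I (W ⧸ Jinf)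
    have h2 := (IsAdicComplete.map_algebraMap_iff I (W ⧸ Jinf) (S := W ⧸ Jinf)).mpr h1
    rwa [Ideal.Quotient.algebraMap_eq, ← hmax] at h2
  -- the structure map is local
  haveI hlocal : IsLocalHom (algebraMap 𝒪 (W ⧸ Jinf)) := by
    constructor
    intro c hc
    by_contra hcu
    have h1 : algebraMap 𝒪 W c ∈ maximalIdeal W := hW𝒪 c ((mem_maximalIdeal c).mpr hcu)
    have h2 : Ideal.Quotient.mk Jinf (algebraMap 𝒪 W c) ∈ maximalIdeal (W ⧸ Jinf) := by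
      rw [← hmaxW]
      exact Ideal.mem_map_of_mem _ h1
    rw [Ideal.Quotient.mk_algebraMap] at h2
    exact ((mem_maximalIdeal _).mp h2) hc
  have hressurj : Function.Surjective (IsLocalRing.residue (W ⧸ Jinf) ∘ algebraMap 𝒪 (W ⧸ Jinf)) := by
    intro y
    obtain ⟨r, rfl⟩ := IsLocalRing.residue_surjective y
    obtain ⟨w, rfl⟩ := Ideal.Quotient.mk_surjective r
    obtain ⟨c, hc⟩ := hWres w
    refine ⟨c, ?_⟩
    change IsLocalRing.residue (W ⧸ Jinf) (algebraMap 𝒪 (W ⧸ Jinf) c) =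
      IsLocalRing.residue (W ⧸ Jinf) (Ideal.Quotient.mk Jinf w)
    symm
    rw [← sub_eq_zero, ← map_sub, IsLocalRing.residue_eq_zero_iff,
      ← Ideal.Quotient.mk_algebraMap, ← map_sub, ← hmaxW]
    exact Ideal.mem_map_of_mem _ hc
  -- the maps to the truncations
  let g : ∀ n, W →ₐ[𝒪] (W ⧸ Jinf) ⧸ maximalIdeal (W ⧸ Jinf) ^ n := fun n =>
    (Ideal.Quotient.mkₐ 𝒪 (maximalIdeal (W ⧸ Jinf) ^ n)).comp (Ideal.Quotient.mkₐ 𝒪 Jinf)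
  have hg_apply : ∀ n (w : W), g n w =
      Ideal.Quotient.mk (maximalIdeal (W ⧸ Jinf) ^ n) (Ideal.Quotient.mk Jinf w) := fun n w => rfl
  have hg_zero : ∀ n (w : W), g n w = 0 ↔ w ∈ K n := by
    intro n w
    rw [hg_apply, Ideal.Quotient.eq_zero_iff_mem, hmaxpow]
    constructor
    · intro h
      have h1 : w ∈ Ideal.comap (Ideal.Quotient.mk Jinf)
          (Ideal.map (Ideal.Quotient.mk Jinf) (I ^ n)) := h
      rw [Ideal.comap_map_of_surjective _ Ideal.Quotient.mk_surjective,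
        ← RingHom.ker_eq_comap_bot, Ideal.mk_ker] at h1
      exact (sup_le (hK1 n) (hJinf_le n)) h1
    · intro h
      have h1 := Ideal.mem_map_of_mem (Ideal.Quotient.mk Jinf) (hC n h)
      rwa [Ideal.map_sup, Ideal.map_quotient_self, bot_sup_eq] at h1
  have hF1 : ∀ n, RingHom.ker (Ψ n).toRingHom ≤ RingHom.ker (g n).toRingHom := by
    intro n w hw
    exact (hg_zero n w).mpr hw
  let θ : ∀ n, Λ ⧸ J n →ₐ[𝒪] (W ⧸ Jinf) ⧸ maximalIdeal (W ⧸ Jinf) ^ n := fun n =>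
    AlgHom.liftOfSurjective (Ψ n) (hΨsurj n) (g n) (hF1 n)
  have hθ : ∀ n (w : W), θ n (Ψ n w) = g n w := fun n w =>
    AlgHom.liftOfSurjective_apply (Ψ n) (hΨsurj n) (g n) (hF1 n) w
  let f : ∀ n, Λ →ₐ[𝒪] (W ⧸ Jinf) ⧸ maximalIdeal (W ⧸ Jinf) ^ n := fun n =>
    (θ n).comp (Ideal.Quotient.mkₐ 𝒪 (J n))
  have hf_apply : ∀ n (x : Λ) (w : W), Ψ n w = Ideal.Quotient.mk (J n) x → f n x = g n w := by
    intro n x w hw
    change θ n (Ideal.Quotient.mk (J n) x) = g n w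
    rw [← hw, hθ]
  have hcompat : ∀ {m n : ℕ} (hle : m ≤ n),
      (Ideal.Quotient.factorₐ 𝒪 (Ideal.pow_le_pow_right hle)).comp (f n) = f m := by
    intro m n hle
    ext x
    obtain ⟨w, hw⟩ := hΨsurj n (Ideal.Quotient.mk (J n) x)
    have hw' : Ψ m w = Ideal.Quotient.mk (J m) x := by
      rw [← hΨcompat hle w, hw, Ideal.Quotient.factor_mk]
    rw [AlgHom.comp_apply, hf_apply n x w hw, hf_apply m x w hw']
    rfl
  let ι : Λ →ₐ[𝒪] W ⧸ Jinf := IsAdicComplete.liftAlgHom (maximalIdeal (W ⧸ Jinf)) f hcompat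
  have hι : ∀ n (x : Λ), Ideal.Quotient.mk (maximalIdeal (W ⧸ Jinf) ^ n) (ι x) = f n x :=
    fun n x => IsAdicComplete.mk_liftAlgHom (maximalIdeal (W ⧸ Jinf)) f hcompat n x
  have hcomap : ∀ n, Ideal.comap ι (maximalIdeal (W ⧸ Jinf) ^ n) = J n := by
    intro n
    ext y
    obtain ⟨w, hw⟩ := hΨsurj n (Ideal.Quotient.mk (J n) y)
    rw [Ideal.mem_comap, ← Ideal.Quotient.eq_zero_iff_mem, hι, hf_apply n y w hw, hg_zero, hKmem,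
      hw, Ideal.Quotient.eq_zero_iff_mem]
  refine ⟨{ R := W ⧸ Jinf
            residue_surjective := hressurj
            ι := ι
            ι_dense := ?_
            comap_mem := ?_
            comap_le := ?_ }⟩
  · intro n x
    obtain ⟨w, rfl⟩ := Ideal.Quotient.mk_surjective x
    obtain ⟨y, hy⟩ := Ideal.Quotient.mk_surjective (Ψ n w)
    refine ⟨y, ?_⟩
    rw [← Ideal.Quotient.eq, hι, hf_apply n y w hy.symm]
    rfl
  · intro n hn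
    rw [hcomap]
    exact hJmem n hn
  · intro n 𝔞 h𝔞 h
    rw [hcomap]
    exact hJle n 𝔞 h𝔞 h

end Tower

section Main

/-- **Existence of the pro-representing ring** (abstract form). -/
theorem nonempty_proRep : Stmt_nonempty_proRep := by
  intro 𝒪 Λ _ _ _ _ _ _ 𝔪₀ 𝒥 hne hres hloc h_top h_le h_inf h_up h_fin h_nil h_tan
  classical
  obtain ⟨s, hs, hgen⟩ := exists_gens 𝔪₀ 𝒥 hloc h_top h_le h_inf h_up h_fin h_tan
  -- the chain of least admissible ideals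
  let J : ℕ → Ideal Λ := fun n => sInf {𝔞 | 𝔞 ∈ 𝒥 ∧ 𝔪₀ ^ n ≤ 𝔞}
  have hJpow : ∀ n, 𝔪₀ ^ n ≤ J n := fun n => le_sInf (fun 𝔞 h => h.2)
  have hJanti : ∀ {m n : ℕ}, m ≤ n → J n ≤ J m := by
    intro m n h
    exact sInf_le_sInf (fun 𝔞 h𝔞 => ⟨h𝔞.1, (Ideal.pow_le_pow_right h).trans h𝔞.2⟩)
  have hJle : ∀ n, ∀ 𝔞 ∈ 𝒥, 𝔪₀ ^ n ≤ 𝔞 → J n ≤ 𝔞 := fun n 𝔞 h𝔞 h => sInf_le ⟨h𝔞, h⟩
  have hJmem : ∀ n, 0 < n → J n ∈ 𝒥 := by
    intro n hn
    have hS_ne : ({𝔞 | 𝔞 ∈ 𝒥 ∧ 𝔪₀ ^ n ≤ 𝔞} : Set (Ideal Λ)).Nonempty :=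
      ⟨𝔪₀, h_top, Ideal.pow_le_self hn.ne'⟩
    have hS_inf : ∀ 𝔞 ∈ ({𝔞 | 𝔞 ∈ 𝒥 ∧ 𝔪₀ ^ n ≤ 𝔞} : Set (Ideal Λ)),
        ∀ 𝔟 ∈ ({𝔞 | 𝔞 ∈ 𝒥 ∧ 𝔪₀ ^ n ≤ 𝔞} : Set (Ideal Λ)),
        𝔞 ⊓ 𝔟 ∈ ({𝔞 | 𝔞 ∈ 𝒥 ∧ 𝔪₀ ^ n ≤ 𝔞} : Set (Ideal Λ)) := by
      rintro 𝔞 ⟨ha1, ha2⟩ 𝔟 ⟨hb1, hb2⟩
      exact ⟨h_inf 𝔞 ha1 𝔟 hb1, le_inf ha2 hb2⟩
    obtain ⟨𝔞, h𝔞, hmin⟩ := exists_least_of_card_le _ hS_ne hS_inf (fun 𝔞 h => h_fin 𝔞 h.1)
      (Nat.card (MvPowerSeries s 𝒪 ⧸ maximalIdeal (MvPowerSeries s 𝒪) ^ n))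
      (fun 𝔞 h => card_quotient_le s hs 𝔞 n h.2 hne (h_le 𝔞 h.1) (hgen 𝔞 h.1) hres hloc)
    have h1 : J n = 𝔞 := le_antisymm (sInf_le h𝔞) (le_sInf hmin)
    rw [h1]
    exact h𝔞.1
  have hJ1le : J 1 ≤ 𝔪₀ := h_le _ (hJmem 1 one_pos)
  have hJ1 : J 1 ≠ ⊤ := fun h => hne (top_le_iff.mp (h ▸ hJ1le))
  -- the power series ring
  set I : Ideal (MvPowerSeries s 𝒪) := Ideal.span (Set.range MvPowerSeries.X) with hIdef
  have hconst : ∀ c : 𝒪, MvPowerSeries.constantCoeff (algebraMap 𝒪 (MvPowerSeries s 𝒪) c) = c := by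
    intro c
    rw [MvPowerSeries.algebraMap_apply, Algebra.algebraMap_self, RingHom.id_apply,
      MvPowerSeries.constantCoeff_C]
  have hI : I ≤ maximalIdeal (MvPowerSeries s 𝒪) := by
    rw [hIdef, Ideal.span_le]
    rintro _ ⟨i, rfl⟩
    change MvPowerSeries.X i ∈ maximalIdeal (MvPowerSeries s 𝒪)
    rw [mem_maximalIdeal, mem_nonunits_iff, MvPowerSeries.isUnit_iff_constantCoeff,
      MvPowerSeries.constantCoeff_X]
    exact not_isUnit_zero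
  have hW𝒪 : ∀ c ∈ maximalIdeal 𝒪,
      algebraMap 𝒪 (MvPowerSeries s 𝒪) c ∈ maximalIdeal (MvPowerSeries s 𝒪) := by
    intro c hc
    rw [mem_maximalIdeal, mem_nonunits_iff, MvPowerSeries.isUnit_iff_constantCoeff, hconst]
    exact (mem_maximalIdeal c).mp hc
  have hWres : ∀ w : MvPowerSeries s 𝒪, ∃ c : 𝒪,
      w - algebraMap 𝒪 (MvPowerSeries s 𝒪) c ∈ maximalIdeal (MvPowerSeries s 𝒪) := by
    intro w
    refine ⟨MvPowerSeries.constantCoeff w, ?_⟩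
    rw [mem_maximalIdeal, mem_nonunits_iff, MvPowerSeries.isUnit_iff_constantCoeff, map_sub,
      hconst, sub_self]
    exact not_isUnit_zero
  -- the tower of evaluation maps
  let Ψ : ∀ n, MvPowerSeries s 𝒪 →ₐ[𝒪] Λ ⧸ J n := fun n => psi s hs (J n) n (hJpow n)
  have hΨsurj : ∀ n, Function.Surjective (Ψ n) := by
    intro n
    rcases Nat.eq_zero_or_pos n with rfl | hn
    · have h0 : J 0 = ⊤ := top_le_iff.mp (by simpa using hJpow 0)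
      haveI : Subsingleton (Λ ⧸ J 0) := Ideal.Quotient.subsingleton_iff.mpr h0
      intro x
      exact ⟨0, Subsingleton.elim _ _⟩
    · exact psi_surjective s hs (J n) n (hJpow n) (hgen _ (hJmem n hn)) hres
  have hΨcompat : ∀ {m n : ℕ} (h : m ≤ n) (w : MvPowerSeries s 𝒪),
      Ideal.Quotient.factor (hJanti h) (Ψ n w) = Ψ m w := by
    intro m n h w
    exact evalTrunc_comp (Ideal.Quotient.factorₐ 𝒪 (hJanti h)) h _ _ _ w
  have hmapI : ∀ n, Ideal.map (Ψ n) I =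
      Ideal.span (Set.range fun i : s => Ideal.Quotient.mk (J n) (i : Λ)) :=
    fun n => map_evalTrunc_span_X n _ _
  have hK1 : ∀ n, I ^ n ≤ RingHom.ker (Ψ n).toRingHom := by
    intro n
    have h1 : Ideal.map (Ψ n) (I ^ n) = ⊥ := by
      rw [Ideal.map_pow, hmapI, span_range_mk_pow_eq_bot s hs (J n) n (hJpow n)]
    exact (Ideal.map_eq_bot_iff_le_ker _).mp h1
  have hK3 : ∀ n, RingHom.ker (Ψ n).toRingHom ≤ RingHom.ker (Ψ (n + 1)).toRingHom ⊔ I ^ n := by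
    intro n
    rcases Nat.eq_zero_or_pos n with rfl | hn
    · simp
    intro w hw
    have hw0 : Ψ n w = 0 := hw
    obtain ⟨y, hy⟩ := Ideal.Quotient.mk_surjective (Ψ (n + 1) w)
    have hyJ : y ∈ J n := by
      rw [← Ideal.Quotient.eq_zero_iff_mem, ← Ideal.Quotient.factor_mk (hJanti (Nat.le_succ n)),
        hy, hΨcompat (Nat.le_succ n) w, hw0]
    have hJn : J n ≤ J (n + 1) ⊔ 𝔪₀ ^ n := by
      refine hJle n _ (h_up _ (hJmem (n + 1) (Nat.succ_pos n)) _ le_sup_left ?_) le_sup_right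
      exact sup_le (h_le _ (hJmem (n + 1) (Nat.succ_pos n))) (Ideal.pow_le_self hn.ne')
    obtain ⟨a, ha, b, hb, hab⟩ := Submodule.mem_sup.mp (hJn hyJ)
    have hx : Ψ (n + 1) w ∈ Ideal.map (Ψ (n + 1)) (I ^ n) := by
      rw [Ideal.map_pow, hmapI,
        ← map_mk_eq_span s hs (J (n + 1)) (n + 1) (hJpow (n + 1))
          (hgen _ (hJmem (n + 1) (Nat.succ_pos n))), ← Ideal.map_pow, ← hy, ← hab, map_add,
        Ideal.Quotient.eq_zero_iff_mem.mpr ha, zero_add]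
      exact Ideal.mem_map_of_mem _ hb
    obtain ⟨y', hy', hy'x⟩ :=
      (Ideal.mem_map_iff_of_surjective (Ψ (n + 1)) (hΨsurj (n + 1))).mp hx
    have h1 : w - y' ∈ RingHom.ker (Ψ (n + 1)).toRingHom := by
      change Ψ (n + 1) (w - y') = 0
      rw [map_sub, hy'x, sub_self]
    have h2 : w = (w - y') + y' := by ring
    rw [h2]
    exact Ideal.add_mem _ (Ideal.mem_sup_left h1) (Ideal.mem_sup_right hy')
  have hKm : maximalIdeal (MvPowerSeries s 𝒪) ≤ RingHom.ker (Ψ 1).toRingHom := by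
    have := maximalIdeal_pow_le_ker_psi (𝒪 := 𝒪) s hs (J 1) 1 (hJpow 1) hne hJ1le hres hloc
    rwa [pow_one] at this
  exact proRep_of_tower 𝔪₀ 𝒥 (MvPowerSeries s 𝒪) I hI hW𝒪 hWres J hJanti hJmem hJle hJ1 Ψ hΨsurj
    hΨcompat hK1 hK3 hKm

end Main

end Fermat.Agent.S53.helper773
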