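/-
S53, Spec item DICT-D (`Stmt_DictResidual`) and DICT-A (`Stmt_DictExists`) of
`Fermat.Agent.S53.helper53_Spec`, proved unconditionally.  (helper1073)
-/
import Fermat.Agent.S53.helper53_Spec

set_option autoImplicit false

open IsLocalRing TensorProduct

namespace Fermat.Agent.S53.helper1073

open Fermat.Agent.S53.helper53

/-- If two endomorphisms have the same matrix in two bases, the equivalence matching the bases
intertwines them. -/
theorem equiv_comm_of_toMatrix_eq {K V₁ V₂ : Type*} [CommRing K] [AddCommGroup V₁] [Module K V₁]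
    [AddCommGroup V₂] [Module K V₂] (B₁ : Module.Basis (Fin 2) K V₁)
    (B₂ : Module.Basis (Fin 2) K V₂) (f₁ : V₁ →ₗ[K] V₁) (f₂ : V₂ →ₗ[K] V₂)
    (h : LinearMap.toMatrix B₁ B₁ f₁ = LinearMap.toMatrix B₂ B₂ f₂) (x : V₁) :
    B₁.equiv B₂ (Equiv.refl _) (f₁ x) = f₂ (B₁.equiv B₂ (Equiv.refl _) x) := by
  have hrepr : ∀ y : V₁, (B₂.repr (B₁.equiv B₂ (Equiv.refl _) y) : Fin 2 → K) = B₁.repr y := by
    intro y
    ext i
    simp [Module.Basis.equiv]
  apply B₂.repr.injective
  apply DFunLike.coe_injective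
  rw [hrepr, ← LinearMap.toMatrix_mulVec_repr B₂ B₂ f₂, hrepr,
    ← LinearMap.toMatrix_mulVec_repr B₁ B₁ f₁, h]

/-- If an equivalence matches two bases and intertwines two endomorphisms, their matrices
agree. -/
theorem toMatrix_eq_of_equiv_comm {K V₁ V₂ : Type*} [CommRing K] [AddCommGroup V₁] [Module K V₁]
    [AddCommGroup V₂] [Module K V₂] (B₁ : Module.Basis (Fin 2) K V₁)
    (B₂ : Module.Basis (Fin 2) K V₂) (f₁ : V₁ →ₗ[K] V₁) (f₂ : V₂ →ₗ[K] V₂)
    (e : V₁ ≃ₗ[K] V₂) (he : ∀ i, e (B₁ i) = B₂ i) (hcomm : ∀ x, e (f₁ x) = f₂ (e x)) :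
    LinearMap.toMatrix B₁ B₁ f₁ = LinearMap.toMatrix B₂ B₂ f₂ := by
  have hB : B₂ = B₁.map e := by
    apply Module.Basis.eq_of_apply_eq
    intro i
    rw [Module.Basis.map_apply, he]
  ext i j
  rw [LinearMap.toMatrix_apply, LinearMap.toMatrix_apply, ← he j, ← hcomm, hB,
    Module.Basis.map_repr]
  simp

/-- Coordinates of an element of `I • ⊤` lie in `I`. -/
theorem repr_mem_of_mem_smul_top {A V : Type*} [CommRing A] [AddCommGroup V] [Module A V]
    (B : Module.Basis (Fin 2) A V) (I : Ideal A) (x : V)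
    (hx : x ∈ I • (⊤ : Submodule A V)) (i : Fin 2) : B.repr x i ∈ I := by
  refine Submodule.smul_induction_on (p := fun x => B.repr x i ∈ I) hx ?_ ?_
  · intro a ha m _
    rw [map_smul, Finsupp.smul_apply, smul_eq_mul]
    exact Ideal.mul_mem_right _ _ ha
  · intro x y hx hy
    rw [map_add, Finsupp.add_apply]
    exact Ideal.add_mem _ hx hy

/-- The matrix representation of a `GaloisRepAdic` in a basis. -/
theorem exists_mat_of_basis {A : Type} [CommRing A] [IsLocalRing A] (ρ : GaloisRepAdic A)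
    (B : Module.Basis (Fin 2) A ρ.V) :
    ∃ (r : Gal →* M2 A) (hr : MatCont r),
      (∀ σ, r σ = LinearMap.toMatrix B B (ρ.ρ σ)) ∧ ρ.IsEquiv (ofMat r hr) := by
  let r : Gal →* M2 A :=
    { toFun := fun σ => LinearMap.toMatrix B B (ρ.ρ σ)
      map_one' := by rw [map_one]; exact LinearMap.toMatrix_one B
      map_mul' := fun σ τ => by rw [map_mul]; exact LinearMap.toMatrix_mul B _ _ }
  have hr : MatCont r := by
    intro n
    obtain ⟨L, hL, h⟩ := ρ.isAdicContinuous n
    refine ⟨L, hL, fun σ hσ i j => ?_⟩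
    have h1 := repr_mem_of_mem_smul_top B _ _ (h σ hσ (B j)) i
    have h2 : (r σ - 1) i j = B.repr (ρ.ρ σ (B j) - B j) i := by
      show LinearMap.toMatrix B B (ρ.ρ σ) i j - (1 : Matrix (Fin 2) (Fin 2) A) i j = _
      rw [LinearMap.toMatrix_apply, map_sub, Finsupp.sub_apply, Module.Basis.repr_self,
        Matrix.one_apply, Finsupp.single_apply]
      congr 1
      by_cases hij : i = j
      · simp [hij]
      · simp [hij, Ne.symm hij]
    rw [h2]
    exact h1
  refine ⟨r, hr, fun σ => rfl, ⟨?_⟩⟩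
  exact
    { toLinearEquiv := B.equivFun
      map_apply := fun σ x => by
        show B.equivFun (ρ.ρ σ x) = (LinearMap.toMatrix B B (ρ.ρ σ)).mulVec (B.equivFun x)
        exact (LinearMap.toMatrix_mulVec_repr B B (ρ.ρ σ) x).symm }

/-- DICT-A. -/
theorem dictExists : Stmt_DictExists := by
  intro A _ _ ρ
  obtain ⟨r, hr, -, h⟩ := exists_mat_of_basis ρ (Module.finBasisOfFinrankEq A ρ.V ρ.finrank_eq)
  exact ⟨r, hr, h⟩

/-- Strict lifts in terms of the residue map. -/
theorem isStrictLift_iff {𝒪 : Type} [CommRing 𝒪] [IsLocalRing 𝒪]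
    (rbar : Gal →* M2 (ResidueField 𝒪)) {A : Type} [CommRing A] [IsLocalRing A] [Algebra 𝒪 A]
    [IsLocalHom (algebraMap 𝒪 A)] (r : Gal → M2 A) :
    IsStrictLift rbar r ↔
      ∀ σ i j, residue A (r σ i j) = ResidueField.map (algebraMap 𝒪 A) (rbar σ i j) := by
  constructor
  · intro h σ i j
    obtain ⟨c, hc, hmem⟩ := h σ i j
    rw [← hc, ResidueField.map_residue]
    rw [← sub_eq_zero, ← map_sub]
    exact (residue_eq_zero_iff _).mpr hmem
  · intro h σ i j
    obtain ⟨c, hc⟩ := residue_surjective (rbar σ i j)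
    refine ⟨c, hc, ?_⟩
    rw [← residue_eq_zero_iff, map_sub, h, ← hc, ResidueField.map_residue, sub_self]

/-- Core of DICT-D `→`, for an abstract coefficient field `K` (so that no instance on residue
fields interferes): a basis of `ρ.V` lifting a given basis through a residual isomorphism. -/
theorem exists_basis_lift {K : Type} [Field K] {A : Type} [CommRing A] [IsLocalRing A]
    [Algebra K (ResidueField A)] {W : Type} [AddCommGroup W] [Module K W]
    (b : Module.Basis (Fin 2) K W) (fbar : Gal → W →ₗ[K] W) (ρ : GaloisRepAdic A)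
    (e : (ResidueField A ⊗[A] ρ.V) ≃ₗ[ResidueField A] (ResidueField A ⊗[K] W))
    (he : ∀ (σ : Gal) (x : ResidueField A ⊗[A] ρ.V),
      e ((ρ.ρ σ).baseChange (ResidueField A) x) = (fbar σ).baseChange (ResidueField A) (e x)) :
    ∃ B : Module.Basis (Fin 2) A ρ.V, ∀ σ i j,
      residue A (LinearMap.toMatrix B B (ρ.ρ σ) i j) =
        algebraMap K (ResidueField A) (LinearMap.toMatrix b b (fbar σ) i j) := by
  let bT : Module.Basis (Fin 2) (ResidueField A) (ResidueField A ⊗[K] W) :=
    Algebra.TensorProduct.basis (ResidueField A) b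
  let bk : Module.Basis (Fin 2) (ResidueField A) (ResidueField A ⊗[A] ρ.V) := bT.map e.symm
  have hsurj : Function.Surjective (TensorProduct.mk A (ResidueField A) ρ.V 1) :=
    TensorProduct.mk_surjective A ρ.V (ResidueField A) IsLocalRing.residue_surjective
  choose v hv using fun i => hsurj (bk i)
  have hli : LinearIndependent A v := by
    apply Module.IsLocalRing.linearIndependent_of_flat v
    have : (TensorProduct.mk A (ResidueField A) ρ.V 1 ∘ v) = bk := funext hv
    rw [this]
    exact bk.linearIndependent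
  have hsp : Submodule.span A (Set.range v) = ⊤ :=
    IsLocalRing.span_eq_top_of_tmul_eq_basis v bk (fun i => hv i)
  let B : Module.Basis (Fin 2) A ρ.V := Module.Basis.mk hli (by rw [hsp])
  have hB : ∀ i, B i = v i := fun i => by simp [B]
  refine ⟨B, fun σ i j => ?_⟩
  let BT : Module.Basis (Fin 2) (ResidueField A) (ResidueField A ⊗[A] ρ.V) :=
    Algebra.TensorProduct.basis (ResidueField A) B
  have hBT : ∀ i, e (BT i) = bT i := by
    intro i
    have h1 : BT i = bk i := by
      rw [Algebra.TensorProduct.basis_apply, hB, ← hv i]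
      rfl
    rw [h1]
    simp [bk]
  have hmat := toMatrix_eq_of_equiv_comm BT bT ((ρ.ρ σ).baseChange (ResidueField A))
    ((fbar σ).baseChange (ResidueField A)) e hBT (he σ)
  rw [LinearMap.toMatrix_baseChange, LinearMap.toMatrix_baseChange] at hmat
  have hij := congrFun (congrFun hmat i) j
  rw [Matrix.map_apply, Matrix.map_apply] at hij
  exact hij

/-- Core of DICT-D `←`, for an abstract coefficient field `K`. -/
theorem exists_equiv_of_mat {K : Type} [Field K] {A : Type} [CommRing A] [IsLocalRing A]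
    [Algebra K (ResidueField A)] {W : Type} [AddCommGroup W] [Module K W]
    (b : Module.Basis (Fin 2) K W) (fbar : Gal → W →ₗ[K] W)
    (r : Gal → Matrix (Fin 2) (Fin 2) A)
    (h : ∀ σ i j, residue A (r σ i j) =
      algebraMap K (ResidueField A) (LinearMap.toMatrix b b (fbar σ) i j)) :
    ∃ e : (ResidueField A ⊗[A] (Fin 2 → A)) ≃ₗ[ResidueField A] (ResidueField A ⊗[K] W),
      ∀ (σ : Gal) (x : ResidueField A ⊗[A] (Fin 2 → A)),
        e ((Matrix.toLin' (r σ)).baseChange (ResidueField A) x) =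
          (fbar σ).baseChange (ResidueField A) (e x) := by
  let bT : Module.Basis (Fin 2) (ResidueField A) (ResidueField A ⊗[K] W) :=
    Algebra.TensorProduct.basis (ResidueField A) b
  let BT : Module.Basis (Fin 2) (ResidueField A) (ResidueField A ⊗[A] (Fin 2 → A)) :=
    Algebra.TensorProduct.basis (ResidueField A) (Pi.basisFun A (Fin 2))
  have hmat : ∀ σ : Gal,
      LinearMap.toMatrix BT BT ((Matrix.toLin' (r σ)).baseChange (ResidueField A)) =
        LinearMap.toMatrix bT bT ((fbar σ).baseChange (ResidueField A)) := by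
    intro σ
    rw [LinearMap.toMatrix_baseChange, LinearMap.toMatrix_baseChange,
      LinearMap.toMatrix_eq_toMatrix', LinearMap.toMatrix'_toLin']
    ext i j
    rw [Matrix.map_apply, Matrix.map_apply]
    exact h σ i j
  exact ⟨BT.equiv bT (Equiv.refl _), fun σ x =>
    equiv_comm_of_toMatrix_eq BT bT ((Matrix.toLin' (r σ)).baseChange (ResidueField A))
      ((fbar σ).baseChange (ResidueField A)) (hmat σ) x⟩

/-- DICT-D, direction `→`. -/
theorem dictResidual_mp {𝒪 : Type} [CommRing 𝒪] [IsLocalRing 𝒪]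
    (ρbar : ResidualGaloisRep (ResidueField 𝒪))
    (b : Module.Basis (Fin 2) (ResidueField 𝒪) ρbar.V)
    (A : Type) [CommRing A] [IsLocalRing A] [Algebra 𝒪 A] [IsLocalHom (algebraMap 𝒪 A)]
    (ρ : GaloisRepAdic A)
    (hE : ρ.residual.IsEquiv
      (ρbar.baseChangeAlong (IsLocalRing.ResidueField.map (algebraMap 𝒪 A)))) :
    ∃ (r : Gal →* M2 A) (hr : MatCont r),
      IsStrictLift (matOfBasis ρbar b) r ∧ ρ.IsEquiv (ofMat r hr) := by
  obtain ⟨E⟩ := hE
  obtain ⟨B, hB⟩ := @exists_basis_lift (ResidueField 𝒪) _ A _ _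
    (IsLocalRing.ResidueField.map (algebraMap 𝒪 A)).toAlgebra ρbar.V _ _ b
    (fun σ => ρbar.ρ σ) ρ E.toLinearEquiv (fun σ x => E.map_apply σ x)
  obtain ⟨r, hr, hrB, hequiv⟩ := exists_mat_of_basis ρ B
  refine ⟨r, hr, ?_, hequiv⟩
  rw [isStrictLift_iff]
  intro σ i j
  rw [hrB]
  exact hB σ i j

/-- DICT-D, direction `←`. -/
theorem dictResidual_mpr {𝒪 : Type} [CommRing 𝒪] [IsLocalRing 𝒪]
    (ρbar : ResidualGaloisRep (ResidueField 𝒪))
    (b : Module.Basis (Fin 2) (ResidueField 𝒪) ρbar.V)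
    (A : Type) [CommRing A] [IsLocalRing A] [Algebra 𝒪 A] [IsLocalHom (algebraMap 𝒪 A)]
    (ρ : GaloisRepAdic A) (r : Gal →* M2 A) (hr : MatCont r)
    (hstrict : IsStrictLift (matOfBasis ρbar b) r) (hequiv : ρ.IsEquiv (ofMat r hr)) :
    ρ.residual.IsEquiv
      (ρbar.baseChangeAlong (IsLocalRing.ResidueField.map (algebraMap 𝒪 A))) := by
  obtain ⟨E'⟩ := hequiv
  rw [isStrictLift_iff] at hstrict
  obtain ⟨e, he⟩ := @exists_equiv_of_mat (ResidueField 𝒪) _ A _ _
    (IsLocalRing.ResidueField.map (algebraMap 𝒪 A)).toAlgebra ρbar.V _ _ b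
    (fun σ => ρbar.ρ σ) (fun σ => r σ) (fun σ i j => hstrict σ i j)
  have E2 : ResidualGaloisRep.Equiv (ofMat r hr).residual
      (ρbar.baseChangeAlong (IsLocalRing.ResidueField.map (algebraMap 𝒪 A))) :=
    { toLinearEquiv := e
      map_apply := fun σ x => he σ x }
  exact ⟨E'.residual.trans E2⟩

/-- DICT-D (`Stmt_DictResidual` of the S53 blueprint). -/
theorem dictResidual (𝒪 : Type) [CommRing 𝒪] [IsLocalRing 𝒪] : Stmt_DictResidual 𝒪 := by
  intro ρbar b A _ _ _ _ ρ
  constructor
  · exact dictResidual_mp ρbar b A ρ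
  · rintro ⟨r, hr, hstrict, hequiv⟩
    exact dictResidual_mpr ρbar b A ρ r hr hstrict hequiv

end Fermat.Agent.S53.helper1073
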