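/-
S53, FINAL assembly (backup of board row 193), hypothesis-passing against the captain blueprint
`helper53_Spec`: from the `Stmt_*` statements to `Nonempty (DeformationRingData 𝒪 ρbar 𝒟)`.
No sorry.  (helper1313)
-/
import Fermat.Agent.S53.helper53_Spec

set_option autoImplicit false

namespace Fermat.Agent.S53.helper1313

open IsLocalRing Fermat.Agent.S53.helper53

/-- Strict lifts push forward along local `𝒪`-algebra homomorphisms. -/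
theorem isStrictLift_mapMat {𝒪 : Type} [CommRing 𝒪] [IsLocalRing 𝒪]
    (rbar : Gal →* M2 (ResidueField 𝒪))
    {A B : Type} [CommRing A] [IsLocalRing A] [Algebra 𝒪 A] [CommRing B] [IsLocalRing B]
    [Algebra 𝒪 B] (φ : A →ₐ[𝒪] B) (hφ : IsLocalHom (φ : A →+* B)) (r : Gal →* M2 A)
    (hr : IsStrictLift rbar r) : IsStrictLift rbar (mapMat (φ : A →+* B) r) := by
  intro σ i j
  obtain ⟨c, hc, hmem⟩ := hr σ i j
  refine ⟨c, hc, ?_⟩
  have h1 : mapMat (φ : A →+* B) r σ i j - algebraMap 𝒪 B c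
      = (φ : A →+* B) (r σ i j - algebraMap 𝒪 A c) := by
    rw [mapMat_apply, map_sub]
    congr 1
    exact (φ.commutes c).symm
  rw [h1]
  have hnu : ¬ IsUnit (r σ i j - algebraMap 𝒪 A c) := (IsLocalRing.mem_maximalIdeal _).mp hmem
  exact (IsLocalRing.mem_maximalIdeal _).mpr fun hu => hnu (hφ.map_nonunit _ hu)

/-- `evalMat` commutes with pushing forward along an `𝒪`-algebra homomorphism. -/
theorem evalMat_mapMat {𝒪 : Type} [CommRing 𝒪] {A B : Type} [CommRing A] [Algebra 𝒪 A]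
    [CommRing B] [Algebra 𝒪 B] (φ : A →ₐ[𝒪] B) (r : Gal →* M2 A) (f : Lam 𝒪) :
    evalMat (𝒪 := 𝒪) (mapMat (φ : A →+* B) r : Gal → M2 B) f
      = φ (evalMat (𝒪 := 𝒪) (r : Gal → M2 A) f) := by
  have h : (evalMat (𝒪 := 𝒪) (mapMat (φ : A →+* B) r : Gal → M2 B))
      = φ.comp (evalMat (𝒪 := 𝒪) (r : Gal → M2 A)) := by
    apply MvPolynomial.algHom_ext
    intro x
    simp [evalMat]
  rw [h]
  rfl

/-- Normalized families push forward along `𝒪`-algebra homomorphisms. -/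
theorem isNormalized_mapMat {𝒪 : Type} [CommRing 𝒪] (Sig : Set (Lam 𝒪)) {A B : Type}
    [CommRing A] [Algebra 𝒪 A] [CommRing B] [Algebra 𝒪 B] (φ : A →ₐ[𝒪] B) (r : Gal →* M2 A)
    (hr : IsNormalized Sig (r : Gal → M2 A)) :
    IsNormalized Sig (mapMat (φ : A →+* B) r : Gal → M2 B) := by
  intro f hf
  rw [evalMat_mapMat, hr f hf, map_zero]

/-- The FINAL assembly for a fixed slice: all inputs are the exact statements of the captain
blueprint `helper53_Spec`. -/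
theorem final_of_slice
    (𝒪 : Type) [CommRing 𝒪] [IsDomain 𝒪] [IsDiscreteValuationRing 𝒪]
    [IsAdicComplete (IsLocalRing.maximalIdeal 𝒪) 𝒪]
    (ρbar : ResidualGaloisRep (IsLocalRing.ResidueField 𝒪))
    (𝒟 : ∀ ⦃A : Type⦄ [CommRing A] [IsLocalRing A] [Algebra 𝒪 A], GaloisRepAdic A → Prop)
    (habs : ρbar.IsAbsolutelyIrreducible)
    (b : Module.Basis (Fin 2) (ResidueField 𝒪) ρbar.V) (Sig : Set (Lam 𝒪))
    (hS : IsSlice (matOfBasis ρbar b) Sig)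
    (hMatContMap : Stmt_MatContMap)
    (hDictBaseChange : Stmt_DictBaseChange)
    (hMatContConj : Stmt_MatContConj)
    (hDictEquiv : Stmt_DictEquiv)
    (hDictResidual : Stmt_DictResidual 𝒪)
    (hTypeEquiv : Stmt_TypeEquiv 𝒪 𝒟)
    (hRing : Stmt_Ring 𝒪)
    (hTop : Stmt_FamTop 𝒪 (matOfBasis ρbar b) Sig 𝒟)
    (hLe : Stmt_FamLe 𝒪 (matOfBasis ρbar b) Sig 𝒟)
    (hNil : Stmt_FamNil 𝒪 (matOfBasis ρbar b) Sig 𝒟)
    (hFin : Stmt_FamFin 𝒪 (matOfBasis ρbar b) Sig 𝒟)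
    (hInf : Stmt_FamInf 𝒪 (matOfBasis ρbar b) Sig 𝒟)
    (hUp : Stmt_FamUp 𝒪 (matOfBasis ρbar b) Sig 𝒟)
    (hTan : Stmt_FamTan 𝒪 (matOfBasis ρbar b) Sig 𝒟)
    (hUnivRep : Stmt_UnivRep 𝒪 (matOfBasis ρbar b) Sig 𝒟)
    (hUnivLift : Stmt_UnivLift 𝒪 (matOfBasis ρbar b) Sig 𝒟)
    (hUnivUnique : Stmt_UnivUnique 𝒪 (matOfBasis ρbar b) Sig 𝒟) :
    Nonempty (GaloisRep.DeformationRingData 𝒪 ρbar 𝒟) := by
  classical
  set rbar : Gal →* M2 (ResidueField 𝒪) := matOfBasis ρbar b with hrbar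
  -- Step 1: the abstract ring.
  have hne : augIdeal rbar ≠ ⊤ := RingHom.ker_ne_top _
  have hres : ∀ x : Lam 𝒪, ∃ c : 𝒪, x - algebraMap 𝒪 (Lam 𝒪) c ∈ augIdeal rbar := by
    intro x
    obtain ⟨c, hc⟩ := IsLocalRing.residue_surjective
      (evalMat (𝒪 := 𝒪) (A := ResidueField 𝒪) rbar x)
    refine ⟨c, ?_⟩
    show x - algebraMap 𝒪 (Lam 𝒪) c ∈ RingHom.ker _
    rw [RingHom.mem_ker, map_sub, AlgHom.commutes, ← hc, sub_eq_zero]
    rfl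
  have hloc : ∀ c ∈ maximalIdeal 𝒪, algebraMap 𝒪 (Lam 𝒪) c ∈ augIdeal rbar := by
    intro c hc
    show algebraMap 𝒪 (Lam 𝒪) c ∈ RingHom.ker _
    rw [RingHom.mem_ker, AlgHom.commutes]
    exact (IsLocalRing.residue_eq_zero_iff c).mpr hc
  obtain ⟨P⟩ := hRing (Lam 𝒪) (augIdeal rbar) {J | InFamily rbar Sig 𝒟 J} hne hres hloc
    hTop (fun 𝔞 h𝔞 => hLe 𝔞 h𝔞) (fun 𝔞 h𝔞 𝔟 h𝔟 => hInf 𝔞 𝔟 h𝔞 h𝔟)
    (fun 𝔞 h𝔞 𝔟 hle hle' => hUp 𝔞 𝔟 h𝔞 hle hle') (fun 𝔞 h𝔞 => hFin 𝔞 h𝔞)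
    (fun 𝔞 h𝔞 => hNil 𝔞 h𝔞) hTan
  -- Step 2: the universal matrices.
  obtain ⟨runiv, hruniv, hNL⟩ := hUnivRep P
  -- Step 3: the deformation ring data.
  refine ⟨{
    R := P.R
    residue_surjective := P.residue_surjective
    absIrr := habs
    ρ := ofMat runiv hNL.cont
    isOfType := hNL.type
    residual_isEquiv := (hDictResidual ρbar b P.R (ofMat runiv hNL.cont)).mpr
      ⟨runiv, hNL.cont, hNL.strict, ⟨GaloisRepAdic.Equiv.refl _⟩⟩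
    universal := ?_ }⟩
  intro A _ _ _ _ _ hAloc hsurj ρA hDρA hresA
  obtain ⟨r, hr, hstrict, ⟨e0⟩⟩ := (hDictResidual ρbar b A ρA).mp hresA
  obtain ⟨M, r', hstrict', hnorm', hconj⟩ := hS.exists_normalized r hstrict
  have hr' : MatCont r' := hMatContConj A r r' M hconj hr
  obtain ⟨e1⟩ : (ofMat r hr).IsEquiv (ofMat r' hr') := (hDictEquiv A r r' hr hr').mpr ⟨M, hconj⟩
  have he2 : ρA.IsEquiv (ofMat r' hr') := ⟨e0.trans e1⟩
  have hD' : 𝒟 (ofMat r' hr') := hTypeEquiv A hAloc hsurj ρA (ofMat r' hr') he2 hDρA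
  have hNL' : IsNLift rbar Sig 𝒟 r' := ⟨hr', hstrict', hnorm', hD'⟩
  obtain ⟨φ, hφloc, hφ⟩ := hUnivLift P A hAloc hsurj r' hNL'
  have hmap : mapMat (φ : P.R →+* A) runiv = r' := by
    apply MonoidHom.ext
    intro σ
    ext i j
    rw [mapMat_apply, hruniv]
    exact hφ σ i j
  refine ⟨φ, ⟨hφloc, ?_⟩, ?_⟩
  · have hc : MatCont (mapMat (φ : P.R →+* A) runiv) := by rw [hmap]; exact hr'
    obtain ⟨e3⟩ := hDictBaseChange P.R A (φ : P.R →+* A) hφloc runiv hNL.cont hc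
    obtain ⟨e2⟩ := he2
    have e4 : GaloisRepAdic.Equiv (ofMat (mapMat (φ : P.R →+* A) runiv) hc) (ofMat r' hr') := by
      subst hmap
      exact GaloisRepAdic.Equiv.refl _
    exact ⟨(e3.trans e4).trans e2.symm⟩
  · rintro φ' ⟨hφ'loc, ⟨e5⟩⟩
    have hc' : MatCont (mapMat (φ' : P.R →+* A) runiv) :=
      hMatContMap P.R A (φ' : P.R →+* A) hφ'loc runiv hNL.cont
    obtain ⟨e6⟩ := hDictBaseChange P.R A (φ' : P.R →+* A) hφ'loc runiv hNL.cont hc'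
    obtain ⟨e2⟩ := he2
    have e7 : (ofMat (mapMat (φ' : P.R →+* A) runiv) hc').IsEquiv (ofMat r' hr') :=
      ⟨(e6.symm.trans e5).trans e2⟩
    obtain ⟨M', hM'⟩ := (hDictEquiv A _ r' hc' hr').mp e7
    have hstr'' : IsStrictLift rbar (mapMat (φ' : P.R →+* A) runiv) :=
      isStrictLift_mapMat rbar φ' hφ'loc runiv hNL.strict
    have hnorm'' : IsNormalized Sig (mapMat (φ' : P.R →+* A) runiv : Gal → M2 A) :=
      isNormalized_mapMat Sig φ' runiv hNL.norm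
    have heq : mapMat (φ' : P.R →+* A) runiv = r' :=
      hS.eq_of_conj (mapMat (φ' : P.R →+* A) runiv) r' hstr'' hstrict' hnorm'' hnorm' M' hM'
    refine hUnivUnique P A φ' φ hφ'loc hφloc fun σ i j => ?_
    rw [hφ σ i j, ← hruniv σ i j, ← heq]
    rfl

/-- The FINAL assembly: the slice is obtained from `Stmt_Slice`, all other inputs are required
for every basis and every slice. -/
theorem final
    (𝒪 : Type) [CommRing 𝒪] [IsDomain 𝒪] [IsDiscreteValuationRing 𝒪]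
    [IsAdicComplete (IsLocalRing.maximalIdeal 𝒪) 𝒪]
    (ρbar : ResidualGaloisRep (IsLocalRing.ResidueField 𝒪))
    (𝒟 : ∀ ⦃A : Type⦄ [CommRing A] [IsLocalRing A] [Algebra 𝒪 A], GaloisRepAdic A → Prop)
    (habs : ρbar.IsAbsolutelyIrreducible)
    (hSlice : Stmt_Slice 𝒪)
    (hMatContMap : Stmt_MatContMap)
    (hDictBaseChange : Stmt_DictBaseChange)
    (hMatContConj : Stmt_MatContConj)
    (hDictEquiv : Stmt_DictEquiv)
    (hDictResidual : Stmt_DictResidual 𝒪)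
    (hTypeEquiv : Stmt_TypeEquiv 𝒪 𝒟)
    (hRing : Stmt_Ring 𝒪)
    (hFam : ∀ (b : Module.Basis (Fin 2) (ResidueField 𝒪) ρbar.V) (Sig : Set (Lam 𝒪)),
      IsSlice (matOfBasis ρbar b) Sig →
        Stmt_FamTop 𝒪 (matOfBasis ρbar b) Sig 𝒟 ∧ Stmt_FamLe 𝒪 (matOfBasis ρbar b) Sig 𝒟 ∧
        Stmt_FamNil 𝒪 (matOfBasis ρbar b) Sig 𝒟 ∧ Stmt_FamFin 𝒪 (matOfBasis ρbar b) Sig 𝒟 ∧
        Stmt_FamInf 𝒪 (matOfBasis ρbar b) Sig 𝒟 ∧ Stmt_FamUp 𝒪 (matOfBasis ρbar b) Sig 𝒟 ∧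
        Stmt_FamTan 𝒪 (matOfBasis ρbar b) Sig 𝒟 ∧ Stmt_UnivRep 𝒪 (matOfBasis ρbar b) Sig 𝒟 ∧
        Stmt_UnivLift 𝒪 (matOfBasis ρbar b) Sig 𝒟 ∧
        Stmt_UnivUnique 𝒪 (matOfBasis ρbar b) Sig 𝒟) :
    Nonempty (GaloisRep.DeformationRingData 𝒪 ρbar 𝒟) := by
  obtain ⟨b, Sig, hS⟩ := hSlice ρbar habs
  obtain ⟨hTop, hLe, hNil, hFin, hInf, hUp, hTan, hUR, hUL, hUU⟩ := hFam b Sig hS
  exact final_of_slice 𝒪 ρbar 𝒟 habs b Sig hS hMatContMap hDictBaseChange hMatContConj hDictEquiv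
    hDictResidual hTypeEquiv hRing hTop hLe hNil hFin hInf hUp hTan hUR hUL hUU

end Fermat.Agent.S53.helper1313
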