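/-
S53 piece (b): RIGIDITY of normalized matrix lifts ("slice lemma"), Mathlib only.

* `contraction_injective`, `contraction_surjective`: a multivariable Hensel / contraction lemma
  in an `I`-adically Hausdorff resp. complete ring.
* `exists_slice`: from the Schur property of a family of 2x2 matrices over a field, three matrix
  coordinates of the commutator map with invertible linearisation.
* `SliceData`, `SliceData.IsNormalized`, `SliceData.sigma`: the normal form.
* `SliceData.exists_normalizing`: over an `I`-adically complete ring every lift is conjugate, by a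
  matrix congruent to `1` mod `I`, to a normalized one.
* `SliceData.eq_of_conj`: over an `I`-adically Hausdorff ring (`I` in the Jacobson radical) two
  normalized lifts that are conjugate by an invertible matrix are equal.
* `exists_sliceData`: slice data exist for a local ring `𝒪` and a set-theoretic lift `c` of a
  family of matrices over the residue field having the Schur property.
-/
import Mathlib

set_option autoImplicit false

namespace Fermat.Agent.S53.helper1373

/-- If all coordinates of `v` lie in an ideal, so do those of `L.mulVec v`. -/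
theorem mulVec_mem_ideal {A : Type*} [CommRing A] {ι : Type*} [Fintype ι]
    (J : Ideal A) (L : Matrix ι ι A) (v : ι → A) (hv : ∀ i, v i ∈ J) (s : ι) :
    (L.mulVec v) s ∈ J := by
  rw [Matrix.mulVec, dotProduct]
  exact Ideal.sum_mem _ fun j _ => Ideal.mul_mem_left _ _ (hv j)

/-- If `L` is invertible and all coordinates of `L.mulVec v` lie in an ideal, so do those of `v`. -/
theorem mem_ideal_of_mulVec_mem {A : Type*} [CommRing A] {ι : Type*} [Fintype ι] [DecidableEq ι]
    (J : Ideal A) (L : Matrix ι ι A) (hL : IsUnit L.det) (v : ι → A)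
    (hv : ∀ s, (L.mulVec v) s ∈ J) (i : ι) : v i ∈ J := by
  have h : v = L⁻¹.mulVec (L.mulVec v) := by
    rw [Matrix.mulVec_mulVec, Matrix.nonsing_inv_mul _ hL, Matrix.one_mulVec]
  rw [h]
  exact mulVec_mem_ideal J _ _ hv i

theorem eq_zero_of_forall_mem_pow {A : Type*} [CommRing A] (I : Ideal A) [IsHausdorff I A]
    (x : A) (hx : ∀ n : ℕ, x ∈ I ^ n) : x = 0 := by
  refine IsHausdorff.haus (inferInstance : IsHausdorff I A) x fun n => ?_
  rw [SModEq.zero, smul_eq_mul, Ideal.mul_top]
  exact hx n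

/-- **Contraction lemma, injectivity.**  Let `A` be `I`-adically Hausdorff and let
`Φ : A^ι → A^ι` be a map which, on `I^ι`, is congruent to an invertible linear map `L` to first
order: `T ≡ T' mod I^n` implies `Φ T - Φ T' ≡ L (T - T') mod I^(n+1)`.  Then `Φ` is injective on
`I^ι`. -/
theorem contraction_injective {A : Type*} [CommRing A] (I : Ideal A) [IsHausdorff I A]
    {ι : Type*} [Fintype ι] [DecidableEq ι]
    (Φ : (ι → A) → (ι → A)) (L : Matrix ι ι A) (hL : IsUnit L.det)
    (hΦ : ∀ n : ℕ, ∀ T T' : ι → A, (∀ i, T i ∈ I) → (∀ i, T' i ∈ I) →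
        (∀ i, T i - T' i ∈ I ^ n) →
        ∀ s, Φ T s - Φ T' s - (L.mulVec (T - T')) s ∈ I ^ (n + 1))
    (T T' : ι → A) (hT : ∀ i, T i ∈ I) (hT' : ∀ i, T' i ∈ I) (hEq : Φ T = Φ T') : T = T' := by
  have key : ∀ n : ℕ, ∀ i, T i - T' i ∈ I ^ n := by
    intro n
    induction n with
    | zero => intro i; simp
    | succ n ih =>
      refine mem_ideal_of_mulVec_mem _ L hL (T - T') fun s => ?_
      have h := hΦ n T T' hT hT' ih s
      rw [hEq, sub_self, zero_sub] at h
      simpa using (Ideal.neg_mem_iff _).mp h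
  funext i
  exact sub_eq_zero.mp (eq_zero_of_forall_mem_pow I _ fun n => key n i)

/-- **Contraction lemma, surjectivity.**  In the situation of `contraction_injective`, if `A` is
moreover `I`-adically complete, every `c` with `c ≡ Φ 0 mod I` is attained on `I^ι`. -/
theorem contraction_surjective {A : Type*} [CommRing A] (I : Ideal A) [IsAdicComplete I A]
    {ι : Type*} [Fintype ι] [DecidableEq ι]
    (Φ : (ι → A) → (ι → A)) (L : Matrix ι ι A) (hL : IsUnit L.det)
    (hΦ : ∀ n : ℕ, ∀ T T' : ι → A, (∀ i, T i ∈ I) → (∀ i, T' i ∈ I) →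
        (∀ i, T i - T' i ∈ I ^ n) →
        ∀ s, Φ T s - Φ T' s - (L.mulVec (T - T')) s ∈ I ^ (n + 1))
    (c : ι → A) (hc : ∀ s, c s - Φ 0 s ∈ I) : ∃ T : ι → A, (∀ i, T i ∈ I) ∧ Φ T = c := by
  have haus : ∀ x : A, (∀ n : ℕ, x ∈ I ^ n) → x = 0 := eq_zero_of_forall_mem_pow I
  -- the Newton-type iteration
  let step : (ι → A) → (ι → A) := fun T => T - L⁻¹.mulVec (Φ T - c)
  let seq : ℕ → (ι → A) := fun n => Nat.rec (0 : ι → A) (fun _ T => step T) n
  have seq_succ : ∀ n, seq (n + 1) = seq n - L⁻¹.mulVec (Φ (seq n) - c) := fun n => rfl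
  have Lstep : ∀ n, L.mulVec (seq (n + 1) - seq n) = -(Φ (seq n) - c) := by
    intro n
    rw [seq_succ, sub_sub_cancel_left, Matrix.mulVec_neg, Matrix.mulVec_mulVec,
      Matrix.mul_nonsing_inv _ hL, Matrix.one_mulVec]
  have main : ∀ n, (∀ i, seq n i ∈ I) ∧ (∀ s, Φ (seq n) s - c s ∈ I ^ (n + 1)) := by
    intro n
    induction n with
    | zero =>
      refine ⟨fun i => by simp [seq], fun s => ?_⟩
      have := hc s
      rw [zero_add, pow_one]
      have h2 : Φ (seq 0) s - c s = -(c s - Φ 0 s) := by simp [seq]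
      rw [h2]
      exact (Ideal.neg_mem_iff _).mpr this
    | succ n ih =>
      obtain ⟨ih1, ih2⟩ := ih
      have hdiff : ∀ i, seq (n + 1) i - seq n i ∈ I ^ (n + 1) := by
        refine mem_ideal_of_mulVec_mem _ L hL (seq (n + 1) - seq n) fun s => ?_
        rw [Lstep]
        simpa using (Ideal.neg_mem_iff _).mpr (ih2 s)
      have hmem : ∀ i, seq (n + 1) i ∈ I := by
        intro i
        have h1 : seq (n + 1) i - seq n i ∈ I :=
          Ideal.pow_le_self (Nat.succ_ne_zero n) (hdiff i)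
        have := Ideal.add_mem _ h1 (ih1 i)
        simpa using this
      refine ⟨hmem, fun s => ?_⟩
      have h := hΦ (n + 1) (seq (n + 1)) (seq n) hmem ih1 hdiff s
      rw [Lstep] at h
      have h2 : Φ (seq (n + 1)) s - Φ (seq n) s - (-(Φ (seq n) - c)) s =
          Φ (seq (n + 1)) s - c s := by
        simp
      rwa [h2] at h
  have hcauchy : ∀ i, ∀ {m n : ℕ}, m ≤ n →
      seq m i ≡ seq n i [SMOD (I ^ m • ⊤ : Submodule A A)] := by
    intro i m n hmn
    induction n, hmn using Nat.le_induction with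
    | base => exact SModEq.refl _
    | succ n hmn ih =>
      refine ih.trans ?_
      rw [SModEq.sub_mem, smul_eq_mul, Ideal.mul_top]
      have hdiff : ∀ i, seq (n + 1) i - seq n i ∈ I ^ (n + 1) := by
        refine mem_ideal_of_mulVec_mem _ L hL (seq (n + 1) - seq n) fun s => ?_
        rw [Lstep]
        simpa using (Ideal.neg_mem_iff _).mpr ((main n).2 s)
      have h3 : seq n i - seq (n + 1) i = -(seq (n + 1) i - seq n i) := by ring
      rw [h3]
      exact (Ideal.neg_mem_iff _).mpr (Ideal.pow_le_pow_right (by omega) (hdiff i))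
  have hlim : ∀ i, ∃ t : A, ∀ n, seq n i ≡ t [SMOD (I ^ n • ⊤ : Submodule A A)] := fun i =>
    IsPrecomplete.prec (inferInstance : IsPrecomplete I A) (hcauchy i)
  choose T hT using hlim
  have hT' : ∀ n i, T i - seq n i ∈ I ^ n := by
    intro n i
    have := (hT i n).symm
    rwa [SModEq.sub_mem, smul_eq_mul, Ideal.mul_top] at this
  have hTI : ∀ i, T i ∈ I := by
    intro i
    have h1 := hT' 1 i
    rw [pow_one] at h1
    have := Ideal.add_mem _ h1 ((main 1).1 i)
    simpa using this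
  refine ⟨T, hTI, ?_⟩
  funext s
  refine sub_eq_zero.mp (haus _ fun n => ?_)
  have h := hΦ n T (seq n) hTI (main n).1 (hT' n) s
  have h1 : (L.mulVec (T - seq n)) s ∈ I ^ n := mulVec_mem_ideal _ L _ (hT' n) s
  have h2 : Φ (seq n) s - c s ∈ I ^ n := Ideal.pow_le_pow_right (Nat.le_succ n) ((main n).2 s)
  have h3 : Φ T s - c s = (Φ T s - Φ (seq n) s - (L.mulVec (T - seq n)) s) +
      (L.mulVec (T - seq n)) s + (Φ (seq n) s - c s) := by ring
  rw [h3]
  exact Ideal.add_mem _ (Ideal.add_mem _ (Ideal.pow_le_pow_right (Nat.le_succ n) h) h1) h2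


open Matrix

section MatMem

variable {A : Type*} [CommRing A] {m n l : Type*}

/-- All entries of the matrix `N` lie in the ideal `J`. -/
def MatMem (J : Ideal A) (N : Matrix m n A) : Prop := ∀ i j, N i j ∈ J

theorem MatMem.add {J : Ideal A} {N N' : Matrix m n A} (h : MatMem J N) (h' : MatMem J N') :
    MatMem J (N + N') := fun i j => J.add_mem (h i j) (h' i j)

theorem MatMem.sub {J : Ideal A} {N N' : Matrix m n A} (h : MatMem J N) (h' : MatMem J N') :
    MatMem J (N - N') := fun i j => J.sub_mem (h i j) (h' i j)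

theorem MatMem.neg {J : Ideal A} {N : Matrix m n A} (h : MatMem J N) :
    MatMem J (-N) := fun i j => J.neg_mem (h i j)

theorem MatMem.mono {J J' : Ideal A} (hJ : J ≤ J') {N : Matrix m n A} (h : MatMem J N) :
    MatMem J' N := fun i j => hJ (h i j)

theorem MatMem.mul [Fintype n] {J J' : Ideal A} {N : Matrix m n A} {N' : Matrix n l A}
    (h : MatMem J N) (h' : MatMem J' N') : MatMem (J * J') (N * N') := by
  intro i j
  rw [Matrix.mul_apply]
  exact Ideal.sum_mem _ fun x _ => Ideal.mul_mem_mul (h i x) (h' x j)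

theorem MatMem.mul_left [Fintype n] {J : Ideal A} (N' : Matrix m n A) {N : Matrix n l A}
    (h : MatMem J N) : MatMem J (N' * N) := by
  intro i j
  rw [Matrix.mul_apply]
  exact Ideal.sum_mem _ fun x _ => Ideal.mul_mem_left _ _ (h x j)

theorem MatMem.mul_right [Fintype n] {J : Ideal A} {N : Matrix m n A} (h : MatMem J N)
    (N' : Matrix n l A) : MatMem J (N * N') := by
  intro i j
  rw [Matrix.mul_apply]
  exact Ideal.sum_mem _ fun x _ => Ideal.mul_mem_right _ _ (h i x)

end MatMem

section Slice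

variable {A : Type*} [CommRing A]

/-- The three directions transverse to the scalar matrices. -/
def slE (A : Type*) [CommRing A] : Fin 3 → Matrix (Fin 2) (Fin 2) A :=
  ![!![0, 1; 0, 0], !![0, 0; 1, 0], !![0, 0; 0, 1]]

/-- The conjugating matrix with parameters `T`. -/
def slM (T : Fin 3 → A) : Matrix (Fin 2) (Fin 2) A := !![1, T 0; T 1, 1 + T 2]

/-- The linearised slice matrix: `(s,t) ↦ [E_t, X_s]_{i_s j_s}`. -/
def slL (X : Fin 3 → Matrix (Fin 2) (Fin 2) A) (i j : Fin 3 → Fin 2) : Matrix (Fin 3) (Fin 3) A :=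
  Matrix.of fun s t => (slE A t * X s - X s * slE A t) (i s) (j s)

/-- The slice coordinates of the conjugate of `Y` by `slM T`. -/
noncomputable def slΦ (Y : Fin 3 → Matrix (Fin 2) (Fin 2) A) (i j : Fin 3 → Fin 2)
    (T : Fin 3 → A) : Fin 3 → A :=
  fun s => (slM T * Y s * (slM T)⁻¹) (i s) (j s)

theorem slM_zero : slM (0 : Fin 3 → A) = 1 := by
  ext a b
  fin_cases a <;> fin_cases b <;> simp [slM]

theorem slM_sub_one_mem {I : Ideal A} {T : Fin 3 → A} (hT : ∀ t, T t ∈ I) :
    MatMem I (slM T - 1) := by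
  intro a b
  fin_cases a <;> fin_cases b <;> simp [slM, hT]

theorem slM_sub_mem {J : Ideal A} {T T' : Fin 3 → A} (hT : ∀ t, T t - T' t ∈ J) :
    MatMem J (slM T - slM T') := by
  intro a b
  fin_cases a <;> fin_cases b <;> simp [slM, hT]

theorem isUnit_det_slM {I : Ideal A} (hI : I ≤ Ideal.jacobson ⊥) {T : Fin 3 → A}
    (hT : ∀ t, T t ∈ I) : IsUnit (slM T).det := by
  have h1 : T 2 - T 0 * T 1 ∈ Ideal.jacobson (⊥ : Ideal A) :=
    hI (I.sub_mem (hT 2) (I.mul_mem_right _ (hT 0)))
  have h2 := Ideal.mem_jacobson_bot.mp h1 1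
  have h3 : (slM T).det = (T 2 - T 0 * T 1) * 1 + 1 := by
    rw [Matrix.det_fin_two]
    simp [slM]
    ring
  rw [h3]
  exact h2

theorem slL_mulVec (X : Fin 3 → Matrix (Fin 2) (Fin 2) A) (i j : Fin 3 → Fin 2)
    (T T' : Fin 3 → A) (s : Fin 3) :
    ((slL X i j).mulVec (T - T')) s =
      ((slM T - slM T') * X s - X s * (slM T - slM T')) (i s) (j s) := by
  rw [Matrix.mulVec, dotProduct, Fin.sum_univ_three]
  simp only [slL, Matrix.of_apply, Pi.sub_apply]
  generalize i s = a
  generalize j s = b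
  generalize X s = Z
  simp only [Matrix.sub_apply, Matrix.mul_apply, Fin.sum_univ_two]
  fin_cases a <;> fin_cases b <;> simp [slM, slE] <;> ring

/-- purely formal identity for the difference of two conjugates -/
theorem conj_sub_conj {M Mi M' Mi' X Xt D : Matrix (Fin 2) (Fin 2) A} (h1 : M * Mi = 1)
    (h2 : Mi' * M' = 1) (hD : D = M - M') :
    M * X * Mi - M' * X * Mi' - (D * Xt - Xt * D) =
      D * (X * Mi - Xt) - (M' * X * Mi' - Xt) * (D * Mi) - Xt * D * (Mi - 1) := by
  have e1 : M' * X * Mi' * (D * Mi) = M' * X * Mi' - M' * X * Mi := by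
    rw [hD, sub_mul, mul_sub, h1, mul_one]
    have : M' * X * Mi' * (M' * Mi) = M' * X * (Mi' * M') * Mi := by noncomm_ring
    rw [this, h2]; noncomm_ring
  have e2 : D * (X * Mi) = M * X * Mi - M' * X * Mi := by rw [hD]; noncomm_ring
  rw [mul_sub D, sub_mul _ _ (D * Mi), e1, e2]
  noncomm_ring

theorem inv_sub_one_mem {I : Ideal A} {M : Matrix (Fin 2) (Fin 2) A} (hdet : IsUnit M.det)
    (hM : MatMem I (M - 1)) : MatMem I (M⁻¹ - 1) := by
  have h : M⁻¹ - 1 = -(M⁻¹ * (M - 1)) := by
    rw [mul_sub, Matrix.nonsing_inv_mul _ hdet, mul_one]; abel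
  rw [h]
  exact (hM.mul_left _).neg

theorem conj_sub_mem {I : Ideal A} {M X Xt : Matrix (Fin 2) (Fin 2) A} (hdet : IsUnit M.det)
    (hM : MatMem I (M - 1)) (hX : MatMem I (X - Xt)) : MatMem I (M * X * M⁻¹ - Xt) := by
  have h : M * X * M⁻¹ - Xt = (M - 1) * X * M⁻¹ + (X - Xt) * M⁻¹ + Xt * (M⁻¹ - 1) := by
    noncomm_ring
  rw [h]
  exact (((hM.mul_right _).mul_right _).add (hX.mul_right _)).add
    ((inv_sub_one_mem hdet hM).mul_left _)

theorem mul_inv_sub_mem {I : Ideal A} {M X Xt : Matrix (Fin 2) (Fin 2) A} (hdet : IsUnit M.det)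
    (hM : MatMem I (M - 1)) (hX : MatMem I (X - Xt)) : MatMem I (X * M⁻¹ - Xt) := by
  have h : X * M⁻¹ - Xt = (X - Xt) * M⁻¹ + Xt * (M⁻¹ - 1) := by
    noncomm_ring
  rw [h]
  exact (hX.mul_right _).add ((inv_sub_one_mem hdet hM).mul_left _)

/-- The first-order estimate for the slice map. -/
theorem slΦ_estimate {I : Ideal A} (hI : I ≤ Ideal.jacobson ⊥)
    (X Y : Fin 3 → Matrix (Fin 2) (Fin 2) A) (hXY : ∀ s, MatMem I (Y s - X s))
    (i j : Fin 3 → Fin 2) (n : ℕ) (T T' : Fin 3 → A) (hT : ∀ t, T t ∈ I) (hT' : ∀ t, T' t ∈ I)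
    (hd : ∀ t, T t - T' t ∈ I ^ n) (s : Fin 3) :
    slΦ Y i j T s - slΦ Y i j T' s - ((slL X i j).mulVec (T - T')) s ∈ I ^ (n + 1) := by
  have hu := isUnit_det_slM hI hT
  have hu' := isUnit_det_slM hI hT'
  have hM := slM_sub_one_mem hT
  have hM' := slM_sub_one_mem hT'
  have hD : MatMem (I ^ n) (slM T - slM T') := slM_sub_mem hd
  rw [slL_mulVec]
  have key := conj_sub_conj (X := Y s) (Xt := X s) (Matrix.mul_nonsing_inv _ hu)
    (Matrix.nonsing_inv_mul _ hu') (rfl : slM T - slM T' = slM T - slM T')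
  have hmem : MatMem (I ^ (n + 1))
      ((slM T - slM T') * (Y s * (slM T)⁻¹ - X s) -
        (slM T' * Y s * (slM T')⁻¹ - X s) * ((slM T - slM T') * (slM T)⁻¹) -
        X s * (slM T - slM T') * ((slM T)⁻¹ - 1)) := by
    have a1 : MatMem (I ^ (n + 1)) ((slM T - slM T') * (Y s * (slM T)⁻¹ - X s)) := by
      rw [pow_succ]
      exact hD.mul (mul_inv_sub_mem hu hM (hXY s))
    have a2 : MatMem (I ^ (n + 1))
        ((slM T' * Y s * (slM T')⁻¹ - X s) * ((slM T - slM T') * (slM T)⁻¹)) := by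
      rw [pow_succ']
      exact (conj_sub_mem hu' hM' (hXY s)).mul (hD.mul_right _)
    have a3 : MatMem (I ^ (n + 1)) (X s * (slM T - slM T') * ((slM T)⁻¹ - 1)) := by
      rw [pow_succ]
      exact (hD.mul_left _).mul (inv_sub_one_mem hu hM)
    exact (a1.sub a2).sub a3
  have := hmem (i s) (j s)
  rw [← key] at this
  simpa [slΦ] using this

/-- **Slice existence.** If `Y ≡ X mod I` then a unique conjugate of `Y` by `slM T`, `T ∈ I^3`,
has the same three slice coordinates as `X`. -/
theorem slice_exists (I : Ideal A) [IsAdicComplete I A]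
    (X Y : Fin 3 → Matrix (Fin 2) (Fin 2) A) (hXY : ∀ s, MatMem I (Y s - X s))
    (i j : Fin 3 → Fin 2) (hL : IsUnit (slL X i j).det) :
    ∃ T : Fin 3 → A, (∀ t, T t ∈ I) ∧
      ∀ s, (slM T * Y s * (slM T)⁻¹) (i s) (j s) = X s (i s) (j s) := by
  have hI := IsAdicComplete.le_jacobson_bot I
  obtain ⟨T, hT, hΦ⟩ := contraction_surjective I (slΦ Y i j) (slL X i j) hL
    (fun n T T' hT hT' hd s => slΦ_estimate hI X Y hXY i j n T T' hT hT' hd s)
    (fun s => X s (i s) (j s)) (fun s => by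
    have h := hXY s (i s) (j s)
    have h2 : X s (i s) (j s) - slΦ Y i j 0 s = -((Y s - X s) (i s) (j s)) := by
      simp [slΦ, slM_zero]
    rw [h2]
    exact I.neg_mem h)
  exact ⟨T, hT, fun s => congrFun hΦ s⟩

/-- **Slice uniqueness.** -/
theorem slice_unique (I : Ideal A) [IsHausdorff I A] (hI : I ≤ Ideal.jacobson ⊥)
    (X Y : Fin 3 → Matrix (Fin 2) (Fin 2) A) (hXY : ∀ s, MatMem I (Y s - X s))
    (i j : Fin 3 → Fin 2) (hL : IsUnit (slL X i j).det) (T : Fin 3 → A) (hT : ∀ t, T t ∈ I)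
    (h0 : ∀ s, Y s (i s) (j s) = X s (i s) (j s))
    (h1 : ∀ s, (slM T * Y s * (slM T)⁻¹) (i s) (j s) = X s (i s) (j s)) : T = 0 := by
  refine contraction_injective I (slΦ Y i j) (slL X i j) hL
    (fun n T T' hT hT' hd s => slΦ_estimate hI X Y hXY i j n T T' hT hT' hd s)
    T 0 hT (fun _ => I.zero_mem) ?_
  funext s
  simp only [slΦ, slM_zero, one_mul, inv_one, mul_one]
  rw [h0 s]
  exact h1 s

end Slice

section Choice

variable {k : Type*} [Field k] {G : Type*}

/-- From the Schur property (the commutant of the image is the scalars) one can pick three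
matrix coordinates of the commutator map whose linearisation is invertible. -/
theorem exists_slice (ρ : G → Matrix (Fin 2) (Fin 2) k)
    (hSchur : ∀ N : Matrix (Fin 2) (Fin 2) k, (∀ g, N * ρ g = ρ g * N) → ∃ c : k, N = c • 1) :
    ∃ (g : Fin 3 → G) (i j : Fin 3 → Fin 2), IsUnit (slL (fun s => ρ (g s)) i j).det := by
  classical
  let 𝔖 : Set (Fin 3 → k) :=
    {w | ∃ (g : G) (a b : Fin 2), w = fun t => (slE k t * ρ g - ρ g * slE k t) a b}
  have hspan : Submodule.span k 𝔖 = ⊤ := by
    by_contra hne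
    obtain ⟨f, hf0, hf⟩ := Submodule.exists_le_ker_of_lt_top _ (lt_top_iff_ne_top.mpr hne)
    let v : Fin 3 → k := fun t => f (Pi.single t 1)
    have hfv : ∀ w : Fin 3 → k, f w = ∑ t, w t * v t := by
      intro w
      conv_lhs => rw [← Finset.univ_sum_single w]
      rw [map_sum]
      refine Finset.sum_congr rfl fun t _ => ?_
      have : (Pi.single t (w t) : Fin 3 → k) = w t • Pi.single t 1 := by
        rw [← Pi.single_smul, smul_eq_mul, mul_one]
      rw [this, map_smul, smul_eq_mul]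
    let N : Matrix (Fin 2) (Fin 2) k := !![0, v 0; v 1, v 2]
    have hN : ∀ g, N * ρ g = ρ g * N := by
      intro g
      rw [← sub_eq_zero]
      ext a b
      have hw : (fun t => (slE k t * ρ g - ρ g * slE k t) a b) ∈ 𝔖 := ⟨g, a, b, rfl⟩
      have h1 := hf (Submodule.subset_span hw)
      rw [LinearMap.mem_ker, hfv, Fin.sum_univ_three] at h1
      rw [Matrix.zero_apply, ← h1]
      simp only [Matrix.sub_apply, Matrix.mul_apply, Fin.sum_univ_two]
      fin_cases a <;> fin_cases b <;> simp [N, slE] <;> ring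
    obtain ⟨c, hc⟩ := hSchur N hN
    have h00 : c = 0 := by
      have := congrFun (congrFun hc 0) 0
      simpa [N] using this.symm
    rw [h00, zero_smul] at hc
    have hv : v = 0 := by
      funext t
      have h01 := congrFun (congrFun hc 0) 1
      have h10 := congrFun (congrFun hc 1) 0
      have h11 := congrFun (congrFun hc 1) 1
      fin_cases t
      · simpa [N] using h01
      · simpa [N] using h10
      · simpa [N] using h11
    apply hf0
    refine LinearMap.ext fun w => ?_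
    rw [hfv, hv]
    simp
  obtain ⟨f, hf𝔖, -, hli⟩ := Submodule.exists_fun_fin_finrank_span_eq k 𝔖
  have h3 : Module.finrank k (Submodule.span k 𝔖) = 3 := by
    rw [hspan, finrank_top]
    simp
  let w : Fin 3 → (Fin 3 → k) := f ∘ Fin.cast h3.symm
  have hw𝔖 : ∀ s, w s ∈ 𝔖 := fun s => hf𝔖 _
  have hwli : LinearIndependent k w := hli.comp _ (Fin.cast_injective _)
  choose g i j hgij using hw𝔖
  refine ⟨g, i, j, ?_⟩
  have hmat : slL (fun s => ρ (g s)) i j = Matrix.of w := by
    ext s t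
    rw [Matrix.of_apply, hgij s]
    rfl
  rw [hmat, ← Matrix.isUnit_iff_isUnit_det]
  exact Matrix.linearIndependent_rows_iff_isUnit.mp hwli

end Choice

section Map

variable {A B : Type*} [CommRing A] [CommRing B]

theorem slE_map (f : A →+* B) (t : Fin 3) : (slE A t).map f = slE B t := by
  ext a b
  fin_cases t <;> fin_cases a <;> fin_cases b <;> simp [slE]

theorem slL_map (f : A →+* B) (X : Fin 3 → Matrix (Fin 2) (Fin 2) A) (i j : Fin 3 → Fin 2) :
    slL (fun s => (X s).map f) i j = (slL X i j).map f := by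
  ext s t
  simp only [slL, Matrix.of_apply, Matrix.map_apply, Matrix.sub_apply, map_sub]
  rw [← slE_map f t, ← Matrix.map_mul, ← Matrix.map_mul, Matrix.map_apply, Matrix.map_apply]

theorem isUnit_det_slL_map (f : A →+* B) (X : Fin 3 → Matrix (Fin 2) (Fin 2) A)
    (i j : Fin 3 → Fin 2) (h : IsUnit (slL X i j).det) :
    IsUnit (slL (fun s => (X s).map f) i j).det := by
  rw [slL_map, ← RingHom.mapMatrix_apply, ← RingHom.map_det]
  exact h.map f

end Map

/-- Slice data: three group elements, three matrix positions and lifts of the three residual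
matrices to `𝒪` such that the linearised slice matrix is invertible. -/
structure SliceData (𝒪 : Type*) [CommRing 𝒪] (G : Type*) where
  g : Fin 3 → G
  i : Fin 3 → Fin 2
  j : Fin 3 → Fin 2
  X : Fin 3 → Matrix (Fin 2) (Fin 2) 𝒪
  isUnit_det : IsUnit (slL X i j).det

namespace SliceData

variable {𝒪 : Type*} [CommRing 𝒪] {G : Type*} (σ : SliceData 𝒪 G)

/-- A matrix-valued function on `G` is normalized if its three slice coordinates are the
prescribed constants from `𝒪`. -/
def IsNormalized {A : Type*} [CommRing A] [Algebra 𝒪 A] (r : G → Matrix (Fin 2) (Fin 2) A) :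
    Prop :=
  ∀ s, r (σ.g s) (σ.i s) (σ.j s) = algebraMap 𝒪 A (σ.X s (σ.i s) (σ.j s))

theorem IsNormalized.comp {A B : Type*} [CommRing A] [Algebra 𝒪 A] [CommRing B] [Algebra 𝒪 B]
    (φ : A →ₐ[𝒪] B) {r : G → Matrix (Fin 2) (Fin 2) A} (h : σ.IsNormalized r) :
    σ.IsNormalized (fun g => (r g).map φ) := by
  intro s
  show (r (σ.g s)).map φ (σ.i s) (σ.j s) = _
  rw [Matrix.map_apply, h s, AlgHom.commutes]

theorem IsNormalized.of_comp {A B : Type*} [CommRing A] [Algebra 𝒪 A] [CommRing B] [Algebra 𝒪 B]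
    (φ : A →ₐ[𝒪] B) (hφ : Function.Injective φ) {r : G → Matrix (Fin 2) (Fin 2) A}
    (h : σ.IsNormalized (fun g => (r g).map φ)) : σ.IsNormalized r := by
  intro s
  apply hφ
  have : (r (σ.g s)).map φ (σ.i s) (σ.j s) = _ := h s
  rw [Matrix.map_apply] at this
  rw [this, AlgHom.commutes]

variable {A : Type*} [CommRing A] [Algebra 𝒪 A]

/-- **Existence of a normalizing conjugation.** -/
theorem exists_normalizing (I : Ideal A) [IsAdicComplete I A] (r : G → Matrix (Fin 2) (Fin 2) A)
    (hr : ∀ s, MatMem I (r (σ.g s) - (σ.X s).map (algebraMap 𝒪 A))) :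
    ∃ M : Matrix (Fin 2) (Fin 2) A, MatMem I (M - 1) ∧ IsUnit M.det ∧
      σ.IsNormalized (fun g => M * r g * M⁻¹) := by
  obtain ⟨T, hT, h⟩ := slice_exists I (fun s => (σ.X s).map (algebraMap 𝒪 A))
    (fun s => r (σ.g s)) hr σ.i σ.j (isUnit_det_slL_map _ _ _ _ σ.isUnit_det)
  exact ⟨slM T, slM_sub_one_mem hT, isUnit_det_slM (IsAdicComplete.le_jacobson_bot I) hT,
    fun s => by
      show (slM T * r (σ.g s) * (slM T)⁻¹) (σ.i s) (σ.j s) = _
      rw [h s, Matrix.map_apply]⟩

/-- An element congruent to a unit modulo an ideal contained in the Jacobson radical is a unit. -/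
theorem isUnit_of_sub_mem {I : Ideal A} (hI : I ≤ Ideal.jacobson ⊥) {x u : A} (hu : IsUnit u)
    (h : x - u ∈ I) : IsUnit x := by
  obtain ⟨u, rfl⟩ := hu
  have h1 : (x - (u : A)) * (↑u⁻¹ : A) ∈ Ideal.jacobson (⊥ : Ideal A) :=
    hI (I.mul_mem_right _ h)
  have h2 := Ideal.mem_jacobson_bot.mp h1 1
  have h3 : (x - (u : A)) * (↑u⁻¹ : A) * 1 + 1 = x * (↑u⁻¹ : A) := by
    have : (u : A) * (↑u⁻¹ : A) = 1 := u.mul_inv
    linear_combination (-1 : A) * this
  rw [h3] at h2
  exact isUnit_of_mul_isUnit_left h2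

/-- **Rigidity, scalar case.** Two normalized lifts which are conjugate by a matrix that is a
unit scalar modulo `I` are equal. -/
theorem eq_of_conj_of_scalar (I : Ideal A) [IsHausdorff I A] (hI : I ≤ Ideal.jacobson ⊥)
    (r r' : G → Matrix (Fin 2) (Fin 2) A)
    (hr : ∀ s, MatMem I (r (σ.g s) - (σ.X s).map (algebraMap 𝒪 A)))
    (hn : σ.IsNormalized r) (hn' : σ.IsNormalized r')
    (M : Matrix (Fin 2) (Fin 2) A) (u : A) (hu : IsUnit u) (hM : MatMem I (M - u • 1))
    (hconj : ∀ g, M * r g = r' g * M) : r = r' := by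
  -- rescale so that the (0,0) entry becomes one
  have h00 : M 0 0 - u ∈ I := by simpa using hM 0 0
  obtain ⟨v, hv⟩ := isUnit_of_sub_mem hI hu h00
  let T : Fin 3 → A := ![(↑v⁻¹ : A) * M 0 1, (↑v⁻¹ : A) * M 1 0, (↑v⁻¹ : A) * M 1 1 - 1]
  have hvv : (↑v⁻¹ : A) * M 0 0 = 1 := by rw [← hv]; exact v.inv_mul
  have hMT : (↑v⁻¹ : A) • M = slM T := by
    ext a b
    fin_cases a <;> fin_cases b <;> simp [slM, T, hvv]
  have hT : ∀ t, T t ∈ I := by
    have h01 : M 0 1 ∈ I := by simpa using hM 0 1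
    have h10 : M 1 0 ∈ I := by simpa using hM 1 0
    have h11 : M 1 1 - u ∈ I := by simpa using hM 1 1
    intro t
    fin_cases t
    · exact I.mul_mem_left _ h01
    · exact I.mul_mem_left _ h10
    · have : (↑v⁻¹ : A) * M 1 1 - 1 = (↑v⁻¹ : A) * ((M 1 1 - u) - (M 0 0 - u)) := by
        linear_combination hvv
      show (↑v⁻¹ : A) * M 1 1 - 1 ∈ I
      rw [this]
      exact I.mul_mem_left _ (I.sub_mem h11 h00)
  have hdet := isUnit_det_slM hI hT
  have hconj' : ∀ g, slM T * r g * (slM T)⁻¹ = r' g := by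
    intro g
    have : slM T * r g = r' g * slM T := by
      rw [← hMT, Matrix.smul_mul, hconj g, Matrix.mul_smul]
    rw [this, mul_assoc, Matrix.mul_nonsing_inv _ hdet, mul_one]
  have hT0 : T = 0 := slice_unique I hI (fun s => (σ.X s).map (algebraMap 𝒪 A))
    (fun s => r (σ.g s)) hr σ.i σ.j (isUnit_det_slL_map _ _ _ _ σ.isUnit_det) T hT
    (fun s => by rw [hn s, Matrix.map_apply])
    (fun s => by rw [hconj' (σ.g s), hn' s, Matrix.map_apply])
  funext g
  rw [← hconj' g, hT0, slM_zero]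
  simp

/-- An intertwiner between two lifts is a unit scalar modulo `I` (this is where the invertibility
of the linearised slice matrix replaces Schur's lemma over `A ⧸ I`). -/
theorem exists_scalar_of_conj (I : Ideal A) (hI : I ≤ Ideal.jacobson ⊥)
    (r r' : G → Matrix (Fin 2) (Fin 2) A)
    (hr : ∀ s, MatMem I (r (σ.g s) - (σ.X s).map (algebraMap 𝒪 A)))
    (hr' : ∀ s, MatMem I (r' (σ.g s) - (σ.X s).map (algebraMap 𝒪 A)))
    (M : Matrix (Fin 2) (Fin 2) A) (hdet : IsUnit M.det)
    (hconj : ∀ s, M * r (σ.g s) = r' (σ.g s) * M) :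
    IsUnit (M 0 0) ∧ MatMem I (M - M 0 0 • 1) := by
  let Xt : Fin 3 → Matrix (Fin 2) (Fin 2) A := fun s => (σ.X s).map (algebraMap 𝒪 A)
  have hcomm : ∀ s, MatMem I (M * Xt s - Xt s * M) := by
    intro s
    have h : M * Xt s - Xt s * M =
        (r' (σ.g s) - Xt s) * M - M * (r (σ.g s) - Xt s) := by
      rw [sub_mul, mul_sub, hconj s]; abel
    rw [h]
    exact ((hr' s).mul_right _).sub ((hr s).mul_left _)
  let t : Fin 3 → A := ![M 0 1, M 1 0, M 1 1 - M 0 0]
  have hMt : M - M 0 0 • 1 = slM t - slM 0 := by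
    ext a b
    fin_cases a <;> fin_cases b <;> simp [slM, t]
  have ht : ∀ a, t a ∈ I := by
    have hL : IsUnit (slL Xt σ.i σ.j).det := isUnit_det_slL_map _ _ _ _ σ.isUnit_det
    have h0 : ∀ a, (t - 0) a ∈ I := by
      refine mem_ideal_of_mulVec_mem I _ hL (t - 0) fun s => ?_
      rw [slL_mulVec, ← hMt]
      have h2 : (M - M 0 0 • (1 : Matrix (Fin 2) (Fin 2) A)) * Xt s -
          Xt s * (M - M 0 0 • (1 : Matrix (Fin 2) (Fin 2) A)) = M * Xt s - Xt s * M := by
        rw [sub_mul, mul_sub, Matrix.smul_mul, Matrix.mul_smul, one_mul, mul_one]; abel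
      rw [h2]
      exact hcomm s _ _
    simpa using h0
  have hmem : MatMem I (M - M 0 0 • 1) := by
    rw [hMt]
    exact slM_sub_mem (fun a => by simpa using ht a)
  refine ⟨?_, hmem⟩
  -- `det M ≡ (M 0 0)^2 mod I`
  have h2 : M 0 0 * M 0 0 - M.det ∈ I := by
    have e : M 0 0 * M 0 0 - M.det = M 0 1 * M 1 0 - M 0 0 * (M 1 1 - M 0 0) := by
      rw [Matrix.det_fin_two]; ring
    rw [e]
    exact I.sub_mem (I.mul_mem_right _ (ht 0)) (I.mul_mem_left _ (ht 2))
  exact isUnit_of_mul_isUnit_left (isUnit_of_sub_mem hI hdet h2)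

/-- **Rigidity.** Over an `I`-adically Hausdorff ring with `I` in the Jacobson radical, two
normalized lifts which are conjugate by an invertible matrix are equal. -/
theorem eq_of_conj (I : Ideal A) [IsHausdorff I A] (hI : I ≤ Ideal.jacobson ⊥)
    (r r' : G → Matrix (Fin 2) (Fin 2) A)
    (hr : ∀ s, MatMem I (r (σ.g s) - (σ.X s).map (algebraMap 𝒪 A)))
    (hr' : ∀ s, MatMem I (r' (σ.g s) - (σ.X s).map (algebraMap 𝒪 A)))
    (hn : σ.IsNormalized r) (hn' : σ.IsNormalized r')
    (M : Matrix (Fin 2) (Fin 2) A) (hdet : IsUnit M.det)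
    (hconj : ∀ g, M * r g = r' g * M) : r = r' := by
  obtain ⟨hu, hM⟩ := σ.exists_scalar_of_conj I hI r r' hr hr' M hdet (fun s => hconj _)
  exact σ.eq_of_conj_of_scalar I hI r r' hr hn hn' M (M 0 0) hu hM hconj

/-- The normalization as a set of polynomials in the matrix entries. -/
def sigma : Set (MvPolynomial (G × Fin 2 × Fin 2) 𝒪) :=
  Set.range fun s : Fin 3 =>
    MvPolynomial.X (σ.g s, σ.i s, σ.j s) - MvPolynomial.C (σ.X s (σ.i s) (σ.j s))

theorem isNormalized_iff_sigma (r : G → Matrix (Fin 2) (Fin 2) A) :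
    σ.IsNormalized r ↔ ∀ f ∈ σ.sigma,
      MvPolynomial.aeval (fun x : G × Fin 2 × Fin 2 => r x.1 x.2.1 x.2.2) f = 0 := by
  simp only [sigma, Set.forall_mem_range, map_sub, MvPolynomial.aeval_X, MvPolynomial.aeval_C,
    sub_eq_zero]
  rfl

end SliceData

/-- **Existence of slice data.** Let `𝒪` be a local ring and `c : G → M₂(𝒪)` a family of
matrices whose reduction has the Schur property (commutant = scalars).  Then there are slice
data whose three matrices are values of `c`. -/
theorem exists_sliceData {𝒪 : Type*} [CommRing 𝒪] [IsLocalRing 𝒪] {G : Type*}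
    (c : G → Matrix (Fin 2) (Fin 2) 𝒪)
    (hSchur : ∀ N : Matrix (Fin 2) (Fin 2) (IsLocalRing.ResidueField 𝒪),
      (∀ g, N * (c g).map (IsLocalRing.residue 𝒪) = (c g).map (IsLocalRing.residue 𝒪) * N) →
        ∃ a : IsLocalRing.ResidueField 𝒪, N = a • 1) :
    ∃ σ : SliceData 𝒪 G, ∀ s, σ.X s = c (σ.g s) := by
  obtain ⟨g, i, j, h⟩ := exists_slice (fun g => (c g).map (IsLocalRing.residue 𝒪)) hSchur
  refine ⟨⟨g, i, j, fun s => c (g s), ?_⟩, fun s => rfl⟩
  rw [slL_map, ← RingHom.mapMatrix_apply, ← RingHom.map_det] at h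
  exact (IsLocalRing.residue_ne_zero_iff_isUnit _).mp h.ne_zero

end Fermat.Agent.S53.helper1373
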