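/-
S53, SLICE: proof of the captain's `Stmt_Slice` (helper53_Spec) from the 3-slot rigidity of
`helper1373_Rigidity` and Schur's lemma of `helper3173_Burnside`.
-/
import Fermat.Agent.S53.helper53_Spec
import Fermat.Agent.S53.helper3173_Burnside
import Fermat.Agent.S53.helper1373_Rigidity

set_option autoImplicit false

namespace Fermat.Agent.S53.helper1373

open IsLocalRing Fermat.Agent.S53.helper53

section

variable {𝒪 : Type} [CommRing 𝒪] [IsLocalRing 𝒪]

/-- If `c` lifts `rbar` entrywise, a strict lift of `rbar` is entrywise congruent to `c`. -/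
theorem matMem_of_isStrictLift (rbar : Gal →* M2 (ResidueField 𝒪)) (c : Gal → M2 𝒪)
    (hc : ∀ σ i j, residue 𝒪 (c σ i j) = rbar σ i j)
    {A : Type} [CommRing A] [IsLocalRing A] [Algebra 𝒪 A] [IsLocalHom (algebraMap 𝒪 A)]
    (r : Gal → M2 A) (hr : IsStrictLift rbar r) (σ : Gal) :
    MatMem (maximalIdeal A) (r σ - (c σ).map (algebraMap 𝒪 A)) := by
  intro i j
  obtain ⟨c', hc', hmem⟩ := hr σ i j
  have h1 : c' - c σ i j ∈ maximalIdeal 𝒪 := by
    rw [← residue_eq_zero_iff, map_sub, hc', hc, sub_self]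
  have h2 : algebraMap 𝒪 A (c' - c σ i j) ∈ maximalIdeal A :=
    map_nonunit (algebraMap 𝒪 A) _ h1
  have h3 : (r σ - (c σ).map (algebraMap 𝒪 A)) i j =
      (r σ i j - algebraMap 𝒪 A c') + algebraMap 𝒪 A (c' - c σ i j) := by
    rw [Matrix.sub_apply, Matrix.map_apply, map_sub]; ring
  rw [h3]
  exact Ideal.add_mem _ hmem h2

/-- Conversely, a function entrywise congruent to `c` is a strict lift. -/
theorem isStrictLift_of_matMem (rbar : Gal →* M2 (ResidueField 𝒪)) (c : Gal → M2 𝒪)
    (hc : ∀ σ i j, residue 𝒪 (c σ i j) = rbar σ i j)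
    {A : Type} [CommRing A] [IsLocalRing A] [Algebra 𝒪 A]
    (r : Gal → M2 A) (hr : ∀ σ, MatMem (maximalIdeal A) (r σ - (c σ).map (algebraMap 𝒪 A))) :
    IsStrictLift rbar r := by
  intro σ i j
  refine ⟨c σ i j, hc σ i j, ?_⟩
  have := hr σ i j
  rwa [Matrix.sub_apply, Matrix.map_apply] at this

end

/-- **SLICE.** The captain's `Stmt_Slice`: for an absolutely irreducible `ρbar` there are a basis
and a set of polynomial normalization conditions forming a slice. -/
theorem stmt_slice (𝒪 : Type) [CommRing 𝒪] [IsLocalRing 𝒪] : Stmt_Slice 𝒪 := by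
  intro ρbar habs
  classical
  let b : Module.Basis (Fin 2) (ResidueField 𝒪) ρbar.V :=
    Module.finBasisOfFinrankEq (ResidueField 𝒪) ρbar.V ρbar.finrank_eq
  let rbar : Gal →* M2 (ResidueField 𝒪) := matOfBasis ρbar b
  -- a set-theoretic lift of `rbar` to `𝒪`
  have hsurj : ∀ x : ResidueField 𝒪, ∃ c : 𝒪, residue 𝒪 c = x := residue_surjective
  choose lift hlift using hsurj
  let c : Gal → M2 𝒪 := fun σ => Matrix.of fun i j => lift (rbar σ i j)
  have hc : ∀ σ i j, residue 𝒪 (c σ i j) = rbar σ i j := fun σ i j => hlift _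
  have hcmap : ∀ σ, (c σ).map (residue 𝒪) = rbar σ := by
    intro σ; ext i j; exact hc σ i j
  obtain ⟨sl, hsl⟩ := exists_sliceData c (by
    intro N hN
    obtain ⟨a, ha⟩ := Fermat.Agent.S53.helper3173.commutant_scalar_matrix ρbar habs b N (by
      intro σ
      have := hN σ
      rw [hcmap σ] at this
      exact this)
    refine ⟨a, ?_⟩
    rw [ha]
    ext i j
    simp [Matrix.scalar_apply, Matrix.diagonal_apply, Matrix.one_apply])
  refine ⟨b, sl.sigma, ?_, ?_, ?_⟩
  · -- the residual matrices are normalized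
    show ∀ f ∈ sl.sigma, evalMat (𝒪 := 𝒪) (rbar : Gal → M2 (ResidueField 𝒪)) f = 0
    refine (sl.isNormalized_iff_sigma (A := ResidueField 𝒪) _).mp ?_
    intro s
    rw [hsl s, IsLocalRing.ResidueField.algebraMap_eq]
    exact (hc _ _ _).symm
  · -- existence of a normalized conjugate
    intro A _ _ _ _ _ r hr
    have hr' : ∀ s, MatMem (maximalIdeal A) (r (sl.g s) - (sl.X s).map (algebraMap 𝒪 A)) := by
      intro s
      rw [hsl s]
      exact matMem_of_isStrictLift rbar c hc r hr _
    obtain ⟨M, hM1, hMdet, hnorm⟩ := sl.exists_normalizing (maximalIdeal A) (fun g => r g) hr'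
    have hMM : M * M⁻¹ = 1 := Matrix.mul_nonsing_inv _ hMdet
    have hMM' : M⁻¹ * M = 1 := Matrix.nonsing_inv_mul _ hMdet
    let r' : Gal →* M2 A :=
      { toFun := fun g => M * r g * M⁻¹
        map_one' := by rw [map_one, mul_one, hMM]
        map_mul' := fun g h => by
          rw [map_mul]
          calc M * (r g * r h) * M⁻¹ = M * r g * (1 : M2 A) * r h * M⁻¹ := by
                rw [mul_one]; simp only [mul_assoc]
            _ = M * r g * M⁻¹ * (M * r h * M⁻¹) := by rw [← hMM']; simp only [mul_assoc] }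
    refine ⟨⟨M, M⁻¹, hMM, hMM'⟩, r', ?_, ?_, ?_⟩
    · refine isStrictLift_of_matMem rbar c hc r' fun σ => ?_
      have h1 : MatMem (maximalIdeal A) (M * r σ * M⁻¹ - (c σ).map (algebraMap 𝒪 A)) :=
        conj_sub_mem hMdet hM1 (matMem_of_isStrictLift rbar c hc r hr σ)
      exact h1
    · show ∀ f ∈ sl.sigma, evalMat (𝒪 := 𝒪) (r' : Gal → M2 A) f = 0
      exact (sl.isNormalized_iff_sigma _).mp hnorm
    · intro σ
      show M * r σ = M * r σ * M⁻¹ * M
      rw [mul_assoc (M * r σ), hMM', mul_one]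
  · -- uniqueness
    intro A _ _ _ _ _ r r' hr hr' hn hn' M hconj
    have h : (r : Gal → M2 A) = r' := by
      refine sl.eq_of_conj (maximalIdeal A) (maximalIdeal_le_jacobson ⊥) (fun g => r g)
        (fun g => r' g) ?_ ?_ ?_ ?_ (M : M2 A) ?_ hconj
      · intro s
        rw [hsl s]
        exact matMem_of_isStrictLift rbar c hc r hr _
      · intro s
        rw [hsl s]
        exact matMem_of_isStrictLift rbar c hc r' hr' _
      · exact (sl.isNormalized_iff_sigma _).mpr hn
      · exact (sl.isNormalized_iff_sigma _).mpr hn'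
      · exact (Matrix.isUnit_iff_isUnit_det _).mp M.isUnit
    exact DFunLike.coe_injective h

end Fermat.Agent.S53.helper1373
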