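/-
S53, ASM-1 of the captain blueprint (helper53_Spec): over the ring of a `ProRep` of the family,
the matrices `ι (X (σ,i,j))` form a normalized `𝒟`-lift.  helper1493.
-/
import Fermat.Agent.S53.helper1493_Asm

set_option autoImplicit false

namespace Fermat.Agent.S53.helper1493

open IsLocalRing Fermat.Agent.S53.helper53

/-- In a quotient of `Lam 𝒪`, evaluation at the tautological matrices is the quotient map. -/
theorem evalMat_taut {𝒪 : Type} [CommRing 𝒪] {J : Ideal (Lam 𝒪)} (r : Gal → M2 (Lam 𝒪 ⧸ J))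
    (h : ∀ σ i j, r σ i j = Ideal.Quotient.mk J (MvPolynomial.X (σ, i, j))) :
    evalMat (𝒪 := 𝒪) r = Ideal.Quotient.mkₐ 𝒪 J := by
  refine MvPolynomial.algHom_ext fun x => ?_
  obtain ⟨σ, i, j⟩ := x
  rw [evalMat_X, h]
  rfl

/-- If `ι : Λ → R` is dense modulo `m_R^n`, then the `n`-th power of the maximal ideal of the
local ring `Λ ⧸ ι⁻¹(m_R^n)` vanishes. -/
theorem maxPow_quot_comap_eq_bot {Λ R : Type} [CommRing Λ] [CommRing R] [IsLocalRing R]
    (ι : Λ →+* R) (n : ℕ) (hd : ∀ x : R, ∃ y : Λ, x - ι y ∈ maximalIdeal R ^ n) (hn : n ≠ 0)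
    [IsLocalRing (Λ ⧸ (maximalIdeal R ^ n).comap ι)] :
    maximalIdeal (Λ ⧸ (maximalIdeal R ^ n).comap ι) ^ n = ⊥ := by
  have h1 : maximalIdeal (Λ ⧸ (maximalIdeal R ^ n).comap ι) ≤
      ((maximalIdeal R).comap ι).map (Ideal.Quotient.mk ((maximalIdeal R ^ n).comap ι)) := by
    intro y hy
    obtain ⟨u, rfl⟩ := Ideal.Quotient.mk_surjective y
    refine Ideal.mem_map_of_mem _ ?_
    show ι u ∈ maximalIdeal R
    by_contra hu
    have hu' : IsUnit (ι u) := by
      by_contra h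
      exact hu h
    obtain ⟨w, hw⟩ := hu'.exists_right_inv
    obtain ⟨v, hv⟩ := hd w
    have hmem : u * v - 1 ∈ (maximalIdeal R ^ n).comap ι := by
      show ι (u * v - 1) ∈ maximalIdeal R ^ n
      have e : ι (u * v - 1) = -(ι u * (w - ι v)) := by
        rw [map_sub, map_mul, map_one]
        linear_combination hw
      rw [e]
      exact neg_mem (Ideal.mul_mem_left _ _ hv)
    have hone : Ideal.Quotient.mk ((maximalIdeal R ^ n).comap ι) u *
        Ideal.Quotient.mk ((maximalIdeal R ^ n).comap ι) v = 1 := by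
      rw [← map_mul, ← map_one (Ideal.Quotient.mk ((maximalIdeal R ^ n).comap ι)),
        Ideal.Quotient.eq]
      exact hmem
    exact hy (IsUnit.of_mul_eq_one _ hone)
  rw [eq_bot_iff]
  calc maximalIdeal (Λ ⧸ (maximalIdeal R ^ n).comap ι) ^ n
      ≤ (((maximalIdeal R).comap ι).map
          (Ideal.Quotient.mk ((maximalIdeal R ^ n).comap ι))) ^ n := Ideal.pow_right_mono h1 n
    _ = (((maximalIdeal R).comap ι) ^ n).map
          (Ideal.Quotient.mk ((maximalIdeal R ^ n).comap ι)) := (Ideal.map_pow _ _ _).symm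
    _ ≤ ((maximalIdeal R ^ n).comap ι).map
          (Ideal.Quotient.mk ((maximalIdeal R ^ n).comap ι)) :=
        Ideal.map_mono (Ideal.le_comap_pow ι n)
    _ = ⊥ := Ideal.map_quotient_self _

section

variable (𝒪 : Type) [CommRing 𝒪] [IsLocalRing 𝒪] (rbar : Gal →* M2 (ResidueField 𝒪))
  (Sig : Set (Lam 𝒪))
  (𝒟 : ∀ ⦃A : Type⦄ [CommRing A] [IsLocalRing A] [Algebra 𝒪 A], GaloisRepAdic A → Prop)

/-- Transport of the type condition along an equality of matrix representations. -/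
theorem type_congr {A : Type} [CommRing A] [IsLocalRing A] [Algebra 𝒪 A] {r r' : Gal →* M2 A}
    (h : r = r') (hc : MatCont r) (hc' : MatCont r') (hD : 𝒟 (ofMat r hc)) : 𝒟 (ofMat r' hc') := by
  subst h
  exact hD

/-- ASM-1 of the blueprint. -/
theorem univRep (h𝒟 : GaloisRep.IsDeformationCondition 𝒪 𝒟)
    (hMap : Stmt_MatContMap) (hBC : Stmt_DictBaseChange)
    (hNM : Stmt_NLiftMap 𝒪 rbar Sig 𝒟) (hLe : Stmt_FamLe 𝒪 rbar Sig 𝒟)
    (hUp : Stmt_FamUp 𝒪 rbar Sig 𝒟) : Stmt_UnivRep 𝒪 rbar Sig 𝒟 := by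
  intro P
  have hKmem : ∀ n : ℕ, 0 < n →
      InFamily rbar Sig 𝒟 ((maximalIdeal P.R ^ n).comap (P.ι : Lam 𝒪 →+* P.R)) :=
    fun n hn => P.comap_mem n hn
  -- an element lying in all `K n`, `n > 0`, is killed by `ι`
  have hzero : ∀ z : Lam 𝒪,
      (∀ n : ℕ, 0 < n → z ∈ (maximalIdeal P.R ^ n).comap (P.ι : Lam 𝒪 →+* P.R)) →
        P.ι z = 0 := by
    intro z hz
    refine eq_zero_of_forall_mem_pow (maximalIdeal P.R) _ fun n => ?_
    rcases Nat.eq_zero_or_pos n with rfl | hn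
    · simp
    · exact hz n hn
  -- multiplicativity
  have hone : ∀ i j : Fin 2,
      P.ι (MvPolynomial.X ((1 : Gal), i, j)) = if i = j then 1 else 0 := by
    intro i j
    have h0 := hzero (MvPolynomial.X ((1 : Gal), i, j) - if i = j then 1 else 0) fun n hn => by
      obtain ⟨hl, hT, r, hr, hNL⟩ := hKmem n hn
      rw [← Ideal.Quotient.eq_zero_iff_mem, map_sub, ← hr, map_one r, Matrix.one_apply]
      split_ifs <;> simp
    rw [map_sub, sub_eq_zero] at h0
    rw [h0]
    split_ifs <;> simp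
  have hmul : ∀ (σ τ : Gal) (i j : Fin 2), P.ι (MvPolynomial.X (σ * τ, i, j)) =
      ∑ l : Fin 2, P.ι (MvPolynomial.X (σ, i, l)) * P.ι (MvPolynomial.X (τ, l, j)) := by
    intro σ τ i j
    have h0 := hzero (MvPolynomial.X (σ * τ, i, j) -
        ∑ l : Fin 2, MvPolynomial.X (σ, i, l) * MvPolynomial.X (τ, l, j)) fun n hn => by
      obtain ⟨hl, hT, r, hr, hNL⟩ := hKmem n hn
      rw [← Ideal.Quotient.eq_zero_iff_mem, map_sub, map_sum, ← hr, map_mul r, Matrix.mul_apply,
        sub_eq_zero]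
      refine Finset.sum_congr rfl fun l _ => ?_
      rw [map_mul, ← hr, ← hr]
    rw [map_sub, sub_eq_zero, map_sum] at h0
    rw [h0]
    refine Finset.sum_congr rfl fun l _ => ?_
    rw [map_mul]
  let runiv : Gal →* M2 P.R :=
    { toFun := fun σ => Matrix.of fun i j => P.ι (MvPolynomial.X (σ, i, j))
      map_one' := by
        ext i j
        rw [Matrix.of_apply, hone, Matrix.one_apply]
      map_mul' := fun σ τ => by
        ext i j
        rw [Matrix.of_apply, hmul, Matrix.mul_apply]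
        rfl }
  have hentry : ∀ σ i j, runiv σ i j = P.ι (MvPolynomial.X (σ, i, j)) := fun σ i j => rfl
  have hev : evalMat (𝒪 := 𝒪) runiv = P.ι := by
    refine MvPolynomial.algHom_ext fun x => ?_
    obtain ⟨σ, i, j⟩ := x
    rw [evalMat_X]
    exact hentry σ i j
  -- continuity
  have hcont : MatCont runiv := by
    intro n
    rcases Nat.eq_zero_or_pos n with rfl | hn
    · refine ⟨⊥, inferInstance, fun σ _ i j => ?_⟩
      simp
    · obtain ⟨hl, hT, r, hr, hNL⟩ := hKmem n hn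
      obtain ⟨L, hL, hLσ⟩ := hNL.cont n
      refine ⟨L, hL, fun σ hσ i j => ?_⟩
      have h1 := hLσ σ hσ i j
      rw [maxPow_quot_comap_eq_bot (P.ι : Lam 𝒪 →+* P.R) n (P.ι_dense n) hn.ne', Ideal.mem_bot,
        Matrix.sub_apply, Matrix.one_apply, hr] at h1
      have h2 : MvPolynomial.X (σ, i, j) - (if i = j then (1 : Lam 𝒪) else 0) ∈
          (maximalIdeal P.R ^ n).comap (P.ι : Lam 𝒪 →+* P.R) := by
        rw [← Ideal.Quotient.eq_zero_iff_mem, map_sub, ← h1]
        split_ifs <;> simp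
      have h3 : P.ι (MvPolynomial.X (σ, i, j) - if i = j then (1 : Lam 𝒪) else 0) ∈
          maximalIdeal P.R ^ n := h2
      have e : (runiv σ - 1) i j =
          P.ι (MvPolynomial.X (σ, i, j) - if i = j then (1 : Lam 𝒪) else 0) := by
        rw [Matrix.sub_apply, Matrix.one_apply, hentry, map_sub]
        split_ifs <;> simp
      rw [e]
      exact h3
  -- strictness
  have hstrict : IsStrictLift rbar runiv := by
    intro σ i j
    obtain ⟨hl, hT, r, hr, hNL⟩ := hKmem 1 Nat.one_pos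
    obtain ⟨c, hc, hmem⟩ := hNL.strict σ i j
    refine ⟨c, hc, ?_⟩
    have h0 := (pow_one _).symm.trans
      (maxPow_quot_comap_eq_bot (P.ι : Lam 𝒪 →+* P.R) 1 (P.ι_dense 1) one_ne_zero)
    rw [h0, Ideal.mem_bot, hr] at hmem
    have h2 : MvPolynomial.X (σ, i, j) - algebraMap 𝒪 (Lam 𝒪) c ∈
        (maximalIdeal P.R ^ 1).comap (P.ι : Lam 𝒪 →+* P.R) := by
      rw [← Ideal.Quotient.eq_zero_iff_mem, map_sub]
      exact hmem
    have h3 : P.ι (MvPolynomial.X (σ, i, j) - algebraMap 𝒪 (Lam 𝒪) c) ∈ maximalIdeal P.R ^ 1 :=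
      h2
    rw [pow_one, map_sub, AlgHom.commutes] at h3
    exact h3
  -- normalization
  have hnorm : IsNormalized Sig (runiv : Gal → M2 P.R) := by
    intro f hf
    rw [hev]
    refine hzero f fun n hn => ?_
    obtain ⟨hl, hT, r, hr, hNL⟩ := hKmem n hn
    have h1 := hNL.norm f hf
    rw [evalMat_taut r hr, Ideal.Quotient.mkₐ_eq_mk, Ideal.Quotient.eq_zero_iff_mem] at h1
    exact h1
  -- type
  have htype : 𝒟 (ofMat runiv hcont) := by
    refine (h𝒟.iff_forall_surjective inferInstance P.residue_surjective (ofMat runiv hcont)).mpr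
      fun B _ _ _ hB q hq hsurj => ?_
    have hcontB : MatCont (mapMat (q : P.R →+* B) runiv) := hMap P.R B _ hq runiv hcont
    obtain ⟨e⟩ := hBC P.R B _ hq runiv hcont hcontB
    refine h𝒟.of_isEquiv hB ⟨e.symm⟩ ?_
    have := hB.isArtinian
    have := hq
    obtain ⟨n, hn0, hnker⟩ := helper533.exists_maxPow_le_ker (q : P.R →+* B)
    have hKJ : (maximalIdeal P.R ^ n).comap (P.ι : Lam 𝒪 →+* P.R) ≤
        RingHom.ker (q.comp P.ι) := by
      intro x hx
      have : P.ι x ∈ RingHom.ker (q : P.R →+* B) := hnker hx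
      exact this
    have hJaug : RingHom.ker (q.comp P.ι) ≤ augIdeal rbar := by
      refine le_trans ?_ (hLe _ (hKmem 1 Nat.one_pos))
      intro x hx
      show P.ι x ∈ maximalIdeal P.R ^ 1
      rw [pow_one]
      intro hu
      have hx0 : q (P.ι x) = 0 := hx
      have hu' : IsUnit (q (P.ι x)) := hu.map q
      rw [hx0] at hu'
      exact not_isUnit_zero hu'
    obtain ⟨hlJ, hTJ, rJ, hrJ, hNLJ⟩ :=
      hUp _ (RingHom.ker (q.comp P.ι)) (hKmem n (Nat.pos_of_ne_zero hn0)) hKJ hJaug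
    have hNLB := hNM (Lam 𝒪 ⧸ RingHom.ker (q.comp P.ι)) B hTJ hB
      (Ideal.Quotient.liftₐ (RingHom.ker (q.comp P.ι)) (q.comp P.ι) fun a ha => ha) rJ hNLJ
    refine type_congr 𝒪 𝒟 ?_ hNLB.cont hcontB hNLB.type
    refine MonoidHom.ext fun σ => ?_
    ext i j
    rw [mapMat_apply, mapMat_apply, hrJ, hentry]
    rfl
  exact ⟨runiv, hentry, hcont, hstrict, hnorm, htype⟩

end

end Fermat.Agent.S53.helper1493
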