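/-
S53, blueprint pieces TAN-1 and TAN-2 (captain spec `helper53_Spec`), helper1553.

* `exists_algHom_dualNumber_ne_zero`: a local `𝒪`-algebra `A` with residue field `k`,
  `m_A ^ 2 = 0` and `m_𝒪 A = 0` is separated by its `𝒪`-algebra maps to the dual numbers `k[ε]`.
* `famTan`  : `Stmt_TanFinite → Stmt_NLiftMap → Stmt_FamLe → Stmt_FamTan`.
* `tanFinite` : `TangentFinite → IsSlice → Stmt_DictEquiv → Stmt_DictResidual → Stmt_TanFinite`.
-/
import Fermat.Agent.S53.helper53_Spec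
import Fermat.Agent.S53.helper533_TestAlg

set_option autoImplicit false
set_option linter.style.haveILetI false
set_option linter.unusedSectionVars false

namespace Fermat.Agent.S53.helper1553

open IsLocalRing Fermat.Agent.S53.helper53

section Separation

variable {𝒪 : Type} [CommRing 𝒪] [IsLocalRing 𝒪]
variable {A : Type} [CommRing A] [IsLocalRing A] [Algebra 𝒪 A]

/-- The residue field of `A` is identified with that of `𝒪`. -/
noncomputable def resEquiv [IsLocalHom (algebraMap 𝒪 A)]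
    (hres : ∀ a : A, ∃ c : 𝒪, a - algebraMap 𝒪 A c ∈ maximalIdeal A) :
    ResidueField 𝒪 ≃+* ResidueField A :=
  RingEquiv.ofBijective (ResidueField.map (algebraMap 𝒪 A))
    ⟨(ResidueField.map (algebraMap 𝒪 A)).injective, fun y => by
      obtain ⟨a, rfl⟩ := residue_surjective y
      obtain ⟨c, hc⟩ := hres a
      refine ⟨residue 𝒪 c, ?_⟩
      rw [ResidueField.map_residue]
      rw [← residue_eq_zero_iff, map_sub, sub_eq_zero] at hc
      exact hc.symm⟩

/-- The augmentation `A → k`. -/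
noncomputable def aug [IsLocalHom (algebraMap 𝒪 A)]
    (hres : ∀ a : A, ∃ c : 𝒪, a - algebraMap 𝒪 A c ∈ maximalIdeal A) : A →+* ResidueField 𝒪 :=
  ((resEquiv hres).symm : ResidueField A →+* ResidueField 𝒪).comp (residue A)

theorem aug_algebraMap [IsLocalHom (algebraMap 𝒪 A)]
    (hres : ∀ a : A, ∃ c : 𝒪, a - algebraMap 𝒪 A c ∈ maximalIdeal A) (c : 𝒪) :
    aug hres (algebraMap 𝒪 A c) = residue 𝒪 c := by
  unfold aug
  rw [RingHom.comp_apply, RingHom.coe_coe, RingEquiv.symm_apply_eq]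
  show residue A (algebraMap 𝒪 A c) = ResidueField.map (algebraMap 𝒪 A) (residue 𝒪 c)
  rw [ResidueField.map_residue]

/-- The section `k → A` when `m_𝒪` dies in `A`. -/
noncomputable def sec (hπ : ∀ c ∈ maximalIdeal 𝒪, algebraMap 𝒪 A c = 0) : ResidueField 𝒪 →+* A :=
  Ideal.Quotient.lift (maximalIdeal 𝒪) (algebraMap 𝒪 A) hπ

theorem sec_residue (hπ : ∀ c ∈ maximalIdeal 𝒪, algebraMap 𝒪 A c = 0) (c : 𝒪) :
    sec hπ (residue 𝒪 c) = algebraMap 𝒪 A c :=
  Ideal.Quotient.lift_mk _ _ _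

theorem aug_sec [IsLocalHom (algebraMap 𝒪 A)]
    (hres : ∀ a : A, ∃ c : 𝒪, a - algebraMap 𝒪 A c ∈ maximalIdeal A)
    (hπ : ∀ c ∈ maximalIdeal 𝒪, algebraMap 𝒪 A c = 0) (x : ResidueField 𝒪) :
    aug hres (sec hπ x) = x := by
  obtain ⟨c, rfl⟩ := residue_surjective x
  rw [sec_residue, aug_algebraMap]

theorem sub_sec_aug_mem [IsLocalHom (algebraMap 𝒪 A)]
    (hres : ∀ a : A, ∃ c : 𝒪, a - algebraMap 𝒪 A c ∈ maximalIdeal A)
    (hπ : ∀ c ∈ maximalIdeal 𝒪, algebraMap 𝒪 A c = 0) (a : A) :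
    a - sec hπ (aug hres a) ∈ maximalIdeal A := by
  obtain ⟨c, hc⟩ := hres a
  have h1 : aug hres a = residue 𝒪 c := by
    rw [← aug_algebraMap hres c]
    unfold aug
    rw [RingHom.comp_apply, RingHom.comp_apply]
    congr 1
    rw [← sub_eq_zero, ← map_sub, residue_eq_zero_iff]
    exact hc
  rw [h1, sec_residue]
  exact hc

/-- **Separation by dual numbers.** A local `𝒪`-algebra `A` with residue field `k`, square-zero
maximal ideal and `m_𝒪 A = 0` is separated by its `𝒪`-algebra maps to `k[ε]`. -/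
theorem exists_algHom_dualNumber_ne_zero [IsLocalHom (algebraMap 𝒪 A)]
    (hres : ∀ a : A, ∃ c : 𝒪, a - algebraMap 𝒪 A c ∈ maximalIdeal A)
    (hsq : ∀ x ∈ maximalIdeal A, ∀ y ∈ maximalIdeal A, x * y = 0)
    (hπ : ∀ c ∈ maximalIdeal 𝒪, algebraMap 𝒪 A c = 0) (y : A) (hy : y ≠ 0) :
    letI := dualAlg 𝒪
    ∃ θ : A →ₐ[𝒪] DualNumber (ResidueField 𝒪), θ y ≠ 0 := by
  letI := dualAlg 𝒪
  letI algk : Algebra (ResidueField 𝒪) A := (sec hπ).toAlgebra
  obtain ⟨lam, hlam⟩ := Module.Projective.exists_dual_ne_zero (ResidueField 𝒪) hy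
  have hlin : ∀ (c : ResidueField 𝒪) (x : A), lam (sec hπ c * x) = c * lam x := by
    intro c x
    have h : sec hπ c * x = c • x := (Algebra.smul_def c x).symm
    rw [h, map_smul, smul_eq_mul]
  have hs_mem : ∀ a, a - sec hπ (aug hres a) ∈ maximalIdeal A := sub_sec_aug_mem hres hπ
  have hs_mul : ∀ a b, a * b - sec hπ (aug hres (a * b)) =
      sec hπ (aug hres a) * (b - sec hπ (aug hres b)) +
        sec hπ (aug hres b) * (a - sec hπ (aug hres a)) := by
    intro a b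
    have h0 := hsq _ (hs_mem a) _ (hs_mem b)
    rw [map_mul, map_mul]
    linear_combination h0
  refine ⟨{ toFun := fun a => TrivSqZeroExt.inl (aug hres a) +
                TrivSqZeroExt.inr (lam (a - sec hπ (aug hres a)))
            map_one' := ?_, map_mul' := ?_, map_zero' := ?_, map_add' := ?_, commutes' := ?_ }, ?_⟩
  · simp
  · intro a b
    apply TrivSqZeroExt.ext
    · simp
    · simp only [TrivSqZeroExt.snd_add, TrivSqZeroExt.snd_inl, TrivSqZeroExt.snd_inr, zero_add,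
        TrivSqZeroExt.snd_mul, TrivSqZeroExt.fst_add, TrivSqZeroExt.fst_inl,
        TrivSqZeroExt.fst_inr, add_zero, smul_eq_mul, MulOpposite.smul_eq_mul_unop,
        MulOpposite.unop_op]
      rw [hs_mul a b, map_add, hlin, hlin]
      ring
  · simp
  · intro a b
    apply TrivSqZeroExt.ext
    · simp
    · simp only [TrivSqZeroExt.snd_add, TrivSqZeroExt.snd_inl, TrivSqZeroExt.snd_inr, zero_add]
      rw [← map_add]
      congr 1
      rw [map_add, map_add]
      ring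
  · intro c
    show TrivSqZeroExt.inl (aug hres (algebraMap 𝒪 A c)) +
        TrivSqZeroExt.inr (lam (algebraMap 𝒪 A c - sec hπ (aug hres (algebraMap 𝒪 A c)))) =
      TrivSqZeroExt.inl (residue 𝒪 c)
    rw [aug_algebraMap, sec_residue, sub_self, map_zero, TrivSqZeroExt.inr_zero, add_zero]
  · show TrivSqZeroExt.inl (aug hres y) +
        TrivSqZeroExt.inr (lam (y - sec hπ (aug hres y))) ≠ 0
    intro h0
    have h1 := congrArg TrivSqZeroExt.fst h0
    have h2 := congrArg TrivSqZeroExt.snd h0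
    simp only [TrivSqZeroExt.fst_add, TrivSqZeroExt.fst_inl, TrivSqZeroExt.fst_inr, add_zero,
      TrivSqZeroExt.fst_zero] at h1
    simp only [TrivSqZeroExt.snd_add, TrivSqZeroExt.snd_inl, TrivSqZeroExt.snd_inr, zero_add,
      TrivSqZeroExt.snd_zero] at h2
    rw [h1, map_zero, sub_zero] at h2
    exact hlam h2

end Separation

section FamTan

variable (𝒪 : Type) [CommRing 𝒪] [IsLocalRing 𝒪]
  (rbar : Gal →* M2 (ResidueField 𝒪)) (Sig : Set (Lam 𝒪))
  (𝒟 : ∀ ⦃A : Type⦄ [CommRing A] [IsLocalRing A] [Algebra 𝒪 A], GaloisRepAdic A → Prop)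

theorem evalMat_rbar_surjective :
    Function.Surjective (evalMat (𝒪 := 𝒪) (A := ResidueField 𝒪) rbar) := by
  intro x
  obtain ⟨c, rfl⟩ := residue_surjective x
  refine ⟨MvPolynomial.C c, ?_⟩
  simp [evalMat]

theorem augIdeal_isMaximal : (augIdeal rbar).IsMaximal :=
  RingHom.ker_isMaximal_of_surjective _ (evalMat_rbar_surjective 𝒪 rbar)

/-- TAN-2 of the captain's blueprint. -/
theorem famTan [Finite (ResidueField 𝒪)] (h1 : Stmt_TanFinite 𝒪 rbar Sig 𝒟)
    (h2 : Stmt_NLiftMap 𝒪 rbar Sig 𝒟) (h3 : Stmt_FamLe 𝒪 rbar Sig 𝒟) :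
    Stmt_FamTan 𝒪 rbar Sig 𝒟 := by
  letI := dualAlg 𝒪
  haveI hfinT : Finite {r : Gal →* M2 (DualNumber (ResidueField 𝒪)) // IsNLift rbar Sig 𝒟 r} := h1
  haveI : Finite (DualNumber (ResidueField 𝒪)) :=
    inferInstanceAs (Finite (ResidueField 𝒪 × ResidueField 𝒪))
  refine ⟨Nat.card (DualNumber (ResidueField 𝒪)) ^
    Nat.card {r : Gal →* M2 (DualNumber (ResidueField 𝒪)) // IsNLift rbar Sig 𝒟 r}, ?_⟩
  intro J hJ hsq hπ
  have hJle := h3 J hJ
  obtain ⟨hloc, hT, r, hr, hN⟩ := hJ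
  haveI := hloc
  haveI := hT.isLocalHom
  have hmax : maximalIdeal (Lam 𝒪 ⧸ J) = (augIdeal rbar).map (Ideal.Quotient.mk J) := by
    haveI := augIdeal_isMaximal 𝒪 rbar
    have : ((augIdeal rbar).map (Ideal.Quotient.mk J)).IsMaximal :=
      Ideal.IsMaximal.map_of_surjective_of_ker_le Ideal.Quotient.mk_surjective
        (by rwa [Ideal.mk_ker])
    exact (IsLocalRing.eq_maximalIdeal this).symm
  have hres : ∀ a : Lam 𝒪 ⧸ J, ∃ c : 𝒪, a - algebraMap 𝒪 _ c ∈ maximalIdeal (Lam 𝒪 ⧸ J) :=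
    helper533.exists_sub_algebraMap_mem_maximalIdeal 𝒪 hT.residue_surjective
  have hsq' : ∀ x ∈ maximalIdeal (Lam 𝒪 ⧸ J), ∀ y ∈ maximalIdeal (Lam 𝒪 ⧸ J), x * y = 0 := by
    intro x hx y hy
    rw [hmax] at hx hy
    obtain ⟨p, hp, rfl⟩ := (Ideal.mem_map_iff_of_surjective _ Ideal.Quotient.mk_surjective).mp hx
    obtain ⟨q, hq, rfl⟩ := (Ideal.mem_map_iff_of_surjective _ Ideal.Quotient.mk_surjective).mp hy
    rw [← map_mul, Ideal.Quotient.eq_zero_iff_mem]
    exact hsq (by rw [sq]; exact Ideal.mul_mem_mul hp hq)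
  have hπ' : ∀ c ∈ maximalIdeal 𝒪, algebraMap 𝒪 (Lam 𝒪 ⧸ J) c = 0 := by
    intro c hc
    have : algebraMap 𝒪 (Lam 𝒪 ⧸ J) c = Ideal.Quotient.mk J (algebraMap 𝒪 (Lam 𝒪) c) := rfl
    rw [this, Ideal.Quotient.eq_zero_iff_mem]
    exact hπ c hc
  have hD : GaloisRep.IsArtinianTestAlgebra 𝒪 (DualNumber (ResidueField 𝒪)) :=
    helper533.dualNumber_testAlg 𝒪
  let Φ : ((Lam 𝒪 ⧸ J) →ₐ[𝒪] DualNumber (ResidueField 𝒪)) →
      {r : Gal →* M2 (DualNumber (ResidueField 𝒪)) // IsNLift rbar Sig 𝒟 r} :=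
    fun θ => ⟨mapMat (θ : (Lam 𝒪 ⧸ J) →+* DualNumber (ResidueField 𝒪)) r,
      h2 _ _ hT hD θ r hN⟩
  have hΦ : Function.Injective Φ := by
    intro θ θ' h
    have h' : mapMat (θ : (Lam 𝒪 ⧸ J) →+* DualNumber (ResidueField 𝒪)) r =
        mapMat (θ' : (Lam 𝒪 ⧸ J) →+* DualNumber (ResidueField 𝒪)) r := congrArg Subtype.val h
    apply Ideal.Quotient.algHom_ext
    apply MvPolynomial.algHom_ext
    rintro ⟨σ, i, j⟩
    have := congrFun (congrFun (DFunLike.congr_fun h' σ) i) j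
    simp only [mapMat_apply, hr] at this
    exact this
  haveI : Finite ((Lam 𝒪 ⧸ J) →ₐ[𝒪] DualNumber (ResidueField 𝒪)) := Finite.of_injective Φ hΦ
  have hcardH := Nat.card_le_card_of_injective Φ hΦ
  let Ψ : (Lam 𝒪 ⧸ J) →
      (((Lam 𝒪 ⧸ J) →ₐ[𝒪] DualNumber (ResidueField 𝒪)) → DualNumber (ResidueField 𝒪)) :=
    fun a θ => θ a
  have hΨ : Function.Injective Ψ := by
    intro a a' h
    by_contra hne
    obtain ⟨θ, hθ⟩ := exists_algHom_dualNumber_ne_zero hres hsq' hπ' (a - a')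
      (sub_ne_zero.mpr hne)
    apply hθ
    rw [map_sub, sub_eq_zero]
    exact congrFun h θ
  calc Nat.card (Lam 𝒪 ⧸ J)
      ≤ Nat.card (((Lam 𝒪 ⧸ J) →ₐ[𝒪] DualNumber (ResidueField 𝒪)) →
          DualNumber (ResidueField 𝒪)) := Nat.card_le_card_of_injective Ψ hΨ
    _ = Nat.card (DualNumber (ResidueField 𝒪)) ^
          Nat.card ((Lam 𝒪 ⧸ J) →ₐ[𝒪] DualNumber (ResidueField 𝒪)) := Nat.card_fun
    _ ≤ _ := Nat.pow_le_pow_right Nat.card_pos hcardH

end FamTan

section TanFinite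

variable (𝒪 : Type) [CommRing 𝒪] [IsLocalRing 𝒪] [Finite (ResidueField 𝒪)]

theorem isLocalHom_dualAlg :
    letI := dualAlg 𝒪
    IsLocalHom (algebraMap 𝒪 (DualNumber (ResidueField 𝒪))) := by
  letI := dualAlg 𝒪
  exact (helper533.dualNumber_testAlg 𝒪).isLocalHom

theorem residueField_map_dualAlg :
    letI := dualAlg 𝒪
    haveI := isLocalHom_dualAlg 𝒪
    ResidueField.map (algebraMap 𝒪 (DualNumber (ResidueField 𝒪))) =
      (IsLocalRing.residue (DualNumber (ResidueField 𝒪))).comp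
        (algebraMap (ResidueField 𝒪) (DualNumber (ResidueField 𝒪))) := by
  letI := dualAlg 𝒪
  haveI := isLocalHom_dualAlg 𝒪
  ext x
  obtain ⟨c, rfl⟩ := residue_surjective x
  rw [ResidueField.map_residue]
  rfl

/-- TAN-1 of the captain's blueprint. -/
theorem tanFinite (ρbar : ResidualGaloisRep (ResidueField 𝒪))
    (b : Module.Basis (Fin 2) (ResidueField 𝒪) ρbar.V) (Sig : Set (Lam 𝒪))
    (𝒟 : ∀ ⦃A : Type⦄ [CommRing A] [IsLocalRing A] [Algebra 𝒪 A], GaloisRepAdic A → Prop)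
    (hslice : IsSlice (matOfBasis ρbar b) Sig) (hE : Stmt_DictEquiv)
    (hR : Stmt_DictResidual 𝒪) (hfin : GaloisRep.TangentFinite 𝒪 ρbar 𝒟) :
    Stmt_TanFinite 𝒪 (matOfBasis ρbar b) Sig 𝒟 := by
  letI := dualAlg 𝒪
  haveI hlh : IsLocalHom (algebraMap 𝒪 (DualNumber (ResidueField 𝒪))) := isLocalHom_dualAlg 𝒪
  haveI : Finite (DualNumber (ResidueField 𝒪)) :=
    inferInstanceAs (Finite (ResidueField 𝒪 × ResidueField 𝒪))
  unfold GaloisRep.TangentFinite at hfin
  show Finite {r : Gal →* M2 (DualNumber (ResidueField 𝒪)) //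
    IsNLift (matOfBasis ρbar b) Sig 𝒟 r}
  have key : ∀ r : Gal →* M2 (DualNumber (ResidueField 𝒪)),
      IsNLift (matOfBasis ρbar b) Sig 𝒟 r → ∀ hc : MatCont r,
      (ofMat r hc).residual.IsEquiv
        (@ResidualGaloisRep.baseChange _ _ (ResidueField (DualNumber (ResidueField 𝒪))) _
          (((IsLocalRing.residue (DualNumber (ResidueField 𝒪))).comp
            (algebraMap (ResidueField 𝒪) (DualNumber (ResidueField 𝒪)))).toAlgebra) ρbar) := by
    intro r hN hc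
    have h := (hR ρbar b (DualNumber (ResidueField 𝒪)) (ofMat r hc)).mpr
      ⟨r, hc, hN.strict, ⟨GaloisRepAdic.Equiv.refl _⟩⟩
    rw [residueField_map_dualAlg] at h
    exact h
  refine @Finite.of_injective _ _ hfin
    (fun r => Quotient.mk _ ⟨ofMat r.1 r.2.cont, r.2.type, key r.1 r.2 r.2.cont⟩) ?_
  intro r r' h
  have h1 := Quotient.exact h
  obtain ⟨M, hM⟩ := (hE _ r.1 r'.1 r.2.cont r'.2.cont).mp h1
  exact Subtype.ext
    (hslice.eq_of_conj r.1 r'.1 r.2.strict r'.2.strict r.2.norm r'.2.norm M hM)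

end TanFinite

end Fermat.Agent.S53.helper1553
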