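/-
S53, tangent bound in CARDINALITY form (pure commutative algebra; no Galois representations).

If `B` is a finite `𝒪`-algebra with an ideal `m ≠ ⊤` such that `B = 𝒪·1 + m`, `m² = 0` and
`𝔪_𝒪 · B = 0`, then `#B ≤ #k · #Hom_{𝒪-alg}(B, k[ε])`, where `k[ε] = DualNumber (ResidueField 𝒪)`
carries the `𝒪`-algebra structure used in `GaloisRep.TangentFinite`
(`Fermat.Agent.S53.helper533.dualNumberAlgebra`).

This is exactly what is needed to discharge hypothesis `h_tan` of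
`Fermat.Agent.S53.helper773.Stmt_nonempty_proRep` once the `𝒪`-algebra homs `Λ ⧸ 𝔞 → k[ε]`
have been injected into the (finite) tangent set.
-/
import Mathlib
import Fermat.Agent.S53.helper533_TestAlg

set_option autoImplicit false
set_option linter.style.haveILetI false

namespace Fermat.Agent.S53.helper1853

open IsLocalRing

section sqzero

variable (𝒪 : Type) [CommRing 𝒪] [IsLocalRing 𝒪]
variable {B : Type*} [CommRing B] [Algebra 𝒪 B]

/-- Hypotheses on a "square-zero residual" `𝒪`-algebra `B` with distinguished ideal `m`. -/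
structure SqZeroData (m : Ideal B) : Prop where
  ne_top : m ≠ ⊤
  res : ∀ x : B, ∃ c : 𝒪, x - algebraMap 𝒪 B c ∈ m
  sq : ∀ x ∈ m, ∀ y ∈ m, x * y = 0
  kill : ∀ c ∈ maximalIdeal 𝒪, algebraMap 𝒪 B c = 0

variable {𝒪} {m : Ideal B}

theorem SqZeroData.residue_eq (h : SqZeroData 𝒪 m) {b : B} {c c' : 𝒪}
    (hc : b - algebraMap 𝒪 B c ∈ m) (hc' : b - algebraMap 𝒪 B c' ∈ m) :
    residue 𝒪 c = residue 𝒪 c' := by
  rw [← sub_eq_zero, ← map_sub, residue_eq_zero_iff]
  by_contra hu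
  have hu' : IsUnit (c - c') := by
    by_contra h2
    exact hu ((mem_maximalIdeal _).mpr h2)
  have hmem : algebraMap 𝒪 B (c - c') ∈ m := by
    have h3 := m.sub_mem hc' hc
    have h4 : b - algebraMap 𝒪 B c' - (b - algebraMap 𝒪 B c) = algebraMap 𝒪 B (c - c') := by
      rw [map_sub]; ring
    rwa [h4] at h3
  exact h.ne_top (Ideal.eq_top_of_isUnit_mem _ hmem (hu'.map (algebraMap 𝒪 B)))

/-- The residue map `B → k` as a function. -/
noncomputable def SqZeroData.resFun (h : SqZeroData 𝒪 m) (b : B) : ResidueField 𝒪 :=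
  residue 𝒪 (h.res b).choose

theorem SqZeroData.resFun_eq (h : SqZeroData 𝒪 m) {b : B} {c : 𝒪}
    (hc : b - algebraMap 𝒪 B c ∈ m) : h.resFun b = residue 𝒪 c :=
  h.residue_eq (h.res b).choose_spec hc

/-- The residue map `B → k` as a ring hom. -/
noncomputable def SqZeroData.resHom (h : SqZeroData 𝒪 m) : B →+* ResidueField 𝒪 where
  toFun := h.resFun
  map_one' := by
    have h1 : (1 : B) - algebraMap 𝒪 B 1 ∈ m := by simp
    rw [h.resFun_eq h1, map_one]
  map_mul' x y := by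
    obtain ⟨c, hc⟩ := h.res x
    obtain ⟨d, hd⟩ := h.res y
    have h1 : x * y - algebraMap 𝒪 B (c * d) ∈ m := by
      have h2 : x * y - algebraMap 𝒪 B (c * d) =
          x * (y - algebraMap 𝒪 B d) + (x - algebraMap 𝒪 B c) * algebraMap 𝒪 B d := by
        rw [map_mul]; ring
      rw [h2]
      exact m.add_mem (m.mul_mem_left _ hd) (m.mul_mem_right _ hc)
    rw [h.resFun_eq h1, h.resFun_eq hc, h.resFun_eq hd, map_mul]
  map_zero' := by
    have h1 : (0 : B) - algebraMap 𝒪 B 0 ∈ m := by simp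
    rw [h.resFun_eq h1, map_zero]
  map_add' x y := by
    obtain ⟨c, hc⟩ := h.res x
    obtain ⟨d, hd⟩ := h.res y
    have h1 : x + y - algebraMap 𝒪 B (c + d) ∈ m := by
      have h2 : x + y - algebraMap 𝒪 B (c + d) =
          (x - algebraMap 𝒪 B c) + (y - algebraMap 𝒪 B d) := by
        rw [map_add]; ring
      rw [h2]
      exact m.add_mem hc hd
    rw [h.resFun_eq h1, h.resFun_eq hc, h.resFun_eq hd, map_add]

theorem SqZeroData.resHom_eq (h : SqZeroData 𝒪 m) {b : B} {c : 𝒪}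
    (hc : b - algebraMap 𝒪 B c ∈ m) : h.resHom b = residue 𝒪 c :=
  h.resFun_eq hc

@[simp] theorem SqZeroData.resHom_algebraMap (h : SqZeroData 𝒪 m) (c : 𝒪) :
    h.resHom (algebraMap 𝒪 B c) = residue 𝒪 c :=
  h.resHom_eq (by simp)

theorem SqZeroData.mem_of_resHom_eq_zero (h : SqZeroData 𝒪 m) {b : B} (hb : h.resHom b = 0) :
    b ∈ m := by
  obtain ⟨c, hc⟩ := h.res b
  rw [h.resHom_eq hc, residue_eq_zero_iff] at hb
  have h0 := h.kill c hb
  rwa [h0, sub_zero] at hc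

theorem SqZeroData.resHom_eq_zero_of_mem (h : SqZeroData 𝒪 m) {b : B} (hb : b ∈ m) :
    h.resHom b = 0 := by
  have h1 : b - algebraMap 𝒪 B 0 ∈ m := by simpa using hb
  rw [h.resHom_eq h1, map_zero]

/-- The section `k → B` of the residue map (exists because `𝔪_𝒪 · B = 0`). -/
noncomputable def SqZeroData.secHom (h : SqZeroData 𝒪 m) : ResidueField 𝒪 →+* B :=
  Ideal.Quotient.lift (maximalIdeal 𝒪) (algebraMap 𝒪 B) h.kill

@[simp] theorem SqZeroData.secHom_residue (h : SqZeroData 𝒪 m) (c : 𝒪) :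
    h.secHom (residue 𝒪 c) = algebraMap 𝒪 B c :=
  Ideal.Quotient.lift_mk _ _ _

@[simp] theorem SqZeroData.resHom_secHom (h : SqZeroData 𝒪 m) (a : ResidueField 𝒪) :
    h.resHom (h.secHom a) = a := by
  obtain ⟨c, rfl⟩ := residue_surjective a
  rw [h.secHom_residue, h.resHom_algebraMap]

theorem SqZeroData.sub_secHom_mem (h : SqZeroData 𝒪 m) (b : B) :
    b - h.secHom (h.resHom b) ∈ m :=
  h.mem_of_resHom_eq_zero (by rw [map_sub, h.resHom_secHom, sub_self])

end sqzero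

section count

variable {𝒪 : Type} [CommRing 𝒪] [IsLocalRing 𝒪]
variable {B : Type*} [CommRing B] [Algebra 𝒪 B] {m : Ideal B}

open TrivSqZeroExt

/-- Main construction: a function `g : B → k` which is additive, `k`-homogeneous (through the
section) and kills `1` gives an `𝒪`-algebra hom `B → k[ε]`, `b ↦ res b + g b · ε`. -/
noncomputable def SqZeroData.derivHom (h : SqZeroData 𝒪 m) (g : B →+ ResidueField 𝒪)
    (hg : ∀ (a : ResidueField 𝒪) (x : B), g (h.secHom a * x) = a * g x) (hg1 : g 1 = 0) :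
    letI := Fermat.Agent.S53.helper533.dualNumberAlgebra 𝒪
    B →ₐ[𝒪] DualNumber (ResidueField 𝒪) :=
  letI := Fermat.Agent.S53.helper533.dualNumberAlgebra 𝒪
  have key : ∀ x y : B, g (x * y) = h.resHom x * g y + h.resHom y * g x := by
    intro x y
    have hx := h.sub_secHom_mem x
    have hy := h.sub_secHom_mem y
    have e : x * y = h.secHom (h.resHom x * h.resHom y) * 1
        + (h.secHom (h.resHom x) * (y - h.secHom (h.resHom y))
          + h.secHom (h.resHom y) * (x - h.secHom (h.resHom x)))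
        + (x - h.secHom (h.resHom x)) * (y - h.secHom (h.resHom y)) := by
      rw [map_mul]; ring
    have gsub : ∀ z : B, g (z - h.secHom (h.resHom z)) = g z := by
      intro z
      have : h.secHom (h.resHom z) = h.secHom (h.resHom z) * 1 := (mul_one _).symm
      rw [map_sub, this, hg, hg1, mul_zero, sub_zero]
    rw [e, h.sq _ hx _ hy, add_zero, map_add, map_add, hg, hg, hg, hg1, mul_zero, zero_add,
      gsub, gsub]
  { toFun := fun b => inl (h.resHom b) + inr (g b)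
    map_one' := by
      rw [map_one, hg1, inr_zero, add_zero, inl_one]
    map_mul' := fun x y => by
      apply TrivSqZeroExt.ext
      · simp
      · simp only [snd_add, snd_inl, snd_inr, zero_add, snd_mul, fst_add, fst_inl, fst_inr,
          add_zero, smul_eq_mul, MulOpposite.smul_eq_mul_unop, MulOpposite.unop_op]
        rw [key x y]; ring
    map_zero' := by
      rw [map_zero, map_zero, inl_zero, inr_zero, add_zero]
    map_add' := fun x y => by
      rw [map_add, map_add, inl_add, inr_add]; abel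
    commutes' := fun c => by
      have h1 : g (algebraMap 𝒪 B c) = 0 := by
        have : algebraMap 𝒪 B c = h.secHom (residue 𝒪 c) * 1 := by
          rw [h.secHom_residue, mul_one]
        rw [this, hg, hg1, mul_zero]
      show inl (h.resHom (algebraMap 𝒪 B c)) + inr (g (algebraMap 𝒪 B c)) = inl (residue 𝒪 c)
      rw [h1, inr_zero, add_zero, h.resHom_algebraMap] }

theorem SqZeroData.snd_derivHom (h : SqZeroData 𝒪 m) (g : B →+ ResidueField 𝒪)
    (hg : ∀ (a : ResidueField 𝒪) (x : B), g (h.secHom a * x) = a * g x) (hg1 : g 1 = 0) (b : B) :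
    (h.derivHom g hg hg1 b).snd = g b := by
  show (inl (h.resHom b) + inr (g b) : DualNumber (ResidueField 𝒪)).snd = g b
  simp

/-- **Tangent bound, cardinality form.** -/
theorem SqZeroData.card_le [Finite (ResidueField 𝒪)] [Finite B] (h : SqZeroData 𝒪 m) :
    letI := Fermat.Agent.S53.helper533.dualNumberAlgebra 𝒪
    Nat.card B ≤ Nat.card (ResidueField 𝒪) *
      Nat.card (B →ₐ[𝒪] DualNumber (ResidueField 𝒪)) := by
  letI := Fermat.Agent.S53.helper533.dualNumberAlgebra 𝒪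
  letI : Algebra (ResidueField 𝒪) B := h.secHom.toAlgebra
  have hsmul : ∀ (a : ResidueField 𝒪) (x : B), a • x = h.secHom a * x := fun a x => rfl
  haveI : Finite (DualNumber (ResidueField 𝒪)) :=
    inferInstanceAs (Finite (ResidueField 𝒪 × ResidueField 𝒪))
  haveI : Finite (B →ₐ[𝒪] DualNumber (ResidueField 𝒪)) := DFunLike.finite _
  -- the residue map is `k`-linear
  let resL : B →ₗ[ResidueField 𝒪] ResidueField 𝒪 :=
    { toFun := h.resHom
      map_add' := map_add _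
      map_smul' := fun a x => by
        rw [hsmul, map_mul, h.resHom_secHom]; rfl }
  have hresL1 : resL 1 = 1 := map_one h.resHom
  -- the map from the dual
  let Φ : Module.Dual (ResidueField 𝒪) B →
      ResidueField 𝒪 × (B →ₐ[𝒪] DualNumber (ResidueField 𝒪)) := fun f =>
    (f 1, h.derivHom ((f - f 1 • resL : B →ₗ[ResidueField 𝒪] ResidueField 𝒪) : B →+ ResidueField 𝒪)
      (fun a x => by
        show (f - f 1 • resL) (h.secHom a * x) = a * (f - f 1 • resL) x
        rw [← hsmul, map_smul, smul_eq_mul])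
      (by
        show (f - f 1 • resL) 1 = 0
        rw [LinearMap.sub_apply, LinearMap.smul_apply, hresL1, smul_eq_mul, mul_one, sub_self]))
  have hΦ : Function.Injective Φ := by
    intro f f' hff
    have h1 : f 1 = f' 1 := congrArg Prod.fst hff
    have h2 := congrArg Prod.snd hff
    apply LinearMap.ext
    intro b
    have h3 := congrArg (fun ψ : B →ₐ[𝒪] DualNumber (ResidueField 𝒪) => (ψ b).snd) h2
    simp only [Φ] at h3
    rw [h.snd_derivHom, h.snd_derivHom] at h3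
    have h4 : (f - f 1 • resL) b = (f' - f' 1 • resL) b := h3
    rw [LinearMap.sub_apply, LinearMap.sub_apply, LinearMap.smul_apply, LinearMap.smul_apply,
      h1] at h4
    exact sub_left_injective h4
  -- `#B = #Dual`
  haveI : Module.Finite (ResidueField 𝒪) B := Module.Finite.of_finite
  have hcard : Nat.card B = Nat.card (Module.Dual (ResidueField 𝒪) B) :=
    Nat.card_congr (Module.Free.chooseBasis (ResidueField 𝒪) B).toDualEquiv.toEquiv
  rw [hcard, ← Nat.card_prod]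
  exact Nat.card_le_card_of_injective Φ hΦ

end count

section quotient

variable (𝒪 : Type) [CommRing 𝒪] [IsLocalRing 𝒪]
variable {Λ : Type} [CommRing Λ] [Algebra 𝒪 Λ]

/-- The quotient `Λ ⧸ 𝔞` satisfies `SqZeroData` for the image of `𝔪₀`, under the hypotheses
appearing in `h_tan` of `helper773.Stmt_nonempty_proRep`. -/
theorem sqZeroData_quotient (𝔪₀ 𝔞 : Ideal Λ) (hne : 𝔪₀ ≠ ⊤)
    (hres : ∀ x : Λ, ∃ c : 𝒪, x - algebraMap 𝒪 Λ c ∈ 𝔪₀)
    (h𝔞 : 𝔞 ≤ 𝔪₀) (hsq : 𝔪₀ ^ 2 ≤ 𝔞)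
    (hπ : ∀ c ∈ maximalIdeal 𝒪, algebraMap 𝒪 Λ c ∈ 𝔞) :
    SqZeroData 𝒪 (𝔪₀.map (Ideal.Quotient.mk 𝔞)) := by
  have hmem : ∀ x : Λ, Ideal.Quotient.mk 𝔞 x ∈ 𝔪₀.map (Ideal.Quotient.mk 𝔞) ↔ x ∈ 𝔪₀ := by
    intro x
    rw [Ideal.mem_map_iff_of_surjective _ Ideal.Quotient.mk_surjective]
    constructor
    · rintro ⟨y, hy, hxy⟩
      have : y - x ∈ 𝔞 := Ideal.Quotient.eq.mp hxy
      have h2 : x = y - (y - x) := by ring
      rw [h2]
      exact 𝔪₀.sub_mem hy (h𝔞 this)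
    · intro hx
      exact ⟨x, hx, rfl⟩
  refine ⟨?_, ?_, ?_, ?_⟩
  · intro htop
    have h1 : (Ideal.Quotient.mk 𝔞 (1 : Λ)) ∈ 𝔪₀.map (Ideal.Quotient.mk 𝔞) := by
      rw [htop]; trivial
    exact hne ((Ideal.eq_top_iff_one _).mpr ((hmem 1).mp h1))
  · intro x
    obtain ⟨y, rfl⟩ := Ideal.Quotient.mk_surjective x
    obtain ⟨c, hc⟩ := hres y
    refine ⟨c, ?_⟩
    have : Ideal.Quotient.mk 𝔞 y - algebraMap 𝒪 (Λ ⧸ 𝔞) c =
        Ideal.Quotient.mk 𝔞 (y - algebraMap 𝒪 Λ c) := by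
      rw [map_sub]; rfl
    rw [this, hmem]
    exact hc
  · intro x hx y hy
    obtain ⟨x, rfl⟩ := Ideal.Quotient.mk_surjective x
    obtain ⟨y, rfl⟩ := Ideal.Quotient.mk_surjective y
    rw [hmem] at hx hy
    rw [← map_mul, Ideal.Quotient.eq_zero_iff_mem]
    apply hsq
    rw [pow_two]
    exact Ideal.mul_mem_mul hx hy
  · intro c hc
    show Ideal.Quotient.mk 𝔞 (algebraMap 𝒪 Λ c) = 0
    rw [Ideal.Quotient.eq_zero_iff_mem]
    exact hπ c hc

/-- **Tangent bound for `h_tan`**: under the hypotheses appearing in `h_tan` of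
`helper773.Stmt_nonempty_proRep`, the cardinality of `Λ ⧸ 𝔞` is at most `#k` times the number of
`𝒪`-algebra homomorphisms `Λ ⧸ 𝔞 → k[ε]`. -/
theorem card_quotient_le [Finite (ResidueField 𝒪)] (𝔪₀ 𝔞 : Ideal Λ) (hne : 𝔪₀ ≠ ⊤)
    (hres : ∀ x : Λ, ∃ c : 𝒪, x - algebraMap 𝒪 Λ c ∈ 𝔪₀)
    (h𝔞 : 𝔞 ≤ 𝔪₀) (hsq : 𝔪₀ ^ 2 ≤ 𝔞)
    (hπ : ∀ c ∈ maximalIdeal 𝒪, algebraMap 𝒪 Λ c ∈ 𝔞) [Finite (Λ ⧸ 𝔞)] :
    letI := Fermat.Agent.S53.helper533.dualNumberAlgebra 𝒪
    Nat.card (Λ ⧸ 𝔞) ≤ Nat.card (ResidueField 𝒪) *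
      Nat.card ((Λ ⧸ 𝔞) →ₐ[𝒪] DualNumber (ResidueField 𝒪)) :=
  (sqZeroData_quotient 𝒪 𝔪₀ 𝔞 hne hres h𝔞 hsq hπ).card_le

/-- Variant: if the `𝒪`-algebra homs `Λ ⧸ 𝔞 → k[ε]` inject into a finite type `T`, then
`#(Λ ⧸ 𝔞) ≤ #k · #T`. -/
theorem card_quotient_le_of_injective [Finite (ResidueField 𝒪)] (𝔪₀ 𝔞 : Ideal Λ) (hne : 𝔪₀ ≠ ⊤)
    (hres : ∀ x : Λ, ∃ c : 𝒪, x - algebraMap 𝒪 Λ c ∈ 𝔪₀)
    (h𝔞 : 𝔞 ≤ 𝔪₀) (hsq : 𝔪₀ ^ 2 ≤ 𝔞)
    (hπ : ∀ c ∈ maximalIdeal 𝒪, algebraMap 𝒪 Λ c ∈ 𝔞) [Finite (Λ ⧸ 𝔞)]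
    {T : Type*} [Finite T]
    (F : (letI := Fermat.Agent.S53.helper533.dualNumberAlgebra 𝒪;
      (Λ ⧸ 𝔞) →ₐ[𝒪] DualNumber (ResidueField 𝒪)) → T)
    (hF : Function.Injective F) :
    Nat.card (Λ ⧸ 𝔞) ≤ Nat.card (ResidueField 𝒪) * Nat.card T :=
  (card_quotient_le 𝒪 𝔪₀ 𝔞 hne hres h𝔞 hsq hπ).trans
    (Nat.mul_le_mul_left _ (Nat.card_le_card_of_injective F hF))

end quotient

end Fermat.Agent.S53.helper1853
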