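/-
S53, blueprint row ASM-1 (`Stmt_UnivRep` of `helper53_Spec`), helper2259.

Over the ring of a `ProRep` of the family `{J | InFamily rbar Sig 𝒟 J}` the matrices
`ι (X (σ,i,j))` form a normalized `𝒟`-lift.  Hypothesis-passing: uses the deformation
condition axioms and the blueprint statements `Stmt_MatContMap`, `Stmt_DictBaseChange`,
`Stmt_FamLe`, `Stmt_FamUp`.
-/
import Fermat.Agent.S53.helper53_Spec
import Fermat.Agent.S53.helper533_TestAlg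

set_option autoImplicit false

namespace Fermat.Agent.S53.helper2259

open IsLocalRing Fermat.Agent.S53.helper53

section

variable {𝒪 : Type} [CommRing 𝒪] [IsLocalRing 𝒪]

/-- The polynomial expressing `(r σ - 1) i j = 0`. -/
noncomputable def trivPoly (𝒪 : Type) [CommRing 𝒪] (σ : Gal) (i j : Fin 2) : Lam 𝒪 :=
  MvPolynomial.X (σ, i, j) - (if i = j then 1 else 0)

/-- The polynomial expressing `r (σ * τ) = r σ * r τ` at the entry `(i, j)`. -/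
noncomputable def mulPoly (𝒪 : Type) [CommRing 𝒪] (σ τ : Gal) (i j : Fin 2) : Lam 𝒪 :=
  MvPolynomial.X (σ * τ, i, j) - ∑ k, MvPolynomial.X (σ, i, k) * MvPolynomial.X (τ, k, j)

omit [IsLocalRing 𝒪] in
/-- Evaluation at a tautological family over a quotient of `Lam 𝒪` is the quotient map. -/
theorem evalMat_eq_mk (J : Ideal (Lam 𝒪)) (r : Gal → M2 (Lam 𝒪 ⧸ J))
    (hr : ∀ σ i j, r σ i j = Ideal.Quotient.mk J (MvPolynomial.X (σ, i, j))) (f : Lam 𝒪) :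
    evalMat (𝒪 := 𝒪) r f = Ideal.Quotient.mk J f := by
  have h : evalMat (𝒪 := 𝒪) r = Ideal.Quotient.mkₐ 𝒪 J := by
    refine MvPolynomial.algHom_ext fun x => ?_
    obtain ⟨σ, i, j⟩ := x
    rw [evalMat_X, hr]
    rfl
  rw [h]
  rfl

variable {rbar : Gal →* M2 (ResidueField 𝒪)} {Sig : Set (Lam 𝒪)}
  {𝒟 : ∀ ⦃A : Type⦄ [CommRing A] [IsLocalRing A] [Algebra 𝒪 A], GaloisRepAdic A → Prop}

theorem trivPoly_one_mem {J : Ideal (Lam 𝒪)} (hJ : InFamily rbar Sig 𝒟 J) (i j : Fin 2) :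
    trivPoly 𝒪 1 i j ∈ J := by
  obtain ⟨_, _, r, hr, _⟩ := hJ
  rw [← Ideal.Quotient.eq_zero_iff_mem, trivPoly, map_sub, ← hr, map_one r, Matrix.one_apply]
  split_ifs <;> simp

theorem mulPoly_mem {J : Ideal (Lam 𝒪)} (hJ : InFamily rbar Sig 𝒟 J) (σ τ : Gal) (i j : Fin 2) :
    mulPoly 𝒪 σ τ i j ∈ J := by
  obtain ⟨_, _, r, hr, _⟩ := hJ
  rw [← Ideal.Quotient.eq_zero_iff_mem, mulPoly, map_sub, map_sum, ← hr, map_mul r,
    Matrix.mul_apply]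
  simp only [map_mul, ← hr]
  exact sub_self _

theorem sig_mem {J : Ideal (Lam 𝒪)} (hJ : InFamily rbar Sig 𝒟 J) {f : Lam 𝒪} (hf : f ∈ Sig) :
    f ∈ J := by
  obtain ⟨_, _, r, hr, hN⟩ := hJ
  rw [← Ideal.Quotient.eq_zero_iff_mem, ← evalMat_eq_mk J r hr]
  exact hN.norm f hf

theorem exists_trivPoly_mem {J : Ideal (Lam 𝒪)} (hJ : InFamily rbar Sig 𝒟 J) :
    ∃ L : IntermediateField ℚ (AlgebraicClosure ℚ), FiniteDimensional ℚ L ∧
      ∀ σ : Gal, (∀ x ∈ L, σ x = x) → ∀ i j, trivPoly 𝒪 σ i j ∈ J := by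
  obtain ⟨hloc, hT, r, hr, hN⟩ := hJ
  have := hT.isArtinian
  obtain ⟨N, hN'⟩ := IsArtinianRing.isNilpotent_jacobson_bot (R := Lam 𝒪 ⧸ J)
  rw [jacobson_eq_maximalIdeal _ bot_ne_top] at hN'
  obtain ⟨L, hL, h⟩ := hN.cont N
  refine ⟨L, hL, fun σ hσ i j => ?_⟩
  have h1 := h σ hσ i j
  rw [hN', Ideal.zero_eq_bot, Ideal.mem_bot, Matrix.sub_apply, Matrix.one_apply] at h1
  rw [← Ideal.Quotient.eq_zero_iff_mem, trivPoly, map_sub, ← hr, ← h1]
  split_ifs <;> simp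

end

section main

variable {𝒪 : Type} [CommRing 𝒪] [IsLocalRing 𝒪]
  {rbar : Gal →* M2 (ResidueField 𝒪)} {Sig : Set (Lam 𝒪)}
  {𝒟 : ∀ ⦃A : Type⦄ [CommRing A] [IsLocalRing A] [Algebra 𝒪 A], GaloisRepAdic A → Prop}

/-- Zero criterion over the ring of a `ProRep`: an element of `Lam 𝒪` lying in all the ideals
`ι⁻¹(m^n)`, `n > 0`, is killed by `ι` (Krull intersection theorem). -/
theorem ι_eq_zero (P : ProRep 𝒪 (Lam 𝒪) (augIdeal rbar) {J | InFamily rbar Sig 𝒟 J}) (f : Lam 𝒪)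
    (h : ∀ n : ℕ, 0 < n → f ∈ (maximalIdeal P.R ^ n).comap P.ι) : P.ι f = 0 := by
  have h0 : P.ι f ∈ (⨅ i : ℕ, maximalIdeal P.R ^ i : Ideal P.R) := by
    rw [Ideal.mem_iInf]
    intro n
    rcases Nat.eq_zero_or_pos n with rfl | hn
    · simp
    · exact h n hn
  rw [Ideal.iInf_pow_eq_bot_of_isLocalRing _ (Ideal.IsMaximal.ne_top inferInstance)] at h0
  simpa using h0

/-- The universal matrices `ι (X (σ,i,j))` as a monoid homomorphism. -/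
noncomputable def univMat (P : ProRep 𝒪 (Lam 𝒪) (augIdeal rbar) {J | InFamily rbar Sig 𝒟 J}) :
    Gal →* M2 P.R where
  toFun σ := Matrix.of fun i j => P.ι (MvPolynomial.X (σ, i, j))
  map_one' := by
    ext i j
    have h := ι_eq_zero P (trivPoly 𝒪 1 i j) fun n hn => trivPoly_one_mem (P.comap_mem n hn) i j
    rw [trivPoly, map_sub, sub_eq_zero] at h
    rw [Matrix.of_apply, h, Matrix.one_apply]
    split_ifs <;> simp
  map_mul' σ τ := by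
    ext i j
    have h := ι_eq_zero P (mulPoly 𝒪 σ τ i j) fun n hn => mulPoly_mem (P.comap_mem n hn) σ τ i j
    rw [mulPoly, map_sub, sub_eq_zero, map_sum] at h
    rw [Matrix.of_apply, h, Matrix.mul_apply]
    simp only [map_mul, Matrix.of_apply]

theorem univMat_apply (P : ProRep 𝒪 (Lam 𝒪) (augIdeal rbar) {J | InFamily rbar Sig 𝒟 J})
    (σ : Gal) (i j : Fin 2) : univMat P σ i j = P.ι (MvPolynomial.X (σ, i, j)) := rfl

theorem evalMat_univMat (P : ProRep 𝒪 (Lam 𝒪) (augIdeal rbar) {J | InFamily rbar Sig 𝒟 J})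
    (f : Lam 𝒪) : evalMat (𝒪 := 𝒪) (univMat P : Gal → M2 P.R) f = P.ι f := by
  have h : evalMat (𝒪 := 𝒪) (univMat P : Gal → M2 P.R) = P.ι := by
    refine MvPolynomial.algHom_ext fun x => ?_
    obtain ⟨σ, i, j⟩ := x
    rw [evalMat_X]
    rfl
  rw [h]

theorem univMat_cont (P : ProRep 𝒪 (Lam 𝒪) (augIdeal rbar) {J | InFamily rbar Sig 𝒟 J}) :
    MatCont (univMat P) := by
  intro n
  obtain ⟨L, hL, h⟩ := exists_trivPoly_mem (P.comap_mem (n + 1) n.succ_pos)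
  refine ⟨L, hL, fun σ hσ i j => ?_⟩
  have h1 : P.ι (trivPoly 𝒪 σ i j) ∈ maximalIdeal P.R ^ (n + 1) := h σ hσ i j
  have h2 : (univMat P σ - 1) i j = P.ι (trivPoly 𝒪 σ i j) := by
    rw [Matrix.sub_apply, univMat_apply, Matrix.one_apply, trivPoly, map_sub]
    split_ifs <;> simp
  rw [h2]
  exact Ideal.pow_le_pow_right n.le_succ h1

theorem univMat_norm (P : ProRep 𝒪 (Lam 𝒪) (augIdeal rbar) {J | InFamily rbar Sig 𝒟 J}) :
    IsNormalized Sig (univMat P : Gal → M2 P.R) := by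
  intro f hf
  rw [evalMat_univMat]
  exact ι_eq_zero P f fun n hn => sig_mem (P.comap_mem n hn) hf

theorem univMat_strict (P : ProRep 𝒪 (Lam 𝒪) (augIdeal rbar) {J | InFamily rbar Sig 𝒟 J}) :
    IsStrictLift rbar (univMat P : Gal → M2 P.R) := by
  intro σ i j
  obtain ⟨hloc, hT, r, hr, hN⟩ := P.comap_mem 1 one_pos
  have hK : (maximalIdeal P.R ^ 1).comap P.ι = (maximalIdeal P.R).comap P.ι := by rw [pow_one]
  have : ((maximalIdeal P.R ^ 1).comap P.ι).IsPrime := by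
    rw [hK]
    exact Ideal.comap_isPrime _ _
  have := hT.isArtinian
  have hfield : IsField (Lam 𝒪 ⧸ (maximalIdeal P.R ^ 1).comap P.ι) :=
    IsArtinianRing.isField_of_isDomain _
  have hbot := IsLocalRing.isField_iff_maximalIdeal_eq.mp hfield
  obtain ⟨c, hc, hmem⟩ := hN.strict σ i j
  refine ⟨c, hc, ?_⟩
  rw [hbot, Ideal.mem_bot, hr] at hmem
  have h1 : (MvPolynomial.X (σ, i, j) - algebraMap 𝒪 (Lam 𝒪) c : Lam 𝒪) ∈
      (maximalIdeal P.R ^ 1).comap P.ι := by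
    rw [← Ideal.Quotient.eq_zero_iff_mem, map_sub]
    exact hmem
  rw [Ideal.mem_comap, pow_one, map_sub, AlgHom.commutes] at h1
  exact h1

theorem univMat_type (h𝒟 : GaloisRep.IsDeformationCondition 𝒪 𝒟)
    (hMap : Stmt_MatContMap) (hBC : Stmt_DictBaseChange)
    (hLe : Stmt_FamLe 𝒪 rbar Sig 𝒟) (hUp : Stmt_FamUp 𝒪 rbar Sig 𝒟)
    (P : ProRep 𝒪 (Lam 𝒪) (augIdeal rbar) {J | InFamily rbar Sig 𝒟 J}) :
    𝒟 (ofMat (univMat P) (univMat_cont P)) := by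
  refine (h𝒟.iff_forall_surjective inferInstance P.residue_surjective _).mpr ?_
  intro B _ _ _ hB q hq hsurj
  have := hB.isArtinian
  have := hq
  obtain ⟨n, hn0, hn⟩ := helper533.exists_maxPow_le_ker (q : P.R →+* B)
  let ψ : Lam 𝒪 →ₐ[𝒪] B := q.comp P.ι
  have hKn : (maximalIdeal P.R ^ n).comap P.ι ≤ RingHom.ker (ψ : Lam 𝒪 →+* B) := by
    intro f hf
    exact hn hf
  have hK1 : RingHom.ker (ψ : Lam 𝒪 →+* B) ≤ (maximalIdeal P.R ^ 1).comap P.ι := by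
    intro f hf
    rw [Ideal.mem_comap, pow_one]
    by_contra hnot
    have hu : IsUnit (P.ι f) := by rwa [mem_maximalIdeal, mem_nonunits_iff, not_not] at hnot
    have hu' : IsUnit (q (P.ι f)) := hu.map q
    rw [show q (P.ι f) = 0 from hf] at hu'
    exact not_isUnit_zero hu'
  have hKaug : RingHom.ker (ψ : Lam 𝒪 →+* B) ≤ augIdeal rbar :=
    hK1.trans (hLe _ (P.comap_mem 1 one_pos))
  have hKfam : InFamily rbar Sig 𝒟 (RingHom.ker (ψ : Lam 𝒪 →+* B)) :=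
    hUp _ _ (P.comap_mem n (Nat.pos_of_ne_zero hn0)) hKn hKaug
  obtain ⟨hloc, hT, r, hr, hN⟩ := hKfam
  let e : (Lam 𝒪 ⧸ RingHom.ker (ψ : Lam 𝒪 →+* B)) →ₐ[𝒪] B := Ideal.kerLiftAlg ψ
  have he : IsLocalHom (e : (Lam 𝒪 ⧸ RingHom.ker (ψ : Lam 𝒪 →+* B)) →+* B) :=
    helper533.isLocalHom_of_residue_surjective 𝒪 hB.residue_surjective e
  have h1 : 𝒟 ((ofMat r hN.cont).baseChangeAlong (e : (Lam 𝒪 ⧸ RingHom.ker (ψ : Lam 𝒪 →+* B)) →+* B) he) :=
    h𝒟.baseChangeAlong hT hB e he hN.type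
  have hc1 : MatCont (mapMat (e : (Lam 𝒪 ⧸ RingHom.ker (ψ : Lam 𝒪 →+* B)) →+* B) r) := hMap _ _ _ he r hN.cont
  have h2 := hBC _ _ (e : (Lam 𝒪 ⧸ RingHom.ker (ψ : Lam 𝒪 →+* B)) →+* B) he r hN.cont hc1
  have h3 : 𝒟 (ofMat (mapMat (e : (Lam 𝒪 ⧸ RingHom.ker (ψ : Lam 𝒪 →+* B)) →+* B) r) hc1) := h𝒟.of_isEquiv hB h2 h1
  have hc2 : MatCont (mapMat (q : P.R →+* B) (univMat P)) := hMap _ _ _ hq _ (univMat_cont P)
  have heq : mapMat (q : P.R →+* B) (univMat P) = mapMat (e : (Lam 𝒪 ⧸ RingHom.ker (ψ : Lam 𝒪 →+* B)) →+* B) r := by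
    ext σ i j
    rw [mapMat_apply, mapMat_apply, hr, univMat_apply]
    rfl
  have key : ∀ (s : Gal →* M2 B) (hs : MatCont s), s = mapMat (e : (Lam 𝒪 ⧸ RingHom.ker (ψ : Lam 𝒪 →+* B)) →+* B) r →
      𝒟 (ofMat s hs) := by
    intro s hs hse
    subst hse
    exact h3
  have h4 : 𝒟 (ofMat (mapMat (q : P.R →+* B) (univMat P)) hc2) := key _ hc2 heq
  have h5 := hBC _ _ (q : P.R →+* B) hq (univMat P) (univMat_cont P) hc2
  exact h𝒟.of_isEquiv hB ⟨h5.some.symm⟩ h4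

/-- **ASM-1** (`Stmt_UnivRep`): over the ring of a `ProRep` of the family the matrices
`ι (X (σ,i,j))` form a normalized `𝒟`-lift. -/
theorem univRep (rbar : Gal →* M2 (ResidueField 𝒪)) (Sig : Set (Lam 𝒪))
    (𝒟 : ∀ ⦃A : Type⦄ [CommRing A] [IsLocalRing A] [Algebra 𝒪 A], GaloisRepAdic A → Prop)
    (h𝒟 : GaloisRep.IsDeformationCondition 𝒪 𝒟)
    (hMap : Stmt_MatContMap) (hBC : Stmt_DictBaseChange)
    (hLe : Stmt_FamLe 𝒪 rbar Sig 𝒟) (hUp : Stmt_FamUp 𝒪 rbar Sig 𝒟) :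
    Stmt_UnivRep 𝒪 rbar Sig 𝒟 := by
  intro P
  exact ⟨univMat P, fun σ i j => rfl,
    ⟨univMat_cont P, univMat_strict P, univMat_norm P, univMat_type h𝒟 hMap hBC hLe hUp P⟩⟩

end main

end Fermat.Agent.S53.helper2259
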