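/-
S53, Spec item TAN-1 (`Stmt_TanFinite` of `helper53_Spec`), hypothesis-passing style.
Parallel copy by helper2333 (board row 275).
-/
import Fermat.Agent.S53.helper53_Spec
import Fermat.Agent.S53.helper533_TestAlg

set_option autoImplicit false
set_option linter.style.haveILetI false

namespace Fermat.Agent.S53.helper2333

open IsLocalRing GaloisRep Fermat.Agent.S53.helper53

/-- If a map into a type with a setoid whose quotient is finite separates points up to the
setoid relation, then the source is finite. -/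
theorem finite_of_quotient_injective {α : Sort*} {β : Sort*} (s : Setoid β)
    (hfin : Finite (Quotient s)) (f : α → β) (hf : ∀ a a', s.r (f a) (f a') → a = a') :
    Finite α :=
  Finite.of_injective (fun a => Quotient.mk s (f a)) fun a a' h => hf a a' (Quotient.exact h)

/-- The residue field map of the `dualAlg` structure map is the composite used by
`TangentFinite`. -/
theorem residueField_map_dualAlg (𝒪 : Type) [CommRing 𝒪] [IsLocalRing 𝒪]
    (hloc : letI := dualAlg 𝒪; IsLocalHom (algebraMap 𝒪 (DualNumber (ResidueField 𝒪)))) :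
    letI := dualAlg 𝒪
    haveI := hloc
    IsLocalRing.ResidueField.map (algebraMap 𝒪 (DualNumber (ResidueField 𝒪))) =
      (IsLocalRing.residue (DualNumber (ResidueField 𝒪))).comp
        (algebraMap (ResidueField 𝒪) (DualNumber (ResidueField 𝒪))) := by
  letI := dualAlg 𝒪
  haveI := hloc
  refine RingHom.ext fun x => ?_
  obtain ⟨c, rfl⟩ := IsLocalRing.residue_surjective x
  rw [IsLocalRing.ResidueField.map_residue]
  rfl

/-- TAN-1: finitely many normalized `𝒟`-lifts over the dual numbers. -/
theorem tanFinite (𝒪 : Type) [CommRing 𝒪] [IsLocalRing 𝒪] [Finite (ResidueField 𝒪)]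
    (ρbar : ResidualGaloisRep (ResidueField 𝒪))
    (b : Module.Basis (Fin 2) (ResidueField 𝒪) ρbar.V) (Sig : Set (Lam 𝒪))
    (𝒟 : ∀ ⦃A : Type⦄ [CommRing A] [IsLocalRing A] [Algebra 𝒪 A], GaloisRepAdic A → Prop)
    (hfin : GaloisRep.TangentFinite 𝒪 ρbar 𝒟)
    (hslice : IsSlice (matOfBasis ρbar b) Sig)
    (hDE : Stmt_DictEquiv) (hDR : Stmt_DictResidual 𝒪) :
    Stmt_TanFinite 𝒪 (matOfBasis ρbar b) Sig 𝒟 := by
  letI alg : Algebra 𝒪 (DualNumber (ResidueField 𝒪)) := dualAlg 𝒪
  have htest : IsArtinianTestAlgebra 𝒪 (DualNumber (ResidueField 𝒪)) :=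
    helper533.dualNumber_testAlg 𝒪
  haveI hloc : IsLocalHom (algebraMap 𝒪 (DualNumber (ResidueField 𝒪))) := htest.isLocalHom
  haveI hart : IsArtinianRing (DualNumber (ResidueField 𝒪)) := htest.isArtinian
  have hmap := residueField_map_dualAlg 𝒪 hloc
  show Finite {r : Gal →* M2 (DualNumber (ResidueField 𝒪)) //
    IsNLift (matOfBasis ρbar b) Sig 𝒟 r}
  refine finite_of_quotient_injective _ hfin
    (fun r => ⟨ofMat r.1 r.2.cont, r.2.type, ?_⟩) ?_
  · -- residual condition
    have h := (hDR ρbar b (DualNumber (ResidueField 𝒪)) (ofMat r.1 r.2.cont)).mpr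
      ⟨r.1, r.2.cont, r.2.strict, ⟨GaloisRepAdic.Equiv.refl _⟩⟩
    rw [hmap] at h
    exact h
  · -- injectivity
    intro r r' h
    obtain ⟨M, hM⟩ := (hDE (DualNumber (ResidueField 𝒪)) r.1 r'.1 r.2.cont r'.2.cont).mp h
    exact Subtype.ext
      (hslice.eq_of_conj r.1 r'.1 r.2.strict r'.2.strict r.2.norm r'.2.norm M hM)

end Fermat.Agent.S53.helper2333
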