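import Mathlib

set_option autoImplicit false
set_option linter.style.haveILetI false

namespace Fermat.Agent.S53.helper233

open IsLocalRing

/-- A pro-representing ring for a family `𝒥` of ideals of `Λ` (abstract commutative algebra). -/
structure ProRep (𝒪 Λ : Type) [CommRing 𝒪] [IsLocalRing 𝒪] [CommRing Λ] [Algebra 𝒪 Λ]
    (𝔪₀ : Ideal Λ) (𝒥 : Set (Ideal Λ)) : Type 1 where
  R : Type
  [instCommRing : CommRing R]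
  [instIsLocalRing : IsLocalRing R]
  [instIsNoetherianRing : IsNoetherianRing R]
  [instIsAdicComplete : IsAdicComplete (maximalIdeal R) R]
  [instAlgebra : Algebra 𝒪 R]
  [instIsLocalHom : IsLocalHom (algebraMap 𝒪 R)]
  residue_surjective : Function.Surjective (IsLocalRing.residue R ∘ algebraMap 𝒪 R)
  ι : Λ →ₐ[𝒪] R
  ι_dense : ∀ n (x : R), ∃ y : Λ, x - ι y ∈ maximalIdeal R ^ n
  comap_mem : ∀ n, 0 < n → (maximalIdeal R ^ n).comap ι ∈ 𝒥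
  comap_le : ∀ n, ∀ 𝔞 ∈ 𝒥, 𝔪₀ ^ n ≤ 𝔞 → (maximalIdeal R ^ n).comap ι ≤ 𝔞

/-- Nilpotent Nakayama for ideals. -/
lemma ideal_le_of_le_sup_sq {Λ : Type} [CommRing Λ] (M N₀ : Ideal Λ) (h : M ≤ N₀ ⊔ M ^ 2)
    (n : ℕ) (hn : M ^ n ≤ N₀) : M ≤ N₀ := by
  have key : ∀ j : ℕ, M ≤ N₀ ⊔ M ^ (j + 1) := by
    intro j
    induction j with
    | zero => simp
    | succ j ih =>
      have h2 : M ^ 2 ≤ N₀ ⊔ M ^ (j + 1 + 1) := by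
        calc M ^ 2 = M * M := pow_two M
          _ ≤ M * (N₀ ⊔ M ^ (j + 1)) := Ideal.mul_mono_right ih
          _ = M * N₀ ⊔ M * M ^ (j + 1) := Ideal.mul_sup _ _ _
          _ ≤ N₀ ⊔ M ^ (j + 1 + 1) := by
            refine sup_le_sup Ideal.mul_le_right ?_
            rw [← pow_succ']
      exact h.trans (sup_le le_sup_left h2)
  refine (key n).trans (sup_le le_rfl ?_)
  exact (Ideal.pow_le_pow_right (Nat.le_succ n)).trans hn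

/-- A commutative algebra `R` that is complete for a finitely generated ideal `I`, with `R ⧸ I`
generated by the base ring, is a quotient of a power series ring over the base. -/
theorem exists_surjective_mvPowerSeries {𝒪 R : Type} [CommRing 𝒪] [CommRing R] [Algebra 𝒪 R]
    (I : Ideal R) [IsAdicComplete I R] {σ : Type} [Finite σ] (z : σ → R)
    (hz : Ideal.span (Set.range z) = I)
    (hres : ∀ r : R, ∃ c : 𝒪, r - algebraMap 𝒪 R c ∈ I) :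
    ∃ f : MvPowerSeries σ 𝒪 →ₐ[𝒪] R, Function.Surjective f := by
  classical
  set φ : MvPolynomial σ 𝒪 →ₐ[𝒪] R := MvPolynomial.aeval z with hφ
  have hmapφ : Ideal.map φ (MvPolynomial.idealOfVars σ 𝒪) = I := by
    rw [MvPolynomial.idealOfVars, Ideal.map_span, ← Set.range_comp, ← hz]
    congr 2
    ext i
    simp [hφ]
  have h1 : ∀ n : ℕ, ∀ a ∈ MvPolynomial.idealOfVars σ 𝒪 ^ n,
      ((Ideal.Quotient.mkₐ 𝒪 (I ^ n)).comp φ) a = 0 := by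
    intro n a ha
    have : φ a ∈ I ^ n := by
      rw [← hmapφ, ← Ideal.map_pow]
      exact Ideal.mem_map_of_mem _ ha
    simpa [Ideal.Quotient.eq_zero_iff_mem] using this
  let g : (n : ℕ) → MvPowerSeries σ 𝒪 →ₐ[𝒪] R ⧸ I ^ n := fun n =>
    (Ideal.Quotient.liftₐ (MvPolynomial.idealOfVars σ 𝒪 ^ n)
      ((Ideal.Quotient.mkₐ 𝒪 (I ^ n)).comp φ) (h1 n)).comp
      ((MvPowerSeries.truncTotalAlgHom σ 𝒪 n).restrictScalars 𝒪)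
  have hg : ∀ (n : ℕ) (p : MvPowerSeries σ 𝒪),
      g n p = Ideal.Quotient.mk (I ^ n) (φ (MvPowerSeries.truncTotal n p)) := by
    intro n p
    rfl
  have hcompat : ∀ {m n : ℕ} (hle : m ≤ n),
      (Ideal.Quotient.factorₐ 𝒪 (Ideal.pow_le_pow_right hle)).comp (g n) = g m := by
    intro m n hle
    refine AlgHom.ext fun p => ?_
    rw [AlgHom.comp_apply, hg, hg]
    change Ideal.Quotient.factor (Ideal.pow_le_pow_right hle)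
      (Ideal.Quotient.mk (I ^ n) (φ (MvPowerSeries.truncTotal n p))) = _
    rw [Ideal.Quotient.factor_mk, Ideal.Quotient.mk_eq_mk_iff_sub_mem, ← map_sub,
      ← hmapφ, ← Ideal.map_pow]
    exact Ideal.mem_map_of_mem _
      (MvPowerSeries.truncTotal_sub_truncTotal_mem_pow_idealOfVars hle (le_refl m) p)
  let f : MvPowerSeries σ 𝒪 →ₐ[𝒪] R := IsAdicComplete.liftAlgHom I g hcompat
  have hf : ∀ (n : ℕ) (p : MvPowerSeries σ 𝒪),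
      Ideal.Quotient.mk (I ^ n) (f p) = g n p := fun n p =>
    IsAdicComplete.mk_liftAlgHom I g hcompat n p
  have hfpoly : ∀ p : MvPolynomial σ 𝒪, f (p : MvPowerSeries σ 𝒪) = φ p := by
    intro p
    rw [← sub_eq_zero]
    refine IsHausdorff.haus (inferInstance : IsHausdorff I R) _ fun n => ?_
    rw [SModEq.zero, smul_eq_mul, Ideal.mul_top, ← Ideal.Quotient.eq_zero_iff_mem, map_sub,
      hf, hg, sub_eq_zero, Ideal.Quotient.mk_eq_mk_iff_sub_mem, ← map_sub, ← hmapφ,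
      ← Ideal.map_pow]
    refine Ideal.mem_map_of_mem _ ?_
    rw [MvPolynomial.mem_pow_idealOfVars_iff']
    intro x h
    rw [MvPolynomial.coeff_sub, sub_eq_zero, MvPowerSeries.coeff_truncTotal _ h,
      MvPolynomial.coeff_coe]
  have hfX : ∀ i : σ, f (MvPowerSeries.X i) = z i := by
    intro i
    have := hfpoly (MvPolynomial.X i)
    rw [MvPolynomial.coe_X] at this
    rw [this, hφ, MvPolynomial.aeval_X]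
  have hmapf : Ideal.map (f : MvPowerSeries σ 𝒪 →+* R)
      (Ideal.span (Set.range (MvPowerSeries.X : σ → MvPowerSeries σ 𝒪))) = I := by
    rw [Ideal.map_span, ← Set.range_comp, ← hz]
    congr 2
    ext i
    simp [hfX]
  refine ⟨f, ?_⟩
  have : IsHausdorff (Ideal.map (f : MvPowerSeries σ 𝒪 →+* R)
      (Ideal.span (Set.range (MvPowerSeries.X : σ → MvPowerSeries σ 𝒪)))) R := by
    rw [hmapf]; infer_instance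
  refine surjective_of_mk_map_comp_surjective (f : MvPowerSeries σ 𝒪 →+* R)
    (I := Ideal.span (Set.range (MvPowerSeries.X : σ → MvPowerSeries σ 𝒪))) ?_
  intro y
  obtain ⟨r, rfl⟩ := Ideal.Quotient.mk_surjective y
  obtain ⟨c, hc⟩ := hres r
  refine ⟨algebraMap 𝒪 (MvPowerSeries σ 𝒪) c, ?_⟩
  rw [RingHom.comp_apply, RingHom.coe_coe, AlgHom.commutes, eq_comm,
    Ideal.Quotient.mk_eq_mk_iff_sub_mem, hmapf]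
  exact hc

section Construction

variable {𝒪 Λ : Type} [CommRing 𝒪] [CommRing Λ] [Algebra 𝒪 Λ] (𝒥 : Set (Ideal Λ))

/-- The inverse limit of the quotients `Λ ⧸ 𝔞`, `𝔞 ∈ 𝒥`, as a subalgebra of the product. -/
def limRing : Subalgebra 𝒪 (∀ 𝔞 : 𝒥, Λ ⧸ 𝔞.1) where
  carrier := {a | ∀ (𝔞 𝔟 : 𝒥) (h : 𝔞.1 ≤ 𝔟.1), Ideal.Quotient.factor h (a 𝔞) = a 𝔟}
  mul_mem' := by
    intro a b ha hb 𝔞 𝔟 h
    simp only [Pi.mul_apply, map_mul, ha 𝔞 𝔟 h, hb 𝔞 𝔟 h]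
  add_mem' := by
    intro a b ha hb 𝔞 𝔟 h
    simp only [Pi.add_apply, map_add, ha 𝔞 𝔟 h, hb 𝔞 𝔟 h]
  algebraMap_mem' := by
    intro c 𝔞 𝔟 h
    exact Ideal.Quotient.factor_mk h (algebraMap 𝒪 Λ c)

variable {𝒥}

/-- The diagonal map. -/
def limι : Λ →ₐ[𝒪] limRing (𝒪 := 𝒪) 𝒥 where
  toFun x := ⟨fun 𝔞 => Ideal.Quotient.mk 𝔞.1 x, fun 𝔞 𝔟 h => by simp⟩
  map_one' := rfl
  map_mul' _ _ := rfl
  map_zero' := rfl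
  map_add' _ _ := rfl
  commutes' _ := rfl

/-- Projection to a component. -/
def limProj (𝔞 : 𝒥) : limRing (𝒪 := 𝒪) 𝒥 →ₐ[𝒪] Λ ⧸ 𝔞.1 :=
  (Pi.evalAlgHom 𝒪 (fun 𝔞 : 𝒥 => Λ ⧸ 𝔞.1) 𝔞).comp (limRing 𝒥).val

@[simp] lemma limProj_ι (𝔞 : 𝒥) (x : Λ) :
    limProj (𝒪 := 𝒪) 𝔞 (limι x) = Ideal.Quotient.mk 𝔞.1 x := rfl

lemma limProj_surjective (𝔞 : 𝒥) : Function.Surjective (limProj (𝒪 := 𝒪) 𝔞) := by
  intro y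
  obtain ⟨x, rfl⟩ := Ideal.Quotient.mk_surjective y
  exact ⟨limι x, rfl⟩

lemma limProj_factor (a : limRing (𝒪 := 𝒪) 𝒥) (𝔞 𝔟 : 𝒥) (h : 𝔞.1 ≤ 𝔟.1) :
    Ideal.Quotient.factor h (limProj 𝔞 a) = limProj 𝔟 a := a.2 𝔞 𝔟 h

lemma lim_ext {a b : limRing (𝒪 := 𝒪) 𝒥} (h : ∀ 𝔞 : 𝒥, limProj 𝔞 a = limProj 𝔞 b) : a = b :=
  Subtype.ext (funext h)

lemma limProj_eq_zero_of_le (a : limRing (𝒪 := 𝒪) 𝒥) (𝔞 𝔟 : 𝒥) (h : 𝔞.1 ≤ 𝔟.1)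
    (ha : limProj 𝔞 a = 0) : limProj 𝔟 a = 0 := by
  rw [← limProj_factor a 𝔞 𝔟 h, ha, map_zero]

/-- Directedness: finitely many members of `𝒥` have a common lower bound in `𝒥`. -/
lemma exists_le_finset (h0 : ∃ 𝔞, 𝔞 ∈ 𝒥) (h_inf : ∀ 𝔞 ∈ 𝒥, ∀ 𝔟 ∈ 𝒥, 𝔞 ⊓ 𝔟 ∈ 𝒥)
    (I : Finset 𝒥) : ∃ 𝔞 : 𝒥, ∀ i ∈ I, 𝔞.1 ≤ i.1 := by
  classical
  induction I using Finset.induction_on with
  | empty =>
    obtain ⟨𝔞, h𝔞⟩ := h0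
    exact ⟨⟨𝔞, h𝔞⟩, by simp⟩
  | insert i I _ ih =>
    obtain ⟨𝔞, h𝔞⟩ := ih
    refine ⟨⟨𝔞.1 ⊓ i.1, h_inf _ 𝔞.2 _ i.2⟩, fun j hj => ?_⟩
    rcases Finset.mem_insert.mp hj with rfl | hj
    · exact inf_le_right
    · exact inf_le_left.trans (h𝔞 j hj)

end Construction

/-- The hypotheses of the pro-representability theorem, bundled (all but the tangent bound). -/
structure ProRepHyp (𝒪 Λ : Type) [CommRing 𝒪] [IsLocalRing 𝒪] [CommRing Λ] [Algebra 𝒪 Λ]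
    (𝔪₀ : Ideal Λ) (𝒥 : Set (Ideal Λ)) : Prop where
  hne : 𝔪₀ ≠ ⊤
  hres : ∀ x : Λ, ∃ c : 𝒪, x - algebraMap 𝒪 Λ c ∈ 𝔪₀
  hloc : ∀ c ∈ maximalIdeal 𝒪, algebraMap 𝒪 Λ c ∈ 𝔪₀
  h_top : 𝔪₀ ∈ 𝒥
  h_le : ∀ 𝔞 ∈ 𝒥, 𝔞 ≤ 𝔪₀
  h_inf : ∀ 𝔞 ∈ 𝒥, ∀ 𝔟 ∈ 𝒥, 𝔞 ⊓ 𝔟 ∈ 𝒥
  h_up : ∀ 𝔞 ∈ 𝒥, ∀ 𝔟 : Ideal Λ, 𝔞 ≤ 𝔟 → 𝔟 ≤ 𝔪₀ → 𝔟 ∈ 𝒥
  h_fin : ∀ 𝔞 ∈ 𝒥, Finite (Λ ⧸ 𝔞)
  h_nil : ∀ 𝔞 ∈ 𝒥, ∃ n, 𝔪₀ ^ n ≤ 𝔞

section Algebra

variable {𝒪 Λ : Type} [CommRing 𝒪] [IsLocalRing 𝒪] [CommRing Λ] [Algebra 𝒪 Λ]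
  {𝔪₀ : Ideal Λ} {𝒥 : Set (Ideal Λ)}

lemma ProRepHyp.isMaximal (H : ProRepHyp 𝒪 Λ 𝔪₀ 𝒥) : 𝔪₀.IsMaximal := by
  rw [Ideal.isMaximal_iff]
  refine ⟨fun h => H.hne ((Ideal.eq_top_iff_one _).mpr h), fun J x hJ hx hxJ => ?_⟩
  obtain ⟨c, hc⟩ := H.hres x
  have hcu : IsUnit c := by
    by_contra hcu
    have h1 : c ∈ maximalIdeal 𝒪 := (IsLocalRing.mem_maximalIdeal c).mpr hcu
    have h2 := H.hloc c h1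
    exact hx (by simpa using add_mem hc h2)
  obtain ⟨u, rfl⟩ := hcu
  have h1 : (1 : Λ) = algebraMap 𝒪 Λ ↑u⁻¹ * x -
      algebraMap 𝒪 Λ ↑u⁻¹ * (x - algebraMap 𝒪 Λ ↑u) := by
    rw [← mul_sub, sub_sub_cancel, ← map_mul, Units.inv_mul, map_one]
  rw [h1]
  exact J.sub_mem (J.mul_mem_left _ hxJ) (J.mul_mem_left _ (hJ hc))

/-- The index of `𝔪₀` in `𝒥`. -/
abbrev ProRepHyp.top (H : ProRepHyp 𝒪 Λ 𝔪₀ 𝒥) : 𝒥 := ⟨𝔪₀, H.h_top⟩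

lemma ProRepHyp.isUnit_mk (H : ProRepHyp 𝒪 Λ 𝔪₀ 𝒥) (𝔞 : 𝒥) {x : Λ} (hx : x ∉ 𝔪₀) :
    IsUnit (Ideal.Quotient.mk 𝔞.1 x) := by
  obtain ⟨y, i, hi, hyi⟩ := Ideal.IsMaximal.exists_inv H.isMaximal hx
  obtain ⟨n, hn⟩ := H.h_nil 𝔞.1 𝔞.2
  have hnil : IsNilpotent (Ideal.Quotient.mk 𝔞.1 i) := by
    refine ⟨n, ?_⟩
    rw [← map_pow, Ideal.Quotient.eq_zero_iff_mem]
    exact hn (Ideal.pow_mem_pow hi n)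
  have h1 : Ideal.Quotient.mk 𝔞.1 y * Ideal.Quotient.mk 𝔞.1 x =
      1 - Ideal.Quotient.mk 𝔞.1 i := by
    rw [← map_mul, ← map_one (Ideal.Quotient.mk 𝔞.1), ← map_sub, ← hyi]
    simp
  have h2 : IsUnit (Ideal.Quotient.mk 𝔞.1 y * Ideal.Quotient.mk 𝔞.1 x) := by
    rw [h1]; exact hnil.isUnit_one_sub
  exact isUnit_of_mul_isUnit_right h2

lemma ProRepHyp.proj_mem_map (H : ProRepHyp 𝒪 Λ 𝔪₀ 𝒥) (𝔞 : 𝒥) (a : limRing (𝒪 := 𝒪) 𝒥)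
    (ha : limProj H.top a = 0) : ∃ x ∈ 𝔪₀, limProj 𝔞 a = Ideal.Quotient.mk 𝔞.1 x := by
  obtain ⟨x, hx⟩ := Ideal.Quotient.mk_surjective (limProj 𝔞 a)
  refine ⟨x, ?_, hx.symm⟩
  have h1 := limProj_factor a 𝔞 H.top (H.h_le _ 𝔞.2)
  rw [← hx, Ideal.Quotient.factor_mk, ha] at h1
  exact Ideal.Quotient.eq_zero_iff_mem.mp h1

lemma ProRepHyp.isUnit_iff (H : ProRepHyp 𝒪 Λ 𝔪₀ 𝒥) (a : limRing (𝒪 := 𝒪) 𝒥) :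
    IsUnit a ↔ limProj H.top a ≠ 0 := by
  have : Nontrivial (Λ ⧸ 𝔪₀) := Ideal.Quotient.nontrivial_iff.mpr H.hne
  constructor
  · intro h
    exact (h.map (limProj (𝒪 := 𝒪) H.top)).ne_zero
  · intro h
    have hu : ∀ 𝔞 : 𝒥, IsUnit (limProj 𝔞 a) := by
      intro 𝔞
      obtain ⟨x, hx⟩ := Ideal.Quotient.mk_surjective (limProj 𝔞 a)
      rw [← hx]
      refine H.isUnit_mk 𝔞 fun hxm => h ?_
      have h1 := limProj_factor a 𝔞 H.top (H.h_le _ 𝔞.2)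
      rw [← hx, Ideal.Quotient.factor_mk] at h1
      rw [← h1]
      exact Ideal.Quotient.eq_zero_iff_mem.mpr hxm
    have hb : (fun 𝔞 : 𝒥 => (((hu 𝔞).unit⁻¹ : (Λ ⧸ 𝔞.1)ˣ) : Λ ⧸ 𝔞.1)) ∈ limRing (𝒪 := 𝒪) 𝒥 := by
      intro 𝔞 𝔟 hle
      have e1 : Ideal.Quotient.factor hle (((hu 𝔞).unit⁻¹ : (Λ ⧸ 𝔞.1)ˣ) : Λ ⧸ 𝔞.1) * limProj 𝔟 a = 1 := by
        rw [← limProj_factor a 𝔞 𝔟 hle, ← map_mul]
        rw [(hu 𝔞).val_inv_mul, map_one]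
      have e2 : limProj 𝔟 a * (((hu 𝔟).unit⁻¹ : (Λ ⧸ 𝔟.1)ˣ) : Λ ⧸ 𝔟.1) = 1 :=
        (hu 𝔟).mul_val_inv
      exact left_inv_eq_right_inv e1 e2
    refine IsUnit.of_mul_eq_one ⟨_, hb⟩ (lim_ext fun 𝔞 => ?_)
    rw [map_mul, map_one]
    exact (hu 𝔞).mul_val_inv

lemma ProRepHyp.nontrivial (H : ProRepHyp 𝒪 Λ 𝔪₀ 𝒥) : Nontrivial (limRing (𝒪 := 𝒪) 𝒥) := by
  have : Nontrivial (Λ ⧸ 𝔪₀) := Ideal.Quotient.nontrivial_iff.mpr H.hne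
  refine ⟨⟨0, 1, fun h => ?_⟩⟩
  have := congrArg (limProj (𝒪 := 𝒪) H.top) h
  rw [map_zero, map_one] at this
  exact zero_ne_one this

lemma ProRepHyp.isLocalRing (H : ProRepHyp 𝒪 Λ 𝔪₀ 𝒥) : IsLocalRing (limRing (𝒪 := 𝒪) 𝒥) := by
  have := H.nontrivial
  refine IsLocalRing.of_nonunits_add fun a b ha hb => ?_
  rw [mem_nonunits_iff, H.isUnit_iff, not_not] at ha hb ⊢
  rw [map_add, ha, hb, add_zero]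

lemma ProRepHyp.mem_maximalIdeal_iff (H : ProRepHyp 𝒪 Λ 𝔪₀ 𝒥) (a : limRing (𝒪 := 𝒪) 𝒥) :
    haveI := H.isLocalRing
    a ∈ maximalIdeal (limRing (𝒪 := 𝒪) 𝒥) ↔ limProj H.top a = 0 := by
  have := H.isLocalRing
  rw [IsLocalRing.mem_maximalIdeal, mem_nonunits_iff, H.isUnit_iff, not_not]

end Algebra

section Topology

variable {𝒪 Λ : Type} [CommRing 𝒪] [CommRing Λ] [Algebra 𝒪 Λ] {𝒥 : Set (Ideal Λ)}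

/-- Discrete topology on each quotient (an instance only inside this file). -/
local instance quotTop (𝔞 : 𝒥) : TopologicalSpace (Λ ⧸ 𝔞.1) := ⊥

local instance quotDiscrete (𝔞 : 𝒥) : DiscreteTopology (Λ ⧸ 𝔞.1) := ⟨rfl⟩

lemma limRing_isClosed : IsClosed (limRing (𝒪 := 𝒪) 𝒥 : Set (∀ 𝔞 : 𝒥, Λ ⧸ 𝔞.1)) := by
  have : (limRing (𝒪 := 𝒪) 𝒥 : Set (∀ 𝔞 : 𝒥, Λ ⧸ 𝔞.1)) =
      ⋂ (𝔞 : 𝒥) (𝔟 : 𝒥) (h : 𝔞.1 ≤ 𝔟.1),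
        {a | Ideal.Quotient.factor h (a 𝔞) = a 𝔟} := by
    ext a
    simp only [Set.mem_iInter]
    rfl
  rw [this]
  refine isClosed_iInter fun 𝔞 => isClosed_iInter fun 𝔟 => isClosed_iInter fun h => ?_
  exact isClosed_eq (continuous_of_discreteTopology.comp (continuous_apply 𝔞)) (continuous_apply 𝔟)

lemma limRing_compactSpace (hfin : ∀ 𝔞 : 𝒥, Finite (Λ ⧸ 𝔞.1)) :
    CompactSpace (limRing (𝒪 := 𝒪) 𝒥) :=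
  isCompact_iff_compactSpace.mp limRing_isClosed.isCompact

local instance limRing_isTopologicalRing : IsTopologicalRing (limRing (𝒪 := 𝒪) 𝒥) :=
  inferInstanceAs (IsTopologicalRing (limRing (𝒪 := 𝒪) 𝒥).toSubring)

lemma limProj_continuous (𝔞 : 𝒥) : Continuous (limProj (𝒪 := 𝒪) 𝔞) :=
  (continuous_apply 𝔞).comp continuous_subtype_val

/-- Every neighbourhood of `0` contains the kernel of a projection, if `𝒥` is directed. -/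
lemma exists_ker_subset_of_isOpen (h0 : ∃ 𝔞, 𝔞 ∈ 𝒥)
    (h_inf : ∀ 𝔞 ∈ 𝒥, ∀ 𝔟 ∈ 𝒥, 𝔞 ⊓ 𝔟 ∈ 𝒥)
    {U : Set (limRing (𝒪 := 𝒪) 𝒥)} (hU : IsOpen U) (h0U : (0 : limRing (𝒪 := 𝒪) 𝒥) ∈ U) :
    ∃ 𝔞 : 𝒥, ∀ a : limRing (𝒪 := 𝒪) 𝒥, limProj 𝔞 a = 0 → a ∈ U := by
  obtain ⟨V, hV, rfl⟩ := isOpen_induced_iff.mp hU
  rw [isOpen_pi_iff] at hV
  obtain ⟨I, u, hu, hIu⟩ := hV (0 : limRing (𝒪 := 𝒪) 𝒥).1 h0U
  obtain ⟨𝔞, h𝔞⟩ := exists_le_finset h0 h_inf I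
  refine ⟨𝔞, fun a ha => hIu ?_⟩
  intro i hi
  have : limProj i a = 0 := limProj_eq_zero_of_le a 𝔞 i (h𝔞 i hi) ha
  have h2 : a.1 i = 0 := this
  rw [h2]
  exact (hu i hi).2

/-- A closed set that meets every coset of every kernel around `b` contains `b`. -/
lemma mem_of_isClosed_of_forall_proj (h0 : ∃ 𝔞, 𝔞 ∈ 𝒥)
    (h_inf : ∀ 𝔞 ∈ 𝒥, ∀ 𝔟 ∈ 𝒥, 𝔞 ⊓ 𝔟 ∈ 𝒥)
    {C : Set (limRing (𝒪 := 𝒪) 𝒥)} (hC : IsClosed C) (b : limRing (𝒪 := 𝒪) 𝒥)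
    (h : ∀ 𝔞 : 𝒥, ∃ s ∈ C, limProj 𝔞 s = limProj 𝔞 b) : b ∈ C := by
  by_contra hb
  have hU : IsOpen ((fun c : limRing (𝒪 := 𝒪) 𝒥 => b - c) ⁻¹' Cᶜ) :=
    hC.isOpen_compl.preimage (continuous_const.sub continuous_id)
  obtain ⟨𝔞, h𝔞⟩ := exists_ker_subset_of_isOpen h0 h_inf hU (by simpa using hb)
  obtain ⟨s, hs, hsb⟩ := h 𝔞
  have := h𝔞 (b - s) (by rw [map_sub, hsb, sub_self])
  simp only [Set.mem_preimage, sub_sub_cancel] at this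
  exact this hs

/-- Kernel of a projection. -/
def limKer (𝔞 : 𝒥) : Ideal (limRing (𝒪 := 𝒪) 𝒥) := RingHom.ker (limProj (𝒪 := 𝒪) 𝔞)

lemma mem_limKer {𝔞 : 𝒥} {a : limRing (𝒪 := 𝒪) 𝒥} : a ∈ limKer 𝔞 ↔ limProj 𝔞 a = 0 :=
  RingHom.mem_ker

lemma limKer_isOpen (𝔞 : 𝒥) : IsOpen ((limKer (𝒪 := 𝒪) 𝔞 : Ideal _) : Set (limRing (𝒪 := 𝒪) 𝒥)) := by
  have : ((limKer (𝒪 := 𝒪) 𝔞 : Ideal _) : Set (limRing (𝒪 := 𝒪) 𝒥)) =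
      (limProj (𝒪 := 𝒪) 𝔞) ⁻¹' {0} := by
    ext a; simp [mem_limKer]
  rw [this]
  exact (isOpen_discrete _).preimage (limProj_continuous 𝔞)

lemma limKer_mono {𝔞 𝔟 : 𝒥} (h : 𝔞.1 ≤ 𝔟.1) : limKer (𝒪 := 𝒪) 𝔞 ≤ limKer 𝔟 :=
  fun a ha => mem_limKer.mpr (limProj_eq_zero_of_le a 𝔞 𝔟 h (mem_limKer.mp ha))

variable [IsLocalRing 𝒪] {𝔪₀ : Ideal Λ}

lemma ProRepHyp.pow_le_limKer (H : ProRepHyp 𝒪 Λ 𝔪₀ 𝒥) (𝔞 : 𝒥) {n : ℕ} (hn : 𝔪₀ ^ n ≤ 𝔞.1) :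
    limKer (𝒪 := 𝒪) H.top ^ n ≤ limKer 𝔞 := by
  have h1 : limKer (𝒪 := 𝒪) H.top ≤
      Ideal.comap (limProj (𝒪 := 𝒪) 𝔞) (Ideal.map (Ideal.Quotient.mk 𝔞.1) 𝔪₀) := by
    intro a ha
    obtain ⟨x, hx, hxa⟩ := H.proj_mem_map 𝔞 a (mem_limKer.mp ha)
    rw [Ideal.mem_comap, hxa]
    exact Ideal.mem_map_of_mem _ hx
  intro a ha
  have h2 := Ideal.le_comap_pow (limProj (𝒪 := 𝒪) 𝔞) n (Ideal.pow_right_mono h1 n ha)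
  rw [Ideal.mem_comap, ← Ideal.map_pow, Ideal.map_mk_eq_bot_of_le hn] at h2
  exact mem_limKer.mpr h2

lemma ProRepHyp.compactSpace (H : ProRepHyp 𝒪 Λ 𝔪₀ 𝒥) : CompactSpace (limRing (𝒪 := 𝒪) 𝒥) :=
  limRing_compactSpace (𝒪 := 𝒪) (fun 𝔞 : 𝒥 => H.h_fin 𝔞.1 𝔞.2)

/-- The kernel of the residue projection is generated by the images of any finite set of
elements of `𝔪₀` that generates `𝔪₀` modulo every member of `𝒥`. -/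
lemma ProRepHyp.limKer_top_eq_span (H : ProRepHyp 𝒪 Λ 𝔪₀ 𝒥) (Z₀ : Finset Λ)
    (hZ : ∀ z ∈ Z₀, z ∈ 𝔪₀) (hgen : ∀ 𝔞 ∈ 𝒥, 𝔪₀ ≤ Ideal.span (Z₀ : Set Λ) ⊔ 𝔞) :
    limKer (𝒪 := 𝒪) H.top = Ideal.span ((limι (𝒪 := 𝒪) (𝒥 := 𝒥)) '' (Z₀ : Set Λ)) := by
  classical
  have := H.compactSpace
  apply le_antisymm
  · intro b hb
    have hfg : (Ideal.span ((limι (𝒪 := 𝒪) (𝒥 := 𝒥)) '' (Z₀ : Set Λ))).FG := by
      refine ⟨Z₀.image limι, ?_⟩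
      rw [Finset.coe_image]
    have hclosed : IsClosed
        ((Ideal.span ((limι (𝒪 := 𝒪) (𝒥 := 𝒥)) '' (Z₀ : Set Λ)) : Ideal _) :
          Set (limRing (𝒪 := 𝒪) 𝒥)) :=
      (Ideal.isCompact_of_fg hfg).isClosed
    refine mem_of_isClosed_of_forall_proj ⟨𝔪₀, H.h_top⟩ H.h_inf hclosed b fun 𝔞 => ?_
    obtain ⟨x, hx, hxa⟩ := H.proj_mem_map 𝔞 b (mem_limKer.mp hb)
    obtain ⟨s, hs, t, ht, hst⟩ := Submodule.mem_sup.mp (hgen 𝔞.1 𝔞.2 hx)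
    refine ⟨limι s, ?_, ?_⟩
    · have h1 := Ideal.mem_map_of_mem (limι (𝒪 := 𝒪) (𝒥 := 𝒥)) hs
      rwa [Ideal.map_span] at h1
    · rw [hxa, limProj_ι, ← hst, map_add, (Ideal.Quotient.eq_zero_iff_mem).mpr ht, add_zero]
  · rw [Ideal.span_le]
    rintro _ ⟨z, hz, rfl⟩
    refine mem_limKer.mpr ?_
    rw [limProj_ι]
    exact Ideal.Quotient.eq_zero_iff_mem.mpr (hZ z hz)

lemma ProRepHyp.isHausdorff (H : ProRepHyp 𝒪 Λ 𝔪₀ 𝒥) :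
    IsHausdorff (limKer (𝒪 := 𝒪) H.top) (limRing (𝒪 := 𝒪) 𝒥) := by
  refine ⟨fun x hx => lim_ext fun 𝔞 => ?_⟩
  obtain ⟨n, hn⟩ := H.h_nil 𝔞.1 𝔞.2
  have h1 := hx n
  rw [SModEq.zero, smul_eq_mul, Ideal.mul_top] at h1
  rw [map_zero]
  exact mem_limKer.mp (H.pow_le_limKer 𝔞 hn h1)

lemma ProRepHyp.isPrecomplete (H : ProRepHyp 𝒪 Λ 𝔪₀ 𝒥) (hfg : (limKer (𝒪 := 𝒪) H.top).FG) :
    IsPrecomplete (limKer (𝒪 := 𝒪) H.top) (limRing (𝒪 := 𝒪) 𝒥) := by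
  have := H.compactSpace
  refine ⟨fun f hf => ?_⟩
  obtain ⟨L, hL⟩ := exists_clusterPt_of_compactSpace (Filter.map f Filter.atTop)
  refine ⟨L, fun n => ?_⟩
  have hcl : IsClosed {x : limRing (𝒪 := 𝒪) 𝒥 | f n - x ∈ limKer (𝒪 := 𝒪) H.top ^ n} := by
    have h1 : IsClosed ((limKer (𝒪 := 𝒪) H.top ^ n : Ideal _) : Set (limRing (𝒪 := 𝒪) 𝒥)) :=
      (Ideal.isCompact_of_fg (hfg.pow)).isClosed
    exact h1.preimage (continuous_const.sub continuous_id)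
  have hev : ∀ᶠ N in Filter.atTop, f N ∈ {x : limRing (𝒪 := 𝒪) 𝒥 | f n - x ∈ limKer (𝒪 := 𝒪) H.top ^ n} := by
    filter_upwards [Filter.eventually_ge_atTop n] with N hN
    have h2 := hf hN
    rw [SModEq.sub_mem, smul_eq_mul, Ideal.mul_top] at h2
    exact h2
  have hmem : L ∈ {x : limRing (𝒪 := 𝒪) 𝒥 | f n - x ∈ limKer (𝒪 := 𝒪) H.top ^ n} := by
    have h1 : ClusterPt L (Filter.principal {x : limRing (𝒪 := 𝒪) 𝒥 | f n - x ∈ limKer (𝒪 := 𝒪) H.top ^ n}) :=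
      hL.mono (Filter.le_principal_iff.mpr hev)
    exact hcl.closure_eq ▸ mem_closure_iff_clusterPt.mpr h1
  rw [SModEq.sub_mem, smul_eq_mul, Ideal.mul_top]
  exact hmem

/-- Finitely many elements of `𝔪₀` generating `𝔪₀` modulo every member of `𝒥`. -/
lemma ProRepHyp.exists_gen [IsNoetherianRing 𝒪] (H : ProRepHyp 𝒪 Λ 𝔪₀ 𝒥)
    (h_tan : ∃ N : ℕ, ∀ 𝔞 ∈ 𝒥, 𝔪₀ ^ 2 ≤ 𝔞 → (∀ c ∈ maximalIdeal 𝒪, algebraMap 𝒪 Λ c ∈ 𝔞) →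
      Nat.card (Λ ⧸ 𝔞) ≤ N) :
    ∃ Z₀ : Finset Λ, (∀ z ∈ Z₀, z ∈ 𝔪₀) ∧ ∀ 𝔞 ∈ 𝒥, 𝔪₀ ≤ Ideal.span (Z₀ : Set Λ) ⊔ 𝔞 := by
  classical
  obtain ⟨N, hN⟩ := h_tan
  -- the family of "tangent level" ideals
  let F : Set (Ideal Λ) := {𝔞 | 𝔞 ∈ 𝒥 ∧ 𝔪₀ ^ 2 ≤ 𝔞 ∧ ∀ c ∈ maximalIdeal 𝒪, algebraMap 𝒪 Λ c ∈ 𝔞}
  have hF0 : 𝔪₀ ∈ F := ⟨H.h_top, Ideal.pow_le_self two_ne_zero, H.hloc⟩
  let S : Set ℕ := {m | ∃ 𝔞 ∈ F, Nat.card (Λ ⧸ 𝔞) = m}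
  have hSne : S.Nonempty := ⟨_, 𝔪₀, hF0, rfl⟩
  have hSbdd : BddAbove S := ⟨N, by rintro m ⟨𝔞, h𝔞, rfl⟩; exact hN 𝔞 h𝔞.1 h𝔞.2.1 h𝔞.2.2⟩
  obtain ⟨J', hJ'F, hJ'card⟩ := Nat.sSup_mem hSne hSbdd
  have hmaxc : ∀ 𝔟 ∈ F, Nat.card (Λ ⧸ 𝔟) ≤ Nat.card (Λ ⧸ J') := by
    intro 𝔟 h𝔟
    rw [hJ'card]
    exact le_csSup hSbdd ⟨𝔟, h𝔟, rfl⟩
  have hmin : ∀ 𝔟 ∈ F, J' ≤ 𝔟 := by
    intro 𝔟 h𝔟
    have hcF : J' ⊓ 𝔟 ∈ F :=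
      ⟨H.h_inf _ hJ'F.1 _ h𝔟.1, le_inf hJ'F.2.1 h𝔟.2.1,
        fun c hc => ⟨hJ'F.2.2 c hc, h𝔟.2.2 c hc⟩⟩
    have := H.h_fin _ hcF.1
    have hsurj : Function.Surjective (Ideal.Quotient.factor (inf_le_left : J' ⊓ 𝔟 ≤ J')) :=
      Ideal.Quotient.factor_surjective _
    have hbij := hsurj.bijective_of_nat_card_le (hmaxc _ hcF)
    intro x hx
    have h0 : Ideal.Quotient.mk (J' ⊓ 𝔟) x = 0 := by
      apply hbij.1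
      rw [Ideal.Quotient.factor_mk, map_zero]
      exact Ideal.Quotient.eq_zero_iff_mem.mpr hx
    exact (Ideal.Quotient.eq_zero_iff_mem.mp h0).2
  -- representatives of `𝔪₀` modulo `J'`
  have := H.h_fin _ hJ'F.1
  letI : Fintype (Λ ⧸ J') := Fintype.ofFinite _
  let Y : Finset Λ := (Finset.univ.filter
    (fun q : Λ ⧸ J' => ∃ x ∈ 𝔪₀, Ideal.Quotient.mk J' x = q)).image
      (fun q => if h : ∃ x ∈ 𝔪₀, Ideal.Quotient.mk J' x = q then h.choose else 0)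
  have hY : ∀ y ∈ Y, y ∈ 𝔪₀ := by
    intro y hy
    obtain ⟨q, hq, rfl⟩ := Finset.mem_image.mp hy
    have hq' := (Finset.mem_filter.mp hq).2
    rw [dif_pos hq']
    exact hq'.choose_spec.1
  have hYgen : 𝔪₀ ≤ Ideal.span (Y : Set Λ) ⊔ J' := by
    intro x hx
    have hq' : ∃ x' ∈ 𝔪₀, Ideal.Quotient.mk J' x' = Ideal.Quotient.mk J' x := ⟨x, hx, rfl⟩
    have hmem : hq'.choose ∈ Y := by
      refine Finset.mem_image.mpr ⟨Ideal.Quotient.mk J' x, Finset.mem_filter.mpr ⟨Finset.mem_univ _, hq'⟩, ?_⟩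
      rw [dif_pos hq']
    have hdiff : x - hq'.choose ∈ J' := by
      rw [← Ideal.Quotient.mk_eq_mk_iff_sub_mem]
      exact hq'.choose_spec.2.symm
    have : x = hq'.choose + (x - hq'.choose) := by ring
    rw [this]
    exact Submodule.add_mem_sup (Ideal.subset_span hmem) hdiff
  -- generators of the maximal ideal of `𝒪`
  obtain ⟨P₀, hP₀⟩ : (maximalIdeal 𝒪).FG := (isNoetherianRing_iff_ideal_fg 𝒪).mp inferInstance _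
  refine ⟨P₀.image (algebraMap 𝒪 Λ) ∪ Y, ?_, ?_⟩
  · intro z hz
    rcases Finset.mem_union.mp hz with hz | hz
    · obtain ⟨c, hc, rfl⟩ := Finset.mem_image.mp hz
      exact H.hloc c (hP₀ ▸ Ideal.subset_span hc)
    · exact hY z hz
  · intro 𝔞 h𝔞
    set Z₀ : Finset Λ := P₀.image (algebraMap 𝒪 Λ) ∪ Y with hZ₀
    have hmapm : Ideal.map (algebraMap 𝒪 Λ) (maximalIdeal 𝒪) ≤ Ideal.span (Z₀ : Set Λ) := by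
      rw [← hP₀, Ideal.map_span]
      refine Ideal.span_mono ?_
      rw [hZ₀, Finset.coe_union, Finset.coe_image]
      exact Set.subset_union_left
    have hYZ : Ideal.span (Y : Set Λ) ≤ Ideal.span (Z₀ : Set Λ) := by
      refine Ideal.span_mono ?_
      rw [hZ₀, Finset.coe_union]
      exact Set.subset_union_right
    have hmapm' : Ideal.map (algebraMap 𝒪 Λ) (maximalIdeal 𝒪) ≤ 𝔪₀ :=
      Ideal.map_le_iff_le_comap.mpr fun c hc => H.hloc c hc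
    let 𝔞' : Ideal Λ := 𝔞 ⊔ 𝔪₀ ^ 2 ⊔ Ideal.map (algebraMap 𝒪 Λ) (maximalIdeal 𝒪)
    have h𝔞'le : 𝔞' ≤ 𝔪₀ :=
      sup_le (sup_le (H.h_le 𝔞 h𝔞) (Ideal.pow_le_self two_ne_zero)) hmapm'
    have h𝔞'F : 𝔞' ∈ F :=
      ⟨H.h_up 𝔞 h𝔞 𝔞' (le_sup_left.trans le_sup_left) h𝔞'le, le_sup_right.trans le_sup_left,
        fun c hc => le_sup_right (α := Ideal Λ) (Ideal.mem_map_of_mem _ hc)⟩
    have h1 : 𝔪₀ ≤ (Ideal.span (Z₀ : Set Λ) ⊔ 𝔞) ⊔ 𝔪₀ ^ 2 := by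
      refine hYgen.trans (sup_le (hYZ.trans (le_sup_left.trans le_sup_left)) ?_)
      refine (hmin 𝔞' h𝔞'F).trans (sup_le (sup_le ?_ le_sup_right) ?_)
      · exact le_sup_right.trans le_sup_left
      · exact hmapm.trans (le_sup_left.trans le_sup_left)
    obtain ⟨n, hn⟩ := H.h_nil 𝔞 h𝔞
    exact ideal_le_of_le_sup_sq 𝔪₀ _ h1 n (hn.trans le_sup_right)

/-- The pro-representing ring, from a finite generating family. -/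
theorem ProRepHyp.nonempty_proRep_of_gen [IsNoetherianRing 𝒪] (H : ProRepHyp 𝒪 Λ 𝔪₀ 𝒥)
    (Z₀ : Finset Λ) (hZ : ∀ z ∈ Z₀, z ∈ 𝔪₀)
    (hgen : ∀ 𝔞 ∈ 𝒥, 𝔪₀ ≤ Ideal.span (Z₀ : Set Λ) ⊔ 𝔞) :
    Nonempty (ProRep 𝒪 Λ 𝔪₀ 𝒥) := by
  classical
  letI : IsLocalRing (limRing (𝒪 := 𝒪) 𝒥) := H.isLocalRing
  have hmax : maximalIdeal (limRing (𝒪 := 𝒪) 𝒥) = limKer H.top := by
    ext a; rw [H.mem_maximalIdeal_iff, mem_limKer]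
  have hspan := H.limKer_top_eq_span Z₀ hZ hgen
  have hfg : (limKer (𝒪 := 𝒪) H.top).FG := ⟨Z₀.image limι, by rw [Finset.coe_image, hspan]⟩
  haveI hH : IsHausdorff (limKer (𝒪 := 𝒪) H.top) (limRing (𝒪 := 𝒪) 𝒥) := H.isHausdorff
  haveI hP : IsPrecomplete (limKer (𝒪 := 𝒪) H.top) (limRing (𝒪 := 𝒪) 𝒥) := H.isPrecomplete hfg
  haveI hC : IsAdicComplete (limKer (𝒪 := 𝒪) H.top) (limRing (𝒪 := 𝒪) 𝒥) := {}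
  have hres : ∀ r : limRing (𝒪 := 𝒪) 𝒥,
      ∃ c : 𝒪, r - algebraMap 𝒪 (limRing (𝒪 := 𝒪) 𝒥) c ∈ limKer (𝒪 := 𝒪) H.top := by
    intro r
    obtain ⟨x, hx⟩ := Ideal.Quotient.mk_surjective (limProj H.top r)
    obtain ⟨c, hc⟩ := H.hres x
    refine ⟨c, mem_limKer.mpr ?_⟩
    rw [map_sub, AlgHom.commutes, ← hx, sub_eq_zero]
    exact Ideal.Quotient.mk_eq_mk_iff_sub_mem _ _ |>.mpr hc
  obtain ⟨f, hf⟩ := exists_surjective_mvPowerSeries (𝒪 := 𝒪) (limKer (𝒪 := 𝒪) H.top)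
    (σ := ↥Z₀) (fun i => limι (𝒪 := 𝒪) (𝒥 := 𝒥) i.1) (by
      rw [hspan]
      congr 1
      ext a
      simp) hres
  haveI : IsNoetherianRing (limRing (𝒪 := 𝒪) 𝒥) :=
    isNoetherianRing_of_surjective _ _ (f : MvPowerSeries ↥Z₀ 𝒪 →+* limRing (𝒪 := 𝒪) 𝒥) hf
  haveI := H.compactSpace
  have hopen : ∀ n : ℕ, ∃ 𝔞 : 𝒥,
      limKer (𝒪 := 𝒪) 𝔞 ≤ maximalIdeal (limRing (𝒪 := 𝒪) 𝒥) ^ n := by
    intro n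
    obtain ⟨𝔞, h𝔞⟩ := exists_ker_subset_of_isOpen ⟨𝔪₀, H.h_top⟩ H.h_inf
      (IsLocalRing.isOpen_maximalIdeal_pow (limRing (𝒪 := 𝒪) 𝒥) n) (zero_mem _)
    exact ⟨𝔞, fun a ha => h𝔞 a (mem_limKer.mp ha)⟩
  have hlocal : IsLocalHom (algebraMap 𝒪 (limRing (𝒪 := 𝒪) 𝒥)) := by
    refine ⟨fun c hc => ?_⟩
    by_contra hcu
    have h1 : c ∈ maximalIdeal 𝒪 := (IsLocalRing.mem_maximalIdeal c).mpr hcu
    have h2 := (H.isUnit_iff _).mp hc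
    apply h2
    rw [AlgHom.commutes]
    exact Ideal.Quotient.eq_zero_iff_mem.mpr (H.hloc c h1)
  refine ⟨{ R := limRing (𝒪 := 𝒪) 𝒥
            instIsAdicComplete := hmax ▸ hC
            instIsLocalHom := hlocal
            residue_surjective := ?_
            ι := limι
            ι_dense := ?_
            comap_mem := ?_
            comap_le := ?_ }⟩
  · intro y
    obtain ⟨r, rfl⟩ := IsLocalRing.residue_surjective y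
    obtain ⟨c, hc⟩ := hres r
    refine ⟨c, ?_⟩
    rw [Function.comp_apply, eq_comm]
    refine Ideal.Quotient.mk_eq_mk_iff_sub_mem _ _ |>.mpr ?_
    rw [hmax]; exact hc
  · intro n x
    obtain ⟨𝔞, h𝔞⟩ := hopen n
    obtain ⟨y, hy⟩ := Ideal.Quotient.mk_surjective (limProj 𝔞 x)
    refine ⟨y, h𝔞 (mem_limKer.mpr ?_)⟩
    rw [map_sub, limProj_ι, hy, sub_self]
  · intro n hn
    obtain ⟨𝔞, h𝔞⟩ := hopen n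
    refine H.h_up 𝔞.1 𝔞.2 _ ?_ ?_
    · intro y hy
      refine Ideal.mem_comap.mpr (h𝔞 (mem_limKer.mpr ?_))
      rw [limProj_ι]
      exact Ideal.Quotient.eq_zero_iff_mem.mpr hy
    · intro y hy
      have h1 : limι (𝒪 := 𝒪) (𝒥 := 𝒥) y ∈ maximalIdeal (limRing (𝒪 := 𝒪) 𝒥) :=
        Ideal.pow_le_self hn.ne' (Ideal.mem_comap.mp hy)
      rw [hmax, mem_limKer, limProj_ι] at h1
      exact Ideal.Quotient.eq_zero_iff_mem.mp h1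
  · intro n 𝔞 h𝔞 hle y hy
    have h1 : limι (𝒪 := 𝒪) (𝒥 := 𝒥) y ∈ limKer (𝒪 := 𝒪) H.top ^ n := by
      rw [← hmax]; exact Ideal.mem_comap.mp hy
    have h2 := H.pow_le_limKer ⟨𝔞, h𝔞⟩ hle h1
    rw [mem_limKer, limProj_ι] at h2
    exact Ideal.Quotient.eq_zero_iff_mem.mp h2

end Topology

/-- **Pro-representability** (abstract form): a family `𝒥` of ideals of an `𝒪`-algebra `Λ`
which is closed under finite intersections and enlargement inside `𝔪₀`, has finite nilpotent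
quotients and bounded tangent level, is "pro-represented" by a complete Noetherian local
`𝒪`-algebra. -/
theorem nonempty_proRep (𝒪 Λ : Type) [CommRing 𝒪] [IsLocalRing 𝒪] [IsNoetherianRing 𝒪]
    [Finite (ResidueField 𝒪)] [CommRing Λ] [Algebra 𝒪 Λ] (𝔪₀ : Ideal Λ) (𝒥 : Set (Ideal Λ))
    (hne : 𝔪₀ ≠ ⊤) (hres : ∀ x : Λ, ∃ c : 𝒪, x - algebraMap 𝒪 Λ c ∈ 𝔪₀)
    (hloc : ∀ c ∈ maximalIdeal 𝒪, algebraMap 𝒪 Λ c ∈ 𝔪₀)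
    (h_top : 𝔪₀ ∈ 𝒥) (h_le : ∀ 𝔞 ∈ 𝒥, 𝔞 ≤ 𝔪₀) (h_inf : ∀ 𝔞 ∈ 𝒥, ∀ 𝔟 ∈ 𝒥, 𝔞 ⊓ 𝔟 ∈ 𝒥)
    (h_up : ∀ 𝔞 ∈ 𝒥, ∀ 𝔟 : Ideal Λ, 𝔞 ≤ 𝔟 → 𝔟 ≤ 𝔪₀ → 𝔟 ∈ 𝒥)
    (h_fin : ∀ 𝔞 ∈ 𝒥, Finite (Λ ⧸ 𝔞)) (h_nil : ∀ 𝔞 ∈ 𝒥, ∃ n, 𝔪₀ ^ n ≤ 𝔞)
    (h_tan : ∃ N : ℕ, ∀ 𝔞 ∈ 𝒥, 𝔪₀ ^ 2 ≤ 𝔞 → (∀ c ∈ maximalIdeal 𝒪, algebraMap 𝒪 Λ c ∈ 𝔞) →
      Nat.card (Λ ⧸ 𝔞) ≤ N) :
    Nonempty (ProRep 𝒪 Λ 𝔪₀ 𝒥) := by
  have H : ProRepHyp 𝒪 Λ 𝔪₀ 𝒥 := ⟨hne, hres, hloc, h_top, h_le, h_inf, h_up, h_fin, h_nil⟩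
  obtain ⟨Z₀, hZ, hgen⟩ := H.exists_gen h_tan
  exact H.nonempty_proRep_of_gen Z₀ hZ hgen

/-- The same statement with the structure unfolded into an existential (no dependence on
the structure `ProRep`). -/
theorem exists_proRep (𝒪 Λ : Type) [CommRing 𝒪] [IsLocalRing 𝒪] [IsNoetherianRing 𝒪]
    [Finite (ResidueField 𝒪)] [CommRing Λ] [Algebra 𝒪 Λ] (𝔪₀ : Ideal Λ) (𝒥 : Set (Ideal Λ))
    (hne : 𝔪₀ ≠ ⊤) (hres : ∀ x : Λ, ∃ c : 𝒪, x - algebraMap 𝒪 Λ c ∈ 𝔪₀)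
    (hloc : ∀ c ∈ maximalIdeal 𝒪, algebraMap 𝒪 Λ c ∈ 𝔪₀)
    (h_top : 𝔪₀ ∈ 𝒥) (h_le : ∀ 𝔞 ∈ 𝒥, 𝔞 ≤ 𝔪₀) (h_inf : ∀ 𝔞 ∈ 𝒥, ∀ 𝔟 ∈ 𝒥, 𝔞 ⊓ 𝔟 ∈ 𝒥)
    (h_up : ∀ 𝔞 ∈ 𝒥, ∀ 𝔟 : Ideal Λ, 𝔞 ≤ 𝔟 → 𝔟 ≤ 𝔪₀ → 𝔟 ∈ 𝒥)
    (h_fin : ∀ 𝔞 ∈ 𝒥, Finite (Λ ⧸ 𝔞)) (h_nil : ∀ 𝔞 ∈ 𝒥, ∃ n, 𝔪₀ ^ n ≤ 𝔞)
    (h_tan : ∃ N : ℕ, ∀ 𝔞 ∈ 𝒥, 𝔪₀ ^ 2 ≤ 𝔞 → (∀ c ∈ maximalIdeal 𝒪, algebraMap 𝒪 Λ c ∈ 𝔞) →
      Nat.card (Λ ⧸ 𝔞) ≤ N) :
    ∃ (R : Type) (_ : CommRing R) (_ : IsLocalRing R) (_ : IsNoetherianRing R)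
      (_ : IsAdicComplete (maximalIdeal R) R) (_ : Algebra 𝒪 R)
      (_ : IsLocalHom (algebraMap 𝒪 R)) (ι : Λ →ₐ[𝒪] R),
      Function.Surjective (IsLocalRing.residue R ∘ algebraMap 𝒪 R) ∧
      (∀ n (x : R), ∃ y : Λ, x - ι y ∈ maximalIdeal R ^ n) ∧
      (∀ n, 0 < n → (maximalIdeal R ^ n).comap ι ∈ 𝒥) ∧
      (∀ n, ∀ 𝔞 ∈ 𝒥, 𝔪₀ ^ n ≤ 𝔞 → (maximalIdeal R ^ n).comap ι ≤ 𝔞) := by
  obtain ⟨P⟩ := nonempty_proRep 𝒪 Λ 𝔪₀ 𝒥 hne hres hloc h_top h_le h_inf h_up h_fin h_nil h_tan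
  exact ⟨P.R, P.instCommRing, P.instIsLocalRing, P.instIsNoetherianRing, P.instIsAdicComplete,
    P.instAlgebra, P.instIsLocalHom, P.ι, P.residue_surjective, P.ι_dense, P.comap_mem,
    P.comap_le⟩

end Fermat.Agent.S53.helper233
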