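/-
S53, RING (backup implementation, helper257): the abstract pro-representing ring,
`Fermat.Agent.S53.helper773.Stmt_nonempty_proRep`.

Layer A (`Chain`): from a chain of ideals `𝔞 n` of `Λ` with `𝔪₀ ^ n ≤ 𝔞 n`, `𝔞 1 = 𝔪₀`,
`𝔞 n ≤ 𝔞 (n+1) ⊔ 𝔪₀ ^ n` and uniform generators `y` of `𝔪₀` modulo every `𝔞 n`, build
`R = MvPowerSeries σ 𝒪 ⧸ ⨅ n, ker (W → Λ ⧸ 𝔞 n)`, a complete Noetherian local `𝒪`-algebra with a
dense map `ι : Λ → R` such that `ι⁻¹ (𝔪_R ^ n) = 𝔞 n`.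
-/
import Mathlib
import Fermat.Prelude.Thm_IsAdicComplete_of_module_finite
import Fermat.Agent.S53.helper1433_PowerSeries
import Fermat.Agent.S53.helper773_ProRepSpec

set_option autoImplicit false

namespace Fermat.Agent.S53.helper257

open IsLocalRing
open Fermat.Agent.S53.helper1433 (varIdeal levelHom)

section Gen

/-- If `A = 𝒪·1 + M`, `M` is generated (as an ideal) by the `a i ∈ M`, and `M ^ N = ⊥`, then `A` is
generated as an `𝒪`-algebra by the `a i`. -/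
theorem aeval_surjective_of_pow_eq_bot {𝒪 A σ : Type*} [CommRing 𝒪] [CommRing A] [Algebra 𝒪 A]
    [Finite σ] (M : Ideal A) (a : σ → A) (ha : ∀ i, a i ∈ M)
    (hres : ∀ x : A, ∃ c : 𝒪, x - algebraMap 𝒪 A c ∈ M)
    (hgen : M ≤ Ideal.span (Set.range a)) (N : ℕ) (hN : M ^ N = ⊥) :
    Function.Surjective (MvPolynomial.aeval a : MvPolynomial σ 𝒪 →ₐ[𝒪] A) := by
  classical
  cases nonempty_fintype σ
  set S : Subalgebra 𝒪 A := (MvPolynomial.aeval a : MvPolynomial σ 𝒪 →ₐ[𝒪] A).range with hS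
  have haS : ∀ i, a i ∈ S := fun i => ⟨MvPolynomial.X i, by simp⟩
  have claim : ∀ j : ℕ, ∀ x ∈ M ^ j, ∃ s ∈ S, x - s ∈ M ^ (j + 1) := by
    intro j
    induction j with
    | zero =>
      intro x _
      obtain ⟨c, hc⟩ := hres x
      exact ⟨algebraMap 𝒪 A c, S.algebraMap_mem c, by simpa using hc⟩
    | succ j ih =>
      intro x hx
      rw [pow_succ] at hx
      refine Submodule.mul_induction_on hx ?_ ?_
      · intro u hu v hv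
        obtain ⟨s, hs, hus⟩ := ih u hu
        obtain ⟨c, hc⟩ := (Ideal.mem_span_range_iff_exists_fun).mp (hgen hv)
        choose d hd using fun i => hres (c i)
        have hsM : s ∈ M ^ j := by
          have : s = u - (u - s) := by ring
          rw [this]
          exact Ideal.sub_mem _ hu (Ideal.pow_le_pow_right (Nat.le_succ j) hus)
        refine ⟨s * ∑ i, algebraMap 𝒪 A (d i) * a i, ?_, ?_⟩
        · exact S.mul_mem hs (S.sum_mem fun i _ => S.mul_mem (S.algebraMap_mem _) (haS i))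
        · have e : u * v - s * ∑ i, algebraMap 𝒪 A (d i) * a i =
              (u - s) * v + s * ∑ i, (c i - algebraMap 𝒪 A (d i)) * a i := by
            rw [← hc]
            simp only [sub_mul, Finset.sum_sub_distrib]
            ring
          rw [e]
          refine Ideal.add_mem _ ?_ ?_
          · have := Ideal.mul_mem_mul hus hv
            rwa [← pow_succ] at this
          · have h2 : ∑ i, (c i - algebraMap 𝒪 A (d i)) * a i ∈ M ^ 2 := by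
              refine Ideal.sum_mem _ fun i _ => ?_
              rw [pow_two]
              exact Ideal.mul_mem_mul (hd i) (ha i)
            have := Ideal.mul_mem_mul hsM h2
            rwa [← pow_add] at this
      · rintro x y ⟨s, hs, hxs⟩ ⟨t, ht, hyt⟩
        refine ⟨s + t, S.add_mem hs ht, ?_⟩
        have : x + y - (s + t) = (x - s) + (y - t) := by ring
        rw [this]
        exact Ideal.add_mem _ hxs hyt
  have key : ∀ k j : ℕ, k + j = N → ∀ x ∈ M ^ j, x ∈ S := by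
    intro k
    induction k with
    | zero =>
      intro j hj x hx
      have hj' : j = N := by omega
      rw [hj', hN] at hx
      rw [(Submodule.mem_bot A).mp hx]
      exact S.zero_mem
    | succ k ih =>
      intro j hj x hx
      obtain ⟨s, hs, hxs⟩ := claim j x hx
      have := ih (j + 1) (by omega) (x - s) hxs
      have e : x = (x - s) + s := by ring
      rw [e]
      exact S.add_mem this hs
  intro x
  have hx := key N 0 (by omega) x (by simp)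
  exact hx

end Gen

section Ev

variable {𝒪 Λ σ : Type*} [CommRing 𝒪] [CommRing Λ] [Algebra 𝒪 Λ] [Finite σ]
  (𝔪₀ : Ideal Λ) (y : σ → Λ) (hy : ∀ i, y i ∈ 𝔪₀)

/-- Evaluation `X i ↦ y i` from the power series ring to a quotient of `Λ` killing `𝔪₀ ^ n`. -/
noncomputable def evHom (𝔞 : Ideal Λ) (n : ℕ) (h : 𝔪₀ ^ n ≤ 𝔞) :
    MvPowerSeries σ 𝒪 →ₐ[𝒪] Λ ⧸ 𝔞 :=
  (Ideal.Quotient.factorₐ 𝒪 h).comp (levelHom 𝔪₀ y hy n)

theorem evHom_apply (𝔞 : Ideal Λ) (n : ℕ) (h : 𝔪₀ ^ n ≤ 𝔞) (f : MvPowerSeries σ 𝒪) :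
    evHom 𝔪₀ y hy 𝔞 n h f =
      Ideal.Quotient.mk 𝔞 (MvPolynomial.aeval y (MvPowerSeries.truncTotal n f)) := rfl

theorem evHom_coe (𝔞 : Ideal Λ) (n : ℕ) (h : 𝔪₀ ^ n ≤ 𝔞) (p : MvPolynomial σ 𝒪) :
    evHom 𝔪₀ y hy 𝔞 n h (p : MvPowerSeries σ 𝒪) =
      Ideal.Quotient.mk 𝔞 (MvPolynomial.aeval y p) := by
  rw [evHom, AlgHom.comp_apply, helper1433.levelHom_coe]
  rfl

theorem evHom_X (𝔞 : Ideal Λ) (n : ℕ) (h : 𝔪₀ ^ n ≤ 𝔞) (i : σ) :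
    evHom (𝒪 := 𝒪) 𝔪₀ y hy 𝔞 n h (MvPowerSeries.X i) = Ideal.Quotient.mk 𝔞 (y i) := by
  rw [← MvPolynomial.coe_X, evHom_coe, MvPolynomial.aeval_X]

theorem evHom_compat {𝔞 𝔞' : Ideal Λ} {n n' : ℕ} (h : 𝔪₀ ^ n ≤ 𝔞) (h' : 𝔪₀ ^ n' ≤ 𝔞')
    (hle : 𝔞' ≤ 𝔞) (f : MvPowerSeries σ 𝒪) :
    Ideal.Quotient.factor hle (evHom 𝔪₀ y hy 𝔞' n' h' f) = evHom 𝔪₀ y hy 𝔞 n h f := by
  rw [evHom_apply, evHom_apply, Ideal.Quotient.factor_mk, Ideal.Quotient.mk_eq_mk_iff_sub_mem,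
    ← map_sub]
  have hmin : 𝔪₀ ^ (min n n') ≤ 𝔞 := by
    rcases le_total n n' with hnn | hnn
    · rw [min_eq_left hnn]; exact h
    · rw [min_eq_right hnn]; exact h'.trans hle
  exact hmin (helper1433.aeval_mem_pow 𝔪₀ y hy _
    (MvPowerSeries.truncTotal_sub_truncTotal_mem_pow_idealOfVars (min_le_right _ _)
      (min_le_left _ _) f))

omit [Finite σ] in
theorem map_mk_le_span (𝔞 : Ideal Λ) (hgen : 𝔪₀ ≤ 𝔞 ⊔ Ideal.span (Set.range y)) :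
    𝔪₀.map (Ideal.Quotient.mk 𝔞) ≤
      Ideal.span (Set.range fun i => Ideal.Quotient.mk 𝔞 (y i)) := by
  refine (Ideal.map_mono hgen).trans ?_
  rw [Ideal.map_sup, Ideal.map_quotient_self, bot_sup_eq, Ideal.map_span, ← Set.range_comp]
  exact le_rfl

theorem map_mk_pow_eq_bot (𝔞 : Ideal Λ) (n : ℕ) (h : 𝔪₀ ^ n ≤ 𝔞) :
    (𝔪₀.map (Ideal.Quotient.mk 𝔞)) ^ n = ⊥ := by
  rw [← Ideal.map_pow]
  exact Ideal.map_mk_eq_bot_of_le h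

theorem evHom_mem_pow (𝔞 : Ideal Λ) (n : ℕ) (h : 𝔪₀ ^ n ≤ 𝔞) (j : ℕ) {g : MvPowerSeries σ 𝒪}
    (hg : g ∈ varIdeal σ 𝒪 ^ j) :
    evHom 𝔪₀ y hy 𝔞 n h g ∈ (𝔪₀.map (Ideal.Quotient.mk 𝔞)) ^ j :=
  helper1433.map_mem_pow_of_X_mem _ _
    (fun i => by rw [evHom_X]; exact Ideal.mem_map_of_mem _ (hy i)) j hg

theorem evHom_eq_zero_of_mem_pow (𝔞 : Ideal Λ) (n : ℕ) (h : 𝔪₀ ^ n ≤ 𝔞) {g : MvPowerSeries σ 𝒪}
    (hg : g ∈ varIdeal σ 𝒪 ^ n) : evHom 𝔪₀ y hy 𝔞 n h g = 0 := by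
  have := evHom_mem_pow 𝔪₀ y hy 𝔞 n h n hg
  rw [map_mk_pow_eq_bot 𝔪₀ 𝔞 n h] at this
  exact (Submodule.mem_bot _).mp this

theorem evHom_surjective (hres : ∀ x : Λ, ∃ c : 𝒪, x - algebraMap 𝒪 Λ c ∈ 𝔪₀) (𝔞 : Ideal Λ)
    (n : ℕ) (h : 𝔪₀ ^ n ≤ 𝔞) (hgen : 𝔪₀ ≤ 𝔞 ⊔ Ideal.span (Set.range y)) :
    Function.Surjective (evHom (𝒪 := 𝒪) 𝔪₀ y hy 𝔞 n h) := by
  intro x
  have hres' : ∀ x : Λ ⧸ 𝔞, ∃ c : 𝒪, x - algebraMap 𝒪 (Λ ⧸ 𝔞) c ∈ 𝔪₀.map (Ideal.Quotient.mk 𝔞) := by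
    intro x
    obtain ⟨x', rfl⟩ := Ideal.Quotient.mk_surjective x
    obtain ⟨c, hc⟩ := hres x'
    exact ⟨c, by simpa using Ideal.mem_map_of_mem (Ideal.Quotient.mk 𝔞) hc⟩
  have hsurj := aeval_surjective_of_pow_eq_bot (𝒪 := 𝒪) (𝔪₀.map (Ideal.Quotient.mk 𝔞))
    (fun i => Ideal.Quotient.mk 𝔞 (y i)) (fun i => Ideal.mem_map_of_mem _ (hy i)) hres'
    (map_mk_le_span 𝔪₀ y 𝔞 hgen) n (map_mk_pow_eq_bot 𝔪₀ 𝔞 n h)
  obtain ⟨p, hp⟩ := hsurj x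
  refine ⟨(p : MvPowerSeries σ 𝒪), ?_⟩
  rw [evHom_coe, ← hp]
  have := MvPolynomial.comp_aeval_apply (f := y) (Ideal.Quotient.mkₐ 𝒪 𝔞) p
  simpa using this

end Ev

/-- Data of Layer A: a chain of ideals with uniform generators. -/
structure Chain (𝒪 Λ σ : Type) [CommRing 𝒪] [IsLocalRing 𝒪] [CommRing Λ] [Algebra 𝒪 Λ] :
    Type where
  𝔪₀ : Ideal Λ
  ne_top : 𝔪₀ ≠ ⊤
  res : ∀ x : Λ, ∃ c : 𝒪, x - algebraMap 𝒪 Λ c ∈ 𝔪₀
  loc : ∀ c ∈ maximalIdeal 𝒪, algebraMap 𝒪 Λ c ∈ 𝔪₀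
  𝔞 : ℕ → Ideal Λ
  one : 𝔞 1 = 𝔪₀
  pow_le : ∀ n, 𝔪₀ ^ n ≤ 𝔞 n
  anti : Antitone 𝔞
  step : ∀ n, 𝔞 n ≤ 𝔞 (n + 1) ⊔ 𝔪₀ ^ n
  y : σ → Λ
  y_mem : ∀ i, y i ∈ 𝔪₀
  gen : ∀ n, 𝔪₀ ≤ 𝔞 n ⊔ Ideal.span (Set.range y)

namespace Chain

variable {𝒪 Λ σ : Type} [CommRing 𝒪] [IsLocalRing 𝒪] [CommRing Λ] [Algebra 𝒪 Λ] [Finite σ]
  (C : Chain 𝒪 Λ σ)

/-- The evaluation map `W → Λ ⧸ 𝔞 n`. -/
noncomputable def ev (n : ℕ) : MvPowerSeries σ 𝒪 →ₐ[𝒪] Λ ⧸ C.𝔞 n :=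
  evHom C.𝔪₀ C.y C.y_mem (C.𝔞 n) n (C.pow_le n)

/-- Its kernel. -/
noncomputable def K (n : ℕ) : Ideal (MvPowerSeries σ 𝒪) := RingHom.ker (C.ev n)

theorem mem_K {n : ℕ} {w : MvPowerSeries σ 𝒪} : w ∈ C.K n ↔ C.ev n w = 0 := RingHom.mem_ker

theorem ev_surjective (n : ℕ) : Function.Surjective (C.ev n) :=
  evHom_surjective C.𝔪₀ C.y C.y_mem C.res _ _ _ (C.gen n)

theorem ev_compat {m n : ℕ} (hmn : m ≤ n) (w : MvPowerSeries σ 𝒪) :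
    Ideal.Quotient.factor (C.anti hmn) (C.ev n w) = C.ev m w :=
  evHom_compat C.𝔪₀ C.y C.y_mem _ _ (C.anti hmn) w

theorem pow_le_K (n : ℕ) : varIdeal σ 𝒪 ^ n ≤ C.K n := fun _ hg =>
  C.mem_K.mpr (evHom_eq_zero_of_mem_pow C.𝔪₀ C.y C.y_mem _ _ _ hg)

theorem K_anti : Antitone C.K := by
  intro m n hmn w hw
  rw [mem_K] at hw ⊢
  rw [← C.ev_compat hmn, hw, map_zero]

theorem K_step (n : ℕ) : C.K n ≤ C.K (n + 1) ⊔ varIdeal σ 𝒪 ^ n := by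
  intro w hw
  rw [mem_K] at hw
  obtain ⟨a, ha⟩ := Ideal.Quotient.mk_surjective (C.ev (n + 1) w)
  have h0 : Ideal.Quotient.mk (C.𝔞 n) a = 0 := by
    rw [← hw, ← C.ev_compat (Nat.le_succ n) w, ← ha, Ideal.Quotient.factor_mk]
  have ha2 : a ∈ C.𝔞 (n + 1) ⊔ C.𝔪₀ ^ n := C.step n (Ideal.Quotient.eq_zero_iff_mem.mp h0)
  obtain ⟨a', ha', b, hb, rfl⟩ := Submodule.mem_sup.mp ha2
  have hb' : Ideal.Quotient.mk (C.𝔞 (n + 1)) b ∈ (varIdeal σ 𝒪 ^ n).map (C.ev (n + 1)) := by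
    rw [Ideal.map_pow]
    have h1 : (C.𝔪₀.map (Ideal.Quotient.mk (C.𝔞 (n + 1)))) ≤
        (varIdeal σ 𝒪).map (C.ev (n + 1)) := by
      refine (map_mk_le_span C.𝔪₀ C.y _ (C.gen (n + 1))).trans ?_
      rw [Ideal.span_le]
      rintro _ ⟨i, rfl⟩
      have e : Ideal.Quotient.mk (C.𝔞 (n + 1)) (C.y i) = C.ev (n + 1) (MvPowerSeries.X i) :=
        (evHom_X ..).symm
      show Ideal.Quotient.mk (C.𝔞 (n + 1)) (C.y i) ∈ _
      rw [e]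
      exact Ideal.mem_map_of_mem _ (Ideal.subset_span ⟨i, rfl⟩)
    refine Ideal.pow_right_mono h1 n ?_
    rw [← Ideal.map_pow]
    exact Ideal.mem_map_of_mem _ hb
  obtain ⟨u, hu, hub⟩ :=
    (Ideal.mem_map_iff_of_surjective (C.ev (n + 1)) (C.ev_surjective (n + 1))).mp hb'
  have hwu : w - u ∈ C.K (n + 1) := by
    rw [mem_K, map_sub, hub, ← ha, map_add, Ideal.Quotient.eq_zero_iff_mem.mpr ha', zero_add,
      sub_self]
  have : w = (w - u) + u := by ring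
  rw [this]
  exact Submodule.add_mem_sup hwu hu

/-- The kernel of `W → lim Λ ⧸ 𝔞 n`. -/
noncomputable def 𝔎 : Ideal (MvPowerSeries σ 𝒪) := ⨅ n, C.K n

theorem 𝔎_le_K (n : ℕ) : C.𝔎 ≤ C.K n := iInf_le _ n

theorem K_eq (n : ℕ) : C.K n = C.𝔎 ⊔ varIdeal σ 𝒪 ^ n :=
  helper1433.eq_iInf_sup_pow (varIdeal σ 𝒪) C.K C.K_anti C.K_step C.pow_le_K n

theorem one_notMem_K_one : (1 : MvPowerSeries σ 𝒪) ∉ C.K 1 := by
  rw [mem_K, map_one]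
  intro h
  have h1 : (1 : Λ) ∈ C.𝔞 1 := Ideal.Quotient.eq_zero_iff_mem.mp (by simpa using h)
  rw [C.one] at h1
  exact C.ne_top ((Ideal.eq_top_iff_one _).mpr h1)

theorem K_one_ne_top : C.K 1 ≠ ⊤ := fun h => C.one_notMem_K_one (h ▸ Submodule.mem_top)

theorem K_one_eq : C.K 1 = maximalIdeal (MvPowerSeries σ 𝒪) := by
  refine le_antisymm (le_maximalIdeal C.K_one_ne_top) ?_
  rw [helper1433.maximalIdeal_eq_sup]
  refine sup_le ?_ ?_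
  · have := C.pow_le_K 1
    rwa [pow_one] at this
  · rw [Ideal.map_le_iff_le_comap]
    intro c hc
    rw [Ideal.mem_comap, mem_K, AlgHom.commutes]
    show Ideal.Quotient.mk _ (algebraMap 𝒪 Λ c) = 0
    exact Ideal.Quotient.eq_zero_iff_mem.mpr (C.one ▸ C.loc c hc)

/-- The ring of Layer A. -/
abbrev R : Type := MvPowerSeries σ 𝒪 ⧸ C.𝔎

instance : Nontrivial C.R :=
  Ideal.Quotient.nontrivial_iff.mpr
    (fun h => C.K_one_ne_top (top_le_iff.mp (h ▸ C.𝔎_le_K 1)))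

instance : IsLocalRing C.R :=
  IsLocalRing.of_surjective' (Ideal.Quotient.mk C.𝔎) Ideal.Quotient.mk_surjective

theorem maximalIdeal_R_eq' :
    maximalIdeal C.R = (maximalIdeal (MvPowerSeries σ 𝒪)).map (Ideal.Quotient.mk C.𝔎) := by
  apply le_antisymm
  · intro x hx
    obtain ⟨w, rfl⟩ := Ideal.Quotient.mk_surjective x
    refine Ideal.mem_map_of_mem _ ?_
    by_contra hw
    have hu : IsUnit w := by simpa [mem_maximalIdeal, mem_nonunits_iff] using hw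
    exact hx (hu.map (Ideal.Quotient.mk C.𝔎))
  · apply le_maximalIdeal
    intro h
    have h2 : ((maximalIdeal (MvPowerSeries σ 𝒪)).map (Ideal.Quotient.mk C.𝔎)).comap
        (Ideal.Quotient.mk C.𝔎) = ⊤ := by rw [h]; rfl
    rw [Ideal.comap_map_of_surjective' _ Ideal.Quotient.mk_surjective, Ideal.mk_ker,
      ← C.K_one_eq, sup_eq_left.mpr (C.𝔎_le_K 1)] at h2
    exact C.K_one_ne_top h2

theorem maximalIdeal_R_eq :
    maximalIdeal C.R = (varIdeal σ 𝒪).map (Ideal.Quotient.mk C.𝔎) := by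
  rw [C.maximalIdeal_R_eq', ← C.K_one_eq, C.K_eq 1, pow_one, Ideal.map_sup,
    Ideal.map_quotient_self, bot_sup_eq]

theorem maximalIdeal_R_pow (n : ℕ) :
    maximalIdeal C.R ^ n = (varIdeal σ 𝒪 ^ n).map (Ideal.Quotient.mk C.𝔎) := by
  rw [C.maximalIdeal_R_eq, Ideal.map_pow]

theorem comap_maximalIdeal_pow (n : ℕ) :
    (maximalIdeal C.R ^ n).comap (Ideal.Quotient.mk C.𝔎) = C.K n := by
  rw [C.maximalIdeal_R_pow, Ideal.comap_map_of_surjective' _ Ideal.Quotient.mk_surjective,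
    Ideal.mk_ker, C.K_eq n, sup_comm]

instance : IsLocalHom (algebraMap 𝒪 C.R) := by
  refine ⟨fun c hc => ?_⟩
  by_contra hcu
  have h1 : algebraMap 𝒪 (MvPowerSeries σ 𝒪) c ∈ maximalIdeal (MvPowerSeries σ 𝒪) := by
    rw [mem_maximalIdeal, mem_nonunits_iff]
    intro hu
    exact hcu ((helper1433.isLocalHom_algebraMap_mvPowerSeries (𝒪 := 𝒪) (σ := σ)).map_nonunit c hu)
  have h2 : algebraMap 𝒪 C.R c ∈ maximalIdeal C.R := by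
    rw [C.maximalIdeal_R_eq']
    exact Ideal.mem_map_of_mem _ h1
  exact h2 hc

theorem residue_surjective_R : Function.Surjective (residue C.R ∘ algebraMap 𝒪 C.R) := by
  intro z
  obtain ⟨x, rfl⟩ := residue_surjective z
  obtain ⟨w, rfl⟩ := Ideal.Quotient.mk_surjective x
  obtain ⟨c, hc⟩ := helper1433.residue_surjective_mvPowerSeries (𝒪 := 𝒪) (σ := σ) (residue _ w)
  refine ⟨c, ?_⟩
  rw [Function.comp_apply] at hc ⊢
  rw [← sub_eq_zero, ← map_sub, residue_eq_zero_iff] at hc ⊢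
  rw [C.maximalIdeal_R_eq']
  exact Ideal.mem_map_of_mem (Ideal.Quotient.mk C.𝔎) hc

section Noeth

variable [IsNoetherianRing 𝒪]

instance isAdicComplete_R : IsAdicComplete (maximalIdeal C.R) C.R := by
  have h1 : IsAdicComplete (varIdeal σ 𝒪) C.R :=
    IsAdicComplete.of_module_finite (varIdeal σ 𝒪) C.R
  have h2 : IsAdicComplete ((varIdeal σ 𝒪).map (algebraMap (MvPowerSeries σ 𝒪) C.R)) C.R :=
    (IsAdicComplete.map_algebraMap_iff ..).mpr h1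
  rw [C.maximalIdeal_R_eq]
  exact h2

end Noeth

/-- The projection `R → Λ ⧸ 𝔞 n`. -/
noncomputable def π (n : ℕ) : C.R →ₐ[𝒪] Λ ⧸ C.𝔞 n :=
  Ideal.Quotient.liftₐ C.𝔎 (C.ev n) (fun _ hw => C.mem_K.mp (C.𝔎_le_K n hw))

theorem π_mk (n : ℕ) (w : MvPowerSeries σ 𝒪) :
    C.π n (Ideal.Quotient.mk C.𝔎 w) = C.ev n w := rfl

theorem π_surjective (n : ℕ) : Function.Surjective (C.π n) := fun x => by
  obtain ⟨w, rfl⟩ := C.ev_surjective n x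
  exact ⟨Ideal.Quotient.mk _ w, C.π_mk n w⟩

theorem ker_π (n : ℕ) : RingHom.ker (C.π n) = maximalIdeal C.R ^ n := by
  ext x
  obtain ⟨w, rfl⟩ := Ideal.Quotient.mk_surjective x
  rw [RingHom.mem_ker, π_mk, ← mem_K, ← C.comap_maximalIdeal_pow n, Ideal.mem_comap]

theorem π_compat {m n : ℕ} (hmn : m ≤ n) (x : C.R) :
    Ideal.Quotient.factor (C.anti hmn) (C.π n x) = C.π m x := by
  obtain ⟨w, rfl⟩ := Ideal.Quotient.mk_surjective x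
  rw [π_mk, π_mk, C.ev_compat hmn]

/-- `R ⧸ 𝔪 ^ n ≃ Λ ⧸ 𝔞 n`. -/
noncomputable def e (n : ℕ) : (C.R ⧸ maximalIdeal C.R ^ n) ≃ₐ[𝒪] Λ ⧸ C.𝔞 n :=
  (Ideal.quotientEquivAlgOfEq 𝒪 (C.ker_π n).symm).trans
    (Ideal.quotientKerAlgEquivOfSurjective (C.π_surjective n))

theorem e_mk (n : ℕ) (x : C.R) : C.e n (Ideal.Quotient.mk _ x) = C.π n x := by
  simp [e]

/-- The level maps `Λ → R ⧸ 𝔪 ^ n`. -/
noncomputable def f (n : ℕ) : Λ →ₐ[𝒪] C.R ⧸ maximalIdeal C.R ^ n :=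
  ((C.e n).symm : (Λ ⧸ C.𝔞 n) →ₐ[𝒪] _).comp (Ideal.Quotient.mkₐ 𝒪 (C.𝔞 n))

theorem e_f (n : ℕ) (x : Λ) : C.e n (C.f n x) = Ideal.Quotient.mk _ x := by
  simp [f]

theorem f_compat {m n : ℕ} (hmn : m ≤ n) :
    (Ideal.Quotient.factorₐ 𝒪 (Ideal.pow_le_pow_right hmn)).comp (C.f n) = C.f m := by
  ext x
  apply (C.e m).injective
  rw [AlgHom.comp_apply, e_f]
  obtain ⟨r, hr⟩ := Ideal.Quotient.mk_surjective (C.f n x)
  rw [← hr, Ideal.Quotient.factorₐ_apply_mk, e_mk, ← C.π_compat hmn, ← e_mk, hr, e_f,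
    Ideal.Quotient.factor_mk]

section Noeth

variable [IsNoetherianRing 𝒪]

/-- The canonical map `Λ → R`. -/
noncomputable def ι : Λ →ₐ[𝒪] C.R :=
  IsAdicComplete.liftAlgHom (maximalIdeal C.R) C.f (fun hle => C.f_compat hle)

theorem π_ι (n : ℕ) (x : Λ) : C.π n (C.ι x) = Ideal.Quotient.mk _ x := by
  rw [← e_mk, ι, IsAdicComplete.mk_liftAlgHom, e_f]

theorem comap_ι (n : ℕ) : (maximalIdeal C.R ^ n).comap C.ι = C.𝔞 n := by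
  ext x
  rw [Ideal.mem_comap, ← C.ker_π n, RingHom.mem_ker, C.π_ι, Ideal.Quotient.eq_zero_iff_mem]

theorem ι_dense (n : ℕ) (r : C.R) : ∃ x : Λ, r - C.ι x ∈ maximalIdeal C.R ^ n := by
  obtain ⟨x, hx⟩ := Ideal.Quotient.mk_surjective (C.π n r)
  refine ⟨x, ?_⟩
  rw [← C.ker_π n, RingHom.mem_ker, map_sub, C.π_ι, hx, sub_self]

end Noeth

end Chain

section Least

/-- A nonempty inf-closed family of ideals with finite quotients of bounded cardinality has a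
least element. -/
theorem exists_least_of_card_le {Λ : Type*} [CommRing Λ] (S : Set (Ideal Λ)) (hne : S.Nonempty)
    (hinf : ∀ 𝔞 ∈ S, ∀ 𝔟 ∈ S, 𝔞 ⊓ 𝔟 ∈ S) (hfin : ∀ 𝔞 ∈ S, Finite (Λ ⧸ 𝔞))
    (N : ℕ) (hN : ∀ 𝔞 ∈ S, Nat.card (Λ ⧸ 𝔞) ≤ N) :
    ∃ 𝔞 ∈ S, ∀ 𝔟 ∈ S, 𝔞 ≤ 𝔟 := by
  classical
  have hmax : ∃ 𝔞 ∈ S, ∀ 𝔟 ∈ S, Nat.card (Λ ⧸ 𝔟) ≤ Nat.card (Λ ⧸ 𝔞) := by
    let T : Set ℕ := (fun 𝔞 : Ideal Λ => Nat.card (Λ ⧸ 𝔞)) '' S
    have hTne : T.Nonempty := hne.image _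
    have hTbdd : BddAbove T := ⟨N, by rintro _ ⟨𝔞, h𝔞, rfl⟩; exact hN 𝔞 h𝔞⟩
    obtain ⟨𝔞, h𝔞, he⟩ := Nat.sSup_mem hTne hTbdd
    refine ⟨𝔞, h𝔞, fun 𝔟 h𝔟 => ?_⟩
    have h1 : Nat.card (Λ ⧸ 𝔟) ≤ sSup T := le_csSup hTbdd ⟨𝔟, h𝔟, rfl⟩
    rw [← he] at h1
    exact h1
  obtain ⟨𝔞, h𝔞, hmax⟩ := hmax
  refine ⟨𝔞, h𝔞, fun 𝔟 h𝔟 => ?_⟩
  have hab := hinf 𝔞 h𝔞 𝔟 h𝔟
  have := hfin _ hab
  have := hfin _ h𝔞
  have hsurj : Function.Surjective (Ideal.Quotient.factor (inf_le_left : 𝔞 ⊓ 𝔟 ≤ 𝔞)) :=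
    Ideal.Quotient.factor_surjective _
  have hcard : Nat.card (Λ ⧸ 𝔞 ⊓ 𝔟) = Nat.card (Λ ⧸ 𝔞) :=
    le_antisymm (hmax _ hab) (Nat.card_le_card_of_surjective _ hsurj)
  have hbij : Function.Bijective (Ideal.Quotient.factor (inf_le_left : 𝔞 ⊓ 𝔟 ≤ 𝔞)) :=
    (Nat.bijective_iff_surjective_and_card _).mpr ⟨hsurj, hcard⟩
  intro x hx
  have h0 : Ideal.Quotient.mk (𝔞 ⊓ 𝔟) x = 0 := hbij.1 (by
    rw [Ideal.Quotient.factor_mk, map_zero]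
    exact Ideal.Quotient.eq_zero_iff_mem.mpr hx)
  exact (Ideal.Quotient.eq_zero_iff_mem.mp h0).2

end Least

/-- **RING**: the abstract pro-representability theorem (statement of `helper773_ProRepSpec`). -/
theorem nonempty_proRep : Fermat.Agent.S53.helper773.Stmt_nonempty_proRep := by
  intro 𝒪 Λ _ _ _ _ _ _ 𝔪₀ 𝒥 hne hres hloc h_top h_le h_inf h_up h_fin h_nil h_tan
  classical
  obtain ⟨N, hN⟩ := h_tan
  -- the least tangent-level member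
  obtain ⟨𝔞t, h𝔞t, h𝔞t_least⟩ := exists_least_of_card_le
    {𝔞 | 𝔞 ∈ 𝒥 ∧ 𝔪₀ ^ 2 ≤ 𝔞 ∧ ∀ c ∈ maximalIdeal 𝒪, algebraMap 𝒪 Λ c ∈ 𝔞}
    ⟨𝔪₀, h_top, Ideal.pow_le_self two_ne_zero, hloc⟩
    (fun 𝔞 h𝔞 𝔟 h𝔟 => ⟨h_inf _ h𝔞.1 _ h𝔟.1, le_inf h𝔞.2.1 h𝔟.2.1,
      fun c hc => ⟨h𝔞.2.2 c hc, h𝔟.2.2 c hc⟩⟩)
    (fun 𝔞 h𝔞 => h_fin _ h𝔞.1) N (fun 𝔞 h𝔞 => hN 𝔞 h𝔞.1 h𝔞.2.1 h𝔞.2.2)
  have : Finite (Λ ⧸ 𝔞t) := h_fin _ h𝔞t.1
  -- generators of the maximal ideal of `𝒪`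
  obtain ⟨s, z, hz⟩ := Submodule.fg_iff_exists_fin_generating_family.mp
    (IsNoetherian.noetherian (maximalIdeal 𝒪))
  have hzmem : ∀ i, z i ∈ maximalIdeal 𝒪 := fun i => hz ▸ Submodule.subset_span ⟨i, rfl⟩
  -- the variables
  let σ : Type := (Λ ⧸ 𝔞t) ⊕ Fin s
  let y : σ → Λ := Sum.elim (fun q => if Quotient.out q ∈ 𝔪₀ then Quotient.out q else 0)
    (fun i => algebraMap 𝒪 Λ (z i))
  have hy : ∀ i, y i ∈ 𝔪₀ := by
    rintro (q | i)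
    · show (if Quotient.out q ∈ 𝔪₀ then Quotient.out q else 0) ∈ 𝔪₀
      split_ifs with h
      · exact h
      · exact 𝔪₀.zero_mem
    · exact hloc _ (hzmem i)
  have hspan_t : 𝔪₀ ≤ 𝔞t ⊔ Ideal.span (Set.range y) := by
    intro x hx
    have h1 : Quotient.out (Ideal.Quotient.mk 𝔞t x) - x ∈ 𝔞t := by
      rw [← Ideal.Quotient.mk_eq_mk_iff_sub_mem, Ideal.Quotient.mk_out]
    have h2 : Quotient.out (Ideal.Quotient.mk 𝔞t x) ∈ 𝔪₀ := by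
      have := 𝔪₀.add_mem (h_le _ h𝔞t.1 h1) hx
      simpa using this
    have h3 : y (Sum.inl (Ideal.Quotient.mk 𝔞t x)) = Quotient.out (Ideal.Quotient.mk 𝔞t x) := by
      show (if Quotient.out (Ideal.Quotient.mk 𝔞t x) ∈ 𝔪₀ then _ else 0) = _
      rw [if_pos h2]
    have e : x = -(Quotient.out (Ideal.Quotient.mk 𝔞t x) - x) +
        y (Sum.inl (Ideal.Quotient.mk 𝔞t x)) := by rw [h3]; ring
    rw [e]
    exact Submodule.add_mem_sup (𝔞t.neg_mem h1) (Ideal.subset_span ⟨_, rfl⟩)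
  have hmap : (maximalIdeal 𝒪).map (algebraMap 𝒪 Λ) ≤ Ideal.span (Set.range y) := by
    have hz' : maximalIdeal 𝒪 = Ideal.span (Set.range z) := hz.symm
    rw [hz', Ideal.map_span]
    refine Ideal.span_mono ?_
    rintro _ ⟨_, ⟨i, rfl⟩, rfl⟩
    exact ⟨Sum.inr i, rfl⟩
  -- uniform generation modulo every member of the family
  have hgenJ : ∀ 𝔞 ∈ 𝒥, 𝔪₀ ≤ 𝔞 ⊔ Ideal.span (Set.range y) := by
    intro 𝔞 h𝔞
    set N' : Ideal Λ := 𝔞 ⊔ Ideal.span (Set.range y) with hN'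
    have hyle : Ideal.span (Set.range y) ≤ 𝔪₀ := by
      rw [Ideal.span_le]; rintro _ ⟨i, rfl⟩; exact hy i
    have h𝔟 : 𝔞 ⊔ 𝔪₀ ^ 2 ⊔ (maximalIdeal 𝒪).map (algebraMap 𝒪 Λ) ∈
        {𝔞 | 𝔞 ∈ 𝒥 ∧ 𝔪₀ ^ 2 ≤ 𝔞 ∧ ∀ c ∈ maximalIdeal 𝒪, algebraMap 𝒪 Λ c ∈ 𝔞} := by
      refine ⟨h_up 𝔞 h𝔞 _ (le_sup_left.trans le_sup_left) ?_, le_sup_right.trans le_sup_left,
        fun c hc => (le_sup_right : _ ≤ 𝔞 ⊔ 𝔪₀ ^ 2 ⊔ (maximalIdeal 𝒪).map (algebraMap 𝒪 Λ))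
          (Ideal.mem_map_of_mem _ hc)⟩
      exact sup_le (sup_le (h_le 𝔞 h𝔞) (Ideal.pow_le_self two_ne_zero)) (hmap.trans hyle)
    have h1 : 𝔪₀ ≤ N' ⊔ 𝔪₀ ^ 2 := by
      refine hspan_t.trans (sup_le ((h𝔞t_least _ h𝔟).trans ?_) (le_sup_right.trans le_sup_left))
      refine sup_le (sup_le (le_sup_left.trans le_sup_left) le_sup_right) ?_
      exact hmap.trans (le_sup_right.trans le_sup_left)
    obtain ⟨n, hn⟩ := h_nil 𝔞 h𝔞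
    have key : ∀ j : ℕ, 𝔪₀ ≤ N' ⊔ 𝔪₀ ^ (j + 2) := by
      intro j
      induction j with
      | zero => exact h1
      | succ j ih =>
        refine ih.trans (sup_le le_sup_left ?_)
        have e : 𝔪₀ ^ (j + 2) = 𝔪₀ ^ (j + 1) * 𝔪₀ := pow_succ _ _
        rw [e]
        refine (Ideal.mul_mono_right h1).trans ?_
        rw [Ideal.mul_sup]
        refine sup_le (Ideal.mul_le_right.trans le_sup_left) ?_
        rw [← pow_add]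
        exact le_sup_right
    refine (key n).trans (sup_le le_rfl ?_)
    exact (Ideal.pow_le_pow_right (by omega)).trans (hn.trans le_sup_left)
  -- cardinality bound at level `n`
  have : Finite σ := inferInstanceAs (Finite ((Λ ⧸ 𝔞t) ⊕ Fin s))
  have hbound : ∀ n : ℕ, ∀ 𝔞 ∈ 𝒥, 𝔪₀ ^ n ≤ 𝔞 → Nat.card (Λ ⧸ 𝔞) ≤
      Nat.card (MvPowerSeries σ 𝒪 ⧸ maximalIdeal (MvPowerSeries σ 𝒪) ^ n) := by
    intro n 𝔞 h𝔞 hn
    have : Finite (MvPowerSeries σ 𝒪 ⧸ maximalIdeal (MvPowerSeries σ 𝒪) ^ n) :=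
      helper1433.finite_quotient_maximalIdeal_pow_mvPowerSeries n
    set φ : MvPowerSeries σ 𝒪 →ₐ[𝒪] Λ ⧸ 𝔞 := evHom 𝔪₀ y hy 𝔞 n hn with hφ
    have hφs : Function.Surjective φ := evHom_surjective 𝔪₀ y hy hres 𝔞 n hn (hgenJ 𝔞 h𝔞)
    have hle : maximalIdeal (MvPowerSeries σ 𝒪) ≤
        (𝔪₀.map (Ideal.Quotient.mk 𝔞)).comap φ := by
      rw [helper1433.maximalIdeal_eq_sup]
      refine sup_le ?_ ?_
      · rw [Ideal.span_le]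
        rintro _ ⟨i, rfl⟩
        rw [SetLike.mem_coe, Ideal.mem_comap, hφ, evHom_X]
        exact Ideal.mem_map_of_mem _ (hy i)
      · rw [Ideal.map_le_iff_le_comap]
        intro c hc
        rw [Ideal.mem_comap, Ideal.mem_comap, AlgHom.commutes]
        exact Ideal.mem_map_of_mem (Ideal.Quotient.mk 𝔞) (hloc c hc)
    have hkill : ∀ w ∈ maximalIdeal (MvPowerSeries σ 𝒪) ^ n,
        (φ : MvPowerSeries σ 𝒪 →+* Λ ⧸ 𝔞) w = 0 := by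
      intro w hw
      have h1 := (Ideal.pow_right_mono hle n).trans (Ideal.le_comap_pow _ n) hw
      rw [Ideal.mem_comap, map_mk_pow_eq_bot 𝔪₀ 𝔞 n hn] at h1
      exact (Submodule.mem_bot _).mp h1
    exact Nat.card_le_card_of_surjective _
      (Ideal.Quotient.lift_surjective_of_surjective (I := maximalIdeal (MvPowerSeries σ 𝒪) ^ n)
        hkill hφs)
  -- least members above the powers of `𝔪₀`
  have hleast : ∀ n : ℕ, ∃ 𝔞 ∈ 𝒥, 𝔪₀ ^ (n + 1) ≤ 𝔞 ∧ ∀ 𝔟 ∈ 𝒥, 𝔪₀ ^ (n + 1) ≤ 𝔟 → 𝔞 ≤ 𝔟 := by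
    intro n
    obtain ⟨𝔞, h𝔞, hl⟩ := exists_least_of_card_le {𝔞 | 𝔞 ∈ 𝒥 ∧ 𝔪₀ ^ (n + 1) ≤ 𝔞}
      ⟨𝔪₀, h_top, Ideal.pow_le_self (Nat.succ_ne_zero n)⟩
      (fun 𝔞 h𝔞 𝔟 h𝔟 => ⟨h_inf _ h𝔞.1 _ h𝔟.1, le_inf h𝔞.2 h𝔟.2⟩)
      (fun 𝔞 h𝔞 => h_fin _ h𝔞.1) _ (fun 𝔞 h𝔞 => hbound (n + 1) 𝔞 h𝔞.1 h𝔞.2)
    exact ⟨𝔞, h𝔞.1, h𝔞.2, fun 𝔟 h𝔟 h => hl 𝔟 ⟨h𝔟, h⟩⟩
  choose 𝔞' h𝔞'mem h𝔞'pow h𝔞'least using hleast
  -- the chain
  let C : Chain 𝒪 Λ σ :=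
    { 𝔪₀ := 𝔪₀
      ne_top := hne
      res := hres
      loc := hloc
      𝔞 := fun n => Nat.casesOn n ⊤ 𝔞'
      one := le_antisymm (h_le _ (h𝔞'mem 0)) (by simpa using h𝔞'pow 0)
      pow_le := by
        rintro (_ | n)
        · exact le_top
        · exact h𝔞'pow n
      anti := by
        refine antitone_nat_of_succ_le ?_
        rintro (_ | n)
        · exact le_top
        · exact h𝔞'least (n + 1) _ (h𝔞'mem n)
            ((Ideal.pow_le_pow_right (Nat.le_succ _)).trans (h𝔞'pow n))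
      step := by
        rintro (_ | n)
        · show (⊤ : Ideal Λ) ≤ 𝔞' 0 ⊔ 𝔪₀ ^ 0
          rw [pow_zero, Ideal.one_eq_top, sup_top_eq]
        · show 𝔞' n ≤ 𝔞' (n + 1) ⊔ 𝔪₀ ^ (n + 1)
          refine h𝔞'least n _ (h_up _ (h𝔞'mem (n + 1)) _ le_sup_left ?_) le_sup_right
          exact sup_le (h_le _ (h𝔞'mem (n + 1))) (Ideal.pow_le_self (Nat.succ_ne_zero n))
      y := y
      y_mem := hy
      gen := by
        rintro (_ | n)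
        · show 𝔪₀ ≤ ⊤ ⊔ _
          rw [top_sup_eq]; exact le_top
        · exact hgenJ _ (h𝔞'mem n) }
  exact ⟨{ R := C.R
           residue_surjective := C.residue_surjective_R
           ι := C.ι
           ι_dense := C.ι_dense
           comap_mem := by
             rintro (_ | n) hn
             · exact absurd hn (lt_irrefl 0)
             · rw [C.comap_ι]
               exact h𝔞'mem n
           comap_le := by
             rintro (_ | n) 𝔟 h𝔟 h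
             · rw [pow_zero, Ideal.one_eq_top] at h
               exact le_top.trans h
             · rw [C.comap_ι]
               exact h𝔞'least n 𝔟 h𝔟 h }⟩

end Fermat.Agent.S53.helper257
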