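/-
S53, blueprint item ASM-1 (`Stmt_UnivRep` of `helper53_Spec`), hypothesis-passing.
Over the ring of a `ProRep` of the family, the matrices `ι (X (σ,i,j))` form a normalized
`𝒟`-lift.
-/
import Fermat.Agent.S53.helper53_Spec
import Fermat.Agent.S53.helper533_TestAlg

set_option autoImplicit false

namespace Fermat.Agent.S53.helper2753

open IsLocalRing Fermat.Agent.S53.helper53

/-- Entries of the identity matrix commute with ring homomorphisms. -/
theorem map_one_apply {A B : Type} [CommRing A] [CommRing B] (φ : A →+* B) (i j : Fin 2) :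
    φ ((1 : M2 A) i j) = (1 : M2 B) i j := by
  rw [Matrix.one_apply, Matrix.one_apply]
  split_ifs
  · exact map_one φ
  · exact map_zero φ

/-- Evaluation at the tautological matrices modulo `J` is the quotient map. -/
theorem evalMat_taut {𝒪 : Type} [CommRing 𝒪] (J : Ideal (Lam 𝒪)) (r : Gal → M2 (Lam 𝒪 ⧸ J))
    (hr : ∀ σ i j, r σ i j = Ideal.Quotient.mk J (MvPolynomial.X (σ, i, j))) (f : Lam 𝒪) :
    evalMat (𝒪 := 𝒪) r f = Ideal.Quotient.mk J f := by
  have h : evalMat (𝒪 := 𝒪) r = Ideal.Quotient.mkₐ 𝒪 J := by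
    apply MvPolynomial.algHom_ext
    rintro ⟨σ, i, j⟩
    rw [evalMat_X, hr]
    rfl
  rw [h]
  rfl

/-- Evaluation at the matrices `ι (X (σ,i,j))` is `ι`. -/
theorem evalMat_ι {𝒪 : Type} [CommRing 𝒪] {R : Type} [CommRing R] [Algebra 𝒪 R]
    (ι : Lam 𝒪 →ₐ[𝒪] R)
    (r : Gal → M2 R) (hr : ∀ σ i j, r σ i j = ι (MvPolynomial.X (σ, i, j))) (f : Lam 𝒪) :
    evalMat (𝒪 := 𝒪) r f = ι f := by
  have h : evalMat (𝒪 := 𝒪) r = ι := by
    apply MvPolynomial.algHom_ext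
    rintro ⟨σ, i, j⟩
    rw [evalMat_X, hr]
  rw [h]

section

variable {𝒪 : Type} [CommRing 𝒪] [IsLocalRing 𝒪] {rbar : Gal →* M2 (ResidueField 𝒪)}
  {Sig : Set (Lam 𝒪)}
  {𝒟 : ∀ ⦃A : Type⦄ [CommRing A] [IsLocalRing A] [Algebra 𝒪 A], GaloisRepAdic A → Prop}

omit [IsLocalRing 𝒪] in
/-- The condition `𝒟` only depends on the matrix representation, not on the continuity proof. -/
theorem type_congr {A : Type} [CommRing A] [IsLocalRing A] [Algebra 𝒪 A] {r r' : Gal →* M2 A}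
    (h : r = r') (hr : MatCont r) (hr' : MatCont r') (hD : 𝒟 (ofMat r hr)) :
    𝒟 (ofMat r' hr') := by
  subst h
  exact hD

/-- Facts about a member of the family in terms of membership in the ideal. -/
theorem inFamily_facts {J : Ideal (Lam 𝒪)} (hJ : InFamily rbar Sig 𝒟 J) :
    (∀ i j, (MvPolynomial.X ((1 : Gal), i, j) : Lam 𝒪) - (1 : M2 (Lam 𝒪)) i j ∈ J) ∧
    (∀ (σ τ : Gal) i j, (MvPolynomial.X (σ * τ, i, j) : Lam 𝒪) -
        ∑ k : Fin 2, MvPolynomial.X (σ, i, k) * MvPolynomial.X (τ, k, j) ∈ J) ∧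
    (∀ f ∈ Sig, f ∈ J) ∧
    (∃ L : IntermediateField ℚ (AlgebraicClosure ℚ), FiniteDimensional ℚ L ∧
      ∀ σ : Gal, (∀ x ∈ L, σ x = x) → ∀ i j,
        (MvPolynomial.X (σ, i, j) : Lam 𝒪) - (1 : M2 (Lam 𝒪)) i j ∈ J) := by
  obtain ⟨hloc, htest, r, hr, hN⟩ := hJ
  refine ⟨?_, ?_, ?_, ?_⟩
  · intro i j
    rw [← Ideal.Quotient.eq, ← hr, map_one r]
    exact (map_one_apply (Ideal.Quotient.mk J) i j).symm
  · intro σ τ i j
    rw [← Ideal.Quotient.eq, ← hr, map_mul r, Matrix.mul_apply, map_sum]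
    refine Finset.sum_congr rfl fun k _ => ?_
    rw [map_mul, hr, hr]
  · intro f hf
    have h := hN.norm f hf
    rw [evalMat_taut J r hr f] at h
    exact Ideal.Quotient.eq_zero_iff_mem.mp h
  · have := htest.isArtinian
    obtain ⟨N, hN0⟩ := IsArtinianRing.isNilpotent_jacobson_bot (R := Lam 𝒪 ⧸ J)
    rw [jacobson_eq_maximalIdeal _ bot_ne_top] at hN0
    obtain ⟨L, hL, hσ⟩ := hN.cont N
    refine ⟨L, hL, fun σ hσL i j => ?_⟩
    have h := hσ σ hσL i j
    rw [hN0, Ideal.zero_eq_bot, Ideal.mem_bot, Matrix.sub_apply, sub_eq_zero, hr] at h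
    rw [← Ideal.Quotient.eq, h]
    exact (map_one_apply (Ideal.Quotient.mk J) i j).symm

variable (P : ProRep 𝒪 (Lam 𝒪) (augIdeal rbar) {J | InFamily rbar Sig 𝒟 J})

/-- An element of `Λ` lying in all the ideals `ι⁻¹(m^n)`, `n > 0`, is killed by `ι`. -/
theorem ι_eq_zero_of_forall_mem
    (x : Lam 𝒪) (h : ∀ n : ℕ, 0 < n → x ∈ (maximalIdeal P.R ^ n).comap P.ι) : P.ι x = 0 := by
  have h0 : (⨅ i : ℕ, maximalIdeal P.R ^ i) = ⊥ :=
    Ideal.iInf_pow_eq_bot_of_isLocalRing _ (maximalIdeal.isMaximal P.R).ne_top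
  have h1 : P.ι x ∈ (⨅ i : ℕ, maximalIdeal P.R ^ i) := by
    rw [Ideal.mem_iInf]
    intro i
    rcases Nat.eq_zero_or_pos i with rfl | hi
    · simp
    · exact h i hi
  rw [h0] at h1
  exact h1

/-- The universal matrices, as a function. -/
noncomputable def univFun (σ : Gal) : M2 P.R :=
  Matrix.of fun i j => P.ι (MvPolynomial.X (σ, i, j))

theorem univFun_apply (σ : Gal) (i j : Fin 2) :
    univFun P σ i j = P.ι (MvPolynomial.X (σ, i, j)) := rfl

theorem ι_one_apply (i j : Fin 2) : P.ι ((1 : M2 (Lam 𝒪)) i j) = (1 : M2 P.R) i j :=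
  map_one_apply (P.ι : Lam 𝒪 →+* P.R) i j

/-- The universal matrices form a monoid homomorphism. -/
noncomputable def univRepHom : Gal →* M2 P.R where
  toFun := univFun P
  map_one' := by
    ext i j
    rw [univFun_apply, ← ι_one_apply P, ← sub_eq_zero, ← map_sub]
    exact ι_eq_zero_of_forall_mem P _ fun n hn => (inFamily_facts (P.comap_mem n hn)).1 i j
  map_mul' σ τ := by
    ext i j
    have h : P.ι (MvPolynomial.X (σ * τ, i, j) -
        ∑ k : Fin 2, MvPolynomial.X (σ, i, k) * MvPolynomial.X (τ, k, j)) = 0 :=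
      ι_eq_zero_of_forall_mem P _ fun n hn => (inFamily_facts (P.comap_mem n hn)).2.1 σ τ i j
    rw [map_sub, sub_eq_zero, map_sum] at h
    rw [univFun_apply, Matrix.mul_apply, h]
    refine Finset.sum_congr rfl fun k _ => ?_
    rw [map_mul]
    rfl

theorem univRepHom_apply (σ : Gal) (i j : Fin 2) :
    univRepHom P σ i j = P.ι (MvPolynomial.X (σ, i, j)) := rfl

/-- `ι⁻¹(m_R)` is the augmentation ideal. -/
theorem ι_mem_maximalIdeal_iff (hLe : Stmt_FamLe 𝒪 rbar Sig 𝒟) (y : Lam 𝒪) :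
    P.ι y ∈ maximalIdeal P.R ↔ y ∈ augIdeal rbar := by
  have hK1 : (maximalIdeal P.R).comap P.ι ≤ augIdeal rbar := by
    have h := hLe _ (P.comap_mem 1 one_pos)
    rwa [pow_one] at h
  constructor
  · intro h
    exact hK1 h
  · intro hy
    by_contra hne
    have hu : IsUnit (P.ι y) := by
      by_contra h
      exact hne h
    obtain ⟨u, hu⟩ := hu
    obtain ⟨z, hz⟩ := P.ι_dense 1 (↑u⁻¹ : P.R)
    rw [pow_one] at hz
    have h1 : P.ι (y * z - 1) ∈ maximalIdeal P.R := by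
      have e : P.ι (y * z - 1) = -(↑u * ((↑u⁻¹ : P.R) - P.ι z)) := by
        rw [map_sub, map_mul, map_one, ← hu]
        have h' : (↑u : P.R) * ↑u⁻¹ = 1 := Units.mul_inv u
        linear_combination h'
      rw [e]
      exact neg_mem (Ideal.mul_mem_left _ _ hz)
    have h2 : y * z - 1 ∈ augIdeal rbar := hK1 h1
    have h3 : (1 : Lam 𝒪) ∈ augIdeal rbar := by
      have h := Ideal.sub_mem _ (Ideal.mul_mem_right z _ hy) h2
      simpa using h
    have h4 : (evalMat (𝒪 := 𝒪) (A := ResidueField 𝒪) rbar) 1 = 0 := RingHom.mem_ker.mp h3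
    rw [map_one] at h4
    exact one_ne_zero h4

theorem univ_strict (hLe : Stmt_FamLe 𝒪 rbar Sig 𝒟) : IsStrictLift rbar (univRepHom P) := by
  intro σ i j
  obtain ⟨c, hc⟩ := residue_surjective (rbar σ i j)
  refine ⟨c, hc, ?_⟩
  have hmem : (MvPolynomial.X (σ, i, j) - MvPolynomial.C c : Lam 𝒪) ∈ augIdeal rbar := by
    have e : evalMat (𝒪 := 𝒪) (A := ResidueField 𝒪) rbar (MvPolynomial.C c) = residue 𝒪 c := by
      rw [← MvPolynomial.algebraMap_eq, AlgHom.commutes]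
      rfl
    rw [augIdeal, RingHom.mem_ker, map_sub, evalMat_X, e, hc, sub_self]
  have h := (ι_mem_maximalIdeal_iff P hLe _).mpr hmem
  have e : P.ι (MvPolynomial.C c) = algebraMap 𝒪 P.R c := by
    rw [← MvPolynomial.algebraMap_eq, AlgHom.commutes]
  rw [map_sub, e] at h
  exact h

theorem univ_norm : IsNormalized Sig (univRepHom P : Gal → M2 P.R) := by
  intro f hf
  rw [evalMat_ι P.ι (univRepHom P : Gal → M2 P.R) (fun σ i j => rfl) f]
  exact ι_eq_zero_of_forall_mem P f fun n hn => (inFamily_facts (P.comap_mem n hn)).2.2.1 f hf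

theorem univ_cont : MatCont (univRepHom P) := by
  intro n
  rcases Nat.eq_zero_or_pos n with rfl | hn
  · exact ⟨⊥, inferInstance, fun σ _ i j => by simp⟩
  · obtain ⟨L, hL, h⟩ := (inFamily_facts (P.comap_mem n hn)).2.2.2
    refine ⟨L, hL, fun σ hσ i j => ?_⟩
    have h' := h σ hσ i j
    rw [Ideal.mem_comap, map_sub, ι_one_apply] at h'
    rw [Matrix.sub_apply]
    exact h'

theorem univ_type (hD : GaloisRep.IsDeformationCondition 𝒪 𝒟) (hBC : Stmt_DictBaseChange)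
    (hMC : Stmt_MatContMap) (hNM : Stmt_NLiftMap 𝒪 rbar Sig 𝒟) (hUp : Stmt_FamUp 𝒪 rbar Sig 𝒟)
    (hLe : Stmt_FamLe 𝒪 rbar Sig 𝒟) :
    𝒟 (ofMat (univRepHom P) (univ_cont P)) := by
  refine (hD.iff_forall_surjective P.instIsLocalHom P.residue_surjective _).mpr ?_
  intro B _ _ _ hB q hq _
  have hcontB : MatCont (mapMat (q : P.R →+* B) (univRepHom P)) :=
    hMC P.R B q hq _ (univ_cont P)
  have e := hBC P.R B q hq (univRepHom P) (univ_cont P) hcontB
  suffices h : 𝒟 (ofMat (mapMat (q : P.R →+* B) (univRepHom P)) hcontB) from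
    hD.of_isEquiv hB (Nonempty.elim e fun e' => ⟨e'.symm⟩) h
  have := hB.isArtinian
  have := hq
  obtain ⟨n, hn0, hn⟩ := helper533.exists_maxPow_le_ker (q : P.R →+* B)
  let ψ₀ : Lam 𝒪 →ₐ[𝒪] B := q.comp P.ι
  have hKJ : (maximalIdeal P.R ^ n).comap P.ι ≤ RingHom.ker ψ₀ := by
    intro x hx
    rw [RingHom.mem_ker]
    exact hn hx
  have hJle : RingHom.ker ψ₀ ≤ augIdeal rbar := by
    intro x hx
    rw [← ι_mem_maximalIdeal_iff P hLe]
    by_contra hne
    have hu : IsUnit (P.ι x) := by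
      by_contra h
      exact hne h
    have hu' : IsUnit ((q : P.R →+* B) (P.ι x)) := hu.map _
    have h0 : (q : P.R →+* B) (P.ι x) = 0 := RingHom.mem_ker.mp hx
    rw [h0] at hu'
    exact not_isUnit_zero hu'
  have hfam : InFamily rbar Sig 𝒟 (RingHom.ker ψ₀) :=
    hUp _ _ (P.comap_mem n (Nat.pos_of_ne_zero hn0)) hKJ hJle
  obtain ⟨hloc', htest', r', hr'X, hN'⟩ := hfam
  let _ := hloc'
  let ψ : (Lam 𝒪 ⧸ RingHom.ker ψ₀) →ₐ[𝒪] B := Ideal.kerLiftAlg ψ₀
  have hNB := hNM (Lam 𝒪 ⧸ RingHom.ker ψ₀) B htest' hB ψ r' hN'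
  have heq : mapMat (ψ : (Lam 𝒪 ⧸ RingHom.ker ψ₀) →+* B) r' =
      mapMat (q : P.R →+* B) (univRepHom P) := by
    ext σ i j
    rw [mapMat_apply, mapMat_apply, hr'X]
    rfl
  exact type_congr heq hNB.cont hcontB hNB.type

/-- ASM-1 of the blueprint `helper53_Spec`: over the ring of a `ProRep` of the family, the
matrices `ι (X (σ,i,j))` form a normalized `𝒟`-lift. -/
theorem univRep (hD : GaloisRep.IsDeformationCondition 𝒪 𝒟) (hBC : Stmt_DictBaseChange)
    (hMC : Stmt_MatContMap) (hNM : Stmt_NLiftMap 𝒪 rbar Sig 𝒟) (hUp : Stmt_FamUp 𝒪 rbar Sig 𝒟)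
    (hLe : Stmt_FamLe 𝒪 rbar Sig 𝒟) : Stmt_UnivRep 𝒪 rbar Sig 𝒟 := by
  intro P
  exact ⟨univRepHom P, fun σ i j => rfl,
    ⟨univ_cont P, univ_strict P hLe, univ_norm P, univ_type P hD hBC hMC hNM hUp hLe⟩⟩

end

end Fermat.Agent.S53.helper2753
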