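/-
S53, level L6: FINAL ASSEMBLY (backup of the captain's row 193), helper2832.

`final` derives the frozen S53 statement from the `Stmt_*` interface of
`Fermat.Agent.S53.helper53_Spec` in hypothesis-passing style.  No sorry.
-/
import Fermat.Agent.S53.helper53_Spec

set_option autoImplicit false

namespace Fermat.Agent.S53.helper2832

open IsLocalRing Fermat.Agent.S53.helper53

/-- A local homomorphism maps the maximal ideal into the maximal ideal. -/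
theorem map_mem_maximalIdeal {A B : Type} [CommRing A] [IsLocalRing A] [CommRing B] [IsLocalRing B]
    (φ : A →+* B) (hφ : IsLocalHom φ) {a : A} (ha : a ∈ maximalIdeal A) :
    φ a ∈ maximalIdeal B :=
  haveI := hφ
  map_nonunit φ a ha

/-- Strict lifts push forward along local `𝒪`-algebra homomorphisms. -/
theorem isStrictLift_mapMat {𝒪 : Type} [CommRing 𝒪] [IsLocalRing 𝒪]
    (rbar : Gal →* M2 (ResidueField 𝒪))
    {A B : Type} [CommRing A] [IsLocalRing A] [Algebra 𝒪 A] [CommRing B] [IsLocalRing B]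
    [Algebra 𝒪 B] (φ : A →ₐ[𝒪] B) (hφ : IsLocalHom (φ : A →+* B)) (r : Gal →* M2 A)
    (h : IsStrictLift rbar r) : IsStrictLift rbar (mapMat (φ : A →+* B) r) := by
  intro σ i j
  obtain ⟨c, hc, hm⟩ := h σ i j
  refine ⟨c, hc, ?_⟩
  have e : mapMat (φ : A →+* B) r σ i j - algebraMap 𝒪 B c
      = (φ : A →+* B) (r σ i j - algebraMap 𝒪 A c) := by
    rw [mapMat_apply, map_sub]
    congr 1
    exact (φ.commutes c).symm
  rw [e]
  exact map_mem_maximalIdeal (φ : A →+* B) hφ hm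

/-- Evaluation at pushed-forward matrices is the composite. -/
theorem evalMat_mapMat {𝒪 : Type} [CommRing 𝒪]
    {A B : Type} [CommRing A] [Algebra 𝒪 A] [CommRing B] [Algebra 𝒪 B]
    (φ : A →ₐ[𝒪] B) (r : Gal →* M2 A) (f : Lam 𝒪) :
    evalMat (𝒪 := 𝒪) (mapMat (φ : A →+* B) r : Gal → M2 B) f
      = φ (evalMat (𝒪 := 𝒪) (r : Gal → M2 A) f) := by
  have key : evalMat (𝒪 := 𝒪) (mapMat (φ : A →+* B) r : Gal → M2 B)
      = φ.comp (evalMat (𝒪 := 𝒪) (r : Gal → M2 A)) := by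
    apply MvPolynomial.algHom_ext
    intro x
    rw [AlgHom.comp_apply]
    obtain ⟨σ, i, j⟩ := x
    rw [evalMat_X, evalMat_X]
    rfl
  rw [key, AlgHom.comp_apply]

/-- Normalized families push forward along `𝒪`-algebra homomorphisms. -/
theorem isNormalized_mapMat {𝒪 : Type} [CommRing 𝒪] (Sig : Set (Lam 𝒪))
    {A B : Type} [CommRing A] [Algebra 𝒪 A] [CommRing B] [Algebra 𝒪 B]
    (φ : A →ₐ[𝒪] B) (r : Gal →* M2 A) (h : IsNormalized Sig (r : Gal → M2 A)) :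
    IsNormalized Sig (mapMat (φ : A →+* B) r : Gal → M2 B) := by
  intro f hf
  rw [evalMat_mapMat, h f hf, map_zero]

theorem isEquiv_symm {A : Type} [CommRing A] [IsLocalRing A] {ρ₁ ρ₂ : GaloisRepAdic A}
    (h : ρ₁.IsEquiv ρ₂) : ρ₂.IsEquiv ρ₁ :=
  h.elim fun e => ⟨e.symm⟩

theorem isEquiv_trans {A : Type} [CommRing A] [IsLocalRing A] {ρ₁ ρ₂ ρ₃ : GaloisRepAdic A}
    (h : ρ₁.IsEquiv ρ₂) (h' : ρ₂.IsEquiv ρ₃) : ρ₁.IsEquiv ρ₃ :=
  h.elim fun e => h'.elim fun e' => ⟨e.trans e'⟩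

/-- The augmentation ideal is proper. -/
theorem augIdeal_ne_top {𝒪 : Type} [CommRing 𝒪] [IsLocalRing 𝒪]
    (rbar : Gal →* M2 (ResidueField 𝒪)) : augIdeal rbar ≠ ⊤ :=
  RingHom.ker_ne_top _

/-- Every element of `Lam 𝒪` is congruent to a constant modulo the augmentation ideal. -/
theorem exists_sub_mem_augIdeal {𝒪 : Type} [CommRing 𝒪] [IsLocalRing 𝒪]
    (rbar : Gal →* M2 (ResidueField 𝒪)) (x : Lam 𝒪) :
    ∃ c : 𝒪, x - algebraMap 𝒪 (Lam 𝒪) c ∈ augIdeal rbar := by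
  obtain ⟨c, hc⟩ := residue_surjective
    (evalMat (𝒪 := 𝒪) (A := ResidueField 𝒪) (rbar : Gal → M2 (ResidueField 𝒪)) x)
  refine ⟨c, ?_⟩
  rw [augIdeal, RingHom.mem_ker, map_sub, AlgHom.commutes, ← hc]
  exact sub_self _

/-- Constants from the maximal ideal of `𝒪` lie in the augmentation ideal. -/
theorem algebraMap_mem_augIdeal {𝒪 : Type} [CommRing 𝒪] [IsLocalRing 𝒪]
    (rbar : Gal →* M2 (ResidueField 𝒪)) {c : 𝒪} (hc : c ∈ maximalIdeal 𝒪) :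
    algebraMap 𝒪 (Lam 𝒪) c ∈ augIdeal rbar := by
  rw [augIdeal, RingHom.mem_ker, AlgHom.commutes]
  exact (residue_eq_zero_iff c).mpr hc

/-- **Final assembly**: the S53 statement from the blueprint statements. -/
theorem final
    (𝒪 : Type) [CommRing 𝒪] [IsDomain 𝒪] [IsDiscreteValuationRing 𝒪]
    [IsAdicComplete (IsLocalRing.maximalIdeal 𝒪) 𝒪] [Finite (IsLocalRing.ResidueField 𝒪)]
    (ρbar : ResidualGaloisRep (IsLocalRing.ResidueField 𝒪))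
    (𝒟 : ∀ ⦃A : Type⦄ [CommRing A] [IsLocalRing A] [Algebra 𝒪 A], GaloisRepAdic A → Prop)
    (habs : ρbar.IsAbsolutelyIrreducible)
    -- L0 / L1 interface
    (hMatContMap : Stmt_MatContMap)
    (hDictBaseChange : Stmt_DictBaseChange)
    (hMatContConj : Stmt_MatContConj)
    (hDictEquiv : Stmt_DictEquiv)
    (hDictResidual : Stmt_DictResidual 𝒪)
    (hTypeEquiv : Stmt_TypeEquiv 𝒪 𝒟)
    (hSlice : Stmt_Slice 𝒪)
    (hRing : Stmt_Ring 𝒪)
    -- family interface (for every slice)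
    (hFamLe : ∀ (b : Module.Basis (Fin 2) (ResidueField 𝒪) ρbar.V) (Sig : Set (Lam 𝒪)),
      IsSlice (matOfBasis ρbar b) Sig → Stmt_FamLe 𝒪 (matOfBasis ρbar b) Sig 𝒟)
    (hFamNil : ∀ (b : Module.Basis (Fin 2) (ResidueField 𝒪) ρbar.V) (Sig : Set (Lam 𝒪)),
      IsSlice (matOfBasis ρbar b) Sig → Stmt_FamNil 𝒪 (matOfBasis ρbar b) Sig 𝒟)
    (hFamFin : ∀ (b : Module.Basis (Fin 2) (ResidueField 𝒪) ρbar.V) (Sig : Set (Lam 𝒪)),
      IsSlice (matOfBasis ρbar b) Sig → Stmt_FamFin 𝒪 (matOfBasis ρbar b) Sig 𝒟)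
    (hFamInf : ∀ (b : Module.Basis (Fin 2) (ResidueField 𝒪) ρbar.V) (Sig : Set (Lam 𝒪)),
      IsSlice (matOfBasis ρbar b) Sig → Stmt_FamInf 𝒪 (matOfBasis ρbar b) Sig 𝒟)
    (hFamUp : ∀ (b : Module.Basis (Fin 2) (ResidueField 𝒪) ρbar.V) (Sig : Set (Lam 𝒪)),
      IsSlice (matOfBasis ρbar b) Sig → Stmt_FamUp 𝒪 (matOfBasis ρbar b) Sig 𝒟)
    (hFamTop : ∀ (b : Module.Basis (Fin 2) (ResidueField 𝒪) ρbar.V) (Sig : Set (Lam 𝒪)),
      IsSlice (matOfBasis ρbar b) Sig → Stmt_FamTop 𝒪 (matOfBasis ρbar b) Sig 𝒟)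
    (hFamTan : ∀ (b : Module.Basis (Fin 2) (ResidueField 𝒪) ρbar.V) (Sig : Set (Lam 𝒪)),
      IsSlice (matOfBasis ρbar b) Sig → Stmt_FamTan 𝒪 (matOfBasis ρbar b) Sig 𝒟)
    -- universal representation interface (for every slice)
    (hUnivRep : ∀ (b : Module.Basis (Fin 2) (ResidueField 𝒪) ρbar.V) (Sig : Set (Lam 𝒪)),
      IsSlice (matOfBasis ρbar b) Sig → Stmt_UnivRep 𝒪 (matOfBasis ρbar b) Sig 𝒟)
    (hUnivLift : ∀ (b : Module.Basis (Fin 2) (ResidueField 𝒪) ρbar.V) (Sig : Set (Lam 𝒪)),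
      IsSlice (matOfBasis ρbar b) Sig → Stmt_UnivLift 𝒪 (matOfBasis ρbar b) Sig 𝒟)
    (hUnivUnique : ∀ (b : Module.Basis (Fin 2) (ResidueField 𝒪) ρbar.V) (Sig : Set (Lam 𝒪)),
      IsSlice (matOfBasis ρbar b) Sig → Stmt_UnivUnique 𝒪 (matOfBasis ρbar b) Sig 𝒟) :
    Nonempty (GaloisRep.DeformationRingData 𝒪 ρbar 𝒟) := by
  obtain ⟨b, Sig, hS⟩ := hSlice ρbar habs
  -- the pro-representing ring
  obtain ⟨P⟩ := hRing (Lam 𝒪) (augIdeal (matOfBasis ρbar b))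
    {J | InFamily (matOfBasis ρbar b) Sig 𝒟 J}
    (augIdeal_ne_top _) (exists_sub_mem_augIdeal _)
    (fun c hc => algebraMap_mem_augIdeal _ hc)
    (hFamTop b Sig hS)
    (fun 𝔞 h𝔞 => hFamLe b Sig hS 𝔞 h𝔞)
    (fun 𝔞 h𝔞 𝔟 h𝔟 => hFamInf b Sig hS 𝔞 𝔟 h𝔞 h𝔟)
    (fun 𝔞 h𝔞 𝔟 h1 h2 => hFamUp b Sig hS 𝔞 𝔟 h𝔞 h1 h2)
    (fun 𝔞 h𝔞 => hFamFin b Sig hS 𝔞 h𝔞)
    (fun 𝔞 h𝔞 => hFamNil b Sig hS 𝔞 h𝔞)
    (hFamTan b Sig hS)
  -- the universal matrices
  obtain ⟨runiv, hruniv, hN⟩ := hUnivRep b Sig hS P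
  refine ⟨{
    R := P.R
    residue_surjective := P.residue_surjective
    absIrr := habs
    ρ := ofMat runiv hN.cont
    isOfType := hN.type
    residual_isEquiv :=
      (hDictResidual ρbar b P.R (ofMat runiv hN.cont)).mpr
        ⟨runiv, hN.cont, hN.strict, ⟨GaloisRepAdic.Equiv.refl _⟩⟩
    universal := ?_ }⟩
  intro A _ _ _ _ _ hloc hsurj ρA hρA hres
  -- matrix form of `ρA`, normalized
  obtain ⟨r, hr, hstrict, hequiv⟩ := (hDictResidual ρbar b A ρA).mp hres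
  obtain ⟨M, r', hstrict', hnorm', hconj⟩ := hS.exists_normalized r hstrict
  have hr' : MatCont r' := hMatContConj A r r' M hconj hr
  have hequiv' : ρA.IsEquiv (ofMat r' hr') :=
    isEquiv_trans hequiv ((hDictEquiv A r r' hr hr').mpr ⟨M, hconj⟩)
  have htype' : 𝒟 (ofMat r' hr') := hTypeEquiv A hloc hsurj ρA (ofMat r' hr') hequiv' hρA
  have hNL : IsNLift (matOfBasis ρbar b) Sig 𝒟 r' := ⟨hr', hstrict', hnorm', htype'⟩
  obtain ⟨φ, hφloc, hφ⟩ := hUnivLift b Sig hS P A hloc hsurj r' hNL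
  -- key: any local `𝒪`-algebra map `ψ` gives `ofMat (mapMat ψ runiv)`
  have hbc : ∀ (ψ : P.R →ₐ[𝒪] A) (hψ : IsLocalHom (ψ : P.R →+* A)),
      ∃ hc : MatCont (mapMat (ψ : P.R →+* A) runiv),
        ((ofMat runiv hN.cont).baseChangeAlong (ψ : P.R →+* A) hψ).IsEquiv
          (ofMat (mapMat (ψ : P.R →+* A) runiv) hc) := by
    intro ψ hψ
    have hc : MatCont (mapMat (ψ : P.R →+* A) runiv) :=
      hMatContMap P.R A (ψ : P.R →+* A) hψ runiv hN.cont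
    exact ⟨hc, hDictBaseChange P.R A (ψ : P.R →+* A) hψ runiv hN.cont hc⟩
  have hmapφ : mapMat (φ : P.R →+* A) runiv = r' := by
    apply MonoidHom.ext
    intro σ
    ext i j
    rw [mapMat_apply, hruniv]
    exact hφ σ i j
  refine ⟨φ, ⟨hφloc, ?_⟩, ?_⟩
  · -- existence
    obtain ⟨hc, he⟩ := hbc φ hφloc
    refine isEquiv_trans he (isEquiv_trans ?_ (isEquiv_symm hequiv'))
    exact (hDictEquiv A _ r' hc hr').mpr ⟨1, fun σ => by rw [hmapφ]; simp⟩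
  · -- uniqueness
    rintro φ' ⟨hφ'loc, hφ'⟩
    obtain ⟨hc, he⟩ := hbc φ' hφ'loc
    have h1 : (ofMat (mapMat (φ' : P.R →+* A) runiv) hc).IsEquiv (ofMat r' hr') :=
      isEquiv_trans (isEquiv_symm he) (isEquiv_trans hφ' hequiv')
    obtain ⟨M', hM'⟩ := (hDictEquiv A _ r' hc hr').mp h1
    have heq : mapMat (φ' : P.R →+* A) runiv = r' :=
      hS.eq_of_conj (mapMat (φ' : P.R →+* A) runiv) r'
        (isStrictLift_mapMat _ φ' hφ'loc runiv hN.strict) hstrict'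
        (isNormalized_mapMat Sig φ' runiv hN.norm) hnorm' M' hM'
    refine hUnivUnique b Sig hS P A φ' φ hφ'loc hφloc ?_
    intro σ i j
    rw [hφ σ i j, ← hruniv, ← heq]
    rfl

end Fermat.Agent.S53.helper2832
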