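/-
S53, DICT group of the captain blueprint `helper53_Spec` (helper2873).
Dictionary between `GaloisRepAdic` and continuous matrix representations.
-/
import Fermat.Agent.S53.helper53_Spec

set_option autoImplicit false

namespace Fermat.Agent.S53.helper2873

open IsLocalRing Fermat.Agent.S53.helper53
open scoped TensorProduct

/-! ### Auxiliary lemmas -/

/-- A local homomorphism maps `m_A ^ n` into `m_B ^ n`. -/
theorem map_mem_maximalIdeal_pow {A B : Type} [CommRing A] [IsLocalRing A] [CommRing B]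
    [IsLocalRing B] (φ : A →+* B) (hφ : IsLocalHom φ) (n : ℕ) {a : A}
    (ha : a ∈ maximalIdeal A ^ n) : φ a ∈ maximalIdeal B ^ n := by
  have hmap : (maximalIdeal A ^ n).map φ ≤ maximalIdeal B ^ n := by
    rw [Ideal.map_pow]
    exact Ideal.pow_right_mono (Ideal.map_le_iff_le_comap.mpr fun a ha =>
      Ideal.mem_comap.mpr (haveI := hφ; map_nonunit φ a ha)) n
  exact hmap (Ideal.mem_map_of_mem φ ha)

/-- Coordinates of an element of `I • ⊤` in a basis lie in `I`. -/
theorem repr_mem_of_mem_smul_top {A V : Type} [CommRing A] [AddCommGroup V] [Module A V]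
    (I : Ideal A) (b : Module.Basis (Fin 2) A V) {w : V}
    (hw : w ∈ I • (⊤ : Submodule A V)) (i : Fin 2) : b.repr w i ∈ I := by
  refine Submodule.smul_induction_on (p := fun x => b.repr x i ∈ I) hw ?_ ?_
  · intro a ha x _
    rw [map_smul, Finsupp.smul_apply, smul_eq_mul]
    exact Ideal.mul_mem_right _ _ ha
  · intro x y hx hy
    rw [map_add, Finsupp.add_apply]
    exact Ideal.add_mem _ hx hy

/-! ### DICT-B0 -/

theorem matContMap : Stmt_MatContMap := by
  intro A B _ _ _ _ φ hφ r hr n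
  obtain ⟨L, hL, h⟩ := hr n
  refine ⟨L, hL, fun σ hσ i j => ?_⟩
  have e : (mapMat φ r σ - 1) i j = φ ((r σ - 1) i j) := by
    rw [Matrix.sub_apply, Matrix.sub_apply, mapMat_apply, map_sub, Matrix.one_apply,
      Matrix.one_apply]
    split_ifs <;> simp
  rw [e]
  exact map_mem_maximalIdeal_pow φ hφ n (h σ hσ i j)

/-! ### DICT-C0 -/

theorem matContConj : Stmt_MatContConj := by
  intro A _ _ r r' M hM hr n
  obtain ⟨L, hL, h⟩ := hr n
  refine ⟨L, hL, fun σ hσ i j => ?_⟩
  have e : r' σ - 1 = (M : M2 A) * (r σ - 1) * ((M⁻¹ : (M2 A)ˣ) : M2 A) := by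
    rw [mul_sub, sub_mul, hM σ, mul_assoc, mul_one, Units.mul_inv, mul_one]
  rw [e, Matrix.mul_apply]
  refine Ideal.sum_mem _ fun l _ => Ideal.mul_mem_right _ _ ?_
  rw [Matrix.mul_apply]
  exact Ideal.sum_mem _ fun l' _ => Ideal.mul_mem_left _ _ (h σ hσ l' l)

/-! ### DICT-E0, DICT-E -/

theorem matContRes : Stmt_MatContRes := by
  intro k _ ρbar b n
  obtain ⟨L, hL, h⟩ := ρbar.factorsThroughFiniteLevel
  refine ⟨L, hL, fun σ hσ i j => ?_⟩
  have e : matOfBasis ρbar b σ = 1 := by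
    rw [matOfBasis_apply, h σ hσ]
    exact LinearMap.toMatrix_one b
  rw [e, sub_self]
  exact Ideal.zero_mem _

theorem dictOfResidual : Stmt_DictOfResidual := by
  intro k _ ρbar b hr
  refine ⟨⟨b.equivFun, fun σ x => ?_⟩⟩
  show b.equivFun (ρbar.ρ σ x) = (matOfBasis ρbar b σ).mulVec (b.equivFun x)
  rw [matOfBasis_apply]
  exact (LinearMap.toMatrix_mulVec_repr b b (ρbar.ρ σ) x).symm

/-! ### DICT-A -/

/-- The matrices of a `GaloisRepAdic` in a basis. -/
noncomputable def matOf {A : Type} [CommRing A] [IsLocalRing A] (ρ : GaloisRepAdic A)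
    (b : Module.Basis (Fin 2) A ρ.V) : Gal →* M2 A where
  toFun σ := LinearMap.toMatrix b b (ρ.ρ σ)
  map_one' := by rw [map_one]; exact LinearMap.toMatrix_one b
  map_mul' σ τ := by rw [map_mul]; exact LinearMap.toMatrix_mul b _ _

theorem matOf_apply {A : Type} [CommRing A] [IsLocalRing A] (ρ : GaloisRepAdic A)
    (b : Module.Basis (Fin 2) A ρ.V) (σ : Gal) :
    matOf ρ b σ = LinearMap.toMatrix b b (ρ.ρ σ) := rfl

theorem matCont_matOf {A : Type} [CommRing A] [IsLocalRing A] (ρ : GaloisRepAdic A)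
    (b : Module.Basis (Fin 2) A ρ.V) : MatCont (matOf ρ b) := by
  intro n
  obtain ⟨L, hL, h⟩ := ρ.isAdicContinuous n
  refine ⟨L, hL, fun σ hσ i j => ?_⟩
  have e : (matOf ρ b σ - 1) i j = b.repr (ρ.ρ σ (b j) - b j) i := by
    rw [Matrix.sub_apply, matOf_apply, LinearMap.toMatrix_apply, map_sub, Finsupp.sub_apply,
      Matrix.one_apply, Module.Basis.repr_self, Finsupp.single_apply]
    congr 1
    simp only [eq_comm]
  rw [e]
  exact repr_mem_of_mem_smul_top _ b (h σ hσ (b j)) i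

theorem isEquiv_ofMat_matOf {A : Type} [CommRing A] [IsLocalRing A] (ρ : GaloisRepAdic A)
    (b : Module.Basis (Fin 2) A ρ.V) (hr : MatCont (matOf ρ b)) :
    ρ.IsEquiv (ofMat (matOf ρ b) hr) := by
  refine ⟨⟨b.equivFun, fun σ x => ?_⟩⟩
  show b.equivFun (ρ.ρ σ x) = (matOf ρ b σ).mulVec (b.equivFun x)
  rw [matOf_apply]
  exact (LinearMap.toMatrix_mulVec_repr b b (ρ.ρ σ) x).symm

theorem dictExists : Stmt_DictExists := by
  intro A _ _ ρ
  let b : Module.Basis (Fin 2) A ρ.V := Module.finBasisOfFinrankEq A ρ.V ρ.finrank_eq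
  exact ⟨matOf ρ b, matCont_matOf ρ b, isEquiv_ofMat_matOf ρ b _⟩

/-! ### DICT-C -/

/-- Build an equivalence of `ofMat`s from a linear equivalence of `Fin 2 → A`. -/
theorem isEquiv_ofMat_of {A : Type} [CommRing A] [IsLocalRing A] (r r' : Gal →* M2 A)
    (hr : MatCont r) (hr' : MatCont r') (e : (Fin 2 → A) ≃ₗ[A] (Fin 2 → A))
    (he : ∀ σ (x : Fin 2 → A), e ((r σ).mulVec x) = (r' σ).mulVec (e x)) :
    (ofMat r hr).IsEquiv (ofMat r' hr') :=
  ⟨⟨e, he⟩⟩

/-- Extract a linear equivalence of `Fin 2 → A` from an equivalence of `ofMat`s. -/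
theorem exists_linearEquiv_of_isEquiv_ofMat {A : Type} [CommRing A] [IsLocalRing A]
    (r r' : Gal →* M2 A) (hr : MatCont r) (hr' : MatCont r')
    (h : (ofMat r hr).IsEquiv (ofMat r' hr')) :
    ∃ e : (Fin 2 → A) ≃ₗ[A] (Fin 2 → A),
      ∀ σ (x : Fin 2 → A), e ((r σ).mulVec x) = (r' σ).mulVec (e x) := by
  obtain ⟨e⟩ := h
  exact ⟨e.toLinearEquiv, fun σ x => e.map_apply σ x⟩

theorem dictEquiv : Stmt_DictEquiv := by
  intro A _ _ r r' hr hr'
  constructor
  · intro h
    obtain ⟨f, hf⟩ := exists_linearEquiv_of_isEquiv_ofMat r r' hr hr' h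
    let M : M2 A := LinearMap.toMatrix' (f : (Fin 2 → A) →ₗ[A] (Fin 2 → A))
    let M' : M2 A := LinearMap.toMatrix' (f.symm : (Fin 2 → A) →ₗ[A] (Fin 2 → A))
    have h1 : M * M' = 1 := by
      rw [← LinearMap.toMatrix'_comp, LinearEquiv.comp_coe, LinearEquiv.symm_trans_self,
        LinearEquiv.refl_toLinearMap, LinearMap.toMatrix'_id]
    have h2 : M' * M = 1 := by
      rw [← LinearMap.toMatrix'_comp, LinearEquiv.comp_coe, LinearEquiv.self_trans_symm,
        LinearEquiv.refl_toLinearMap, LinearMap.toMatrix'_id]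
    refine ⟨⟨M, M', h1, h2⟩, fun σ => ?_⟩
    show M * r σ = r' σ * M
    have e1 : (f : (Fin 2 → A) →ₗ[A] (Fin 2 → A)) ∘ₗ Matrix.toLin' (r σ) =
        Matrix.toLin' (r' σ) ∘ₗ (f : (Fin 2 → A) →ₗ[A] (Fin 2 → A)) := by
      refine LinearMap.ext fun x => ?_
      simp only [LinearMap.coe_comp, Function.comp_apply, Matrix.toLin'_apply,
        LinearEquiv.coe_coe]
      exact hf σ x
    have e2 := congrArg LinearMap.toMatrix' e1
    rw [LinearMap.toMatrix'_comp, LinearMap.toMatrix'_comp, LinearMap.toMatrix'_toLin',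
      LinearMap.toMatrix'_toLin'] at e2
    exact e2
  · rintro ⟨M, hM⟩
    have h1 : ((M⁻¹ : (M2 A)ˣ) : M2 A) * (M : M2 A) = 1 := Units.inv_mul M
    have h2 : (M : M2 A) * ((M⁻¹ : (M2 A)ˣ) : M2 A) = 1 := Units.mul_inv M
    refine isEquiv_ofMat_of r r' hr hr' (Matrix.toLin'OfInv h1 h2) fun σ x => ?_
    show Matrix.toLin' (M : M2 A) ((r σ).mulVec x) = (r' σ).mulVec (Matrix.toLin' (M : M2 A) x)
    rw [Matrix.toLin'_apply, Matrix.toLin'_apply, Matrix.mulVec_mulVec, Matrix.mulVec_mulVec,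
      hM σ]

/-! ### DICT-B -/

theorem dictBaseChange : Stmt_DictBaseChange := by
  intro A B _ _ _ _ φ hφ r hr hr'
  let _ : Algebra A B := φ.toAlgebra
  let e : B ⊗[A] (Fin 2 → A) ≃ₗ[B] (Fin 2 → B) := TensorProduct.piScalarRight A B B (Fin 2)
  have key : ∀ (σ : Gal) (x : B ⊗[A] (Fin 2 → A)),
      e ((Matrix.toLin' (r σ)).baseChange B x) = (mapMat φ r σ).mulVec (e x) := by
    intro σ x
    induction x using TensorProduct.induction_on with
    | zero => rw [map_zero, map_zero, Matrix.mulVec_zero]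
    | tmul b v =>
      rw [LinearMap.baseChange_tmul]
      simp only [e, TensorProduct.piScalarRight_apply, TensorProduct.piScalarRightHom_tmul]
      ext i
      simp only [Matrix.toLin'_apply, Matrix.mulVec, dotProduct, mapMat_apply, Algebra.smul_def,
        RingHom.algebraMap_toAlgebra, map_sum, map_mul, Finset.sum_mul]
      refine Finset.sum_congr rfl fun j _ => ?_
      ring
    | add x y hx hy =>
      rw [map_add, map_add, hx, hy, map_add, Matrix.mulVec_add]
  exact ⟨⟨e, fun σ x => key σ x⟩⟩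

/-! ### DICT-F -/

theorem typeEquiv (𝒪 : Type) [CommRing 𝒪] [IsLocalRing 𝒪]
    (𝒟 : ∀ ⦃A : Type⦄ [CommRing A] [IsLocalRing A] [Algebra 𝒪 A], GaloisRepAdic A → Prop)
    (h𝒟 : GaloisRep.IsDeformationCondition 𝒪 𝒟) : Stmt_TypeEquiv 𝒪 𝒟 := by
  intro A _ _ _ _ _ hloc hsurj ρ ρ' hequiv hρ
  rw [h𝒟.iff_forall_surjective hloc hsurj] at hρ ⊢
  intro B _ _ _ hB q hq hqs
  obtain ⟨e⟩ := hequiv
  exact h𝒟.of_isEquiv hB ⟨e.baseChangeAlong (q : A →+* B) hq⟩ (hρ hB q hq hqs)

/-! ### DICT-D -/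

/-- Two endomorphisms with the same matrix in two bases are intertwined by the
equivalence matching the bases. -/
theorem equiv_comp_eq_of_toMatrix_eq {K V W : Type} [Field K] [AddCommGroup V] [Module K V]
    [AddCommGroup W] [Module K W] (B₁ : Module.Basis (Fin 2) K V) (B₂ : Module.Basis (Fin 2) K W)
    (F : V →ₗ[K] V) (G : W →ₗ[K] W)
    (h : LinearMap.toMatrix B₁ B₁ F = LinearMap.toMatrix B₂ B₂ G) (x : V) :
    B₁.equiv B₂ (Equiv.refl _) (F x) = G (B₁.equiv B₂ (Equiv.refl _) x) := by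
  have key : ((B₁.equiv B₂ (Equiv.refl _) : V ≃ₗ[K] W) : V →ₗ[K] W) ∘ₗ F =
      G ∘ₗ ((B₁.equiv B₂ (Equiv.refl _) : V ≃ₗ[K] W) : V →ₗ[K] W) := by
    refine B₁.ext fun j => ?_
    simp only [LinearMap.coe_comp, Function.comp_apply, LinearEquiv.coe_coe,
      Module.Basis.equiv_apply, Equiv.refl_apply]
    rw [← B₁.sum_repr (F (B₁ j)), ← B₂.sum_repr (G (B₂ j)), map_sum]
    refine Finset.sum_congr rfl fun i _ => ?_
    rw [map_smul, Module.Basis.equiv_apply, Equiv.refl_apply, ← LinearMap.toMatrix_apply,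
      ← LinearMap.toMatrix_apply, h]
  exact LinearMap.congr_fun key x

/-- Matrix of an endomorphism in a transported basis. -/
theorem toMatrix_map_symm {K V W : Type} [Field K] [AddCommGroup V] [Module K V]
    [AddCommGroup W] [Module K W] (B₂ : Module.Basis (Fin 2) K W) (E : V ≃ₗ[K] W)
    (F : V →ₗ[K] V) (G : W →ₗ[K] W) (h : ∀ x, E (F x) = G (E x)) :
    LinearMap.toMatrix (B₂.map E.symm) (B₂.map E.symm) F = LinearMap.toMatrix B₂ B₂ G := by
  ext i j
  rw [LinearMap.toMatrix_apply, LinearMap.toMatrix_apply, Module.Basis.map_repr,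
    Module.Basis.map_apply, LinearEquiv.trans_apply, LinearEquiv.symm_symm, h,
    LinearEquiv.apply_symm_apply]

/-- Core of DICT-D, for an arbitrary algebra structure of the residue field of `A` over a
field `k`: the residual representation is equivalent to the base change of `ρbar` iff in some
basis the matrices reduce to those of `ρbar`. -/
theorem residual_isEquiv_baseChange_iff {k : Type} [Field k] (ρbar : ResidualGaloisRep k)
    (b : Module.Basis (Fin 2) k ρbar.V) {A : Type} [CommRing A] [IsLocalRing A]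
    [Algebra k (ResidueField A)] (ρ : GaloisRepAdic A) :
    ρ.residual.IsEquiv (ρbar.baseChange (ResidueField A)) ↔
      ∃ v : Module.Basis (Fin 2) A ρ.V, ∀ σ i j,
        residue A (matOf ρ v σ i j) = algebraMap k (ResidueField A) (matOfBasis ρbar b σ i j) := by
  let B₂ : Module.Basis (Fin 2) (ResidueField A) (ResidueField A ⊗[k] ρbar.V) :=
    Algebra.TensorProduct.basis (ResidueField A) b
  have hG : ∀ σ : Gal, LinearMap.toMatrix B₂ B₂ ((ρbar.ρ σ).baseChange (ResidueField A)) =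
      (matOfBasis ρbar b σ).map (algebraMap k (ResidueField A)) := fun σ =>
    LinearMap.toMatrix_baseChange (ResidueField A) (ρbar.ρ σ) b b
  have hF : ∀ (v : Module.Basis (Fin 2) A ρ.V) (σ : Gal),
      LinearMap.toMatrix (Algebra.TensorProduct.basis (ResidueField A) v)
        (Algebra.TensorProduct.basis (ResidueField A) v) ((ρ.ρ σ).baseChange (ResidueField A)) =
      (matOf ρ v σ).map (residue A) := fun v σ =>
    LinearMap.toMatrix_baseChange (ResidueField A) (ρ.ρ σ) v v
  constructor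
  · rintro ⟨e⟩
    let E : (ResidueField A ⊗[A] ρ.V) ≃ₗ[ResidueField A] (ResidueField A ⊗[k] ρbar.V) :=
      e.toLinearEquiv
    have hE : ∀ (σ : Gal) (x : ResidueField A ⊗[A] ρ.V),
        E ((ρ.ρ σ).baseChange (ResidueField A) x) =
          (ρbar.ρ σ).baseChange (ResidueField A) (E x) := fun σ x => e.map_apply σ x
    let B₁ : Module.Basis (Fin 2) (ResidueField A) (ResidueField A ⊗[A] ρ.V) := B₂.map E.symm
    have hsurj : Function.Surjective (TensorProduct.mk A (ResidueField A) ρ.V 1) :=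
      TensorProduct.mk_surjective A ρ.V (ResidueField A) IsLocalRing.residue_surjective
    choose w hw using fun i => hsurj (B₁ i)
    have hcomp : (TensorProduct.mk A (ResidueField A) ρ.V 1) ∘ w = B₁ := funext hw
    have hli : LinearIndependent A w := by
      apply Module.IsLocalRing.linearIndependent_of_flat
      rw [hcomp]
      exact B₁.linearIndependent
    have hsp : Submodule.span A (Set.range w) = ⊤ :=
      IsLocalRing.span_eq_top_of_tmul_eq_basis w B₁ hw
    let v : Module.Basis (Fin 2) A ρ.V := Module.Basis.mk hli hsp.ge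
    have hv : Algebra.TensorProduct.basis (ResidueField A) v = B₁ := by
      refine Module.Basis.eq_of_apply_eq fun i => ?_
      rw [Algebra.TensorProduct.basis_apply, Module.Basis.mk_apply]
      exact hw i
    refine ⟨v, fun σ i j => ?_⟩
    have h1 := hF v σ
    rw [hv, toMatrix_map_symm B₂ E _ _ (hE σ), hG σ] at h1
    have h2 := congrFun (congrFun h1 i) j
    rw [Matrix.map_apply, Matrix.map_apply] at h2
    exact h2.symm
  · rintro ⟨v, hv⟩
    let B₁ : Module.Basis (Fin 2) (ResidueField A) (ResidueField A ⊗[A] ρ.V) :=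
      Algebra.TensorProduct.basis (ResidueField A) v
    have hmat : ∀ σ : Gal, LinearMap.toMatrix B₁ B₁ ((ρ.ρ σ).baseChange (ResidueField A)) =
        LinearMap.toMatrix B₂ B₂ ((ρbar.ρ σ).baseChange (ResidueField A)) := by
      intro σ
      rw [hF v σ, hG σ]
      ext i j
      rw [Matrix.map_apply, Matrix.map_apply]
      exact hv σ i j
    exact ⟨⟨B₁.equiv B₂ (Equiv.refl _), fun σ x =>
      equiv_comp_eq_of_toMatrix_eq B₁ B₂ _ _ (hmat σ) x⟩⟩

/-- The matrices of `ofMat r` in the standard basis are `r`. -/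
theorem matOf_ofMat {A : Type} [CommRing A] [IsLocalRing A] (r : Gal →* M2 A) (hr : MatCont r)
    (σ : Gal) : matOf (ofMat r hr) (Pi.basisFun A (Fin 2)) σ = r σ := by
  show LinearMap.toMatrix (Pi.basisFun A (Fin 2)) (Pi.basisFun A (Fin 2)) (Matrix.toLin' (r σ)) =
    r σ
  rw [LinearMap.toMatrix_eq_toMatrix', LinearMap.toMatrix'_toLin']

/-- Strictness in terms of residues. -/
theorem isStrictLift_iff {𝒪 : Type} [CommRing 𝒪] [IsLocalRing 𝒪]
    (rbar : Gal →* M2 (ResidueField 𝒪)) {A : Type} [CommRing A] [IsLocalRing A] [Algebra 𝒪 A]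
    [IsLocalHom (algebraMap 𝒪 A)] (r : Gal → M2 A) :
    IsStrictLift rbar r ↔ ∀ σ i j,
      residue A (r σ i j) = IsLocalRing.ResidueField.map (algebraMap 𝒪 A) (rbar σ i j) := by
  constructor
  · intro h σ i j
    obtain ⟨c, hc, hmem⟩ := h σ i j
    rw [← hc, IsLocalRing.ResidueField.map_residue]
    rw [← sub_eq_zero, ← map_sub]
    exact (IsLocalRing.residue_eq_zero_iff _).mpr hmem
  · intro h σ i j
    obtain ⟨c, hc⟩ := IsLocalRing.residue_surjective (rbar σ i j)
    refine ⟨c, hc, ?_⟩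
    rw [← IsLocalRing.residue_eq_zero_iff, map_sub, h σ i j, ← hc,
      IsLocalRing.ResidueField.map_residue, sub_self]

theorem dictResidual (𝒪 : Type) [CommRing 𝒪] [IsLocalRing 𝒪] : Stmt_DictResidual 𝒪 := by
  intro ρbar b A _ _ _ _ ρ
  let ψ : ResidueField 𝒪 →+* ResidueField A := IsLocalRing.ResidueField.map (algebraMap 𝒪 A)
  let _ : Algebra (ResidueField 𝒪) (ResidueField A) := ψ.toAlgebra
  have hbc : ρbar.baseChangeAlong ψ = ρbar.baseChange (ResidueField A) := rfl
  show ρ.residual.IsEquiv (ρbar.baseChangeAlong ψ) ↔ _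
  rw [hbc]
  constructor
  · intro h
    obtain ⟨v, hv⟩ := (residual_isEquiv_baseChange_iff ρbar b ρ).mp h
    refine ⟨matOf ρ v, matCont_matOf ρ v, ?_, isEquiv_ofMat_matOf ρ v _⟩
    rw [isStrictLift_iff]
    exact hv
  · rintro ⟨r, hr, hstrict, ⟨e⟩⟩
    have h1 : (ofMat r hr).residual.IsEquiv (ρbar.baseChange (ResidueField A)) := by
      rw [residual_isEquiv_baseChange_iff ρbar b]
      refine ⟨Pi.basisFun A (Fin 2), fun σ i j => ?_⟩
      rw [matOf_ofMat]
      exact (isStrictLift_iff _ _).mp hstrict σ i j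
    obtain ⟨e1⟩ := h1
    exact ⟨e.residual.trans e1⟩

end Fermat.Agent.S53.helper2873
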