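/-
S53 blueprint (helper53_Spec), level L3: proofs of `Stmt_FamUp` (FUNCT-6) and `Stmt_FamKer`
(FUNCT-1) in hypothesis-passing style.  Board rows 183 and 185.  (helper2912)
-/
import Fermat.Agent.S53.helper53_Spec
import Fermat.Agent.S53.helper533_TestAlg

set_option autoImplicit false

namespace Fermat.Agent.S53.helper2912

open IsLocalRing Fermat.Agent.S53.helper53

section

variable (𝒪 : Type) [CommRing 𝒪] [IsLocalRing 𝒪] (rbar : Gal →* M2 (ResidueField 𝒪))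
  (Sig : Set (Lam 𝒪))
  (𝒟 : ∀ ⦃A : Type⦄ [CommRing A] [IsLocalRing A] [Algebra 𝒪 A], GaloisRepAdic A → Prop)

/-- The augmentation ideal is proper. -/
theorem augIdeal_ne_top : augIdeal rbar ≠ ⊤ := by
  intro h
  have h1 : (1 : Lam 𝒪) ∈ augIdeal rbar := by rw [h]; trivial
  rw [augIdeal, RingHom.mem_ker, map_one] at h1
  exact one_ne_zero h1

/-- FUNCT-6 (`Stmt_FamUp`): the family is upward closed below the augmentation ideal. -/
theorem famUp (hM : Stmt_NLiftMap 𝒪 rbar Sig 𝒟) : Stmt_FamUp 𝒪 rbar Sig 𝒟 := by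
  intro J J' hJ hJJ' hJ'
  obtain ⟨hloc, htest, r, hr, hN⟩ := hJ
  have : IsLocalRing (Lam 𝒪 ⧸ J) := hloc
  have hJ'top : J' ≠ ⊤ := fun h => augIdeal_ne_top 𝒪 rbar (top_le_iff.mp (h ▸ hJ'))
  have : Nontrivial (Lam 𝒪 ⧸ J') := Ideal.Quotient.nontrivial_iff.mpr hJ'top
  have hsurj : Function.Surjective (Ideal.Quotient.factor hJJ') :=
    Ideal.Quotient.factor_surjective hJJ'
  have : IsLocalRing (Lam 𝒪 ⧸ J') := IsLocalRing.of_surjective' (Ideal.Quotient.factor hJJ') hsurj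
  have : IsArtinianRing (Lam 𝒪 ⧸ J) := htest.isArtinian
  have : IsArtinianRing (Lam 𝒪 ⧸ J') :=
    Function.Surjective.isArtinianRing (f := Ideal.Quotient.factor hJJ') hsurj
  have htest' : GaloisRep.IsArtinianTestAlgebra 𝒪 (Lam 𝒪 ⧸ J') :=
    helper533.testAlg_of_surjective 𝒪 htest.isLocalHom htest.residue_surjective
      (Ideal.Quotient.factorₐ 𝒪 hJJ') hsurj
  refine ⟨inferInstance, htest',
    mapMat ((Ideal.Quotient.factorₐ 𝒪 hJJ' : (Lam 𝒪 ⧸ J) →ₐ[𝒪] (Lam 𝒪 ⧸ J')) :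
      (Lam 𝒪 ⧸ J) →+* (Lam 𝒪 ⧸ J')) r, ?_, ?_⟩
  · intro σ i j
    rw [mapMat_apply, hr]
    rfl
  · exact hM _ _ htest htest' (Ideal.Quotient.factorₐ 𝒪 hJJ') r hN

end

/-- A function into matrices over `B` whose entrywise image under an injective ring hom is a
monoid hom is itself a monoid hom. -/
noncomputable def pullbackHom {A B : Type} [CommRing A] [CommRing B] (φ : B →+* A)
    (hφ : Function.Injective φ) (r : Gal →* M2 A) (t : Gal → M2 B)
    (ht : ∀ σ, (t σ).map φ = r σ) : Gal →* M2 B where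
  toFun := t
  map_one' := by
    apply Matrix.map_injective hφ
    show (t 1).map φ = (1 : M2 B).map φ
    rw [ht, map_one, Matrix.map_one _ (map_zero φ) (map_one φ)]
  map_mul' σ τ := by
    apply Matrix.map_injective hφ
    show (t (σ * τ)).map φ = (t σ * t τ).map φ
    rw [ht, map_mul, Matrix.map_mul, ht, ht]

@[simp] theorem pullbackHom_apply {A B : Type} [CommRing A] [CommRing B] (φ : B →+* A)
    (hφ : Function.Injective φ) (r : Gal →* M2 A) (t : Gal → M2 B)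
    (ht : ∀ σ, (t σ).map φ = r σ) (σ : Gal) : pullbackHom φ hφ r t ht σ = t σ := rfl

section

variable (𝒪 : Type) [CommRing 𝒪] [IsLocalRing 𝒪] (rbar : Gal →* M2 (ResidueField 𝒪))
  (Sig : Set (Lam 𝒪))
  (𝒟 : ∀ ⦃A : Type⦄ [CommRing A] [IsLocalRing A] [Algebra 𝒪 A], GaloisRepAdic A → Prop)

/-- FUNCT-1 (`Stmt_FamKer`): the kernel of evaluation at the entries of a normalized `𝒟`-lift
over an Artinian test algebra belongs to the family. -/
theorem famKer [Finite (ResidueField 𝒪)] (hD : GaloisRep.IsDeformationCondition 𝒪 𝒟)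
    (hBC : Stmt_DictBaseChange) : Stmt_FamKer 𝒪 rbar Sig 𝒟 := by
  intro A _ _ _ hA r hN
  let ψ : Lam 𝒪 →ₐ[𝒪] A := evalMat r
  let φ : (Lam 𝒪 ⧸ RingHom.ker ψ) →ₐ[𝒪] A := Ideal.kerLiftAlg ψ
  have hφ : Function.Injective φ := Ideal.kerLiftAlg_injective ψ
  have hlocB : IsLocalRing (Lam 𝒪 ⧸ RingHom.ker ψ) :=
    helper533.isLocalRing_of_injective 𝒪 hA φ hφ
  have htestB : GaloisRep.IsArtinianTestAlgebra 𝒪 (Lam 𝒪 ⧸ RingHom.ker ψ) :=
    helper533.testAlg_of_injective 𝒪 hA φ hφ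
  have hφloc : IsLocalHom (φ : (Lam 𝒪 ⧸ RingHom.ker ψ) →+* A) :=
    helper533.isLocalHom_of_injective 𝒪 hA φ hφ
  -- the tautological matrices
  let t : Gal → M2 (Lam 𝒪 ⧸ RingHom.ker ψ) := fun σ =>
    Matrix.of fun i j => Ideal.Quotient.mk (RingHom.ker ψ) (MvPolynomial.X (σ, i, j))
  have ht : ∀ σ, (t σ).map (φ : (Lam 𝒪 ⧸ RingHom.ker ψ) →+* A) = r σ := by
    intro σ
    ext i j
    show φ (Ideal.Quotient.mk (RingHom.ker ψ) (MvPolynomial.X (σ, i, j))) = r σ i j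
    rw [Ideal.kerLiftAlg_mk]
    exact evalMat_X r σ i j
  let rB : Gal →* M2 (Lam 𝒪 ⧸ RingHom.ker ψ) :=
    pullbackHom (φ : (Lam 𝒪 ⧸ RingHom.ker ψ) →+* A) hφ r t ht
  have hrB : ∀ σ i j, φ (rB σ i j) = r σ i j := fun σ i j => congrFun (congrFun (ht σ) i) j
  have hmap : mapMat (φ : (Lam 𝒪 ⧸ RingHom.ker ψ) →+* A) rB = r := by
    ext σ i j
    exact hrB σ i j
  -- continuity
  have hcont : MatCont rB := by
    intro n
    have := hA.isArtinian
    obtain ⟨N, hNil⟩ := IsArtinianRing.isNilpotent_jacobson_bot (R := A)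
    rw [jacobson_eq_maximalIdeal _ bot_ne_top] at hNil
    obtain ⟨L, hL, h⟩ := hN.cont N
    refine ⟨L, hL, fun σ hσ i j => ?_⟩
    have h1 : r σ = 1 := by
      ext i j
      have h2 := h σ hσ i j
      rw [hNil] at h2
      have h3 : (r σ - 1) i j = 0 := h2
      rw [Matrix.sub_apply, sub_eq_zero] at h3
      exact h3
    have h2 : rB σ = 1 := by
      apply Matrix.map_injective hφ
      show (t σ).map (φ : (Lam 𝒪 ⧸ RingHom.ker ψ) →+* A) =
        (1 : M2 (Lam 𝒪 ⧸ RingHom.ker ψ)).map (φ : (Lam 𝒪 ⧸ RingHom.ker ψ) →+* A)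
      rw [ht σ, h1, Matrix.map_one _ (map_zero _) (map_one _)]
    rw [h2, sub_self]
    exact Ideal.zero_mem _
  -- strictness
  have hstrict : IsStrictLift rbar rB := by
    intro σ i j
    obtain ⟨c, hc, hmem⟩ := hN.strict σ i j
    refine ⟨c, hc, fun hu => hmem ?_⟩
    have h1 := hu.map (φ : (Lam 𝒪 ⧸ RingHom.ker ψ) →+* A)
    have h2 : (φ : (Lam 𝒪 ⧸ RingHom.ker ψ) →+* A)
        (rB σ i j - algebraMap 𝒪 (Lam 𝒪 ⧸ RingHom.ker ψ) c) = r σ i j - algebraMap 𝒪 A c := by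
      rw [map_sub]
      congr 1
      · exact hrB σ i j
      · exact φ.commutes c
    rw [h2] at h1
    exact h1
  -- normalization
  have hcomp : φ.comp (evalMat (𝒪 := 𝒪) rB) = evalMat r := by
    apply MvPolynomial.algHom_ext
    rintro ⟨σ, i, j⟩
    rw [AlgHom.comp_apply, evalMat_X, evalMat_X]
    exact hrB σ i j
  have hnorm : IsNormalized Sig rB := by
    intro f hf
    apply hφ
    rw [map_zero, ← AlgHom.comp_apply, hcomp]
    exact hN.norm f hf
  -- type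
  have htype : 𝒟 (ofMat rB hcont) := by
    have hcont' : MatCont (mapMat (φ : (Lam 𝒪 ⧸ RingHom.ker ψ) →+* A) rB) := by
      rw [hmap]; exact hN.cont
    have hE := hBC (Lam 𝒪 ⧸ RingHom.ker ψ) A (φ : (Lam 𝒪 ⧸ RingHom.ker ψ) →+* A) hφloc rB
      hcont hcont'
    have aux : ∀ (r' : Gal →* M2 A) (h' : MatCont r'), r' = r → 𝒟 (ofMat r' h') := by
      intro r' h' e
      subst e
      exact hN.type
    have h1 : 𝒟 (ofMat (mapMat (φ : (Lam 𝒪 ⧸ RingHom.ker ψ) →+* A) rB) hcont') :=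
      aux _ _ hmap
    have h2 : 𝒟 ((ofMat rB hcont).baseChangeAlong (φ : (Lam 𝒪 ⧸ RingHom.ker ψ) →+* A) hφloc) := by
      obtain ⟨e⟩ := hE
      exact hD.of_isEquiv hA ⟨e.symm⟩ h1
    exact hD.of_baseChangeAlong_injective htestB hA φ hφloc hφ h2
  exact ⟨hlocB, htestB, rB, fun σ i j => rfl, ⟨hcont, hstrict, hnorm, htype⟩⟩

end

end Fermat.Agent.S53.helper2912
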