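/-
S53: FINAL assembly (backup of captain row 193), hypothesis-passing.
From the blueprint statements `Stmt_*` of `helper53_Spec` we derive
`Nonempty (GaloisRep.DeformationRingData 𝒪 ρbar 𝒟)`.
No sorry, no axioms beyond the standard ones.
-/
import Fermat.Agent.S53.helper53_Spec

set_option autoImplicit false

namespace Fermat.Agent.S53.helper2953

open IsLocalRing GaloisRep Fermat.Agent.S53.helper53

/-- Evaluation at pushed-forward matrices is the push-forward of evaluation. -/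
theorem evalMat_mapMat {𝒪 : Type} [CommRing 𝒪] {A B : Type} [CommRing A] [CommRing B]
    [Algebra 𝒪 A] [Algebra 𝒪 B] (φ : A →ₐ[𝒪] B) (r : Gal →* M2 A) (f : Lam 𝒪) :
    evalMat (𝒪 := 𝒪) (mapMat (φ : A →+* B) r : Gal → M2 B) f = φ (evalMat (𝒪 := 𝒪) r f) := by
  have h : (evalMat (𝒪 := 𝒪) (mapMat (φ : A →+* B) r : Gal → M2 B)) =
      φ.comp (evalMat (𝒪 := 𝒪) (r : Gal → M2 A)) := by
    apply MvPolynomial.algHom_ext
    intro x
    rcases x with ⟨σ, i, j⟩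
    rw [AlgHom.comp_apply, evalMat_X, evalMat_X]
    rfl
  rw [h, AlgHom.comp_apply]

/-- Normalization is preserved by push-forward along an algebra map. -/
theorem isNormalized_mapMat {𝒪 : Type} [CommRing 𝒪] (Sig : Set (Lam 𝒪)) {A B : Type}
    [CommRing A] [CommRing B] [Algebra 𝒪 A] [Algebra 𝒪 B] (φ : A →ₐ[𝒪] B) (r : Gal →* M2 A)
    (h : IsNormalized Sig (r : Gal → M2 A)) :
    IsNormalized Sig (mapMat (φ : A →+* B) r : Gal → M2 B) := by
  intro f hf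
  rw [evalMat_mapMat, h f hf, map_zero]

/-- Strict lifts are preserved by push-forward along a local algebra map. -/
theorem isStrictLift_mapMat {𝒪 : Type} [CommRing 𝒪] [IsLocalRing 𝒪]
    (rbar : Gal →* M2 (ResidueField 𝒪)) {A B : Type} [CommRing A] [IsLocalRing A]
    [CommRing B] [IsLocalRing B] [Algebra 𝒪 A] [Algebra 𝒪 B] (φ : A →ₐ[𝒪] B)
    (hφ : IsLocalHom (φ : A →+* B)) (r : Gal →* M2 A)
    (h : IsStrictLift rbar (r : Gal → M2 A)) :
    IsStrictLift rbar (mapMat (φ : A →+* B) r : Gal → M2 B) := by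
  intro σ i j
  obtain ⟨c, hc, hmem⟩ := h σ i j
  refine ⟨c, hc, ?_⟩
  have h1 : mapMat (φ : A →+* B) r σ i j - algebraMap 𝒪 B c =
      (φ : A →+* B) (r σ i j - algebraMap 𝒪 A c) := by
    rw [map_sub, mapMat_apply]
    congr 1
    exact (φ.commutes c).symm
  rw [h1]
  have := hφ
  exact map_nonunit (φ : A →+* B) _ hmem

/-- The FINAL assembly of S53 from the blueprint statements. -/
theorem final
    (𝒪 : Type) [CommRing 𝒪] [IsDomain 𝒪] [IsDiscreteValuationRing 𝒪]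
    [IsAdicComplete (IsLocalRing.maximalIdeal 𝒪) 𝒪] [Finite (IsLocalRing.ResidueField 𝒪)]
    (ρbar : ResidualGaloisRep (IsLocalRing.ResidueField 𝒪))
    (𝒟 : ∀ ⦃A : Type⦄ [CommRing A] [IsLocalRing A] [Algebra 𝒪 A], GaloisRepAdic A → Prop)
    (habs : ρbar.IsAbsolutelyIrreducible)
    (hSlice : Stmt_Slice 𝒪)
    (hRing : Stmt_Ring 𝒪)
    (hDictRes : Stmt_DictResidual 𝒪)
    (hDictBC : Stmt_DictBaseChange)
    (hDictEq : Stmt_DictEquiv)
    (hContConj : Stmt_MatContConj)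
    (hContMap : Stmt_MatContMap)
    (hTypeEq : Stmt_TypeEquiv 𝒪 𝒟)
    (hFam : ∀ (b : Module.Basis (Fin 2) (ResidueField 𝒪) ρbar.V) (Sig : Set (Lam 𝒪)),
      IsSlice (matOfBasis ρbar b) Sig →
        Stmt_FamTop 𝒪 (matOfBasis ρbar b) Sig 𝒟 ∧ Stmt_FamLe 𝒪 (matOfBasis ρbar b) Sig 𝒟 ∧
        Stmt_FamNil 𝒪 (matOfBasis ρbar b) Sig 𝒟 ∧ Stmt_FamFin 𝒪 (matOfBasis ρbar b) Sig 𝒟 ∧
        Stmt_FamInf 𝒪 (matOfBasis ρbar b) Sig 𝒟 ∧ Stmt_FamUp 𝒪 (matOfBasis ρbar b) Sig 𝒟 ∧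
        Stmt_FamTan 𝒪 (matOfBasis ρbar b) Sig 𝒟 ∧ Stmt_UnivRep 𝒪 (matOfBasis ρbar b) Sig 𝒟 ∧
        Stmt_UnivLift 𝒪 (matOfBasis ρbar b) Sig 𝒟 ∧
        Stmt_UnivUnique 𝒪 (matOfBasis ρbar b) Sig 𝒟) :
    Nonempty (GaloisRep.DeformationRingData 𝒪 ρbar 𝒟) := by
  obtain ⟨b, Sig, hS⟩ := hSlice ρbar habs
  obtain ⟨hTop, hLe, hNil, hFin, hInf, hUp, hTan, hURep, hULift, hUUniq⟩ := hFam b Sig hS
  have hne : augIdeal (matOfBasis ρbar b) ≠ ⊤ := RingHom.ker_ne_top _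
  have hres : ∀ x : Lam 𝒪, ∃ c : 𝒪, x - algebraMap 𝒪 (Lam 𝒪) c ∈ augIdeal (matOfBasis ρbar b) := by
    intro x
    obtain ⟨c, hc⟩ := IsLocalRing.residue_surjective
      (evalMat (𝒪 := 𝒪) (A := ResidueField 𝒪) (matOfBasis ρbar b) x)
    refine ⟨c, ?_⟩
    show evalMat (𝒪 := 𝒪) (A := ResidueField 𝒪) (matOfBasis ρbar b) _ = 0
    rw [map_sub, AlgHom.commutes, sub_eq_zero]
    exact hc.symm
  have hloc : ∀ c ∈ maximalIdeal 𝒪, algebraMap 𝒪 (Lam 𝒪) c ∈ augIdeal (matOfBasis ρbar b) := by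
    intro c hc
    show evalMat (𝒪 := 𝒪) (A := ResidueField 𝒪) (matOfBasis ρbar b) _ = 0
    rw [AlgHom.commutes]
    exact (IsLocalRing.residue_eq_zero_iff c).mpr hc
  obtain ⟨P⟩ := hRing (Lam 𝒪) (augIdeal (matOfBasis ρbar b))
    {J | InFamily (matOfBasis ρbar b) Sig 𝒟 J} hne hres hloc hTop hLe
    (fun 𝔞 h𝔞 𝔟 h𝔟 => hInf 𝔞 𝔟 h𝔞 h𝔟) (fun 𝔞 h𝔞 𝔟 h1 h2 => hUp 𝔞 𝔟 h𝔞 h1 h2) hFin hNil hTan
  obtain ⟨runiv, hrX, hN⟩ := hURep P
  refine ⟨{ R := P.R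
            residue_surjective := P.residue_surjective
            absIrr := habs
            ρ := ofMat runiv hN.cont
            isOfType := hN.type
            residual_isEquiv := ?_
            universal := ?_ }⟩
  · exact (hDictRes ρbar b P.R (ofMat runiv hN.cont)).mpr
      ⟨runiv, hN.cont, hN.strict, ⟨GaloisRepAdic.Equiv.refl _⟩⟩
  · intro A _ _ _ _ _ hlocA hresA ρA hDA hresEq
    obtain ⟨r, hr, hstrict, ⟨e⟩⟩ := (hDictRes ρbar b A ρA).mp hresEq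
    obtain ⟨M, r', hstrict', hnorm', hconj⟩ := hS.exists_normalized r hstrict
    have hr' : MatCont r' := hContConj A r r' M hconj hr
    obtain ⟨e'⟩ := (hDictEq A r r' hr hr').mpr ⟨M, hconj⟩
    have hD' : 𝒟 (ofMat r' hr') := hTypeEq A hlocA hresA ρA (ofMat r' hr') ⟨e.trans e'⟩ hDA
    have hNA : IsNLift (matOfBasis ρbar b) Sig 𝒟 r' := ⟨hr', hstrict', hnorm', hD'⟩
    obtain ⟨φ, hφloc, hφ⟩ := hULift P A hlocA hresA r' hNA
    have hmap : mapMat (φ : P.R →+* A) runiv = r' := by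
      apply MonoidHom.ext
      intro σ
      ext i j
      rw [mapMat_apply, hrX]
      exact hφ σ i j
    have hc : MatCont (mapMat (φ : P.R →+* A) runiv) :=
      hContMap P.R A (φ : P.R →+* A) hφloc runiv hN.cont
    obtain ⟨e1⟩ := hDictBC P.R A (φ : P.R →+* A) hφloc runiv hN.cont hc
    obtain ⟨e2⟩ := (hDictEq A (mapMat (φ : P.R →+* A) runiv) r' hc hr').mpr
      ⟨1, fun σ => by rw [hmap, Units.val_one, one_mul, mul_one]⟩
    refine ⟨φ, ⟨hφloc, ⟨(e1.trans e2).trans (e.trans e').symm⟩⟩, ?_⟩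
    rintro φ' ⟨hφ'loc, ⟨e3⟩⟩
    have hc' : MatCont (mapMat (φ' : P.R →+* A) runiv) :=
      hContMap P.R A (φ' : P.R →+* A) hφ'loc runiv hN.cont
    obtain ⟨e4⟩ := hDictBC P.R A (φ' : P.R →+* A) hφ'loc runiv hN.cont hc'
    -- ofMat (mapMat φ' runiv) ≅ ρ.bc φ' ≅ ρA ≅ ofMat r' ≅ ofMat (mapMat φ runiv)
    obtain ⟨M', hM'⟩ := (hDictEq A (mapMat (φ' : P.R →+* A) runiv)
      (mapMat (φ : P.R →+* A) runiv) hc' hc).mp
        ⟨(e4.symm.trans e3).trans ((e.trans e').trans e2.symm)⟩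
    have heq : mapMat (φ' : P.R →+* A) runiv = mapMat (φ : P.R →+* A) runiv :=
      hS.eq_of_conj _ _ (isStrictLift_mapMat _ φ' hφ'loc runiv hN.strict)
        (isStrictLift_mapMat _ φ hφloc runiv hN.strict)
        (isNormalized_mapMat Sig φ' runiv hN.norm) (isNormalized_mapMat Sig φ runiv hN.norm) M' hM'
    refine hUUniq P A φ' φ hφ'loc hφloc ?_
    intro σ i j
    rw [← hrX]
    have h4 := congrArg (fun (ρ : Gal →* M2 A) => ρ σ i j) heq
    simp only [mapMat_apply] at h4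
    exact h4

end Fermat.Agent.S53.helper2953
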