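/-
S53, ASM-1 of the captain blueprint (`helper53_Spec`): the universal matrix representation over
the ring of a `ProRep` of the family is a normalized lift of type `𝒟`.
Hypothesis-passing style; no sorry.
-/
import Fermat.Agent.S53.helper53_Spec
import Fermat.Agent.S53.helper533_TestAlg

set_option autoImplicit false
set_option linter.style.haveILetI false

namespace Fermat.Agent.S53.helper3163

open IsLocalRing Fermat.Agent.S53.helper53

section Family

variable {𝒪 : Type} [CommRing 𝒪] [IsLocalRing 𝒪] {rbar : Gal →* M2 (ResidueField 𝒪)}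
  {Sig : Set (Lam 𝒪)}
  {𝒟 : ∀ ⦃A : Type⦄ [CommRing A] [IsLocalRing A] [Algebra 𝒪 A], GaloisRepAdic A → Prop}

/-- The tautological matrices are multiplicative modulo a member of the family. -/
theorem inFamily_mul_mem {J : Ideal (Lam 𝒪)} (hJ : InFamily rbar Sig 𝒟 J) (σ τ : Gal)
    (i j : Fin 2) :
    (MvPolynomial.X (σ * τ, i, j) -
      ∑ k : Fin 2, MvPolynomial.X (σ, i, k) * MvPolynomial.X (τ, k, j) : Lam 𝒪) ∈ J := by
  obtain ⟨_, _, r, hr, _⟩ := hJ
  rw [← Ideal.Quotient.eq_zero_iff_mem, map_sub, map_sum]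
  simp only [map_mul, ← hr]
  rw [Matrix.mul_apply, sub_self]

/-- The tautological matrix at `1` is the identity modulo a member of the family. -/
theorem inFamily_one_mem {J : Ideal (Lam 𝒪)} (hJ : InFamily rbar Sig 𝒟 J) (i j : Fin 2) :
    (MvPolynomial.X ((1 : Gal), i, j) - (1 : M2 (Lam 𝒪)) i j : Lam 𝒪) ∈ J := by
  obtain ⟨_, _, r, hr, _⟩ := hJ
  rw [← Ideal.Quotient.eq_zero_iff_mem, map_sub, ← hr, map_one r]
  by_cases h : i = j <;> simp [Matrix.one_apply, h]

/-- The normalization polynomials lie in every member of the family. -/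
theorem inFamily_sig_mem {J : Ideal (Lam 𝒪)} (hJ : InFamily rbar Sig 𝒟 J) (f : Lam 𝒪)
    (hf : f ∈ Sig) : f ∈ J := by
  obtain ⟨_, _, r, hr, hN⟩ := hJ
  have hev : evalMat (𝒪 := 𝒪) (fun σ => r σ) = Ideal.Quotient.mkₐ 𝒪 J := by
    apply MvPolynomial.algHom_ext
    rintro ⟨σ, i, j⟩
    rw [evalMat_X, hr]
    rfl
  have h := hN.norm f hf
  rw [hev] at h
  exact Ideal.Quotient.eq_zero_iff_mem.mp h

/-- The maximal ideal of an Artinian local ring is nilpotent. -/
theorem exists_maximalIdeal_pow_eq_bot (B : Type) [CommRing B] [IsLocalRing B] [IsArtinianRing B] :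
    ∃ k : ℕ, maximalIdeal B ^ k = ⊥ := by
  obtain ⟨k, hk⟩ := IsArtinianRing.isNilpotent_jacobson_bot (R := B)
  rw [jacobson_eq_maximalIdeal _ bot_ne_top] at hk
  exact ⟨k, hk⟩

/-- Continuity: on the subgroup fixing a suitable finite extension the tautological matrices are
the identity modulo a member of the family. -/
theorem inFamily_cont {J : Ideal (Lam 𝒪)} (hJ : InFamily rbar Sig 𝒟 J) :
    ∃ L : IntermediateField ℚ (AlgebraicClosure ℚ), FiniteDimensional ℚ L ∧
      ∀ σ : Gal, (∀ x ∈ L, σ x = x) → ∀ i j : Fin 2,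
        (MvPolynomial.X (σ, i, j) - (1 : M2 (Lam 𝒪)) i j : Lam 𝒪) ∈ J := by
  obtain ⟨_, htest, r, hr, hN⟩ := hJ
  haveI := htest.isArtinian
  obtain ⟨k, hk⟩ := exists_maximalIdeal_pow_eq_bot (Lam 𝒪 ⧸ J)
  obtain ⟨L, hL, h⟩ := hN.cont k
  refine ⟨L, hL, fun σ hσ i j => ?_⟩
  have h1 := h σ hσ i j
  rw [hk, Ideal.mem_bot, Matrix.sub_apply, hr] at h1
  rw [← Ideal.Quotient.eq_zero_iff_mem, map_sub]
  rw [← h1]
  congr 1
  by_cases hij : i = j <;> simp [Matrix.one_apply, hij]

/-- Strictness: every tautological entry is congruent to a scalar lifting the corresponding entry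
of `rbar`, up to a nilpotent, modulo a member of the family. -/
theorem inFamily_strict {J : Ideal (Lam 𝒪)} (hJ : InFamily rbar Sig 𝒟 J) (σ : Gal)
    (i j : Fin 2) :
    ∃ c : 𝒪, residue 𝒪 c = rbar σ i j ∧
      ∃ k : ℕ, (MvPolynomial.X (σ, i, j) - MvPolynomial.C c : Lam 𝒪) ^ k ∈ J := by
  obtain ⟨_, htest, r, hr, hN⟩ := hJ
  haveI := htest.isArtinian
  obtain ⟨k, hk⟩ := exists_maximalIdeal_pow_eq_bot (Lam 𝒪 ⧸ J)
  obtain ⟨c, hc, hmem⟩ := hN.strict σ i j
  refine ⟨c, hc, k, ?_⟩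
  have h1 := Ideal.pow_mem_pow hmem k
  rw [hk, Ideal.mem_bot, hr] at h1
  rw [← Ideal.Quotient.eq_zero_iff_mem, map_pow, map_sub]
  rw [← h1]
  rfl

end Family

section Main

variable (𝒪 : Type) [CommRing 𝒪] [IsLocalRing 𝒪] (rbar : Gal →* M2 (ResidueField 𝒪))
  (Sig : Set (Lam 𝒪))
  (𝒟 : ∀ ⦃A : Type⦄ [CommRing A] [IsLocalRing A] [Algebra 𝒪 A], GaloisRepAdic A → Prop)

/-- ASM-1 of the captain blueprint: over the ring of a `ProRep` of the family, the matrices
`ι (X (σ,i,j))` form a normalized lift of type `𝒟`. -/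
theorem univRep (hD : GaloisRep.IsDeformationCondition 𝒪 𝒟)
    (hB : Stmt_DictBaseChange)
    (hM : Stmt_NLiftMap 𝒪 rbar Sig 𝒟) (hUp : Stmt_FamUp 𝒪 rbar Sig 𝒟)
    (hLe : Stmt_FamLe 𝒪 rbar Sig 𝒟) :
    Stmt_UnivRep 𝒪 rbar Sig 𝒟 := by
  intro P
  have hfam : ∀ n : ℕ, 0 < n →
      InFamily rbar Sig 𝒟 ((maximalIdeal P.R ^ n).comap P.ι) := fun n hn => P.comap_mem n hn
  -- Krull intersection: an element lying in all positive powers of the maximal ideal is zero
  have hzero : ∀ x : P.R, (∀ n : ℕ, 0 < n → x ∈ maximalIdeal P.R ^ n) → x = 0 := by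
    intro x hx
    have h := Ideal.iInf_pow_eq_bot_of_isLocalRing (maximalIdeal P.R)
      (Ideal.IsMaximal.ne_top inferInstance)
    have hx' : x ∈ ⨅ i, maximalIdeal P.R ^ i := by
      rw [Ideal.mem_iInf]
      intro i
      rcases Nat.eq_zero_or_pos i with rfl | hi
      · simp
      · exact hx i hi
    rw [h] at hx'
    simpa using hx'
  have hι0 : ∀ f : Lam 𝒪, (∀ J, InFamily rbar Sig 𝒟 J → f ∈ J) → P.ι f = 0 := by
    intro f hf
    apply hzero
    intro n hn
    exact hf _ (hfam n hn)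
  have hone : ∀ i j : Fin 2, P.ι ((1 : M2 (Lam 𝒪)) i j) = (1 : M2 P.R) i j := by
    intro i j
    by_cases hij : i = j <;> simp [Matrix.one_apply, hij]
  -- the universal matrices
  let runiv : Gal →* M2 P.R :=
    { toFun := fun σ => Matrix.of fun i j => P.ι (MvPolynomial.X (σ, i, j))
      map_one' := by
        ext i j
        rw [Matrix.of_apply]
        have h := hι0 (MvPolynomial.X ((1 : Gal), i, j) - (1 : M2 (Lam 𝒪)) i j)
          (fun J hJ => inFamily_one_mem hJ i j)
        rw [map_sub, sub_eq_zero] at h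
        rw [h, hone]
      map_mul' := fun σ τ => by
        ext i j
        rw [Matrix.mul_apply]
        simp only [Matrix.of_apply]
        have h := hι0 _ (fun J hJ => inFamily_mul_mem hJ σ τ i j)
        rw [map_sub, sub_eq_zero, map_sum] at h
        rw [h]
        simp only [map_mul] }
  have hruniv : ∀ σ i j, runiv σ i j = P.ι (MvPolynomial.X (σ, i, j)) := fun σ i j => rfl
  -- continuity
  have hcont : MatCont runiv := by
    intro n
    rcases Nat.eq_zero_or_pos n with rfl | hn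
    · exact ⟨⊥, inferInstance, fun σ _ i j => by simp⟩
    · obtain ⟨L, hL, h⟩ := inFamily_cont (hfam n hn)
      refine ⟨L, hL, fun σ hσ i j => ?_⟩
      have h1 : P.ι (MvPolynomial.X (σ, i, j) - (1 : M2 (Lam 𝒪)) i j) ∈ maximalIdeal P.R ^ n :=
        h σ hσ i j
      rw [map_sub, hone] at h1
      rw [Matrix.sub_apply, hruniv]
      exact h1
  -- strictness
  have hstrict : IsStrictLift rbar runiv := by
    intro σ i j
    obtain ⟨c, hc, k, hk⟩ := inFamily_strict (hfam 1 one_pos) σ i j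
    refine ⟨c, hc, ?_⟩
    have h1 : P.ι ((MvPolynomial.X (σ, i, j) - MvPolynomial.C c : Lam 𝒪) ^ k) ∈
        maximalIdeal P.R ^ 1 := hk
    rw [pow_one, map_pow] at h1
    have h2 := (Ideal.IsMaximal.isPrime' (maximalIdeal P.R)).mem_of_pow_mem k h1
    rw [map_sub, ← MvPolynomial.algebraMap_eq, AlgHom.commutes] at h2
    rw [hruniv]
    exact h2
  -- normalization
  have hev : evalMat (𝒪 := 𝒪) (fun σ => runiv σ) = P.ι := by
    apply MvPolynomial.algHom_ext
    rintro ⟨σ, i, j⟩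
    rw [evalMat_X, hruniv]
  have hnorm : IsNormalized Sig (fun σ => runiv σ) := by
    intro f hf
    rw [hev]
    exact hι0 f (fun J hJ => inFamily_sig_mem hJ f hf)
  -- type
  have htype : 𝒟 (ofMat runiv hcont) := by
    refine (hD.iff_forall_surjective P.instIsLocalHom P.residue_surjective
      (ofMat runiv hcont)).mpr ?_
    intro B _ _ _ hBtest q hq hqs
    haveI := hBtest.isArtinian
    haveI := hq
    obtain ⟨n, hn0, hn⟩ := helper533.exists_maxPow_le_ker (q : P.R →+* B)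
    -- the kernel of `q ∘ ι`
    let ψ : Lam 𝒪 →ₐ[𝒪] B := q.comp P.ι
    have hKup : (maximalIdeal P.R ^ n).comap P.ι ≤ RingHom.ker ψ := by
      intro f hf
      have h1 : P.ι f ∈ RingHom.ker (q : P.R →+* B) := hn hf
      exact h1
    have hKle : RingHom.ker ψ ≤ augIdeal rbar := by
      intro f hf
      have h1 : P.ι f ∈ maximalIdeal P.R := by
        by_contra hnot
        have hu : IsUnit (P.ι f) := by
          by_contra hnu
          exact hnot hnu
        have hu' : IsUnit ((q : P.R →+* B) (P.ι f)) := hu.map _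
        have h0 : (q : P.R →+* B) (P.ι f) = 0 := hf
        rw [h0] at hu'
        exact not_isUnit_zero hu'
      have h2 : f ∈ (maximalIdeal P.R ^ 1).comap P.ι := by
        rw [pow_one]
        exact h1
      exact hLe _ (hfam 1 one_pos) h2
    have hK : InFamily rbar Sig 𝒟 (RingHom.ker ψ) :=
      hUp _ _ (hfam n (Nat.pos_of_ne_zero hn0)) hKup hKle
    obtain ⟨hloc, htest, rK, hrK, hNK⟩ := hK
    let φ : Lam 𝒪 ⧸ RingHom.ker ψ →ₐ[𝒪] B :=
      Ideal.Quotient.liftₐ (RingHom.ker ψ) ψ (fun a ha => ha)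
    have hmap : mapMat (φ : Lam 𝒪 ⧸ RingHom.ker ψ →+* B) rK = mapMat (q : P.R →+* B) runiv := by
      apply MonoidHom.ext
      intro σ
      ext i j
      rw [mapMat_apply, mapMat_apply, hrK, hruniv]
      rfl
    have hN' : IsNLift rbar Sig 𝒟 (mapMat (φ : Lam 𝒪 ⧸ RingHom.ker ψ →+* B) rK) :=
      hM (Lam 𝒪 ⧸ RingHom.ker ψ) B htest hBtest φ rK hNK
    rw [hmap] at hN'
    obtain ⟨e⟩ := hB P.R B (q : P.R →+* B) hq runiv hcont hN'.cont
    exact hD.of_isEquiv hBtest ⟨e.symm⟩ hN'.type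
  exact ⟨runiv, hruniv, ⟨hcont, hstrict, hnorm, htype⟩⟩

end Main

end Fermat.Agent.S53.helper3163
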