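/-
S53, blueprint item L6 (FINAL assembly): from a slice and the `Stmt_*` statements of the captain
blueprint `helper53_Spec` to `Nonempty (GaloisRep.DeformationRingData 𝒪 ρbar 𝒟)`.
Hypothesis-passing; no sorry.  (helper3173)
-/
import Fermat.Agent.S53.helper53_Spec

set_option autoImplicit false

namespace Fermat.Agent.S53.helper3173

open IsLocalRing Fermat.Agent.S53.helper53

/-! ### Small generalities -/

theorem isEquiv_refl {A : Type} [CommRing A] [IsLocalRing A] (ρ : GaloisRepAdic A) :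
    ρ.IsEquiv ρ := ⟨GaloisRepAdic.Equiv.refl ρ⟩

theorem isEquiv_symm {A : Type} [CommRing A] [IsLocalRing A] {ρ ρ' : GaloisRepAdic A}
    (h : ρ.IsEquiv ρ') : ρ'.IsEquiv ρ := by
  obtain ⟨e⟩ := h
  exact ⟨e.symm⟩

theorem isEquiv_trans {A : Type} [CommRing A] [IsLocalRing A] {ρ ρ' ρ'' : GaloisRepAdic A}
    (h : ρ.IsEquiv ρ') (h' : ρ'.IsEquiv ρ'') : ρ.IsEquiv ρ'' := by
  obtain ⟨e⟩ := h
  obtain ⟨e'⟩ := h'
  exact ⟨e.trans e'⟩

theorem ofMat_isEquiv_of_eq {A : Type} [CommRing A] [IsLocalRing A] {r r' : Gal →* M2 A}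
    (h : r = r') (hr : MatCont r) (hr' : MatCont r') : (ofMat r hr).IsEquiv (ofMat r' hr') := by
  subst h
  exact isEquiv_refl _

section Aug

variable {𝒪 : Type} [CommRing 𝒪] [IsLocalRing 𝒪] (rbar : Gal →* M2 (ResidueField 𝒪))

theorem evalMat_algebraMap_residue (c : 𝒪) :
    evalMat (𝒪 := 𝒪) (A := ResidueField 𝒪) rbar (algebraMap 𝒪 (Lam 𝒪) c) = residue 𝒪 c := by
  rw [AlgHom.commutes]
  rfl

theorem augIdeal_ne_top : augIdeal rbar ≠ ⊤ := by
  intro h
  have h1 : (1 : Lam 𝒪) ∈ augIdeal rbar := h ▸ Submodule.mem_top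
  rw [augIdeal, RingHom.mem_ker, map_one] at h1
  exact one_ne_zero h1

theorem augIdeal_exists_sub_mem (x : Lam 𝒪) :
    ∃ c : 𝒪, x - algebraMap 𝒪 (Lam 𝒪) c ∈ augIdeal rbar := by
  obtain ⟨c, hc⟩ := residue_surjective (evalMat (𝒪 := 𝒪) (A := ResidueField 𝒪) rbar x)
  refine ⟨c, ?_⟩
  rw [augIdeal, RingHom.mem_ker, map_sub, evalMat_algebraMap_residue, hc, sub_self]

theorem augIdeal_algebraMap_mem (c : 𝒪) (hc : c ∈ maximalIdeal 𝒪) :
    algebraMap 𝒪 (Lam 𝒪) c ∈ augIdeal rbar := by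
  rw [augIdeal, RingHom.mem_ker, evalMat_algebraMap_residue]
  exact (residue_eq_zero_iff c).mpr hc

end Aug

section Push

variable {𝒪 : Type} [CommRing 𝒪] [IsLocalRing 𝒪]
  {A B : Type} [CommRing A] [IsLocalRing A] [Algebra 𝒪 A] [CommRing B] [IsLocalRing B]
  [Algebra 𝒪 B]

/-- Strict lifts push forward along local `𝒪`-algebra homomorphisms. -/
theorem isStrictLift_mapMat (rbar : Gal →* M2 (ResidueField 𝒪)) (φ : A →ₐ[𝒪] B)
    (hφ : IsLocalHom (φ : A →+* B)) (r : Gal →* M2 A) (h : IsStrictLift rbar r) :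
    IsStrictLift rbar (mapMat (φ : A →+* B) r) := by
  intro σ i j
  obtain ⟨c, hc, hmem⟩ := h σ i j
  refine ⟨c, hc, ?_⟩
  have h1 : mapMat (φ : A →+* B) r σ i j - algebraMap 𝒪 B c
      = (φ : A →+* B) (r σ i j - algebraMap 𝒪 A c) := by
    rw [map_sub, mapMat_apply]
    congr 1
    exact (φ.commutes c).symm
  rw [h1]
  exact map_nonunit (φ : A →+* B) _ hmem

omit [IsLocalRing 𝒪] [IsLocalRing A] [IsLocalRing B] in
theorem evalMat_mapMat (φ : A →ₐ[𝒪] B) (r : Gal →* M2 A) (f : Lam 𝒪) :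
    evalMat (𝒪 := 𝒪) (mapMat (φ : A →+* B) r) f = φ (evalMat (𝒪 := 𝒪) r f) := by
  have h : evalMat (𝒪 := 𝒪) (mapMat (φ : A →+* B) r) = φ.comp (evalMat (𝒪 := 𝒪) r) := by
    apply MvPolynomial.algHom_ext
    rintro ⟨σ, i, j⟩
    rw [evalMat_X, AlgHom.comp_apply, evalMat_X]
    rfl
  rw [h]
  rfl

omit [IsLocalRing 𝒪] [IsLocalRing A] [IsLocalRing B] in
/-- Normalization conditions push forward along `𝒪`-algebra homomorphisms. -/
theorem isNormalized_mapMat (Sig : Set (Lam 𝒪)) (φ : A →ₐ[𝒪] B) (r : Gal →* M2 A)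
    (h : IsNormalized Sig r) : IsNormalized Sig (mapMat (φ : A →+* B) r) := by
  intro f hf
  rw [evalMat_mapMat, h f hf, map_zero]

end Push

/-! ### The final assembly -/

/-- **L6 FINAL.** From a slice `Sig` for the matrices of `ρbar` in a basis `b` and the blueprint
statements for the family `{J | InFamily (matOfBasis ρbar b) Sig 𝒟 J}`, the universal deformation
ring exists. -/
theorem final
    (𝒪 : Type) [CommRing 𝒪] [IsDomain 𝒪] [IsDiscreteValuationRing 𝒪]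
    [IsAdicComplete (IsLocalRing.maximalIdeal 𝒪) 𝒪]
    (ρbar : ResidualGaloisRep (IsLocalRing.ResidueField 𝒪))
    (𝒟 : ∀ ⦃A : Type⦄ [CommRing A] [IsLocalRing A] [Algebra 𝒪 A], GaloisRepAdic A → Prop)
    (habs : ρbar.IsAbsolutelyIrreducible)
    (b : Module.Basis (Fin 2) (ResidueField 𝒪) ρbar.V) (Sig : Set (Lam 𝒪))
    (hslice : IsSlice (matOfBasis ρbar b) Sig)
    (hMatContMap : Stmt_MatContMap)
    (hDictBaseChange : Stmt_DictBaseChange)
    (hMatContConj : Stmt_MatContConj)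
    (hDictEquiv : Stmt_DictEquiv)
    (hDictResidual : Stmt_DictResidual 𝒪)
    (hTypeEquiv : Stmt_TypeEquiv 𝒪 𝒟)
    (hFamLe : Stmt_FamLe 𝒪 (matOfBasis ρbar b) Sig 𝒟)
    (hFamNil : Stmt_FamNil 𝒪 (matOfBasis ρbar b) Sig 𝒟)
    (hFamFin : Stmt_FamFin 𝒪 (matOfBasis ρbar b) Sig 𝒟)
    (hFamInf : Stmt_FamInf 𝒪 (matOfBasis ρbar b) Sig 𝒟)
    (hFamUp : Stmt_FamUp 𝒪 (matOfBasis ρbar b) Sig 𝒟)
    (hFamTop : Stmt_FamTop 𝒪 (matOfBasis ρbar b) Sig 𝒟)
    (hFamTan : Stmt_FamTan 𝒪 (matOfBasis ρbar b) Sig 𝒟)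
    (hRing : Stmt_Ring 𝒪)
    (hUnivRep : Stmt_UnivRep 𝒪 (matOfBasis ρbar b) Sig 𝒟)
    (hUnivLift : Stmt_UnivLift 𝒪 (matOfBasis ρbar b) Sig 𝒟)
    (hUnivUnique : Stmt_UnivUnique 𝒪 (matOfBasis ρbar b) Sig 𝒟) :
    Nonempty (GaloisRep.DeformationRingData 𝒪 ρbar 𝒟) := by
  obtain ⟨P⟩ := hRing (Lam 𝒪) (augIdeal (matOfBasis ρbar b))
    {J | InFamily (matOfBasis ρbar b) Sig 𝒟 J}
    (augIdeal_ne_top _) (augIdeal_exists_sub_mem _) (augIdeal_algebraMap_mem _)
    hFamTop hFamLe (fun J hJ J' hJ' => hFamInf J J' hJ hJ')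
    (fun J hJ J' hle hle' => hFamUp J J' hJ hle hle') hFamFin hFamNil hFamTan
  obtain ⟨runiv, hrX, hrN⟩ := hUnivRep P
  refine ⟨{ R := P.R
            residue_surjective := P.residue_surjective
            absIrr := habs
            ρ := ofMat runiv hrN.cont
            isOfType := hrN.type
            residual_isEquiv := ?_
            universal := ?_ }⟩
  · exact (hDictResidual ρbar b P.R (ofMat runiv hrN.cont)).mpr
      ⟨runiv, hrN.cont, hrN.strict, isEquiv_refl _⟩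
  · intro A _ _ _ _ _ _ hsurj ρA hρA hres
    obtain ⟨r, hr, hrs, hrE⟩ := (hDictResidual ρbar b A ρA).mp hres
    obtain ⟨M, r', hr's, hr'n, hM⟩ := hslice.exists_normalized r hrs
    have hr' : MatCont r' := hMatContConj A r r' M hM hr
    have hE' : (ofMat r hr).IsEquiv (ofMat r' hr') := (hDictEquiv A r r' hr hr').mpr ⟨M, hM⟩
    have hρA' : ρA.IsEquiv (ofMat r' hr') := isEquiv_trans hrE hE'
    have hD' : 𝒟 (ofMat r' hr') := hTypeEquiv A inferInstance hsurj ρA _ hρA' hρA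
    have hN' : IsNLift (matOfBasis ρbar b) Sig 𝒟 r' := ⟨hr', hr's, hr'n, hD'⟩
    obtain ⟨φ, hφ, hφX⟩ := hUnivLift P A inferInstance hsurj r' hN'
    -- the key equivalence
    have key : ∀ (ψ : P.R →ₐ[𝒪] A) (hψ : IsLocalHom (ψ : P.R →+* A)),
        ((ofMat runiv hrN.cont).baseChangeAlong (ψ : P.R →+* A) hψ).IsEquiv ρA ↔
          mapMat (ψ : P.R →+* A) runiv = r' := by
      intro ψ hψ
      have hcψ : MatCont (mapMat (ψ : P.R →+* A) runiv) :=
        hMatContMap P.R A (ψ : P.R →+* A) hψ runiv hrN.cont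
      have hbc := hDictBaseChange P.R A (ψ : P.R →+* A) hψ runiv hrN.cont hcψ
      constructor
      · intro hE
        have h1 : (ofMat (mapMat (ψ : P.R →+* A) runiv) hcψ).IsEquiv (ofMat r' hr') :=
          isEquiv_trans (isEquiv_symm hbc) (isEquiv_trans hE hρA')
        obtain ⟨M', hM'⟩ := (hDictEquiv A _ r' hcψ hr').mp h1
        exact hslice.eq_of_conj (mapMat (ψ : P.R →+* A) runiv) r'
          (isStrictLift_mapMat _ ψ hψ runiv hrN.strict) hr's
          (isNormalized_mapMat Sig ψ runiv hrN.norm) hr'n M' hM'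
      · intro h
        exact isEquiv_trans hbc (isEquiv_trans (ofMat_isEquiv_of_eq h hcψ hr') (isEquiv_symm hρA'))
    have hφr : mapMat (φ : P.R →+* A) runiv = r' := by
      ext σ i j
      rw [mapMat_apply, hrX]
      exact hφX σ i j
    refine ⟨φ, ⟨hφ, (key φ hφ).mpr hφr⟩, ?_⟩
    rintro ψ ⟨hψ, hψE⟩
    have hψr := (key ψ hψ).mp hψE
    apply hUnivUnique P A ψ φ hψ hφ
    intro σ i j
    rw [hφX σ i j, ← hψr, mapMat_apply, hrX]
    rfl

end Fermat.Agent.S53.helper3173
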