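/-
S53, RING (independent hedge copy by helper325): proof of `helper773.Stmt_nonempty_proRep`.

Construction: `I n` := least element of `{𝔞 ∈ 𝒥 | 𝔪₀ ^ n ≤ 𝔞}` (exists by a max-cardinality argument),
`R` := inverse limit of the `Λ ⧸ I n`, realised as a subalgebra of the product, so that `ι` is
tautological.  Finitely many elements `g i ∈ 𝔪₀` (including the images of generators of `𝔪_𝒪`, so
no completeness of `𝒪` is needed) generate `𝔪₀` modulo every member of `𝒥`; the power series ring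
`W = MvPowerSeries σ 𝒪` maps onto `R` (successive approximation, `helper1433`), which gives
noetherianity and identifies `𝔪_R ^ n` with the kernel of `R → Λ ⧸ I n`.
-/
import Mathlib
import Fermat.Agent.S53.helper773_ProRepSpec
import Fermat.Agent.S53.helper1433_PowerSeries

set_option autoImplicit false

namespace Fermat.Agent.S53.helper325

open IsLocalRing

section Least
variable {Λ : Type} [CommRing Λ]

/-- A nonempty inf-closed family of ideals with uniformly bounded finite quotients has a least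
element. -/
theorem exists_least_of_card_le (𝒦 : Set (Ideal Λ)) (hne : 𝒦.Nonempty)
    (hinf : ∀ 𝔞 ∈ 𝒦, ∀ 𝔟 ∈ 𝒦, 𝔞 ⊓ 𝔟 ∈ 𝒦) (hfin : ∀ 𝔞 ∈ 𝒦, Finite (Λ ⧸ 𝔞))
    (N : ℕ) (hN : ∀ 𝔞 ∈ 𝒦, Nat.card (Λ ⧸ 𝔞) ≤ N) :
    ∃ 𝔞 ∈ 𝒦, ∀ 𝔟 ∈ 𝒦, 𝔞 ≤ 𝔟 := by
  classical
  obtain ⟨c, ⟨𝔞, h𝔞, rfl⟩, hmax⟩ := Set.exists_max_image
    ((fun 𝔞 : Ideal Λ => Nat.card (Λ ⧸ 𝔞)) '' 𝒦) id
    ((Set.finite_Iic N).subset (by rintro _ ⟨𝔞, h𝔞, rfl⟩; exact hN 𝔞 h𝔞)) (hne.image _)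
  refine ⟨𝔞, h𝔞, fun 𝔟 h𝔟 => ?_⟩
  have h𝔠 := hinf 𝔞 h𝔞 𝔟 h𝔟
  have := hfin _ h𝔠
  have := hfin _ h𝔞
  have hle : 𝔞 ⊓ 𝔟 ≤ 𝔞 := inf_le_left
  have hsurj : Function.Surjective (Ideal.Quotient.factor hle) :=
    Ideal.Quotient.factor_surjective hle
  have h1 : Nat.card (Λ ⧸ (𝔞 ⊓ 𝔟)) ≤ Nat.card (Λ ⧸ 𝔞) := hmax _ ⟨_, h𝔠, rfl⟩
  have hbij := hsurj.bijective_of_nat_card_le h1
  intro x hx
  have : Ideal.Quotient.mk (𝔞 ⊓ 𝔟) x = 0 := by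
    apply hbij.1
    rw [Ideal.Quotient.factor_mk, map_zero]
    exact Ideal.Quotient.eq_zero_iff_mem.mpr hx
  exact (Ideal.Quotient.eq_zero_iff_mem.mp this).2

theorem sup_pow_le_pow_sup (I J : Ideal Λ) (n : ℕ) : (I ⊔ J) ^ n ≤ I ^ n ⊔ J := by
  induction n with
  | zero => simp
  | succ n ih =>
    rw [pow_succ, pow_succ]
    calc (I ⊔ J) ^ n * (I ⊔ J) ≤ (I ^ n ⊔ J) * (I ⊔ J) := Ideal.mul_mono_left ih
      _ ≤ I ^ n * I ⊔ J := by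
        rw [Ideal.sup_mul, Ideal.mul_sup, Ideal.mul_sup]
        refine sup_le (sup_le le_sup_left (le_sup_of_le_right Ideal.mul_le_right)) ?_
        exact sup_le (le_sup_of_le_right Ideal.mul_le_left) (le_sup_of_le_right Ideal.mul_le_left)

end Least

section Gens
variable {𝒪 Λ : Type} [CommRing 𝒪] [CommRing Λ] [Algebra 𝒪 Λ] (𝔪₀ : Ideal Λ)
  (hres : ∀ x : Λ, ∃ c : 𝒪, x - algebraMap 𝒪 Λ c ∈ 𝔪₀)
  {σ : Type} (g : σ → Λ)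

include hres in
/-- Elements of the extension of an ideal `J` of the polynomial ring are, modulo `𝔪₀ * J^e`,
images of elements of `J`. -/
theorem exists_mem_sub_aeval_mem (J : Ideal (MvPolynomial σ 𝒪)) (y : Λ)
    (hy : y ∈ J.map (MvPolynomial.aeval g : MvPolynomial σ 𝒪 →ₐ[𝒪] Λ)) :
    ∃ u ∈ J, y - MvPolynomial.aeval g u ∈
      𝔪₀ * J.map (MvPolynomial.aeval g : MvPolynomial σ 𝒪 →ₐ[𝒪] Λ) := by
  induction hy using Submodule.span_induction with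
  | mem x hx =>
    obtain ⟨u, hu, rfl⟩ := hx
    exact ⟨u, hu, by simp⟩
  | zero => exact ⟨0, zero_mem _, by simp⟩
  | add x y hx hy ihx ihy =>
    obtain ⟨u, hu, hu'⟩ := ihx
    obtain ⟨v, hv, hv'⟩ := ihy
    refine ⟨u + v, add_mem hu hv, ?_⟩
    have : x + y - MvPolynomial.aeval g (u + v) =
        (x - MvPolynomial.aeval g u) + (y - MvPolynomial.aeval g v) := by
      rw [map_add]; ring
    rw [this]
    exact add_mem hu' hv'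
  | smul a x hx ih =>
    obtain ⟨u, hu, hu'⟩ := ih
    obtain ⟨c, hc⟩ := hres a
    refine ⟨MvPolynomial.C c * u, Ideal.mul_mem_left _ _ hu, ?_⟩
    have : a • x - MvPolynomial.aeval g (MvPolynomial.C c * u) =
        (a - algebraMap 𝒪 Λ c) * x + algebraMap 𝒪 Λ c * (x - MvPolynomial.aeval g u) := by
      rw [map_mul, MvPolynomial.aeval_C, smul_eq_mul]; ring
    rw [this]
    exact add_mem (Ideal.mul_mem_mul hc hx) (Ideal.mul_mem_left _ _ hu')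

variable (hg : ∀ i, g i ∈ 𝔪₀)

include hg in
theorem map_idealOfVars_le :
    (MvPolynomial.idealOfVars σ 𝒪).map (MvPolynomial.aeval g : MvPolynomial σ 𝒪 →ₐ[𝒪] Λ) ≤ 𝔪₀ := by
  rw [MvPolynomial.idealOfVars, Ideal.map_span, Ideal.span_le]
  rintro _ ⟨_, ⟨i, rfl⟩, rfl⟩
  simpa using hg i

include hres hg in
/-- One approximation step. -/
theorem exists_sub_aeval_mem_succ (𝔞 : Ideal Λ)
    (h𝔞 : 𝔪₀ ≤ (MvPolynomial.idealOfVars σ 𝒪).map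
      (MvPolynomial.aeval g : MvPolynomial σ 𝒪 →ₐ[𝒪] Λ) ⊔ 𝔞)
    (j : ℕ) (y : Λ) (hy : y ∈ 𝔪₀ ^ j) :
    ∃ u ∈ MvPolynomial.idealOfVars σ 𝒪 ^ j, y - MvPolynomial.aeval g u ∈ 𝔪₀ ^ (j + 1) ⊔ 𝔞 := by
  have h1 : y ∈ ((MvPolynomial.idealOfVars σ 𝒪).map
      (MvPolynomial.aeval g : MvPolynomial σ 𝒪 →ₐ[𝒪] Λ)) ^ j ⊔ 𝔞 :=
    sup_pow_le_pow_sup _ _ j (Ideal.pow_right_mono h𝔞 j hy)
  obtain ⟨y', hy', a, ha, rfl⟩ := Submodule.mem_sup.mp h1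
  rw [← Ideal.map_pow] at hy'
  obtain ⟨u, hu, hu'⟩ := exists_mem_sub_aeval_mem 𝔪₀ hres g _ y' hy'
  refine ⟨u, hu, ?_⟩
  have h2 : 𝔪₀ * (MvPolynomial.idealOfVars σ 𝒪 ^ j).map
      (MvPolynomial.aeval g : MvPolynomial σ 𝒪 →ₐ[𝒪] Λ) ≤ 𝔪₀ ^ (j + 1) := by
    rw [Ideal.map_pow, pow_succ']
    exact Ideal.mul_mono_right (Ideal.pow_right_mono (map_idealOfVars_le 𝔪₀ g hg) j)
  have : y' + a - MvPolynomial.aeval g u = (y' - MvPolynomial.aeval g u) + a := by ring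
  rw [this]
  exact Submodule.add_mem_sup (h2 hu') ha

include hres hg in
/-- Approximation modulo an ideal containing a power of `𝔪₀`. -/
theorem exists_sub_aeval_mem (𝔞 : Ideal Λ)
    (h𝔞 : 𝔪₀ ≤ (MvPolynomial.idealOfVars σ 𝒪).map
      (MvPolynomial.aeval g : MvPolynomial σ 𝒪 →ₐ[𝒪] Λ) ⊔ 𝔞)
    (n : ℕ) (hn : 𝔪₀ ^ n ≤ 𝔞) (j : ℕ) (y : Λ) (hy : y ∈ 𝔪₀ ^ j) :
    ∃ u ∈ MvPolynomial.idealOfVars σ 𝒪 ^ j, y - MvPolynomial.aeval g u ∈ 𝔞 := by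
  have key : ∀ k j, n ≤ j + k → ∀ y ∈ 𝔪₀ ^ j,
      ∃ u ∈ MvPolynomial.idealOfVars σ 𝒪 ^ j, y - MvPolynomial.aeval g u ∈ 𝔞 := by
    intro k
    induction k with
    | zero =>
      intro j hj y hy
      exact ⟨0, zero_mem _, by simpa using hn (Ideal.pow_le_pow_right (by omega) hy)⟩
    | succ k ih =>
      intro j hj y hy
      obtain ⟨u₁, hu₁, h1⟩ := exists_sub_aeval_mem_succ 𝔪₀ hres g hg 𝔞 h𝔞 j y hy
      obtain ⟨z, hz, a, ha, hza⟩ := Submodule.mem_sup.mp h1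
      obtain ⟨u₂, hu₂, h2⟩ := ih (j + 1) (by omega) z hz
      refine ⟨u₁ + u₂, add_mem hu₁ (Ideal.pow_le_pow_right (Nat.le_succ j) hu₂), ?_⟩
      have : y - MvPolynomial.aeval g (u₁ + u₂) = (z - MvPolynomial.aeval g u₂) + a := by
        rw [map_add, ← sub_sub, ← hza]; ring
      rw [this]
      exact add_mem h2 ha
  exact key n j (by omega) y hy

end Gens

section Gens2
variable {𝒪 Λ : Type} [CommRing 𝒪] [CommRing Λ] [Algebra 𝒪 Λ] {σ : Type} (g : σ → Λ)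

theorem map_idealOfVars_eq :
    (MvPolynomial.idealOfVars σ 𝒪).map (MvPolynomial.aeval g : MvPolynomial σ 𝒪 →ₐ[𝒪] Λ) =
      Ideal.span (Set.range g) := by
  rw [MvPolynomial.idealOfVars, Ideal.map_span, ← Set.range_comp]
  congr 2
  funext i
  simp

theorem le_sup_pow_succ_of_le_sup_sq (𝔥 𝔪 : Ideal Λ) (h : 𝔪 ≤ 𝔥 ⊔ 𝔪 ^ 2) (j : ℕ) :
    𝔪 ≤ 𝔥 ⊔ 𝔪 ^ (j + 1) := by
  induction j with
  | zero => simp
  | succ j ih =>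
    refine ih.trans (sup_le le_sup_left ?_)
    calc 𝔪 ^ (j + 1) = 𝔪 ^ j * 𝔪 := pow_succ _ _
      _ ≤ 𝔪 ^ j * (𝔥 ⊔ 𝔪 ^ 2) := Ideal.mul_mono_right h
      _ = 𝔪 ^ j * 𝔥 ⊔ 𝔪 ^ j * 𝔪 ^ 2 := Ideal.mul_sup _ _ _
      _ ≤ 𝔥 ⊔ 𝔪 ^ (j + 1 + 1) := by
        refine sup_le_sup Ideal.mul_le_right ?_
        rw [← pow_add]

end Gens2

section Main
variable {𝒪 Λ : Type} [CommRing 𝒪] [IsLocalRing 𝒪] [IsNoetherianRing 𝒪] [CommRing Λ] [Algebra 𝒪 Λ]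
  (𝔪₀ : Ideal Λ) (𝒥 : Set (Ideal Λ))

/-- Finitely many elements of `𝔪₀` generating `𝔪₀` modulo every member of the family. -/
theorem exists_gens
    (hloc : ∀ c ∈ maximalIdeal 𝒪, algebraMap 𝒪 Λ c ∈ 𝔪₀)
    (h_top : 𝔪₀ ∈ 𝒥) (h_le : ∀ 𝔞 ∈ 𝒥, 𝔞 ≤ 𝔪₀) (h_inf : ∀ 𝔞 ∈ 𝒥, ∀ 𝔟 ∈ 𝒥, 𝔞 ⊓ 𝔟 ∈ 𝒥)
    (h_up : ∀ 𝔞 ∈ 𝒥, ∀ 𝔟 : Ideal Λ, 𝔞 ≤ 𝔟 → 𝔟 ≤ 𝔪₀ → 𝔟 ∈ 𝒥)
    (h_fin : ∀ 𝔞 ∈ 𝒥, Finite (Λ ⧸ 𝔞)) (h_nil : ∀ 𝔞 ∈ 𝒥, ∃ n : ℕ, 𝔪₀ ^ n ≤ 𝔞)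
    (h_tan : ∃ N : ℕ, ∀ 𝔞 ∈ 𝒥, 𝔪₀ ^ 2 ≤ 𝔞 →
      (∀ c ∈ maximalIdeal 𝒪, algebraMap 𝒪 Λ c ∈ 𝔞) → Nat.card (Λ ⧸ 𝔞) ≤ N) :
    ∃ (σ : Type) (_ : Finite σ) (g : σ → Λ), (∀ i, g i ∈ 𝔪₀) ∧
      ∀ 𝔞 ∈ 𝒥, 𝔪₀ ≤ Ideal.span (Set.range g) ⊔ 𝔞 := by
  classical
  obtain ⟨N, hN⟩ := h_tan
  obtain ⟨J', ⟨hJ'𝒥, -, -⟩, hleast⟩ := exists_least_of_card_le
    {𝔞 | 𝔞 ∈ 𝒥 ∧ 𝔪₀ ^ 2 ≤ 𝔞 ∧ ∀ c ∈ maximalIdeal 𝒪, algebraMap 𝒪 Λ c ∈ 𝔞}
    ⟨𝔪₀, h_top, Ideal.pow_le_self two_ne_zero, hloc⟩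
    (fun 𝔞 h𝔞 𝔟 h𝔟 => ⟨h_inf 𝔞 h𝔞.1 𝔟 h𝔟.1, le_inf h𝔞.2.1 h𝔟.2.1,
      fun c hc => ⟨h𝔞.2.2 c hc, h𝔟.2.2 c hc⟩⟩)
    (fun 𝔞 h𝔞 => h_fin 𝔞 h𝔞.1) N (fun 𝔞 h𝔞 => hN 𝔞 h𝔞.1 h𝔞.2.1 h𝔞.2.2)
  have : Finite (Λ ⧸ J') := h_fin _ hJ'𝒥
  let rep : Λ ⧸ J' → Λ := fun q =>
    if h : ∃ x ∈ 𝔪₀, Ideal.Quotient.mk J' x = q then h.choose else 0
  have hrep_mem : ∀ q, rep q ∈ 𝔪₀ := by
    intro q
    by_cases h : ∃ x ∈ 𝔪₀, Ideal.Quotient.mk J' x = q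
    · simp only [rep, dif_pos h]; exact h.choose_spec.1
    · simp only [rep, dif_neg h]; exact zero_mem _
  have hrep : ∀ x ∈ 𝔪₀, x - rep (Ideal.Quotient.mk J' x) ∈ J' := by
    intro x hx
    have h : ∃ y ∈ 𝔪₀, Ideal.Quotient.mk J' y = Ideal.Quotient.mk J' x := ⟨x, hx, rfl⟩
    rw [← Ideal.Quotient.eq]
    simp only [rep, dif_pos h]
    exact h.choose_spec.2.symm
  obtain ⟨s, hs⟩ := (maximalIdeal 𝒪).fg_of_isNoetherianRing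
  refine ⟨(Λ ⧸ J') ⊕ s, inferInstance, Sum.elim rep (fun c => algebraMap 𝒪 Λ c.1), ?_, ?_⟩
  · rintro (q | c)
    · exact hrep_mem q
    · refine hloc _ ?_
      rw [← hs]
      exact Ideal.subset_span c.2
  · intro 𝔞 h𝔞
    set 𝔤 : Ideal Λ := Ideal.span (Set.range (Sum.elim rep (fun c : s => algebraMap 𝒪 Λ c.1)))
      with h𝔤
    have h𝔤le : 𝔤 ≤ 𝔪₀ := by
      rw [h𝔤, Ideal.span_le]
      rintro _ ⟨(q | c), rfl⟩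
      · exact hrep_mem q
      · refine hloc _ ?_
        rw [← hs]
        exact Ideal.subset_span c.2
    have hπ : ∀ c ∈ maximalIdeal 𝒪, algebraMap 𝒪 Λ c ∈ 𝔤 := by
      intro c hc
      have h1 : algebraMap 𝒪 Λ c ∈ (Ideal.span (s : Set 𝒪)).map (algebraMap 𝒪 Λ) :=
        Ideal.mem_map_of_mem _ (hs ▸ hc)
      rw [Ideal.map_span] at h1
      refine Ideal.span_mono ?_ h1
      rintro _ ⟨c', hc', rfl⟩
      exact ⟨Sum.inr ⟨c', hc'⟩, rfl⟩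
    have h𝔟le : 𝔞 ⊔ (𝔪₀ ^ 2 ⊔ 𝔤) ≤ 𝔪₀ :=
      sup_le (h_le 𝔞 h𝔞) (sup_le (Ideal.pow_le_self two_ne_zero) h𝔤le)
    have h𝔟 : 𝔞 ⊔ (𝔪₀ ^ 2 ⊔ 𝔤) ∈ 𝒥 := h_up 𝔞 h𝔞 _ le_sup_left h𝔟le
    have hJ'le : J' ≤ 𝔞 ⊔ (𝔪₀ ^ 2 ⊔ 𝔤) := hleast _
      ⟨h𝔟, le_sup_of_le_right le_sup_left, fun c hc =>
        (le_sup_of_le_right le_sup_right : 𝔤 ≤ 𝔞 ⊔ (𝔪₀ ^ 2 ⊔ 𝔤)) (hπ c hc)⟩
    have h0 : 𝔪₀ ≤ 𝔤 ⊔ J' := by
      intro x hx
      have h1 : rep (Ideal.Quotient.mk J' x) ∈ 𝔤 := Ideal.subset_span ⟨Sum.inl _, rfl⟩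
      have : x = rep (Ideal.Quotient.mk J' x) + (x - rep (Ideal.Quotient.mk J' x)) := by ring
      rw [this]
      exact Submodule.add_mem_sup h1 (hrep x hx)
    have h1 : 𝔪₀ ≤ (𝔤 ⊔ 𝔞) ⊔ 𝔪₀ ^ 2 := by
      refine h0.trans (sup_le (le_sup_of_le_left le_sup_left) (hJ'le.trans ?_))
      exact sup_le (le_sup_of_le_left le_sup_right)
        (sup_le le_sup_right (le_sup_of_le_left le_sup_left))
    obtain ⟨n, hn⟩ := h_nil 𝔞 h𝔞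
    refine (le_sup_pow_succ_of_le_sup_sq _ _ h1 n).trans (sup_le le_rfl ?_)
    exact le_sup_of_le_right ((Ideal.pow_le_pow_right (Nat.le_succ n)).trans hn)

omit [IsLocalRing 𝒪] in
/-- The chain of least elements. -/
theorem exists_chain
    (hres : ∀ x : Λ, ∃ c : 𝒪, x - algebraMap 𝒪 Λ c ∈ 𝔪₀)
    (h_top : 𝔪₀ ∈ 𝒥) (h_inf : ∀ 𝔞 ∈ 𝒥, ∀ 𝔟 ∈ 𝒥, 𝔞 ⊓ 𝔟 ∈ 𝒥)
    (h_fin : ∀ 𝔞 ∈ 𝒥, Finite (Λ ⧸ 𝔞))
    {σ : Type} [Finite σ] (g : σ → Λ) (hg : ∀ i, g i ∈ 𝔪₀)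
    (hgen : ∀ 𝔞 ∈ 𝒥, 𝔪₀ ≤ (MvPolynomial.idealOfVars σ 𝒪).map
      (MvPolynomial.aeval g : MvPolynomial σ 𝒪 →ₐ[𝒪] Λ) ⊔ 𝔞) :
    ∃ I : ℕ → Ideal Λ, (∀ n, 1 ≤ n → I n ∈ 𝒥) ∧ (∀ n, 𝔪₀ ^ n ≤ I n) ∧
      (∀ n, ∀ 𝔞 ∈ 𝒥, 𝔪₀ ^ n ≤ 𝔞 → I n ≤ 𝔞) := by
  have key : ∀ n : ℕ, ∃ In : Ideal Λ, (1 ≤ n → In ∈ 𝒥) ∧ 𝔪₀ ^ n ≤ In ∧
      (∀ 𝔞 ∈ 𝒥, 𝔪₀ ^ n ≤ 𝔞 → In ≤ 𝔞) := by
    intro n
    rcases Nat.eq_zero_or_pos n with rfl | hn
    · exact ⟨⊤, by omega, by simp, fun 𝔞 _ h => by simpa using h⟩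
    · set θ : MvPolynomial σ 𝒪 →ₐ[𝒪] Λ := MvPolynomial.aeval g with hθ
      set 𝔫 : Ideal (MvPolynomial σ 𝒪) := 𝔪₀.comap θ with h𝔫
      have : Finite (Λ ⧸ 𝔪₀) := h_fin _ h_top
      have hfin1 : Finite (MvPolynomial σ 𝒪 ⧸ 𝔫) :=
        Finite.of_injective (Ideal.quotientMap 𝔪₀ (θ : MvPolynomial σ 𝒪 →+* Λ) le_rfl)
          (Ideal.quotientMap_injective' le_rfl)
      have hfinn : Finite (MvPolynomial σ 𝒪 ⧸ 𝔫 ^ n) :=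
        Ideal.finite_quotient_pow (Ideal.fg_of_isNoetherianRing 𝔫) n
      obtain ⟨In, ⟨hIn𝒥, hInpow⟩, hleast⟩ := exists_least_of_card_le
        {𝔞 | 𝔞 ∈ 𝒥 ∧ 𝔪₀ ^ n ≤ 𝔞} ⟨𝔪₀, h_top, Ideal.pow_le_self (by omega)⟩
        (fun 𝔞 h𝔞 𝔟 h𝔟 => ⟨h_inf 𝔞 h𝔞.1 𝔟 h𝔟.1, le_inf h𝔞.2 h𝔟.2⟩)
        (fun 𝔞 h𝔞 => h_fin 𝔞 h𝔞.1) (Nat.card (MvPolynomial σ 𝒪 ⧸ 𝔫 ^ n)) (by
          rintro 𝔞 ⟨h𝔞, h𝔞n⟩
          have hker : ∀ a ∈ 𝔫 ^ n, ((Ideal.Quotient.mk 𝔞).comp (θ : MvPolynomial σ 𝒪 →+* Λ)) a = 0 := by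
            intro a ha
            have h1 : a ∈ (𝔪₀ ^ n).comap θ := Ideal.le_comap_pow θ n ha
            exact Ideal.Quotient.eq_zero_iff_mem.mpr (h𝔞n h1)
          refine Nat.card_le_card_of_surjective (Ideal.Quotient.lift (𝔫 ^ n) _ hker) ?_
          intro y
          obtain ⟨y, rfl⟩ := Ideal.Quotient.mk_surjective y
          obtain ⟨u, -, hu⟩ := exists_sub_aeval_mem 𝔪₀ hres g hg 𝔞 (hgen 𝔞 h𝔞) n h𝔞n 0 y
            (by simp)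
          refine ⟨Ideal.Quotient.mk _ u, ?_⟩
          rw [Ideal.Quotient.lift_mk]
          exact (Ideal.Quotient.eq.mpr hu).symm)
      exact ⟨In, fun _ => hIn𝒥, hInpow, fun 𝔞 h𝔞 h => hleast 𝔞 ⟨h𝔞, h⟩⟩
  choose I h1 h2 h3 using key
  exact ⟨I, h1, h2, h3⟩

end Main

section Lim
variable (𝒪 : Type) {Λ : Type} [CommRing 𝒪] [CommRing Λ] [Algebra 𝒪 Λ] (I : ℕ → Ideal Λ)
  (hI : ∀ n, I (n + 1) ≤ I n)

/-- The inverse limit of the `Λ ⧸ I n`, as a subalgebra of the product. -/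
def limSub : Subalgebra 𝒪 (∀ n, Λ ⧸ I n) where
  carrier := {x | ∀ n, Ideal.Quotient.factor (hI n) (x (n + 1)) = x n}
  mul_mem' := fun {a b} ha hb n => by
    show Ideal.Quotient.factor (hI n) (a (n + 1) * b (n + 1)) = a n * b n
    rw [map_mul, ha n, hb n]
  add_mem' := fun {a b} ha hb n => by
    show Ideal.Quotient.factor (hI n) (a (n + 1) + b (n + 1)) = a n + b n
    rw [map_add, ha n, hb n]
  algebraMap_mem' := fun c n => by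
    show Ideal.Quotient.factor (hI n) (Ideal.Quotient.mk _ (algebraMap 𝒪 Λ c)) =
      Ideal.Quotient.mk _ (algebraMap 𝒪 Λ c)
    rw [Ideal.Quotient.factor_mk]

/-- Projection to the `n`-th level. -/
def limProj (n : ℕ) : limSub 𝒪 I hI →ₐ[𝒪] Λ ⧸ I n :=
  (Pi.evalAlgHom 𝒪 (fun n => Λ ⧸ I n) n).comp (limSub 𝒪 I hI).val

theorem limProj_apply (n : ℕ) (x : limSub 𝒪 I hI) : limProj 𝒪 I hI n x = x.1 n := rfl

theorem limProj_compat (n : ℕ) (x : limSub 𝒪 I hI) :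
    Ideal.Quotient.factor (hI n) (limProj 𝒪 I hI (n + 1) x) = limProj 𝒪 I hI n x := x.2 n

theorem lim_ext {x y : limSub 𝒪 I hI} (h : ∀ n, limProj 𝒪 I hI n x = limProj 𝒪 I hI n y) :
    x = y := Subtype.ext (funext h)

/-- The tautological map into the limit. -/
def limι : Λ →ₐ[𝒪] limSub 𝒪 I hI :=
  AlgHom.codRestrict (AlgHom.pi (fun n => Ideal.Quotient.mkₐ 𝒪 (I n))) _ (fun y n => by
    show Ideal.Quotient.factor (hI n) (Ideal.Quotient.mk _ y) = Ideal.Quotient.mk _ y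
    rw [Ideal.Quotient.factor_mk])

theorem limProj_limι (n : ℕ) (y : Λ) :
    limProj 𝒪 I hI n (limι 𝒪 I hI y) = Ideal.Quotient.mk (I n) y := rfl

variable {σ : Type} [Finite σ] (𝔪₀ : Ideal Λ) (g : σ → Λ) (hg : ∀ i, g i ∈ 𝔪₀)
  (hpow : ∀ n, 𝔪₀ ^ n ≤ I n)

/-- The level maps from the power series ring. -/
noncomputable def psi (n : ℕ) : MvPowerSeries σ 𝒪 →ₐ[𝒪] Λ ⧸ I n :=
  (Ideal.Quotient.factorₐ 𝒪 (hpow n)).comp (helper1433.levelHom 𝔪₀ g hg n)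

theorem psi_coe (n : ℕ) (p : MvPolynomial σ 𝒪) :
    psi 𝒪 I 𝔪₀ g hg hpow n (p : MvPowerSeries σ 𝒪) =
      Ideal.Quotient.mk (I n) (MvPolynomial.aeval g p) := by
  rw [psi, AlgHom.comp_apply, helper1433.levelHom_coe, Ideal.Quotient.factorₐ_apply_mk]

include hI in
theorem psi_compat (n : ℕ) (w : MvPowerSeries σ 𝒪) :
    Ideal.Quotient.factor (hI n) (psi 𝒪 I 𝔪₀ g hg hpow (n + 1) w) = psi 𝒪 I 𝔪₀ g hg hpow n w := by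
  have h := congrArg (fun F => F w)
    (helper1433.levelHom_compat (𝒪 := 𝒪) 𝔪₀ g hg (Nat.le_succ n))
  simp only [AlgHom.comp_apply] at h
  simp only [psi, AlgHom.comp_apply]
  rw [← h]
  obtain ⟨z, hz⟩ := Ideal.Quotient.mk_surjective (helper1433.levelHom (𝒪 := 𝒪) 𝔪₀ g hg (n + 1) w)
  rw [← hz, Ideal.Quotient.factorₐ_apply_mk, Ideal.Quotient.factorₐ_apply_mk,
    Ideal.Quotient.factorₐ_apply_mk, Ideal.Quotient.factor_mk]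

theorem psi_eq_zero_of_mem (n : ℕ) {w : MvPowerSeries σ 𝒪}
    (hw : w ∈ helper1433.varIdeal σ 𝒪 ^ n) : psi 𝒪 I 𝔪₀ g hg hpow n w = 0 := by
  have h1 : ∀ i, psi 𝒪 I 𝔪₀ g hg hpow n (MvPowerSeries.X i) ∈
      𝔪₀.map (Ideal.Quotient.mk (I n)) := by
    intro i
    rw [← MvPolynomial.coe_X, psi_coe, MvPolynomial.aeval_X]
    exact Ideal.mem_map_of_mem _ (hg i)
  have h2 := helper1433.map_mem_pow_of_X_mem (𝔪₀.map (Ideal.Quotient.mk (I n)))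
    (psi 𝒪 I 𝔪₀ g hg hpow n) h1 n hw
  have h3 : (𝔪₀ ^ n).map (Ideal.Quotient.mk (I n)) = ⊥ := by
    rw [Ideal.map_eq_bot_iff_le_ker, Ideal.mk_ker]
    exact hpow n
  rw [← Ideal.map_pow, h3] at h2
  exact h2

/-- The map from the power series ring to the limit. -/
noncomputable def Psi : MvPowerSeries σ 𝒪 →ₐ[𝒪] limSub 𝒪 I hI :=
  AlgHom.codRestrict (AlgHom.pi (fun n => psi 𝒪 I 𝔪₀ g hg hpow n)) _
    (fun w n => psi_compat 𝒪 I hI 𝔪₀ g hg hpow n w)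

theorem limProj_Psi (n : ℕ) (w : MvPowerSeries σ 𝒪) :
    limProj 𝒪 I hI n (Psi 𝒪 I hI 𝔪₀ g hg hpow w) = psi 𝒪 I 𝔪₀ g hg hpow n w := rfl

omit [Finite σ] in
theorem coe_mem_varIdeal_pow (n : ℕ) {p : MvPolynomial σ 𝒪}
    (hp : p ∈ MvPolynomial.idealOfVars σ 𝒪 ^ n) :
    (p : MvPowerSeries σ 𝒪) ∈ helper1433.varIdeal σ 𝒪 ^ n := by
  have h1 : (MvPolynomial.idealOfVars σ 𝒪).map
      (MvPolynomial.coeToMvPowerSeries.ringHom (σ := σ) (R := 𝒪)) ≤ helper1433.varIdeal σ 𝒪 := by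
    rw [MvPolynomial.idealOfVars, Ideal.map_span, Ideal.span_le]
    rintro _ ⟨_, ⟨i, rfl⟩, rfl⟩
    exact Ideal.subset_span ⟨i, (MvPolynomial.coe_X i).symm⟩
  have h2 : (MvPolynomial.idealOfVars σ 𝒪 ^ n).map
      (MvPolynomial.coeToMvPowerSeries.ringHom (σ := σ) (R := 𝒪)) ≤
      helper1433.varIdeal σ 𝒪 ^ n := by
    rw [Ideal.map_pow]
    exact Ideal.pow_right_mono h1 n
  exact h2 (Ideal.mem_map_of_mem _ hp)

variable (hsup : ∀ n, I n ≤ I (n + 1) ⊔ 𝔪₀ ^ n)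
  (happ : ∀ (n j : ℕ) (y : Λ), y ∈ 𝔪₀ ^ j →
    ∃ u ∈ MvPolynomial.idealOfVars σ 𝒪 ^ j, y - MvPolynomial.aeval g u ∈ I (n + 1))

include hI hsup happ in
theorem ker_psi_le (n : ℕ) :
    RingHom.ker (psi 𝒪 I 𝔪₀ g hg hpow n) ≤
      RingHom.ker (psi 𝒪 I 𝔪₀ g hg hpow (n + 1)) ⊔ helper1433.varIdeal σ 𝒪 ^ n := by
  intro w hw
  rw [RingHom.mem_ker] at hw
  obtain ⟨y, hy⟩ := Ideal.Quotient.mk_surjective (psi 𝒪 I 𝔪₀ g hg hpow (n + 1) w)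
  have h1 : y ∈ I n := by
    rw [← Ideal.Quotient.eq_zero_iff_mem, ← Ideal.Quotient.factor_mk (hI n), hy,
      psi_compat 𝒪 I hI, hw]
  obtain ⟨a, ha, b, hb, rfl⟩ := Submodule.mem_sup.mp (hsup n h1)
  obtain ⟨u, hu, hu'⟩ := happ n n b hb
  have h2 : w = (w - (u : MvPowerSeries σ 𝒪)) + (u : MvPowerSeries σ 𝒪) := by ring
  rw [h2]
  refine Submodule.add_mem_sup ?_ (coe_mem_varIdeal_pow 𝒪 n hu)
  rw [RingHom.mem_ker, map_sub, psi_coe, ← hy, ← map_sub, Ideal.Quotient.eq_zero_iff_mem]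
  have : a + b - MvPolynomial.aeval g u = a + (b - MvPolynomial.aeval g u) := by ring
  rw [this]
  exact add_mem ha hu'

include hI in
theorem ker_psi_antitone : Antitone (fun n => RingHom.ker (psi 𝒪 I 𝔪₀ g hg hpow n)) := by
  refine antitone_nat_of_succ_le fun n w hw => ?_
  rw [RingHom.mem_ker] at hw ⊢
  rw [← psi_compat 𝒪 I hI, hw, map_zero]

include happ in
theorem psi_surjective (n : ℕ) : Function.Surjective (psi 𝒪 I 𝔪₀ g hg hpow n) := by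
  intro y
  rcases Nat.eq_zero_or_pos n with rfl | hn
  · have htop : I 0 = ⊤ := top_le_iff.mp (by simpa using hpow 0)
    have : Subsingleton (Λ ⧸ I 0) := Ideal.Quotient.subsingleton_iff.mpr htop
    exact ⟨0, Subsingleton.elim _ _⟩
  · obtain ⟨m, rfl⟩ : ∃ m, n = m + 1 := ⟨n - 1, by omega⟩
    obtain ⟨y, rfl⟩ := Ideal.Quotient.mk_surjective y
    obtain ⟨u, -, hu⟩ := happ m 0 y (by simp)
    exact ⟨(u : MvPowerSeries σ 𝒪), by rw [psi_coe]; exact (Ideal.Quotient.eq.mpr hu).symm⟩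

include hsup happ in
theorem Psi_surjective : Function.Surjective (Psi 𝒪 I hI 𝔪₀ g hg hpow) := by
  intro x
  choose a ha using fun n => psi_surjective 𝒪 I 𝔪₀ g hg hpow happ n (limProj 𝒪 I hI n x)
  have hcompat : ∀ j, a (j + 1) - a j ∈ RingHom.ker (psi 𝒪 I 𝔪₀ g hg hpow j) := by
    intro j
    rw [RingHom.mem_ker, map_sub, ← psi_compat 𝒪 I hI, ha, ha, limProj_compat, sub_self]
  obtain ⟨L, hL⟩ := helper1433.exists_limit_of_compatible (helper1433.varIdeal σ 𝒪)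
    (fun n => RingHom.ker (psi 𝒪 I 𝔪₀ g hg hpow n))
    (ker_psi_le 𝒪 I hI 𝔪₀ g hg hpow hsup happ)
    (fun n w hw => (RingHom.mem_ker).mpr (psi_eq_zero_of_mem 𝒪 I 𝔪₀ g hg hpow n hw)) a hcompat
  refine ⟨L, lim_ext 𝒪 I hI fun n => ?_⟩
  have h := hL n
  rw [RingHom.mem_ker, map_sub, sub_eq_zero] at h
  rw [limProj_Psi, h, ha]

include hsup happ in
theorem exists_mem_pow_Psi_eq (n : ℕ) (x : limSub 𝒪 I hI) (hx : limProj 𝒪 I hI n x = 0) :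
    ∃ v ∈ helper1433.varIdeal σ 𝒪 ^ n, Psi 𝒪 I hI 𝔪₀ g hg hpow v = x := by
  obtain ⟨w, rfl⟩ := Psi_surjective 𝒪 I hI 𝔪₀ g hg hpow hsup happ x
  rw [limProj_Psi] at hx
  have hw : w ∈ RingHom.ker (psi 𝒪 I 𝔪₀ g hg hpow n) := hx
  rw [helper1433.eq_iInf_sup_pow (helper1433.varIdeal σ 𝒪)
    (fun n => RingHom.ker (psi 𝒪 I 𝔪₀ g hg hpow n)) (ker_psi_antitone 𝒪 I hI 𝔪₀ g hg hpow)
    (ker_psi_le 𝒪 I hI 𝔪₀ g hg hpow hsup happ)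
    (fun n w hw => (RingHom.mem_ker).mpr (psi_eq_zero_of_mem 𝒪 I 𝔪₀ g hg hpow n hw)) n] at hw
  obtain ⟨k, hk, v, hv, rfl⟩ := Submodule.mem_sup.mp hw
  refine ⟨v, hv, ?_⟩
  have hk0 : Psi 𝒪 I hI 𝔪₀ g hg hpow k = 0 := by
    refine lim_ext 𝒪 I hI fun j => ?_
    rw [limProj_Psi, map_zero]
    exact (Submodule.mem_iInf _).mp hk j
  rw [map_add, hk0, zero_add]

end Lim

section Final
variable {𝒪 Λ : Type} [CommRing 𝒪] [IsLocalRing 𝒪] [IsNoetherianRing 𝒪] [CommRing Λ] [Algebra 𝒪 Λ]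
  (𝔪₀ : Ideal Λ) (𝒥 : Set (Ideal Λ))

/-- The limit of a good chain is a pro-representing object. -/
theorem nonempty_proRep_of_chain
    (hne : 𝔪₀ ≠ ⊤) (hres : ∀ x : Λ, ∃ c : 𝒪, x - algebraMap 𝒪 Λ c ∈ 𝔪₀)
    (hloc : ∀ c ∈ maximalIdeal 𝒪, algebraMap 𝒪 Λ c ∈ 𝔪₀)
    {σ : Type} [Finite σ] (g : σ → Λ) (hg : ∀ i, g i ∈ 𝔪₀)
    (I : ℕ → Ideal Λ) (hI : ∀ n, I (n + 1) ≤ I n) (hpow : ∀ n, 𝔪₀ ^ n ≤ I n) (hI1 : I 1 = 𝔪₀)
    (hsup : ∀ n, I n ≤ I (n + 1) ⊔ 𝔪₀ ^ n)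
    (happ : ∀ (n j : ℕ) (y : Λ), y ∈ 𝔪₀ ^ j →
      ∃ u ∈ MvPolynomial.idealOfVars σ 𝒪 ^ j, y - MvPolynomial.aeval g u ∈ I (n + 1))
    (hmem : ∀ n, 0 < n → I n ∈ 𝒥) (hleast : ∀ n, ∀ 𝔞 ∈ 𝒥, 𝔪₀ ^ n ≤ 𝔞 → I n ≤ 𝔞) :
    Nonempty (helper773.ProRep 𝒪 Λ 𝔪₀ 𝒥) := by
  classical
  have hΨsurj : Function.Surjective (Psi 𝒪 I hI 𝔪₀ g hg hpow) :=
    Psi_surjective 𝒪 I hI 𝔪₀ g hg hpow hsup happ
  set M : Ideal (limSub 𝒪 I hI) := (helper1433.varIdeal σ 𝒪).map (Psi 𝒪 I hI 𝔪₀ g hg hpow)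
    with hM
  have hMpow : ∀ (n : ℕ) (x : limSub 𝒪 I hI), x ∈ M ^ n ↔ limProj 𝒪 I hI n x = 0 := by
    intro n x
    rw [hM, ← Ideal.map_pow]
    constructor
    · intro hx
      obtain ⟨v, hv, rfl⟩ := (Ideal.mem_map_iff_of_surjective _ hΨsurj).mp hx
      rw [limProj_Psi]
      exact psi_eq_zero_of_mem 𝒪 I 𝔪₀ g hg hpow n hv
    · intro hx
      obtain ⟨v, hv, rfl⟩ := exists_mem_pow_Psi_eq 𝒪 I hI 𝔪₀ g hg hpow hsup happ n x hx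
      exact Ideal.mem_map_of_mem _ hv
  have hnontriv1 : Nontrivial (Λ ⧸ I 1) := by
    rw [hI1]
    exact Ideal.Quotient.nontrivial_iff.mpr hne
  have hnontriv : Nontrivial (limSub 𝒪 I hI) :=
    (limProj 𝒪 I hI 1).toRingHom.domain_nontrivial
  have hlocal : IsLocalRing (limSub 𝒪 I hI) :=
    IsLocalRing.of_surjective' (Psi 𝒪 I hI 𝔪₀ g hg hpow).toRingHom hΨsurj
  have hnoeth : IsNoetherianRing (limSub 𝒪 I hI) :=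
    isNoetherianRing_of_surjective _ _ (Psi 𝒪 I hI 𝔪₀ g hg hpow).toRingHom hΨsurj
  have hproj1 : ∀ x : limSub 𝒪 I hI, limProj 𝒪 I hI 1 x = 0 →
      x ∈ maximalIdeal (limSub 𝒪 I hI) := by
    intro x hx
    rw [mem_maximalIdeal, mem_nonunits_iff]
    intro hu
    have h := hu.map (limProj 𝒪 I hI 1)
    rw [hx] at h
    exact not_isUnit_zero h
  have halg : ∀ c : 𝒪, limProj 𝒪 I hI 1 (algebraMap 𝒪 (limSub 𝒪 I hI) c) =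
      Ideal.Quotient.mk (I 1) (algebraMap 𝒪 Λ c) := fun c => rfl
  have hmax : maximalIdeal (limSub 𝒪 I hI) = M := by
    ext x
    rw [← pow_one M, hMpow 1 x]
    constructor
    · intro hx
      by_contra h0
      obtain ⟨y, hy⟩ := Ideal.Quotient.mk_surjective (limProj 𝒪 I hI 1 x)
      obtain ⟨c, hc⟩ := hres y
      have hcu : IsUnit c := by
        by_contra hcn
        have hcm : c ∈ maximalIdeal 𝒪 := (mem_maximalIdeal c).mpr hcn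
        apply h0
        rw [← hy, Ideal.Quotient.eq_zero_iff_mem, hI1]
        have : y = (y - algebraMap 𝒪 Λ c) + algebraMap 𝒪 Λ c := by ring
        rw [this]
        exact add_mem hc (hloc c hcm)
      have h1 : x - algebraMap 𝒪 (limSub 𝒪 I hI) c ∈ maximalIdeal (limSub 𝒪 I hI) := by
        apply hproj1
        rw [map_sub, halg, ← hy, ← map_sub, Ideal.Quotient.eq_zero_iff_mem, hI1]
        exact hc
      have h2 : algebraMap 𝒪 (limSub 𝒪 I hI) c ∈ maximalIdeal (limSub 𝒪 I hI) := by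
        have : algebraMap 𝒪 (limSub 𝒪 I hI) c = x - (x - algebraMap 𝒪 (limSub 𝒪 I hI) c) := by
          ring
        rw [this]
        exact sub_mem hx h1
      exact (mem_maximalIdeal _).mp h2 (hcu.map (algebraMap 𝒪 (limSub 𝒪 I hI)))
    · exact hproj1 x
  have hcomplete : IsAdicComplete (maximalIdeal (limSub 𝒪 I hI)) (limSub 𝒪 I hI) := by
    rw [hmax]
    refine { haus' := ?_, prec' := ?_ }
    · intro x hx
      refine lim_ext 𝒪 I hI fun n => ?_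
      rw [map_zero, ← hMpow n x]
      have h := hx n
      rwa [SModEq.zero, smul_eq_mul, Ideal.mul_top] at h
    · intro f hf
      have hf' : ∀ {m n : ℕ}, m ≤ n →
          limProj 𝒪 I hI m (f m) = limProj 𝒪 I hI m (f n) := by
        intro m n hmn
        have h := hf hmn
        rwa [SModEq.sub_mem, smul_eq_mul, Ideal.mul_top, hMpow, map_sub, sub_eq_zero] at h
      refine ⟨⟨fun n => limProj 𝒪 I hI n (f n), fun n => ?_⟩, fun n => ?_⟩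
      · show Ideal.Quotient.factor (hI n) (limProj 𝒪 I hI (n + 1) (f (n + 1))) =
          limProj 𝒪 I hI n (f n)
        rw [limProj_compat, ← hf' (Nat.le_succ n)]
      · rw [SModEq.sub_mem, smul_eq_mul, Ideal.mul_top, hMpow, map_sub, sub_eq_zero]
        rfl
  have hlochom : IsLocalHom (algebraMap 𝒪 (limSub 𝒪 I hI)) := by
    refine ⟨fun c hc => ?_⟩
    by_contra hcn
    have hcm : c ∈ maximalIdeal 𝒪 := (mem_maximalIdeal c).mpr hcn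
    have h1 : algebraMap 𝒪 (limSub 𝒪 I hI) c ∈ maximalIdeal (limSub 𝒪 I hI) := by
      apply hproj1
      rw [halg, Ideal.Quotient.eq_zero_iff_mem, hI1]
      exact hloc c hcm
    exact (mem_maximalIdeal _).mp h1 hc
  have hcomap : ∀ n, (maximalIdeal (limSub 𝒪 I hI) ^ n).comap (limι 𝒪 I hI) = I n := by
    intro n
    ext y
    rw [Ideal.mem_comap, hmax, hMpow, limProj_limι, Ideal.Quotient.eq_zero_iff_mem]
  refine ⟨{ R := limSub 𝒪 I hI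
            residue_surjective := ?_
            ι := limι 𝒪 I hI
            ι_dense := ?_
            comap_mem := ?_
            comap_le := ?_ }⟩
  · intro z
    obtain ⟨x, rfl⟩ := IsLocalRing.residue_surjective z
    obtain ⟨y, hy⟩ := Ideal.Quotient.mk_surjective (limProj 𝒪 I hI 1 x)
    obtain ⟨c, hc⟩ := hres y
    refine ⟨c, ?_⟩
    rw [Function.comp_apply]
    symm
    rw [← sub_eq_zero, ← map_sub, IsLocalRing.residue_eq_zero_iff]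
    apply hproj1
    rw [map_sub, halg, ← hy, ← map_sub, Ideal.Quotient.eq_zero_iff_mem, hI1]
    exact hc
  · intro n x
    obtain ⟨y, hy⟩ := Ideal.Quotient.mk_surjective (limProj 𝒪 I hI n x)
    refine ⟨y, ?_⟩
    rw [hmax, hMpow, map_sub, limProj_limι, hy, sub_self]
  · intro n hn
    rw [hcomap]
    exact hmem n hn
  · intro n 𝔞 h𝔞 hle
    rw [hcomap]
    exact hleast n 𝔞 h𝔞 hle

/-- **RING**: the abstract pro-representability theorem, exact statement of `helper773`. -/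
theorem nonempty_proRep : helper773.Stmt_nonempty_proRep := by
  intro 𝒪 Λ _ _ _ _ _ _ 𝔪₀ 𝒥 hne hres hloc h_top h_le h_inf h_up h_fin h_nil h_tan
  obtain ⟨σ, hσ, g, hg, hgen⟩ := exists_gens 𝔪₀ 𝒥 hloc h_top h_le h_inf h_up h_fin h_nil h_tan
  have hgen' : ∀ 𝔞 ∈ 𝒥, 𝔪₀ ≤ (MvPolynomial.idealOfVars σ 𝒪).map
      (MvPolynomial.aeval g : MvPolynomial σ 𝒪 →ₐ[𝒪] Λ) ⊔ 𝔞 := by
    intro 𝔞 h𝔞
    rw [map_idealOfVars_eq]
    exact hgen 𝔞 h𝔞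
  obtain ⟨I, hI𝒥, hIpow, hIleast⟩ := exists_chain 𝔪₀ 𝒥 hres h_top h_inf h_fin g hg hgen'
  have hI0 : I 0 = ⊤ := top_le_iff.mp (by simpa using hIpow 0)
  have hI1 : I 1 = 𝔪₀ := le_antisymm (h_le _ (hI𝒥 1 le_rfl)) (by simpa using hIpow 1)
  have hI : ∀ n, I (n + 1) ≤ I n := by
    intro n
    rcases Nat.eq_zero_or_pos n with rfl | hn
    · rw [hI0]
      exact le_top
    · exact hIleast (n + 1) (I n) (hI𝒥 n hn)
        ((Ideal.pow_le_pow_right (Nat.le_succ n)).trans (hIpow n))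
  have hsup : ∀ n, I n ≤ I (n + 1) ⊔ 𝔪₀ ^ n := by
    intro n
    rcases Nat.eq_zero_or_pos n with rfl | hn
    · simp
    · exact hIleast n _ (h_up _ (hI𝒥 (n + 1) (by omega)) _ le_sup_left
        (sup_le (h_le _ (hI𝒥 (n + 1) (by omega))) (Ideal.pow_le_self (by omega)))) le_sup_right
  have happ : ∀ (n j : ℕ) (y : Λ), y ∈ 𝔪₀ ^ j →
      ∃ u ∈ MvPolynomial.idealOfVars σ 𝒪 ^ j, y - MvPolynomial.aeval g u ∈ I (n + 1) := by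
    intro n j y hy
    exact exists_sub_aeval_mem 𝔪₀ hres g hg (I (n + 1)) (hgen' _ (hI𝒥 (n + 1) (by omega)))
      (n + 1) (hIpow (n + 1)) j y hy
  exact nonempty_proRep_of_chain 𝔪₀ 𝒥 hne hres hloc g hg I hI hIpow hI1 hsup happ
    (fun n hn => hI𝒥 n hn) hIleast

end Final

end Fermat.Agent.S53.helper325
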