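/-
S53, level L6 (FINAL assembly, backup of captain row 193): the frozen statement from the
blueprint statements `Fermat.Agent.S53.helper53.Stmt_*` (hypothesis-passing; sorry-free).
Owner: helper3293.
-/
import Fermat.Agent.S53.helper53_Spec

set_option autoImplicit false

namespace Fermat.Agent.S53.helper3293

open IsLocalRing Fermat.Agent.S53.helper53

/-! ### Small helper lemmas -/

theorem isEquiv_symm {A : Type} [CommRing A] [IsLocalRing A] {ρ₁ ρ₂ : GaloisRepAdic A}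
    (h : ρ₁.IsEquiv ρ₂) : ρ₂.IsEquiv ρ₁ :=
  h.elim fun e => ⟨e.symm⟩

theorem isEquiv_trans {A : Type} [CommRing A] [IsLocalRing A] {ρ₁ ρ₂ ρ₃ : GaloisRepAdic A}
    (h : ρ₁.IsEquiv ρ₂) (h' : ρ₂.IsEquiv ρ₃) : ρ₁.IsEquiv ρ₃ :=
  h.elim fun e => h'.elim fun e' => ⟨e.trans e'⟩

theorem ofMat_isEquiv_of_eq {A : Type} [CommRing A] [IsLocalRing A] {r r' : Gal →* M2 A}
    (h : r = r') (hr : MatCont r) (hr' : MatCont r') : (ofMat r hr).IsEquiv (ofMat r' hr') := by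
  subst h
  exact ⟨GaloisRepAdic.Equiv.refl _⟩

section aug

variable {𝒪 : Type} [CommRing 𝒪] [IsLocalRing 𝒪] (rbar : Gal →* M2 (ResidueField 𝒪))

theorem augIdeal_ne_top : augIdeal rbar ≠ ⊤ :=
  RingHom.ker_ne_top _

theorem exists_sub_mem_augIdeal (x : Lam 𝒪) :
    ∃ c : 𝒪, x - algebraMap 𝒪 (Lam 𝒪) c ∈ augIdeal rbar := by
  obtain ⟨c, hc⟩ := residue_surjective (evalMat (𝒪 := 𝒪) (A := ResidueField 𝒪) rbar x)
  refine ⟨c, ?_⟩
  show _ ∈ RingHom.ker _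
  rw [RingHom.mem_ker, map_sub, AlgHom.commutes, ← hc, sub_eq_zero]
  rfl

theorem algebraMap_mem_augIdeal (c : 𝒪) (hc : c ∈ maximalIdeal 𝒪) :
    algebraMap 𝒪 (Lam 𝒪) c ∈ augIdeal rbar := by
  show _ ∈ RingHom.ker _
  rw [RingHom.mem_ker, AlgHom.commutes]
  exact (residue_eq_zero_iff c).mpr hc

end aug

section push

/-- Evaluation at the pushed-forward matrices is the push-forward of the evaluation. -/
theorem evalMat_mapMat {𝒪 : Type} [CommRing 𝒪] {A B : Type} [CommRing A] [CommRing B]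
    [Algebra 𝒪 A] [Algebra 𝒪 B]
    (φ : A →ₐ[𝒪] B) (r : Gal →* M2 A) (f : Lam 𝒪) :
    evalMat (𝒪 := 𝒪) (mapMat (φ : A →+* B) r) f = φ (evalMat (𝒪 := 𝒪) r f) := by
  have h : (evalMat (𝒪 := 𝒪) (mapMat (φ : A →+* B) r) : Lam 𝒪 →ₐ[𝒪] B) =
      φ.comp (evalMat (𝒪 := 𝒪) r) := by
    apply MvPolynomial.algHom_ext
    intro x
    simp [evalMat]
  rw [h]
  rfl

theorem isNormalized_mapMat {𝒪 : Type} [CommRing 𝒪] {A B : Type} [CommRing A] [CommRing B]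
    [Algebra 𝒪 A] [Algebra 𝒪 B] (Sig : Set (Lam 𝒪)) (φ : A →ₐ[𝒪] B) (r : Gal →* M2 A) (h : IsNormalized Sig r) :
    IsNormalized Sig (mapMat (φ : A →+* B) r) := by
  intro f hf
  rw [evalMat_mapMat, h f hf, map_zero]

theorem isStrictLift_mapMat {𝒪 : Type} [CommRing 𝒪] [IsLocalRing 𝒪]
    (rbar : Gal →* M2 (ResidueField 𝒪)) {A B : Type} [CommRing A]
    [IsLocalRing A] [CommRing B] [IsLocalRing B] [Algebra 𝒪 A] [Algebra 𝒪 B]
    (φ : A →ₐ[𝒪] B) (hφ : IsLocalHom (φ : A →+* B)) (r : Gal →* M2 A)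
    (h : IsStrictLift rbar r) : IsStrictLift rbar (mapMat (φ : A →+* B) r) := by
  intro σ i j
  obtain ⟨c, hc, hmem⟩ := h σ i j
  refine ⟨c, hc, ?_⟩
  have h1 : mapMat (φ : A →+* B) r σ i j - algebraMap 𝒪 B c =
      (φ : A →+* B) (r σ i j - algebraMap 𝒪 A c) := by
    rw [map_sub, mapMat_apply]
    simp
  rw [h1]
  have := hφ
  exact map_nonunit (φ : A →+* B) _ hmem

end push

/-! ### The final assembly -/

/-- FINAL (core form): for a fixed basis `b` and slice `Sig`, the blueprint statements give a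
universal deformation ring. -/
theorem final_core
    (𝒪 : Type) [CommRing 𝒪] [IsDomain 𝒪] [IsDiscreteValuationRing 𝒪]
    [IsAdicComplete (IsLocalRing.maximalIdeal 𝒪) 𝒪]
    (ρbar : ResidualGaloisRep (IsLocalRing.ResidueField 𝒪))
    (𝒟 : ∀ ⦃A : Type⦄ [CommRing A] [IsLocalRing A] [Algebra 𝒪 A], GaloisRepAdic A → Prop)
    (habs : ρbar.IsAbsolutelyIrreducible)
    (b : Module.Basis (Fin 2) (ResidueField 𝒪) ρbar.V) (Sig : Set (Lam 𝒪))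
    (hS : IsSlice (matOfBasis ρbar b) Sig)
    (hMatContMap : Stmt_MatContMap)
    (hDictBaseChange : Stmt_DictBaseChange)
    (hMatContConj : Stmt_MatContConj)
    (hDictEquiv : Stmt_DictEquiv)
    (hDictResidual : Stmt_DictResidual 𝒪)
    (hTypeEquiv : Stmt_TypeEquiv 𝒪 𝒟)
    (hRing : Stmt_Ring 𝒪)
    (hFamLe : Stmt_FamLe 𝒪 (matOfBasis ρbar b) Sig 𝒟)
    (hFamNil : Stmt_FamNil 𝒪 (matOfBasis ρbar b) Sig 𝒟)
    (hFamFin : Stmt_FamFin 𝒪 (matOfBasis ρbar b) Sig 𝒟)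
    (hFamInf : Stmt_FamInf 𝒪 (matOfBasis ρbar b) Sig 𝒟)
    (hFamUp : Stmt_FamUp 𝒪 (matOfBasis ρbar b) Sig 𝒟)
    (hFamTop : Stmt_FamTop 𝒪 (matOfBasis ρbar b) Sig 𝒟)
    (hFamTan : Stmt_FamTan 𝒪 (matOfBasis ρbar b) Sig 𝒟)
    (hUnivRep : Stmt_UnivRep 𝒪 (matOfBasis ρbar b) Sig 𝒟)
    (hUnivLift : Stmt_UnivLift 𝒪 (matOfBasis ρbar b) Sig 𝒟)
    (hUnivUnique : Stmt_UnivUnique 𝒪 (matOfBasis ρbar b) Sig 𝒟) :
    Nonempty (GaloisRep.DeformationRingData 𝒪 ρbar 𝒟) := by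
  obtain ⟨P⟩ := hRing (Lam 𝒪) (augIdeal (matOfBasis ρbar b))
    {J | InFamily (matOfBasis ρbar b) Sig 𝒟 J}
    (augIdeal_ne_top _) (exists_sub_mem_augIdeal _) (algebraMap_mem_augIdeal _)
    hFamTop (fun 𝔞 h𝔞 => hFamLe 𝔞 h𝔞) (fun 𝔞 h𝔞 𝔟 h𝔟 => hFamInf 𝔞 𝔟 h𝔞 h𝔟)
    (fun 𝔞 h𝔞 𝔟 h1 h2 => hFamUp 𝔞 𝔟 h𝔞 h1 h2) (fun 𝔞 h𝔞 => hFamFin 𝔞 h𝔞)
    (fun 𝔞 h𝔞 => hFamNil 𝔞 h𝔞) hFamTan
  obtain ⟨runiv, hrX, hN⟩ := hUnivRep P
  refine ⟨{
    R := P.R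
    residue_surjective := P.residue_surjective
    absIrr := habs
    ρ := ofMat runiv hN.cont
    isOfType := hN.type
    residual_isEquiv := (hDictResidual ρbar b P.R (ofMat runiv hN.cont)).mpr
      ⟨runiv, hN.cont, hN.strict, ⟨GaloisRepAdic.Equiv.refl _⟩⟩
    universal := ?_ }⟩
  intro A _ _ _ _ _ _ hres ρA hDA hresid
  -- a normalized strict lift `r'` with `ρA ≅ ofMat r'`
  obtain ⟨r, hr, hstrict, heq⟩ := (hDictResidual ρbar b A ρA).mp hresid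
  obtain ⟨M, r', hstrict', hnorm', hconj⟩ := hS.exists_normalized r hstrict
  have hr' : MatCont r' := hMatContConj A r r' M hconj hr
  have hρA' : ρA.IsEquiv (ofMat r' hr') :=
    isEquiv_trans heq ((hDictEquiv A r r' hr hr').mpr ⟨M, hconj⟩)
  have hD' : 𝒟 (ofMat r' hr') := hTypeEquiv A inferInstance hres ρA _ hρA' hDA
  have hNL : IsNLift (matOfBasis ρbar b) Sig 𝒟 r' := ⟨hr', hstrict', hnorm', hD'⟩
  obtain ⟨φ, hφloc, hφ⟩ := hUnivLift P A inferInstance hres r' hNL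
  have hmap : mapMat (φ : P.R →+* A) runiv = r' := by
    ext σ i j
    rw [mapMat_apply, hrX]
    exact hφ σ i j
  refine ⟨φ, ⟨hφloc, ?_⟩, ?_⟩
  · have hc : MatCont (mapMat (φ : P.R →+* A) runiv) := hmap ▸ hr'
    exact isEquiv_trans (hDictBaseChange P.R A φ hφloc runiv hN.cont hc)
      (isEquiv_trans (ofMat_isEquiv_of_eq hmap hc hr') (isEquiv_symm hρA'))
  · rintro φ' ⟨hφ'loc, hφ'eq⟩
    have hsc : MatCont (mapMat (φ' : P.R →+* A) runiv) :=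
      hMatContMap P.R A φ' hφ'loc runiv hN.cont
    have h1 : (ofMat (mapMat (φ' : P.R →+* A) runiv) hsc).IsEquiv (ofMat r' hr') :=
      isEquiv_trans (isEquiv_symm (hDictBaseChange P.R A φ' hφ'loc runiv hN.cont hsc))
        (isEquiv_trans hφ'eq hρA')
    obtain ⟨M', hM'⟩ := (hDictEquiv A _ r' hsc hr').mp h1
    have hs : mapMat (φ' : P.R →+* A) runiv = r' :=
      hS.eq_of_conj _ r' (isStrictLift_mapMat _ φ' hφ'loc runiv hN.strict) hstrict'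
        (isNormalized_mapMat Sig φ' runiv hN.norm) hnorm' M' hM'
    refine hUnivUnique P A φ' φ hφ'loc hφloc fun σ i j => ?_
    rw [hφ σ i j, ← hs, mapMat_apply, hrX]
    rfl

/-- FINAL: the frozen S53 statement from the blueprint statements.  The family/assembly
statements are required for every basis and slice (in practice: for the ones produced by
`Stmt_Slice`). -/
theorem final
    (𝒪 : Type) [CommRing 𝒪] [IsDomain 𝒪] [IsDiscreteValuationRing 𝒪]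
    [IsAdicComplete (IsLocalRing.maximalIdeal 𝒪) 𝒪]
    (ρbar : ResidualGaloisRep (IsLocalRing.ResidueField 𝒪))
    (𝒟 : ∀ ⦃A : Type⦄ [CommRing A] [IsLocalRing A] [Algebra 𝒪 A], GaloisRepAdic A → Prop)
    (habs : ρbar.IsAbsolutelyIrreducible)
    (hSlice : Stmt_Slice 𝒪)
    (hMatContMap : Stmt_MatContMap)
    (hDictBaseChange : Stmt_DictBaseChange)
    (hMatContConj : Stmt_MatContConj)
    (hDictEquiv : Stmt_DictEquiv)
    (hDictResidual : Stmt_DictResidual 𝒪)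
    (hTypeEquiv : Stmt_TypeEquiv 𝒪 𝒟)
    (hRing : Stmt_Ring 𝒪)
    (hFam : ∀ (b : Module.Basis (Fin 2) (ResidueField 𝒪) ρbar.V) (Sig : Set (Lam 𝒪)),
      IsSlice (matOfBasis ρbar b) Sig →
        Stmt_FamLe 𝒪 (matOfBasis ρbar b) Sig 𝒟 ∧ Stmt_FamNil 𝒪 (matOfBasis ρbar b) Sig 𝒟 ∧
        Stmt_FamFin 𝒪 (matOfBasis ρbar b) Sig 𝒟 ∧ Stmt_FamInf 𝒪 (matOfBasis ρbar b) Sig 𝒟 ∧
        Stmt_FamUp 𝒪 (matOfBasis ρbar b) Sig 𝒟 ∧ Stmt_FamTop 𝒪 (matOfBasis ρbar b) Sig 𝒟 ∧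
        Stmt_FamTan 𝒪 (matOfBasis ρbar b) Sig 𝒟 ∧ Stmt_UnivRep 𝒪 (matOfBasis ρbar b) Sig 𝒟 ∧
        Stmt_UnivLift 𝒪 (matOfBasis ρbar b) Sig 𝒟 ∧
        Stmt_UnivUnique 𝒪 (matOfBasis ρbar b) Sig 𝒟) :
    Nonempty (GaloisRep.DeformationRingData 𝒪 ρbar 𝒟) := by
  obtain ⟨b, Sig, hS⟩ := hSlice ρbar habs
  obtain ⟨h1, h2, h3, h4, h5, h6, h7, h8, h9, h10⟩ := hFam b Sig hS
  exact final_core 𝒪 ρbar 𝒟 habs b Sig hS hMatContMap hDictBaseChange hMatContConj hDictEquiv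
    hDictResidual hTypeEquiv hRing h1 h2 h3 h4 h5 h6 h7 h8 h9 h10

end Fermat.Agent.S53.helper3293
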