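/-
S53, RING (backup by helper3353): abstract commutative algebra used for the
pro-representing ring.  Part A: successive approximation in adically complete rings,
least elements of bounded inf-closed families of ideals, generation lemmas.
No sorry.
-/
import Mathlib

set_option autoImplicit false

namespace Fermat.Agent.S53.helper3353

section Approx

variable {W : Type*} [CommRing W] (I : Ideal W)

/-- A sequence with consecutive differences in `I ^ j` is Cauchy. -/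
theorem sub_mem_pow_of_succ {t : ℕ → W} (ht : ∀ j, t (j + 1) - t j ∈ I ^ j) {m n : ℕ}
    (hmn : m ≤ n) : t m - t n ∈ I ^ m := by
  induction n, hmn using Nat.le_induction with
  | base => simp
  | succ n hmn ih =>
    have h1 : t (n + 1) - t n ∈ I ^ m := Ideal.pow_le_pow_right hmn (ht n)
    have h2 : t m - t (n + 1) = (t m - t n) - (t (n + 1) - t n) := by ring
    rw [h2]
    exact sub_mem ih h1

/-- Limits of sequences with consecutive differences in `I ^ j`. -/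
theorem exists_limit [IsPrecomplete I W] {t : ℕ → W} (ht : ∀ j, t (j + 1) - t j ∈ I ^ j) :
    ∃ L : W, ∀ n, t n - L ∈ I ^ n := by
  obtain ⟨L, hL⟩ := IsPrecomplete.prec (I := I) (M := W) ‹_› (f := t) (fun {m n} hmn => by
    rw [SModEq.sub_mem, smul_eq_mul, Ideal.mul_top]
    exact sub_mem_pow_of_succ I ht hmn)
  refine ⟨L, fun n => ?_⟩
  have h := hL n
  rwa [SModEq.sub_mem, smul_eq_mul, Ideal.mul_top] at h

/-- Successive approximation: if `K n ≤ K (n+1) ⊔ I ^ n` and `I ^ n ≤ K n` for a decreasing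
sequence of ideals in an `I`-adically precomplete ring, then `K n ≤ (⨅ m, K m) ⊔ I ^ n`. -/
theorem exists_sub_mem_iInf [IsPrecomplete I W] (K : ℕ → Ideal W)
    (hK : ∀ n, K n ≤ K (n + 1) ⊔ I ^ n) (hIK : ∀ n, I ^ n ≤ K n) (hanti : Antitone K)
    (n : ℕ) (v : W) (hv : v ∈ K n) : ∃ δ ∈ I ^ n, v - δ ∈ ⨅ m, K m := by
  classical
  have step : ∀ (j : ℕ) (κ : W), κ ∈ K j → ∃ κ' : W, κ' ∈ K (j + 1) ∧ κ - κ' ∈ I ^ j := by
    intro j κ hκ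
    obtain ⟨a, ha, b, hb, hab⟩ := Submodule.mem_sup.mp (hK j hκ)
    refine ⟨a, ha, ?_⟩
    rw [← hab]
    simpa using hb
  choose! g hg1 hg2 using step
  let κ : ℕ → W := fun j => Nat.rec v (fun i x => g (n + i) x) j
  have hκ0 : κ 0 = v := rfl
  have hκs : ∀ j, κ (j + 1) = g (n + j) (κ j) := fun j => rfl
  have hκmem : ∀ j, κ j ∈ K (n + j) := by
    intro j
    induction j with
    | zero => simpa [hκ0] using hv
    | succ j ih => rw [hκs]; exact hg1 _ _ ih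
  have hκdiff : ∀ j, κ j - κ (j + 1) ∈ I ^ (n + j) := fun j => by
    rw [hκs]; exact hg2 _ _ (hκmem j)
  let s : ℕ → W := fun j => v - κ j
  have hs : ∀ j, s (j + 1) - s j ∈ I ^ j := by
    intro j
    have h1 : s (j + 1) - s j = κ j - κ (j + 1) := by simp only [s]; ring
    rw [h1]
    exact Ideal.pow_le_pow_right (Nat.le_add_left j n) (hκdiff j)
  obtain ⟨δ, hδ⟩ := exists_limit I hs
  have hsn : ∀ j, s j ∈ I ^ n := by
    intro j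
    induction j with
    | zero => simp [s, hκ0]
    | succ j ih =>
      have h1 : s (j + 1) = s j + (κ j - κ (j + 1)) := by simp only [s]; ring
      rw [h1]
      exact add_mem ih (Ideal.pow_le_pow_right (Nat.le_add_right n j) (hκdiff j))
  refine ⟨δ, ?_, ?_⟩
  · have h1 := hδ n
    have h2 : δ = s n - (s n - δ) := by ring
    rw [h2]
    exact sub_mem (hsn n) h1
  · rw [Submodule.mem_iInf]
    intro m
    have h1 : s m - δ ∈ K m := hIK m (hδ m)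
    have h2 : κ m ∈ K m := hanti (Nat.le_add_left m n) (hκmem m)
    have h3 : v - δ = κ m + (s m - δ) := by simp only [s]; ring
    rw [h3]
    exact add_mem h2 h1

/-- Compatible sequences modulo `K n` have a limit. -/
theorem exists_limit_of_compatible [IsPrecomplete I W] (K : ℕ → Ideal W)
    (hK : ∀ n, K n ≤ K (n + 1) ⊔ I ^ n) (hIK : ∀ n, I ^ n ≤ K n) (hanti : Antitone K)
    (u : ℕ → W) (hu : ∀ n, u (n + 1) - u n ∈ K n) : ∃ w : W, ∀ n, w - u n ∈ K n := by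
  choose δ hδ1 hδ2 using fun n => exists_sub_mem_iInf I K hK hIK hanti n _ (hu n)
  let t : ℕ → W := fun m => u 0 + ∑ j ∈ Finset.range m, δ j
  have ht : ∀ j, t (j + 1) - t j ∈ I ^ j := by
    intro j
    have h1 : t (j + 1) - t j = δ j := by
      simp only [t, Finset.sum_range_succ]; ring
    rw [h1]; exact hδ1 j
  obtain ⟨w, hw⟩ := exists_limit I ht
  refine ⟨w, fun m => ?_⟩
  have h1 : t m - u m ∈ ⨅ m, K m := by
    induction m with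
    | zero => simp [t]
    | succ m ih =>
      have h2 : t (m + 1) - u (m + 1) = (t m - u m) - (u (m + 1) - u m - δ m) := by
        simp only [t, Finset.sum_range_succ]; ring
      rw [h2]
      exact sub_mem ih (hδ2 m)
  have h2 : t m - u m ∈ K m := (iInf_le K m) h1
  have h3 : t m - w ∈ K m := hIK m (hw m)
  have h4 : w - u m = (t m - u m) - (t m - w) := by ring
  rw [h4]
  exact sub_mem h2 h3

end Approx

section Least

variable {Λ : Type*} [CommRing Λ]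

/-- A nonempty inf-closed family of ideals of finite, bounded index has a least element. -/
theorem exists_least_of_card_le (𝒮 : Set (Ideal Λ)) (hne : 𝒮.Nonempty)
    (hinf : ∀ 𝔞 ∈ 𝒮, ∀ 𝔟 ∈ 𝒮, 𝔞 ⊓ 𝔟 ∈ 𝒮) (hfin : ∀ 𝔞 ∈ 𝒮, Finite (Λ ⧸ 𝔞))
    (N : ℕ) (hN : ∀ 𝔞 ∈ 𝒮, Nat.card (Λ ⧸ 𝔞) ≤ N) : ∃ 𝔞 ∈ 𝒮, ∀ 𝔟 ∈ 𝒮, 𝔞 ≤ 𝔟 := by
  classical
  let P : ℕ → Prop := fun c => ∃ 𝔞 ∈ 𝒮, Nat.card (Λ ⧸ 𝔞) = c
  obtain ⟨𝔞₀, h𝔞₀⟩ := hne
  have hP : P (Nat.findGreatest P N) :=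
    Nat.findGreatest_spec (hN 𝔞₀ h𝔞₀) ⟨𝔞₀, h𝔞₀, rfl⟩
  obtain ⟨𝔞, h𝔞, hcard⟩ := hP
  refine ⟨𝔞, h𝔞, fun 𝔟 h𝔟 => ?_⟩
  have hab := hinf 𝔞 h𝔞 𝔟 h𝔟
  have hle : Nat.card (Λ ⧸ (𝔞 ⊓ 𝔟)) ≤ Nat.card (Λ ⧸ 𝔞) := by
    rw [hcard]
    exact Nat.le_findGreatest (hN _ hab) ⟨_, hab, rfl⟩
  have := hfin _ hab
  have hsurj : Function.Surjective (Ideal.Quotient.factor (inf_le_left : 𝔞 ⊓ 𝔟 ≤ 𝔞)) :=
    Ideal.Quotient.factor_surjective _
  have hbij := hsurj.bijective_of_nat_card_le hle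
  intro x hx
  have h0 : (Ideal.Quotient.mk (𝔞 ⊓ 𝔟)) x = 0 := by
    apply hbij.1
    rw [Ideal.Quotient.factor_mk, map_zero]
    exact Ideal.Quotient.eq_zero_iff_mem.mpr hx
  exact (Ideal.Quotient.eq_zero_iff_mem.mp h0).2

end Least

section Gen

variable {𝒪 Λ : Type*} [CommRing 𝒪] [CommRing Λ] [Algebra 𝒪 Λ] (𝔪₀ : Ideal Λ)

theorem sup_pow_le_pow_sup (A B : Ideal Λ) (j : ℕ) : (A ⊔ B) ^ j ≤ A ^ j ⊔ B := by
  induction j with
  | zero => simp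
  | succ j ih =>
    calc (A ⊔ B) ^ (j + 1) = (A ⊔ B) ^ j * (A ⊔ B) := pow_succ _ _
      _ ≤ (A ^ j ⊔ B) * (A ⊔ B) := Ideal.mul_mono_left ih
      _ = A ^ j * A ⊔ A ^ j * B ⊔ (B * A ⊔ B * B) := by
        rw [Ideal.sup_mul, Ideal.mul_sup, Ideal.mul_sup]
      _ ≤ A ^ (j + 1) ⊔ B := by
        refine sup_le (sup_le ?_ ?_) (sup_le ?_ ?_)
        · rw [pow_succ]; exact le_sup_left
        · exact le_trans Ideal.mul_le_right le_sup_right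
        · exact le_trans Ideal.mul_le_left le_sup_right
        · exact le_trans Ideal.mul_le_left le_sup_right

theorem map_aeval_idealOfVars {σ : Type*} (y : σ → Λ) :
    Ideal.map (MvPolynomial.aeval (R := 𝒪) y) (MvPolynomial.idealOfVars σ 𝒪) =
      Ideal.span (Set.range y) := by
  rw [MvPolynomial.idealOfVars, Ideal.map_span]
  congr 1
  ext x
  simp

/-- If `𝔪₀ ≤ span (range y) ⊔ 𝔞 ⊔ 𝔪₀ ^ 2` and `𝔞` contains a power of `𝔪₀` then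
`𝔪₀ ≤ span (range y) ⊔ 𝔞`. -/
theorem le_sup_of_le_sup_sq (S 𝔞 : Ideal Λ) (h : 𝔪₀ ≤ S ⊔ 𝔞 ⊔ 𝔪₀ ^ 2) (N : ℕ)
    (hN : 𝔪₀ ^ N ≤ 𝔞) : 𝔪₀ ≤ S ⊔ 𝔞 := by
  have key : ∀ j : ℕ, 𝔪₀ ≤ S ⊔ 𝔞 ⊔ 𝔪₀ ^ (j + 2) := by
    intro j
    induction j with
    | zero => simpa using h
    | succ j ih =>
      have h1 : 𝔪₀ ^ (j + 2) ≤ S ⊔ 𝔞 ⊔ 𝔪₀ ^ (j + 3) := by
        calc 𝔪₀ ^ (j + 2) = 𝔪₀ ^ (j + 1) * 𝔪₀ := pow_succ _ _
          _ ≤ 𝔪₀ ^ (j + 1) * (S ⊔ 𝔞 ⊔ 𝔪₀ ^ 2) := Ideal.mul_mono_right h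
          _ = 𝔪₀ ^ (j + 1) * (S ⊔ 𝔞) ⊔ 𝔪₀ ^ (j + 1) * 𝔪₀ ^ 2 := Ideal.mul_sup _ _ _
          _ ≤ S ⊔ 𝔞 ⊔ 𝔪₀ ^ (j + 3) := by
            refine sup_le_sup Ideal.mul_le_right ?_
            rw [← pow_add]
      exact le_trans ih (sup_le le_sup_left h1)
  refine le_trans (key N) (sup_le le_rfl ?_)
  exact le_trans (le_trans (Ideal.pow_le_pow_right (by omega)) hN) le_sup_right

/-- One step of generation: elements of `𝔪₀ ^ j` are, modulo `𝔞 ⊔ 𝔪₀ ^ (j+1)`, values of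
polynomials in `idealOfVars ^ j` at `y`. -/
theorem gen_step {σ : Type*} (y : σ → Λ) (hy : ∀ s, y s ∈ 𝔪₀)
    (hres : ∀ x : Λ, ∃ c : 𝒪, x - algebraMap 𝒪 Λ c ∈ 𝔪₀)
    (𝔞 : Ideal Λ) (h𝔞 : 𝔪₀ ≤ Ideal.span (Set.range y) ⊔ 𝔞) (j : ℕ) (x : Λ)
    (hx : x ∈ 𝔪₀ ^ j) :
    ∃ p ∈ MvPolynomial.idealOfVars σ 𝒪 ^ j,
      x - MvPolynomial.aeval y p ∈ 𝔞 ⊔ 𝔪₀ ^ (j + 1) := by
  have hmap : Ideal.map (MvPolynomial.aeval (R := 𝒪) y) (MvPolynomial.idealOfVars σ 𝒪 ^ j) =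
      Ideal.span (Set.range y) ^ j := by
    rw [Ideal.map_pow, map_aeval_idealOfVars]
  have hle𝔪 : Ideal.span (Set.range y) ≤ 𝔪₀ :=
    Ideal.span_le.mpr (by rintro _ ⟨s, rfl⟩; exact hy s)
  have h1 : 𝔪₀ ^ j ≤ Ideal.span (Set.range y) ^ j ⊔ 𝔞 :=
    le_trans (Ideal.pow_right_mono h𝔞 j) (sup_pow_le_pow_sup _ _ j)
  obtain ⟨x1, hx1, x2, hx2, rfl⟩ := Submodule.mem_sup.mp (h1 hx)
  suffices hsuff : ∃ p ∈ MvPolynomial.idealOfVars σ 𝒪 ^ j,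
      x1 - MvPolynomial.aeval y p ∈ 𝔪₀ ^ (j + 1) by
    obtain ⟨p, hp, hpx⟩ := hsuff
    refine ⟨p, hp, ?_⟩
    have h2 : x1 + x2 - MvPolynomial.aeval y p = x2 + (x1 - MvPolynomial.aeval y p) := by ring
    rw [h2]
    exact Submodule.add_mem_sup hx2 hpx
  rw [← hmap] at hx1
  have hmapl : ∀ z, z ∈ Ideal.map (MvPolynomial.aeval (R := 𝒪) y)
      (MvPolynomial.idealOfVars σ 𝒪 ^ j) → z ∈ 𝔪₀ ^ j := by
    intro z hz
    rw [hmap] at hz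
    exact Ideal.pow_right_mono hle𝔪 j hz
  refine Submodule.span_induction
    (p := fun z _ => ∃ p ∈ MvPolynomial.idealOfVars σ 𝒪 ^ j,
      z - MvPolynomial.aeval y p ∈ 𝔪₀ ^ (j + 1)) ?_ ?_ ?_ ?_ hx1
  · rintro z ⟨p, hp, rfl⟩
    exact ⟨p, hp, by simp⟩
  · exact ⟨0, zero_mem _, by simp⟩
  · rintro a b _ _ ⟨p, hp, hpa⟩ ⟨q, hq, hqb⟩
    refine ⟨p + q, add_mem hp hq, ?_⟩
    have h2 : a + b - MvPolynomial.aeval y (p + q) =
        (a - MvPolynomial.aeval y p) + (b - MvPolynomial.aeval y q) := by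
      rw [map_add]; ring
    rw [h2]
    exact add_mem hpa hqb
  · rintro a z hz ⟨p, hp, hpz⟩
    obtain ⟨c, hc⟩ := hres a
    refine ⟨MvPolynomial.C c * p, Ideal.mul_mem_left _ _ hp, ?_⟩
    have h2 : a • z - MvPolynomial.aeval y (MvPolynomial.C c * p) =
        (a - algebraMap 𝒪 Λ c) * z + algebraMap 𝒪 Λ c * (z - MvPolynomial.aeval y p) := by
      rw [map_mul, MvPolynomial.aeval_C, smul_eq_mul]; ring
    rw [h2]
    refine add_mem ?_ (Ideal.mul_mem_left _ _ hpz)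
    rw [pow_succ']
    exact Ideal.mul_mem_mul hc (hmapl z hz)

/-- Full generation: if moreover `𝔞` contains a power of `𝔪₀`, elements of `𝔪₀ ^ j` are,
modulo `𝔞`, values of polynomials in `idealOfVars ^ j` at `y`. -/
theorem gen_full {σ : Type*} (y : σ → Λ) (hy : ∀ s, y s ∈ 𝔪₀)
    (hres : ∀ x : Λ, ∃ c : 𝒪, x - algebraMap 𝒪 Λ c ∈ 𝔪₀)
    (𝔞 : Ideal Λ) (h𝔞 : 𝔪₀ ≤ Ideal.span (Set.range y) ⊔ 𝔞) (N : ℕ) (hN : 𝔪₀ ^ N ≤ 𝔞)
    (j : ℕ) (x : Λ) (hx : x ∈ 𝔪₀ ^ j) :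
    ∃ p ∈ MvPolynomial.idealOfVars σ 𝒪 ^ j, x - MvPolynomial.aeval y p ∈ 𝔞 := by
  have key : ∀ (i j : ℕ) (x : Λ), x ∈ 𝔪₀ ^ j →
      ∃ p ∈ MvPolynomial.idealOfVars σ 𝒪 ^ j,
        x - MvPolynomial.aeval y p ∈ 𝔞 ⊔ 𝔪₀ ^ (j + i + 1) := by
    intro i
    induction i with
    | zero => intro j x hx; exact gen_step 𝔪₀ y hy hres 𝔞 h𝔞 j x hx
    | succ i ih =>
      intro j x hx
      obtain ⟨p, hp, hpx⟩ := ih j x hx
      obtain ⟨a, ha, z, hz, haz⟩ := Submodule.mem_sup.mp hpx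
      obtain ⟨q, hq, hqz⟩ := gen_step 𝔪₀ y hy hres 𝔞 h𝔞 (j + i + 1) z hz
      refine ⟨p + q, add_mem hp (Ideal.pow_le_pow_right (by omega) hq), ?_⟩
      have h2 : x - MvPolynomial.aeval y (p + q) = a + (z - MvPolynomial.aeval y q) := by
        rw [map_add]
        have h3 : x - MvPolynomial.aeval y p = a + z := haz.symm
        have h4 : x = a + z + MvPolynomial.aeval y p := by rw [← h3]; ring
        rw [h4]; ring
      rw [h2]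
      have h5 : 𝔞 ⊔ 𝔪₀ ^ (j + i + 1 + 1) = 𝔞 ⊔ 𝔪₀ ^ (j + (i + 1) + 1) := by
        congr 2
      rw [← h5]
      exact add_mem (Submodule.mem_sup_left ha) hqz
  obtain ⟨p, hp, hpx⟩ := key N j x hx
  refine ⟨p, hp, ?_⟩
  have h1 : 𝔞 ⊔ 𝔪₀ ^ (j + N + 1) = 𝔞 :=
    sup_eq_left.mpr (le_trans (Ideal.pow_le_pow_right (by omega)) hN)
  rwa [h1] at hpx

end Gen

end Fermat.Agent.S53.helper3353
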