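/-
S53, RING (backup by helper3353): the abstract pro-representing ring.
Main result: `Fermat.Agent.S53.helper3353.ring : helper53.Stmt_Ring 𝒪` for a noetherian local
ring `𝒪`.  Pure commutative algebra.  No sorry.
-/
import Mathlib
import Fermat.Prelude.Thm_IsAdicComplete_of_module_finite
import Fermat.Agent.S53.helper53_Spec
import Fermat.Agent.S53.helper3353_RingA

set_option autoImplicit false

namespace Fermat.Agent.S53.helper3353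

open IsLocalRing

section EvalQuot

variable {𝒪 Λ : Type} [CommRing 𝒪] [CommRing Λ] [Algebra 𝒪 Λ]
variable {σ : Type} [Finite σ] (y : σ → Λ) (𝔞 : Ideal Λ) (n : ℕ)

/-- The ring homomorphism `𝒪⟦σ⟧ → Λ ⧸ 𝔞` sending `X s` to `y s`; it exists as soon as
evaluation at `y` sends `idealOfVars ^ n` into `𝔞` (truncate in total degree `< n`, then
evaluate). -/
noncomputable def evalQuot
    (h : ∀ p ∈ MvPolynomial.idealOfVars σ 𝒪 ^ n, MvPolynomial.aeval y p ∈ 𝔞) :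
    MvPowerSeries σ 𝒪 →+* Λ ⧸ 𝔞 :=
  (Ideal.Quotient.lift (MvPolynomial.idealOfVars σ 𝒪 ^ n)
    ((Ideal.Quotient.mk 𝔞).comp
      (MvPolynomial.aeval (R := 𝒪) y : MvPolynomial σ 𝒪 →ₐ[𝒪] Λ).toRingHom)
    (fun p hp => Ideal.Quotient.eq_zero_iff_mem.mpr (h p hp))).comp
  (MvPowerSeries.truncTotalAlgHom σ 𝒪 n).toRingHom

variable (h : ∀ p ∈ MvPolynomial.idealOfVars σ 𝒪 ^ n, MvPolynomial.aeval y p ∈ 𝔞)

theorem evalQuot_apply (w : MvPowerSeries σ 𝒪) :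
    evalQuot y 𝔞 n h w =
      Ideal.Quotient.mk 𝔞 (MvPolynomial.aeval y (MvPowerSeries.truncTotal n w)) := rfl

theorem evalQuot_coe (p : MvPolynomial σ 𝒪) :
    evalQuot y 𝔞 n h (p : MvPowerSeries σ 𝒪) =
      Ideal.Quotient.mk 𝔞 (MvPolynomial.aeval y p) := by
  have h1 := (MvPowerSeries.truncTotalAlgHom σ 𝒪 n).commutes p
  have h2 : (MvPowerSeries.truncTotalAlgHom σ 𝒪 n) (p : MvPowerSeries σ 𝒪) =
      Ideal.Quotient.mk (MvPolynomial.idealOfVars σ 𝒪 ^ n) p := h1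
  rw [MvPowerSeries.truncTotalAlgHom_apply, Ideal.Quotient.eq] at h2
  rw [evalQuot_apply, Ideal.Quotient.eq, ← map_sub]
  exact h _ h2

theorem evalQuot_X (s : σ) :
    evalQuot y 𝔞 n h (MvPowerSeries.X s) = Ideal.Quotient.mk 𝔞 (y s) := by
  rw [← MvPolynomial.coe_X, evalQuot_coe, MvPolynomial.aeval_X]

theorem evalQuot_C (c : 𝒪) :
    evalQuot y 𝔞 n h (MvPowerSeries.C c) = Ideal.Quotient.mk 𝔞 (algebraMap 𝒪 Λ c) := by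
  rw [← MvPolynomial.coe_C, evalQuot_coe, MvPolynomial.aeval_C]

theorem evalQuot_surjective (𝔪₀ : Ideal Λ) (hy : ∀ s, y s ∈ 𝔪₀)
    (hres : ∀ x : Λ, ∃ c : 𝒪, x - algebraMap 𝒪 Λ c ∈ 𝔪₀)
    (hgen : 𝔪₀ ≤ Ideal.span (Set.range y) ⊔ 𝔞) (N : ℕ) (hN : 𝔪₀ ^ N ≤ 𝔞) :
    Function.Surjective (evalQuot y 𝔞 n h) := by
  intro b
  obtain ⟨x, rfl⟩ := Ideal.Quotient.mk_surjective b
  obtain ⟨p, -, hp⟩ := gen_full 𝔪₀ y hy hres 𝔞 hgen N hN 0 x (by simp)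
  refine ⟨(p : MvPowerSeries σ 𝒪), ?_⟩
  rw [evalQuot_coe, eq_comm, Ideal.Quotient.eq]
  exact hp

theorem map_evalQuot_span_X (𝔪₀ : Ideal Λ) (hy : ∀ s, y s ∈ 𝔪₀)
    (hgen : 𝔪₀ ≤ Ideal.span (Set.range y) ⊔ 𝔞) :
    Ideal.map (evalQuot y 𝔞 n h) (Ideal.span (Set.range (MvPowerSeries.X : σ → MvPowerSeries σ 𝒪)))
      = Ideal.map (Ideal.Quotient.mk 𝔞) 𝔪₀ := by
  have h1 : Ideal.map (evalQuot y 𝔞 n h)
      (Ideal.span (Set.range (MvPowerSeries.X : σ → MvPowerSeries σ 𝒪))) =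
      Ideal.map (Ideal.Quotient.mk 𝔞) (Ideal.span (Set.range y)) := by
    rw [Ideal.map_span, Ideal.map_span]
    congr 1
    ext b
    constructor
    · rintro ⟨_, ⟨s, rfl⟩, rfl⟩
      exact ⟨y s, ⟨s, rfl⟩, (evalQuot_X y 𝔞 n h s).symm⟩
    · rintro ⟨_, ⟨s, rfl⟩, rfl⟩
      exact ⟨MvPowerSeries.X s, ⟨s, rfl⟩, evalQuot_X y 𝔞 n h s⟩
  rw [h1]
  apply le_antisymm
  · exact Ideal.map_mono (Ideal.span_le.mpr (by rintro _ ⟨s, rfl⟩; exact hy s))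
  · calc Ideal.map (Ideal.Quotient.mk 𝔞) 𝔪₀
        ≤ Ideal.map (Ideal.Quotient.mk 𝔞) (Ideal.span (Set.range y) ⊔ 𝔞) := Ideal.map_mono hgen
      _ = Ideal.map (Ideal.Quotient.mk 𝔞) (Ideal.span (Set.range y)) := by
        rw [Ideal.map_sup, Ideal.map_quotient_self, sup_bot_eq]

/-- Compatibility of the maps `evalQuot` at consecutive levels. -/
theorem factor_evalQuot_succ (𝔞' : Ideal Λ) (h𝔞 : 𝔞' ≤ 𝔞)
    (h' : ∀ p ∈ MvPolynomial.idealOfVars σ 𝒪 ^ (n + 1), MvPolynomial.aeval y p ∈ 𝔞')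
    (w : MvPowerSeries σ 𝒪) :
    Ideal.Quotient.factor h𝔞 (evalQuot y 𝔞' (n + 1) h' w) = evalQuot y 𝔞 n h w := by
  rw [evalQuot_apply, evalQuot_apply, Ideal.Quotient.factor_mk, Ideal.Quotient.eq, ← map_sub]
  exact h _ (MvPowerSeries.truncTotal_sub_truncTotal_mem_pow_idealOfVars (Nat.le_succ n) le_rfl w)

end EvalQuot

/-- The ideal generated by the variables in the power series ring. -/
noncomputable abbrev varsIdeal (σ 𝒪 : Type) [CommRing 𝒪] : Ideal (MvPowerSeries σ 𝒪) :=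
  Ideal.span (Set.range (MvPowerSeries.X : σ → MvPowerSeries σ 𝒪))

section Tower

variable (𝒪 Λ : Type) [CommRing 𝒪] [IsLocalRing 𝒪] [IsNoetherianRing 𝒪] [CommRing Λ]
  [Algebra 𝒪 Λ]

/-- The limit ring of a tower of ideals `𝔞 n` (the least elements of the family above
`𝔪₀ ^ n`), all of whose quotients are generated by the finitely many elements `y s`. -/
theorem nonempty_proRep_of_tower (𝔪₀ : Ideal Λ) (𝒥 : Set (Ideal Λ))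
    (hres : ∀ x : Λ, ∃ c : 𝒪, x - algebraMap 𝒪 Λ c ∈ 𝔪₀)
    (hloc : ∀ c ∈ maximalIdeal 𝒪, algebraMap 𝒪 Λ c ∈ 𝔪₀)
    (hmax : 𝔪₀.IsMaximal)
    {σ : Type} [Finite σ] (y : σ → Λ) (hy : ∀ s, y s ∈ 𝔪₀)
    (𝔞 : ℕ → Ideal Λ) (h𝔞anti : ∀ n, 𝔞 (n + 1) ≤ 𝔞 n) (h𝔞pow : ∀ n, 𝔪₀ ^ n ≤ 𝔞 n)
    (h𝔞step : ∀ n, 𝔞 n ≤ 𝔞 (n + 1) ⊔ 𝔪₀ ^ n)
    (h𝔞gen : ∀ n, 𝔪₀ ≤ Ideal.span (Set.range y) ⊔ 𝔞 n)
    (h𝔞one : 𝔞 1 ≤ 𝔪₀)
    (h𝔞mem : ∀ n, 0 < n → 𝔞 n ∈ 𝒥)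
    (h𝔞least : ∀ n, ∀ 𝔟 ∈ 𝒥, 𝔪₀ ^ n ≤ 𝔟 → 𝔞 n ≤ 𝔟) :
    Nonempty (helper53.ProRep 𝒪 Λ 𝔪₀ 𝒥) := by
  classical
  have hyspan : Ideal.span (Set.range y) ≤ 𝔪₀ :=
    Ideal.span_le.mpr (by rintro _ ⟨s, rfl⟩; exact hy s)
  have hkill : ∀ n, ∀ p ∈ MvPolynomial.idealOfVars σ 𝒪 ^ n,
      MvPolynomial.aeval y p ∈ 𝔞 n := by
    intro n p hp
    apply h𝔞pow n
    have h1 : MvPolynomial.aeval y p ∈ Ideal.map (MvPolynomial.aeval (R := 𝒪) y)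
        (MvPolynomial.idealOfVars σ 𝒪 ^ n) := Ideal.mem_map_of_mem _ hp
    rw [Ideal.map_pow, map_aeval_idealOfVars] at h1
    exact Ideal.pow_right_mono hyspan n h1
  let f : ∀ n, MvPowerSeries σ 𝒪 →+* Λ ⧸ 𝔞 n := fun n => evalQuot y (𝔞 n) n (hkill n)
  have hfC : ∀ n c, f n (MvPowerSeries.C c) = Ideal.Quotient.mk (𝔞 n) (algebraMap 𝒪 Λ c) :=
    fun n c => evalQuot_C y (𝔞 n) n (hkill n) c
  have hfsurj : ∀ n, Function.Surjective (f n) := fun n =>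
    evalQuot_surjective y (𝔞 n) n (hkill n) 𝔪₀ hy hres (h𝔞gen n) n (h𝔞pow n)
  have hfmap : ∀ n j, Ideal.map (f n) (varsIdeal σ 𝒪 ^ j) =
      Ideal.map (Ideal.Quotient.mk (𝔞 n)) (𝔪₀ ^ j) := by
    intro n j
    rw [Ideal.map_pow, Ideal.map_pow]
    congr 1
    exact map_evalQuot_span_X y (𝔞 n) n (hkill n) 𝔪₀ hy (h𝔞gen n)
  have hfcompat : ∀ n w, Ideal.Quotient.factor (h𝔞anti n) (f (n + 1) w) = f n w := fun n w =>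
    factor_evalQuot_succ y (𝔞 n) n (hkill n) (𝔞 (n + 1)) (h𝔞anti n) (hkill (n + 1)) w
  let K : ℕ → Ideal (MvPowerSeries σ 𝒪) := fun n => RingHom.ker (f n)
  have hKmem : ∀ n w, w ∈ K n ↔ f n w = 0 := fun n w => RingHom.mem_ker
  have hKanti : Antitone K := antitone_nat_of_succ_le (fun n w hw => by
    rw [hKmem] at hw ⊢
    rw [← hfcompat n w, hw, map_zero])
  have hIK : ∀ n, varsIdeal σ 𝒪 ^ n ≤ K n := by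
    intro n w hw
    rw [hKmem]
    have h1 : f n w ∈ Ideal.map (f n) (varsIdeal σ 𝒪 ^ n) := Ideal.mem_map_of_mem _ hw
    rw [hfmap, (Ideal.map_eq_bot_iff_le_ker _).mpr (by rw [Ideal.mk_ker]; exact h𝔞pow n)] at h1
    simpa using h1
  have hKstep : ∀ n, K n ≤ K (n + 1) ⊔ varsIdeal σ 𝒪 ^ n := by
    intro n v hv
    rw [hKmem] at hv
    have h1 : f (n + 1) v ∈ RingHom.ker (Ideal.Quotient.factor (h𝔞anti n)) := by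
      rw [RingHom.mem_ker, hfcompat, hv]
    rw [Ideal.Quotient.factor_ker] at h1
    have h2 : Ideal.map (Ideal.Quotient.mk (𝔞 (n + 1))) (𝔞 n) ≤
        Ideal.map (f (n + 1)) (varsIdeal σ 𝒪 ^ n) := by
      rw [hfmap]
      calc Ideal.map (Ideal.Quotient.mk (𝔞 (n + 1))) (𝔞 n)
          ≤ Ideal.map (Ideal.Quotient.mk (𝔞 (n + 1))) (𝔞 (n + 1) ⊔ 𝔪₀ ^ n) :=
            Ideal.map_mono (h𝔞step n)
        _ = Ideal.map (Ideal.Quotient.mk (𝔞 (n + 1))) (𝔪₀ ^ n) := by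
          rw [Ideal.map_sup, Ideal.map_quotient_self, bot_sup_eq]
    obtain ⟨δ, hδ, hδv⟩ :=
      (Ideal.mem_map_iff_of_surjective (f (n + 1)) (hfsurj (n + 1))).mp (h2 h1)
    have h3 : v - δ ∈ K (n + 1) := by rw [hKmem, map_sub, hδv, sub_self]
    have h4 : v = (v - δ) + δ := by ring
    rw [h4]
    exact Submodule.add_mem_sup h3 hδ
  let Kinf : Ideal (MvPowerSeries σ 𝒪) := ⨅ n, K n
  have hKinfmem : ∀ w, w ∈ Kinf ↔ ∀ n, f n w = 0 := by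
    intro w
    show w ∈ ⨅ n, K n ↔ _
    rw [Submodule.mem_iInf]
    exact forall_congr' fun n => hKmem n w
  have hKinfle : ∀ n, Kinf ≤ K n := fun n => iInf_le K n
  have hR1 : ∀ n, Kinf ⊔ varsIdeal σ 𝒪 ^ n = K n := by
    intro n
    apply le_antisymm (sup_le (hKinfle n) (hIK n))
    intro v hv
    obtain ⟨δ, hδ, hvδ⟩ := exists_sub_mem_iInf (varsIdeal σ 𝒪) K hKstep hIK hKanti n v hv
    have h4 : v = (v - δ) + δ := by ring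
    rw [h4]
    exact Submodule.add_mem_sup hvδ hδ
  -- the maximal ideal of the quotient
  let 𝔐 : Ideal (MvPowerSeries σ 𝒪 ⧸ Kinf) :=
    Ideal.map (Ideal.Quotient.mk Kinf) (varsIdeal σ 𝒪)
  have hmem𝔐 : ∀ n w, Ideal.Quotient.mk Kinf w ∈ 𝔐 ^ n ↔ f n w = 0 := by
    intro n w
    show Ideal.Quotient.mk Kinf w ∈ (Ideal.map (Ideal.Quotient.mk Kinf) (varsIdeal σ 𝒪)) ^ n ↔ _
    rw [← Ideal.map_pow, Ideal.mem_quotient_iff_mem_sup, sup_comm, hR1, hKmem]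
  have hK1max : (K 1).IsMaximal := by
    have h1 : (Ideal.map (Ideal.Quotient.mk (𝔞 1)) 𝔪₀).IsMaximal :=
      Ideal.IsMaximal.map_of_surjective_of_ker_le Ideal.Quotient.mk_surjective
        (by rw [Ideal.mk_ker]; exact h𝔞one)
    have h2 : Ideal.map (Ideal.Quotient.mk (𝔞 1)) 𝔪₀ = ⊥ := by
      rw [Ideal.map_eq_bot_iff_le_ker, Ideal.mk_ker]
      simpa using h𝔞pow 1
    rw [h2] at h1
    exact Ideal.comap_isMaximal_of_surjective (f 1) (hfsurj 1) (K := ⊥)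
  have h𝔐eq : 𝔐 = Ideal.map (Ideal.Quotient.mk Kinf) (K 1) := by
    show Ideal.map (Ideal.Quotient.mk Kinf) (varsIdeal σ 𝒪) = _
    rw [← hR1 1, Ideal.map_sup, Ideal.map_quotient_self, bot_sup_eq, pow_one]
  have h𝔐max : 𝔐.IsMaximal := by
    rw [h𝔐eq]
    exact Ideal.IsMaximal.map_of_surjective_of_ker_le Ideal.Quotient.mk_surjective
      (by rw [Ideal.mk_ker]; exact hKinfle 1)
  have hcomp : IsAdicComplete 𝔐 (MvPowerSeries σ 𝒪 ⧸ Kinf) := by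
    have h1 : IsAdicComplete (varsIdeal σ 𝒪) (MvPowerSeries σ 𝒪 ⧸ Kinf) :=
      IsAdicComplete.of_module_finite (varsIdeal σ 𝒪) (MvPowerSeries σ 𝒪 ⧸ Kinf)
    exact (IsAdicComplete.map_algebraMap_iff (varsIdeal σ 𝒪) (MvPowerSeries σ 𝒪 ⧸ Kinf)).mpr h1
  have hlocal : IsLocalRing (MvPowerSeries σ 𝒪 ⧸ Kinf) :=
    isLocalRing_of_isAdicComplete_maximal 𝔐
  have hmaxeq : maximalIdeal (MvPowerSeries σ 𝒪 ⧸ Kinf) = 𝔐 :=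
    (IsLocalRing.eq_maximalIdeal h𝔐max).symm
  -- the maps `R → Λ ⧸ 𝔞 n`
  let fbar : ∀ n, MvPowerSeries σ 𝒪 ⧸ Kinf →+* Λ ⧸ 𝔞 n := fun n =>
    Ideal.Quotient.lift Kinf (f n) (fun a ha => (hKinfmem a).mp ha n)
  have hfbar : ∀ n w, fbar n (Ideal.Quotient.mk Kinf w) = f n w := fun n w => rfl
  have hext : ∀ x x' : MvPowerSeries σ 𝒪 ⧸ Kinf, (∀ n, fbar n x = fbar n x') → x = x' := by
    intro x x' hxx
    obtain ⟨w, rfl⟩ := Ideal.Quotient.mk_surjective x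
    obtain ⟨w', rfl⟩ := Ideal.Quotient.mk_surjective x'
    rw [Ideal.Quotient.eq, hKinfmem]
    intro n
    rw [map_sub, sub_eq_zero]
    simpa [hfbar] using hxx n
  have hex : ∀ l : Λ, ∃ x : MvPowerSeries σ 𝒪 ⧸ Kinf,
      ∀ n, fbar n x = Ideal.Quotient.mk (𝔞 n) l := by
    intro l
    choose u hu using fun n => hfsurj n (Ideal.Quotient.mk (𝔞 n) l)
    have hcompat : ∀ n, u (n + 1) - u n ∈ K n := by
      intro n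
      rw [hKmem, map_sub, hu n, ← hfcompat n (u (n + 1)), hu (n + 1),
        Ideal.Quotient.factor_mk, sub_self]
    obtain ⟨w, hw⟩ := exists_limit_of_compatible (varsIdeal σ 𝒪) K hKstep hIK hKanti u hcompat
    refine ⟨Ideal.Quotient.mk Kinf w, fun n => ?_⟩
    rw [hfbar, ← hu n, ← sub_eq_zero, ← map_sub, ← hKmem]
    exact hw n
  choose ιf hιf using hex
  have halg : ∀ c : 𝒪, algebraMap 𝒪 (MvPowerSeries σ 𝒪 ⧸ Kinf) c =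
      Ideal.Quotient.mk Kinf (MvPowerSeries.C c) := by
    intro c
    show Ideal.Quotient.mk Kinf (algebraMap 𝒪 (MvPowerSeries σ 𝒪) c) = _
    rw [MvPowerSeries.algebraMap_apply, Algebra.algebraMap_self, RingHom.id_apply]
  let ι : Λ →ₐ[𝒪] MvPowerSeries σ 𝒪 ⧸ Kinf :=
    { toFun := ιf
      map_one' := hext _ _ fun n => by rw [hιf, map_one, map_one]
      map_mul' := fun a b => hext _ _ fun n => by rw [hιf, map_mul, map_mul, hιf, hιf]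
      map_zero' := hext _ _ fun n => by rw [hιf, map_zero, map_zero]
      map_add' := fun a b => hext _ _ fun n => by rw [hιf, map_add, map_add, hιf, hιf]
      commutes' := fun c => hext _ _ fun n => by
        rw [hιf, halg, hfbar, hfC] }
  have hι : ∀ l n, fbar n (ι l) = Ideal.Quotient.mk (𝔞 n) l := fun l n => hιf l n
  have hcomap : ∀ n, (𝔐 ^ n).comap ι = 𝔞 n := by
    intro n
    ext l
    rw [Ideal.mem_comap]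
    obtain ⟨w, hw⟩ := Ideal.Quotient.mk_surjective (ι l)
    rw [← hw, hmem𝔐, ← hfbar, hw, hι, Ideal.Quotient.eq_zero_iff_mem]
  have hdense : ∀ n (x : MvPowerSeries σ 𝒪 ⧸ Kinf), ∃ l : Λ, x - ι l ∈ 𝔐 ^ n := by
    intro n x
    obtain ⟨w, rfl⟩ := Ideal.Quotient.mk_surjective x
    obtain ⟨l, hl⟩ := Ideal.Quotient.mk_surjective (f n w)
    refine ⟨l, ?_⟩
    obtain ⟨w', hw'⟩ := Ideal.Quotient.mk_surjective (ι l)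
    rw [← hw', ← map_sub, hmem𝔐, map_sub, sub_eq_zero, ← hfbar n w', hw', hι, hl]
  have hlocalhom : IsLocalHom (algebraMap 𝒪 (MvPowerSeries σ 𝒪 ⧸ Kinf)) := by
    constructor
    intro c hc
    by_contra hcu
    have hcm : c ∈ maximalIdeal 𝒪 := (IsLocalRing.mem_maximalIdeal c).mpr hcu
    have h1 : algebraMap 𝒪 (MvPowerSeries σ 𝒪 ⧸ Kinf) c ∈ 𝔐 := by
      rw [halg, ← pow_one 𝔐, hmem𝔐, hfC, Ideal.Quotient.eq_zero_iff_mem]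
      exact h𝔞pow 1 (by simpa using hloc c hcm)
    rw [← hmaxeq] at h1
    exact (IsLocalRing.mem_maximalIdeal _).mp h1 hc
  have hressurj : Function.Surjective (IsLocalRing.residue (MvPowerSeries σ 𝒪 ⧸ Kinf) ∘
      algebraMap 𝒪 (MvPowerSeries σ 𝒪 ⧸ Kinf)) := by
    intro xbar
    obtain ⟨x, rfl⟩ := IsLocalRing.residue_surjective xbar
    obtain ⟨w, rfl⟩ := Ideal.Quotient.mk_surjective x
    obtain ⟨l, hl⟩ := Ideal.Quotient.mk_surjective (f 1 w)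
    obtain ⟨c, hc⟩ := hres l
    refine ⟨c, ?_⟩
    show IsLocalRing.residue _ (algebraMap 𝒪 _ c) =
      IsLocalRing.residue _ (Ideal.Quotient.mk Kinf w)
    rw [← sub_eq_zero, ← map_sub, IsLocalRing.residue_eq_zero_iff, hmaxeq, halg, ← map_sub,
      ← pow_one 𝔐, hmem𝔐, map_sub, hfC, ← hl, ← map_sub, Ideal.Quotient.eq_zero_iff_mem]
    have h2 : algebraMap 𝒪 Λ c - l = -(l - algebraMap 𝒪 Λ c) := by ring
    rw [h2]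
    exact neg_mem (h𝔞pow 1 (by simpa using hc))
  have : IsAdicComplete (maximalIdeal (MvPowerSeries σ 𝒪 ⧸ Kinf))
      (MvPowerSeries σ 𝒪 ⧸ Kinf) := by
    rw [hmaxeq]; exact hcomp
  have := hlocalhom
  exact ⟨{ R := MvPowerSeries σ 𝒪 ⧸ Kinf
           residue_surjective := hressurj
           ι := ι
           ι_dense := fun n x => by rw [hmaxeq]; exact hdense n x
           comap_mem := fun n hn => by rw [hmaxeq, hcomap]; exact h𝔞mem n hn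
           comap_le := fun n 𝔟 h𝔟 hle => by rw [hmaxeq, hcomap]; exact h𝔞least n 𝔟 h𝔟 hle }⟩

end Tower

section Ring

variable (𝒪 : Type) [CommRing 𝒪] [IsLocalRing 𝒪] [IsNoetherianRing 𝒪]

omit [IsNoetherianRing 𝒪] in
theorem isMaximal_of_res {Λ : Type} [CommRing Λ] [Algebra 𝒪 Λ] (𝔪₀ : Ideal Λ) (hne : 𝔪₀ ≠ ⊤)
    (hres : ∀ x : Λ, ∃ c : 𝒪, x - algebraMap 𝒪 Λ c ∈ 𝔪₀)
    (hloc : ∀ c ∈ maximalIdeal 𝒪, algebraMap 𝒪 Λ c ∈ 𝔪₀) : 𝔪₀.IsMaximal := by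
  rw [Ideal.isMaximal_iff]
  refine ⟨fun h1 => hne ((Ideal.eq_top_iff_one _).mpr h1), fun J x hJ hx hxJ => ?_⟩
  obtain ⟨c, hc⟩ := hres x
  have hcu : IsUnit c := by
    by_contra hcu
    have h1 : algebraMap 𝒪 Λ c ∈ 𝔪₀ := hloc c ((IsLocalRing.mem_maximalIdeal c).mpr hcu)
    apply hx
    have h2 : x = (x - algebraMap 𝒪 Λ c) + algebraMap 𝒪 Λ c := by ring
    rw [h2]
    exact add_mem hc h1
  obtain ⟨u, rfl⟩ := hcu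
  have h3 : algebraMap 𝒪 Λ (u : 𝒪) ∈ J := by
    have h2 : algebraMap 𝒪 Λ (u : 𝒪) = x - (x - algebraMap 𝒪 Λ (u : 𝒪)) := by ring
    rw [h2]
    exact sub_mem hxJ (hJ hc)
  have h4 : (1 : Λ) = algebraMap 𝒪 Λ ((u⁻¹ : 𝒪ˣ) : 𝒪) * algebraMap 𝒪 Λ (u : 𝒪) := by
    rw [← map_mul, Units.inv_mul, map_one]
  rw [h4]
  exact Ideal.mul_mem_left _ _ h3

/-- A finite set of elements of `𝔪₀` generating `𝔪₀` modulo every member of the family. -/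
theorem exists_finset_gen {Λ : Type} [CommRing Λ] [Algebra 𝒪 Λ] (𝔪₀ : Ideal Λ)
    (𝒥 : Set (Ideal Λ))
    (hloc : ∀ c ∈ maximalIdeal 𝒪, algebraMap 𝒪 Λ c ∈ 𝔪₀)
    (h_top : 𝔪₀ ∈ 𝒥) (h_le : ∀ 𝔞 ∈ 𝒥, 𝔞 ≤ 𝔪₀) (h_inf : ∀ 𝔞 ∈ 𝒥, ∀ 𝔟 ∈ 𝒥, 𝔞 ⊓ 𝔟 ∈ 𝒥)
    (h_up : ∀ 𝔞 ∈ 𝒥, ∀ 𝔟 : Ideal Λ, 𝔞 ≤ 𝔟 → 𝔟 ≤ 𝔪₀ → 𝔟 ∈ 𝒥)
    (h_fin : ∀ 𝔞 ∈ 𝒥, Finite (Λ ⧸ 𝔞)) (h_nil : ∀ 𝔞 ∈ 𝒥, ∃ n : ℕ, 𝔪₀ ^ n ≤ 𝔞)
    (h_tan : ∃ N : ℕ, ∀ 𝔞 ∈ 𝒥, 𝔪₀ ^ 2 ≤ 𝔞 →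
      (∀ c ∈ maximalIdeal 𝒪, algebraMap 𝒪 Λ c ∈ 𝔞) → Nat.card (Λ ⧸ 𝔞) ≤ N) :
    ∃ Y : Finset Λ, (∀ y ∈ Y, y ∈ 𝔪₀) ∧ ∀ 𝔞 ∈ 𝒥, 𝔪₀ ≤ Ideal.span (Y : Set Λ) ⊔ 𝔞 := by
  classical
  obtain ⟨N, hN⟩ := h_tan
  obtain ⟨𝔞₁, ⟨h𝔞₁J, h𝔞₁sq, h𝔞₁loc⟩, h𝔞₁least⟩ := exists_least_of_card_le
    {𝔟 | 𝔟 ∈ 𝒥 ∧ 𝔪₀ ^ 2 ≤ 𝔟 ∧ ∀ c ∈ maximalIdeal 𝒪, algebraMap 𝒪 Λ c ∈ 𝔟}
    ⟨𝔪₀, h_top, Ideal.pow_le_self two_ne_zero, hloc⟩
    (fun 𝔞 h𝔞 𝔟 h𝔟 => ⟨h_inf 𝔞 h𝔞.1 𝔟 h𝔟.1, le_inf h𝔞.2.1 h𝔟.2.1,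
      fun c hc => ⟨h𝔞.2.2 c hc, h𝔟.2.2 c hc⟩⟩)
    (fun 𝔞 h𝔞 => h_fin 𝔞 h𝔞.1) N (fun 𝔞 h𝔞 => hN 𝔞 h𝔞.1 h𝔞.2.1 h𝔞.2.2)
  have := h_fin 𝔞₁ h𝔞₁J
  let T : Set (Λ ⧸ 𝔞₁) := (Ideal.map (Ideal.Quotient.mk 𝔞₁) 𝔪₀ : Set (Λ ⧸ 𝔞₁))
  let X₁ : Finset Λ := (Set.toFinite T).toFinset.image Quotient.out
  obtain ⟨G, hG⟩ := (maximalIdeal 𝒪).fg_of_isNoetherianRing
  have hX₁sub : (X₁ : Set Λ) ⊆ ((X₁ ∪ G.image (algebraMap 𝒪 Λ) : Finset Λ) : Set Λ) := by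
    intro x hx
    simp only [Finset.coe_union, Set.mem_union]
    exact Or.inl hx
  refine ⟨X₁ ∪ G.image (algebraMap 𝒪 Λ), ?_, ?_⟩
  · intro y hy
    rw [Finset.mem_union] at hy
    rcases hy with hy | hy
    · obtain ⟨q, hq, rfl⟩ := Finset.mem_image.mp hy
      rw [Set.Finite.mem_toFinset] at hq
      have h1 : Ideal.Quotient.mk 𝔞₁ (Quotient.out q) ∈
          Ideal.map (Ideal.Quotient.mk 𝔞₁) 𝔪₀ := by
        rw [Ideal.Quotient.mk_out]; exact hq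
      rw [Ideal.mem_quotient_iff_mem_sup, sup_eq_left.mpr (h_le 𝔞₁ h𝔞₁J)] at h1
      exact h1
    · obtain ⟨c, hc, rfl⟩ := Finset.mem_image.mp hy
      exact hloc c (hG ▸ Ideal.subset_span hc)
  · intro 𝔞 h𝔞
    obtain ⟨n, hn⟩ := h_nil 𝔞 h𝔞
    refine le_sup_of_le_sup_sq 𝔪₀ _ 𝔞 ?_ n hn
    have hmapG : Ideal.map (algebraMap 𝒪 Λ) (maximalIdeal 𝒪) ≤
        Ideal.span ((X₁ ∪ G.image (algebraMap 𝒪 Λ) : Finset Λ) : Set Λ) := by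
      rw [← hG, Ideal.map_span]
      apply Ideal.span_mono
      rintro _ ⟨c, hc, rfl⟩
      simp only [Finset.coe_union, Finset.coe_image, Set.mem_union, Set.mem_image,
        Finset.mem_coe]
      exact Or.inr ⟨c, hc, rfl⟩
    have h𝔞' : 𝔞 ⊔ 𝔪₀ ^ 2 ⊔ Ideal.map (algebraMap 𝒪 Λ) (maximalIdeal 𝒪) ≤ 𝔪₀ :=
      sup_le (sup_le (h_le 𝔞 h𝔞) (Ideal.pow_le_self two_ne_zero))
        (Ideal.map_le_iff_le_comap.mpr fun c hc => hloc c hc)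
    have h𝔞'J := h_up 𝔞 h𝔞 _ (le_sup_of_le_left le_sup_left) h𝔞'
    have h1 : 𝔞₁ ≤ 𝔞 ⊔ 𝔪₀ ^ 2 ⊔ Ideal.map (algebraMap 𝒪 Λ) (maximalIdeal 𝒪) :=
      h𝔞₁least _ ⟨h𝔞'J, le_sup_of_le_left le_sup_right,
        fun c hc => Ideal.mem_sup_right (Ideal.mem_map_of_mem _ hc)⟩
    have h2 : 𝔪₀ ≤ Ideal.span ((X₁ : Finset Λ) : Set Λ) ⊔ 𝔞₁ := by
      intro μ hμ
      have hq : Ideal.Quotient.mk 𝔞₁ μ ∈ T := Ideal.mem_map_of_mem _ hμ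
      have hmem : Quotient.out (Ideal.Quotient.mk 𝔞₁ μ) ∈ X₁ :=
        Finset.mem_image.mpr ⟨_, (Set.Finite.mem_toFinset _).mpr hq, rfl⟩
      have h3 : μ - Quotient.out (Ideal.Quotient.mk 𝔞₁ μ) ∈ 𝔞₁ := by
        rw [← Ideal.Quotient.eq, Ideal.Quotient.mk_out]
      have h4 : μ = Quotient.out (Ideal.Quotient.mk 𝔞₁ μ) +
          (μ - Quotient.out (Ideal.Quotient.mk 𝔞₁ μ)) := by ring
      rw [h4]
      exact Submodule.add_mem_sup (Ideal.subset_span hmem) h3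
    refine le_trans h2 (sup_le ?_ (le_trans h1 ?_))
    · exact le_sup_of_le_left (le_sup_of_le_left (Ideal.span_mono hX₁sub))
    · exact sup_le (sup_le (le_sup_of_le_left le_sup_right) le_sup_right)
        (le_trans hmapG (le_sup_of_le_left le_sup_left))

/-- RING: the abstract pro-representability theorem, in the exact form of the captain's
blueprint (`helper53.Stmt_Ring`), for a noetherian local ring `𝒪`. -/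
theorem ring : helper53.Stmt_Ring 𝒪 := by
  intro Λ _ _ 𝔪₀ 𝒥 hne hres hloc h_top h_le h_inf h_up h_fin h_nil h_tan
  classical
  have hmax := isMaximal_of_res 𝒪 𝔪₀ hne hres hloc
  obtain ⟨Y, hY1, hY2⟩ :=
    exists_finset_gen 𝒪 𝔪₀ 𝒥 hloc h_top h_le h_inf h_up h_fin h_nil h_tan
  let y : {x // x ∈ Y} → Λ := fun s => (s : Λ)
  have hrange : Set.range y = (Y : Set Λ) := Subtype.range_coe
  have hy : ∀ s, y s ∈ 𝔪₀ := fun s => hY1 s.1 s.2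
  have hgen : ∀ 𝔞 ∈ 𝒥, 𝔪₀ ≤ Ideal.span (Set.range y) ⊔ 𝔞 := fun 𝔞 h𝔞 => by
    rw [hrange]; exact hY2 𝔞 h𝔞
  have hleast : ∀ n, 0 < n → ∃ 𝔟₀ ∈ 𝒥, 𝔪₀ ^ n ≤ 𝔟₀ ∧ ∀ 𝔟 ∈ 𝒥, 𝔪₀ ^ n ≤ 𝔟 → 𝔟₀ ≤ 𝔟 := by
    intro n hn
    let θ : MvPolynomial {x // x ∈ Y} 𝒪 →+* Λ :=
      (MvPolynomial.aeval (R := 𝒪) y : MvPolynomial {x // x ∈ Y} 𝒪 →ₐ[𝒪] Λ).toRingHom
    have hθ : ∀ p, θ p = MvPolynomial.aeval y p := fun p => rfl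
    let 𝔫 : Ideal (MvPolynomial {x // x ∈ Y} 𝒪) := Ideal.comap θ 𝔪₀
    have : Finite (Λ ⧸ 𝔪₀) := h_fin 𝔪₀ h_top
    have : Finite (MvPolynomial {x // x ∈ Y} 𝒪 ⧸ 𝔫) :=
      Finite.of_injective _ (Ideal.quotientMap_injective (I := 𝔪₀) (f := θ))
    have : Finite (MvPolynomial {x // x ∈ Y} 𝒪 ⧸ 𝔫 ^ n) :=
      Ideal.finite_quotient_pow (Ideal.fg_of_isNoetherianRing 𝔫) n
    obtain ⟨𝔟₀, ⟨h1, h2⟩, h3⟩ := exists_least_of_card_le {𝔟 | 𝔟 ∈ 𝒥 ∧ 𝔪₀ ^ n ≤ 𝔟}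
      ⟨𝔪₀, h_top, Ideal.pow_le_self hn.ne'⟩
      (fun 𝔞 h𝔞 𝔟 h𝔟 => ⟨h_inf 𝔞 h𝔞.1 𝔟 h𝔟.1, le_inf h𝔞.2 h𝔟.2⟩)
      (fun 𝔞 h𝔞 => h_fin 𝔞 h𝔞.1)
      (Nat.card (MvPolynomial {x // x ∈ Y} 𝒪 ⧸ 𝔫 ^ n))
      (fun 𝔟 h𝔟 => by
        have hk : ∀ p ∈ 𝔫 ^ n, ((Ideal.Quotient.mk 𝔟).comp θ) p = 0 := by
          intro p hp
          rw [RingHom.comp_apply, Ideal.Quotient.eq_zero_iff_mem]
          apply h𝔟.2
          have h4 : θ p ∈ Ideal.map θ (𝔫 ^ n) := Ideal.mem_map_of_mem _ hp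
          rw [Ideal.map_pow] at h4
          exact Ideal.pow_right_mono Ideal.map_comap_le n h4
        refine Nat.card_le_card_of_surjective
          (Ideal.Quotient.lift (𝔫 ^ n) ((Ideal.Quotient.mk 𝔟).comp θ) hk) ?_
        intro b
        obtain ⟨x, rfl⟩ := Ideal.Quotient.mk_surjective b
        obtain ⟨p, -, hp⟩ := gen_full 𝔪₀ y hy hres 𝔟 (hgen 𝔟 h𝔟.1) n h𝔟.2 0 x (by simp)
        refine ⟨Ideal.Quotient.mk _ p, ?_⟩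
        rw [Ideal.Quotient.lift_mk, RingHom.comp_apply, hθ, eq_comm, Ideal.Quotient.eq]
        exact hp)
    exact ⟨𝔟₀, h1, h2, fun 𝔟 h𝔟 hle => h3 𝔟 ⟨h𝔟, hle⟩⟩
  let 𝔞 : ℕ → Ideal Λ := fun n => sInf {𝔟 | 𝔟 ∈ 𝒥 ∧ 𝔪₀ ^ n ≤ 𝔟}
  have h𝔞least : ∀ n, ∀ 𝔟 ∈ 𝒥, 𝔪₀ ^ n ≤ 𝔟 → 𝔞 n ≤ 𝔟 := fun n 𝔟 h𝔟 hle => sInf_le ⟨h𝔟, hle⟩
  have h𝔞pow : ∀ n, 𝔪₀ ^ n ≤ 𝔞 n := fun n => le_sInf fun 𝔟 h𝔟 => h𝔟.2
  have h𝔞mem : ∀ n, 0 < n → 𝔞 n ∈ 𝒥 := by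
    intro n hn
    obtain ⟨𝔟₀, h1, h2, h3⟩ := hleast n hn
    have h4 : 𝔞 n = 𝔟₀ :=
      le_antisymm (sInf_le ⟨h1, h2⟩) (le_sInf fun 𝔟 h𝔟 => h3 𝔟 h𝔟.1 h𝔟.2)
    rw [h4]; exact h1
  have h𝔞anti : ∀ n, 𝔞 (n + 1) ≤ 𝔞 n := fun n =>
    le_sInf fun 𝔟 h𝔟 =>
      h𝔞least (n + 1) 𝔟 h𝔟.1 (le_trans (Ideal.pow_le_pow_right (Nat.le_succ n)) h𝔟.2)
  have h𝔞zero : 𝔞 0 = ⊤ := top_le_iff.mp (le_sInf fun 𝔟 h𝔟 => by simpa using h𝔟.2)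
  have h𝔞step : ∀ n, 𝔞 n ≤ 𝔞 (n + 1) ⊔ 𝔪₀ ^ n := by
    intro n
    rcases Nat.eq_zero_or_pos n with rfl | hn
    · simp
    · exact h𝔞least n _ (h_up _ (h𝔞mem (n + 1) (Nat.succ_pos n)) _ le_sup_left
        (sup_le (h_le _ (h𝔞mem (n + 1) (Nat.succ_pos n))) (Ideal.pow_le_self hn.ne')))
        le_sup_right
  have h𝔞gen : ∀ n, 𝔪₀ ≤ Ideal.span (Set.range y) ⊔ 𝔞 n := by
    intro n
    rcases Nat.eq_zero_or_pos n with rfl | hn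
    · rw [h𝔞zero]; simp
    · exact hgen _ (h𝔞mem n hn)
  have h𝔞one : 𝔞 1 ≤ 𝔪₀ := h𝔞least 1 𝔪₀ h_top (by simp)
  exact nonempty_proRep_of_tower 𝒪 Λ 𝔪₀ 𝒥 hres hloc hmax y hy 𝔞 h𝔞anti h𝔞pow h𝔞step h𝔞gen
    h𝔞one h𝔞mem h𝔞least

end Ring

end Fermat.Agent.S53.helper3353
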