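/-
S53: consequences of the abstract pro-representing ring interface
`Fermat.Agent.S53.helper773.ProRep` (module `helper773_ProRepSpec`).

Pure commutative algebra; no Galois representations.  Everything an assembler needs
from a `ProRep` besides its fields: the level-one ideal, Hausdorff transfer, Artinian
quotients, and the universal property (existence and uniqueness of maps out of `R`).
-/
import Fermat.Agent.S53.helper773_ProRepSpec

set_option autoImplicit false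

namespace Fermat.Agent.S53.helper48

open IsLocalRing Fermat.Agent.S53.helper773

section General

variable {𝒪 Λ A B : Type} [CommRing 𝒪] [CommRing Λ] [Algebra 𝒪 Λ] [CommRing A] [Algebra 𝒪 A]
  [CommRing B] [Algebra 𝒪 B]

/-- In a Hausdorff ring, two elements congruent modulo every power of the ideal are equal. -/
theorem eq_of_forall_sub_mem_pow (I : Ideal A) [IsHausdorff I A] (a b : A)
    (h : ∀ n : ℕ, a - b ∈ I ^ n) : a = b := by
  have h0 : a - b = 0 := by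
    refine IsHausdorff.haus (I := I) inferInstance (a - b) fun n => ?_
    rw [SModEq.zero, smul_eq_mul, Ideal.mul_top]
    exact h n
  exact sub_eq_zero.mp h0

/-- Factor an algebra map through a surjective algebra map with smaller kernel. -/
theorem exists_algHom_factor (u : Λ →ₐ[𝒪] A) (hu : Function.Surjective u) (v : Λ →ₐ[𝒪] B)
    (hk : ∀ x, u x = 0 → v x = 0) :
    ∃ g : A →ₐ[𝒪] B, ∀ x, g (u x) = v x := by
  have hk' : ∀ a : Λ, a ∈ RingHom.ker (u : Λ →+* A) → v a = 0 := fun a ha => hk a ha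
  let e := Ideal.quotientKerAlgEquivOfSurjective hu
  refine ⟨(Ideal.Quotient.liftₐ (RingHom.ker (u : Λ →+* A)) v hk').comp e.symm.toAlgHom, fun x => ?_⟩
  have h1 : e.symm (u x) = Ideal.Quotient.mk _ x := by
    rw [AlgEquiv.symm_apply_eq]
    rfl
  show (Ideal.Quotient.liftₐ (RingHom.ker (u : Λ →+* A)) v hk') (e.symm (u x)) = v x
  rw [h1]
  rfl

/-- If moreover the second map is surjective, so is the factor map. -/
theorem exists_algHom_factor_surjective (u : Λ →ₐ[𝒪] A) (hu : Function.Surjective u)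
    (v : Λ →ₐ[𝒪] B) (hv : Function.Surjective v) (hk : ∀ x, u x = 0 → v x = 0) :
    ∃ g : A →ₐ[𝒪] B, (∀ x, g (u x) = v x) ∧ Function.Surjective g := by
  obtain ⟨g, hg⟩ := exists_algHom_factor u hu v hk
  refine ⟨g, hg, fun b => ?_⟩
  obtain ⟨x, rfl⟩ := hv b
  exact ⟨u x, hg x⟩

/-- Two surjective algebra maps with the same kernel have isomorphic targets, compatibly. -/
theorem exists_algEquiv_of_ker_eq (u : Λ →ₐ[𝒪] A) (hu : Function.Surjective u)
    (v : Λ →ₐ[𝒪] B) (hv : Function.Surjective v) (hk : ∀ x, u x = 0 ↔ v x = 0) :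
    ∃ e : A ≃ₐ[𝒪] B, ∀ x, e (u x) = v x := by
  obtain ⟨g, hg⟩ := exists_algHom_factor u hu v fun x hx => (hk x).1 hx
  obtain ⟨g', hg'⟩ := exists_algHom_factor v hv u fun x hx => (hk x).2 hx
  refine ⟨AlgEquiv.ofAlgHom g g' ?_ ?_, hg⟩
  · ext b
    obtain ⟨x, rfl⟩ := hv b
    simp [hg, hg']
  · ext a
    obtain ⟨x, rfl⟩ := hu a
    simp [hg, hg']

end General

section ProRep

variable {𝒪 Λ : Type} [CommRing 𝒪] [IsLocalRing 𝒪] [CommRing Λ] [Algebra 𝒪 Λ]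
  {𝔪₀ : Ideal Λ} {𝒥 : Set (Ideal Λ)} (P : ProRep 𝒪 Λ 𝔪₀ 𝒥)

/-- `Λ → R ⧸ 𝔪_R ^ n` is surjective. -/
theorem mk_ι_surjective (n : ℕ) :
    Function.Surjective fun x : Λ => Ideal.Quotient.mk (maximalIdeal P.R ^ n) (P.ι x) := by
  intro z
  obtain ⟨x, rfl⟩ := Ideal.Quotient.mk_surjective z
  obtain ⟨y, hy⟩ := P.ι_dense n x
  exact ⟨y, (Ideal.Quotient.eq.mpr hy).symm⟩

/-- Hausdorff transfer: an element of `Λ` lying in all level ideals is killed by `ι`. -/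
theorem ι_eq_zero_of_forall_mem (x : Λ)
    (h : ∀ n : ℕ, 0 < n → x ∈ (maximalIdeal P.R ^ n).comap P.ι) : P.ι x = 0 := by
  have hkrull : (⨅ i : ℕ, maximalIdeal P.R ^ i) = ⊥ :=
    Ideal.iInf_pow_eq_bot_of_isLocalRing _ (maximalIdeal.isMaximal P.R).ne_top
  have hx : P.ι x ∈ (⨅ i : ℕ, maximalIdeal P.R ^ i) := by
    rw [Ideal.mem_iInf]
    intro n
    rcases Nat.eq_zero_or_pos n with rfl | hn
    · simp
    · exact h n hn
  rw [hkrull] at hx
  exact hx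

/-- Variant: two elements of `Λ` congruent modulo all level ideals have the same image. -/
theorem ι_eq_of_forall_sub_mem (x y : Λ)
    (h : ∀ n : ℕ, 0 < n → x - y ∈ (maximalIdeal P.R ^ n).comap P.ι) : P.ι x = P.ι y := by
  have := ι_eq_zero_of_forall_mem P (x - y) h
  rwa [map_sub, sub_eq_zero] at this

/-- The level-one ideal is `𝔪₀`. -/
theorem comap_ι_maximalIdeal (hne : 𝔪₀ ≠ ⊤) (h_le : ∀ 𝔞 ∈ 𝒥, 𝔞 ≤ 𝔪₀) :
    (maximalIdeal P.R).comap P.ι = 𝔪₀ := by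
  have h1 : (maximalIdeal P.R).comap P.ι ≤ 𝔪₀ := by
    have := h_le _ (P.comap_mem 1 one_pos)
    rwa [pow_one] at this
  let f : Λ →+* ResidueField P.R := (residue P.R).comp (P.ι : Λ →+* P.R)
  have hf : Function.Surjective f := by
    intro z
    obtain ⟨r, rfl⟩ := residue_surjective z
    obtain ⟨y, hy⟩ := P.ι_dense 1 r
    refine ⟨y, ?_⟩
    rw [pow_one] at hy
    have h2 : residue P.R (r - P.ι y) = 0 := (residue_eq_zero_iff _).mpr hy
    rw [map_sub, sub_eq_zero] at h2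
    exact h2.symm
  have hker : RingHom.ker f = (maximalIdeal P.R).comap P.ι := by
    ext x
    rw [RingHom.mem_ker, Ideal.mem_comap]
    exact residue_eq_zero_iff _
  have hmax : (RingHom.ker f).IsMaximal := RingHom.ker_isMaximal_of_surjective f hf
  rw [hker] at hmax
  exact hmax.eq_of_le hne h1

theorem ι_mem_maximalIdeal (hne : 𝔪₀ ≠ ⊤) (h_le : ∀ 𝔞 ∈ 𝒥, 𝔞 ≤ 𝔪₀) {x : Λ} (hx : x ∈ 𝔪₀) :
    P.ι x ∈ maximalIdeal P.R :=
  (comap_ι_maximalIdeal P hne h_le).ge hx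

theorem pow_le_comap_ι (hne : 𝔪₀ ≠ ⊤) (h_le : ∀ 𝔞 ∈ 𝒥, 𝔞 ≤ 𝔪₀) (n : ℕ) :
    𝔪₀ ^ n ≤ (maximalIdeal P.R ^ n).comap P.ι :=
  (Ideal.pow_right_mono (comap_ι_maximalIdeal P hne h_le).ge n).trans (Ideal.le_comap_pow _ n)

/-- `ι x` is a unit of `R` iff `x ∉ 𝔪₀`. -/
theorem isUnit_ι_iff (hne : 𝔪₀ ≠ ⊤) (h_le : ∀ 𝔞 ∈ 𝒥, 𝔞 ≤ 𝔪₀) (x : Λ) :
    IsUnit (P.ι x) ↔ x ∉ 𝔪₀ := by
  have h := comap_ι_maximalIdeal P hne h_le
  constructor
  · intro hu hx
    exact (h.ge hx) hu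
  · intro hx
    by_contra hu
    exact hx (h.le hu)

/-- A ring map out of `R` killing `𝔪_R ^ n` is surjective as soon as it is surjective, even
after restriction to `Λ`. -/
theorem comp_ι_surjective {B : Type} [CommRing B] (q : P.R →+* B) (hq : Function.Surjective q)
    (n : ℕ) (hn : maximalIdeal P.R ^ n ≤ RingHom.ker q) :
    Function.Surjective fun x : Λ => q (P.ι x) := by
  intro b
  obtain ⟨r, rfl⟩ := hq b
  obtain ⟨y, hy⟩ := P.ι_dense n r
  refine ⟨y, ?_⟩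
  have := hn hy
  rw [RingHom.mem_ker, map_sub, sub_eq_zero] at this
  exact this.symm

/-- The kernel of `Λ → R → B` belongs to `𝒥` whenever `R → B` kills a power of `𝔪_R` and is not
the zero map (e.g. `B` an Artinian local ring and the map local). -/
theorem ker_comp_ι_mem (hne : 𝔪₀ ≠ ⊤) (h_le : ∀ 𝔞 ∈ 𝒥, 𝔞 ≤ 𝔪₀)
    (h_up : ∀ 𝔞 ∈ 𝒥, ∀ 𝔟 : Ideal Λ, 𝔞 ≤ 𝔟 → 𝔟 ≤ 𝔪₀ → 𝔟 ∈ 𝒥)
    {B : Type} [CommRing B] (q : P.R →+* B) (hq : RingHom.ker q ≠ ⊤)
    (n : ℕ) (hn0 : 0 < n) (hn : maximalIdeal P.R ^ n ≤ RingHom.ker q) :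
    (RingHom.ker q).comap P.ι ∈ 𝒥 := by
  exact h_up _ (P.comap_mem n hn0) _ (Ideal.comap_mono hn)
    ((Ideal.comap_mono (le_maximalIdeal hq)).trans (comap_ι_maximalIdeal P hne h_le).le)

/-- A local ring map from `R` to an Artinian local ring kills a positive power of `𝔪_R`. -/
theorem exists_pow_le_ker {B : Type} [CommRing B] [IsLocalRing B] [IsArtinianRing B]
    (q : P.R →+* B) (hloc : IsLocalHom q) :
    ∃ n : ℕ, 0 < n ∧ maximalIdeal P.R ^ n ≤ RingHom.ker q := by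
  have hnil : IsNilpotent (maximalIdeal B) := by
    have h := IsArtinianRing.isNilpotent_jacobson_bot (R := B)
    rwa [jacobson_eq_maximalIdeal (⊥ : Ideal B) bot_ne_top] at h
  obtain ⟨k, hk⟩ := hnil
  refine ⟨k + 1, Nat.succ_pos k, ?_⟩
  have hle : maximalIdeal P.R ≤ (maximalIdeal B).comap q := by
    intro a ha
    rw [Ideal.mem_comap, mem_maximalIdeal, mem_nonunits_iff]
    intro hu
    exact ha (hloc.map_nonunit a hu)
  intro x hx
  have h1 : x ∈ (maximalIdeal B ^ (k + 1)).comap q :=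
    ((Ideal.pow_right_mono hle (k + 1)).trans (Ideal.le_comap_pow _ (k + 1))) hx
  rw [pow_succ, hk, Ideal.zero_eq_bot, Ideal.bot_mul] at h1
  exact h1

/-- Artinian quotients of `R`: for a surjective local ring map `q : R → B` onto an Artinian
local ring, the composite `Λ → B` is surjective and its kernel belongs to `𝒥`. -/
theorem artinian_quotient (hne : 𝔪₀ ≠ ⊤) (h_le : ∀ 𝔞 ∈ 𝒥, 𝔞 ≤ 𝔪₀)
    (h_up : ∀ 𝔞 ∈ 𝒥, ∀ 𝔟 : Ideal Λ, 𝔞 ≤ 𝔟 → 𝔟 ≤ 𝔪₀ → 𝔟 ∈ 𝒥)
    {B : Type} [CommRing B] [IsLocalRing B] [IsArtinianRing B]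
    (q : P.R →+* B) (hloc : IsLocalHom q) (hq : Function.Surjective q) :
    (RingHom.ker q).comap P.ι ∈ 𝒥 ∧ Function.Surjective fun x : Λ => q (P.ι x) := by
  obtain ⟨n, hn0, hn⟩ := exists_pow_le_ker P q hloc
  exact ⟨ker_comp_ι_mem P hne h_le h_up q (RingHom.ker_ne_top q) n hn0 hn,
    comp_ι_surjective P q hq n hn⟩

/-- **Universal property, existence** (general adic form).  If `A` is `I`-adically complete and
`ψ : Λ → A` sends the `n`-th level ideal of `R` into `I ^ n` for all `n`, then `ψ` extends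
(uniquely, see `ringHom_ext_of_ι`) to `R`. -/
theorem exists_lift_of_comap_le {A : Type} [CommRing A] [Algebra 𝒪 A] (I : Ideal A)
    [IsAdicComplete I A] (ψ : Λ →ₐ[𝒪] A)
    (hψ : ∀ n : ℕ, (maximalIdeal P.R ^ n).comap P.ι ≤ (I ^ n).comap ψ) :
    ∃ φ : P.R →ₐ[𝒪] A, (∀ x, φ (P.ι x) = ψ x) ∧
      ∀ n : ℕ, maximalIdeal P.R ^ n ≤ (I ^ n).comap φ := by
  have key : ∀ n : ℕ, ∃ g : (P.R ⧸ maximalIdeal P.R ^ n) →ₐ[𝒪] A ⧸ I ^ n,
      ∀ x, g (Ideal.Quotient.mk _ (P.ι x)) = Ideal.Quotient.mk _ (ψ x) := by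
    intro n
    let u : Λ →ₐ[𝒪] P.R ⧸ maximalIdeal P.R ^ n := (Ideal.Quotient.mkₐ 𝒪 _).comp P.ι
    let v : Λ →ₐ[𝒪] A ⧸ I ^ n := (Ideal.Quotient.mkₐ 𝒪 _).comp ψ
    have hu : Function.Surjective u := mk_ι_surjective P n
    obtain ⟨g, hg⟩ := exists_algHom_factor u hu v (by
      intro x hx
      have hx' : x ∈ (maximalIdeal P.R ^ n).comap P.ι :=
        Ideal.mem_comap.mpr (Ideal.Quotient.eq_zero_iff_mem.mp hx)
      exact Ideal.Quotient.eq_zero_iff_mem.mpr (hψ n hx'))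
    exact ⟨g, hg⟩
  choose g hg using key
  let f : (n : ℕ) → P.R →ₐ[𝒪] A ⧸ I ^ n := fun n => (g n).comp (Ideal.Quotient.mkₐ 𝒪 _)
  have hfι : ∀ (n : ℕ) (r : P.R) (y : Λ), r - P.ι y ∈ maximalIdeal P.R ^ n →
      f n r = Ideal.Quotient.mk _ (ψ y) := by
    intro n r y hy
    have : Ideal.Quotient.mk (maximalIdeal P.R ^ n) r = Ideal.Quotient.mk _ (P.ι y) :=
      Ideal.Quotient.eq.mpr hy
    show g n (Ideal.Quotient.mk _ r) = _
    rw [this, hg]
  have hf : ∀ {m n : ℕ} (hle : m ≤ n),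
      (Ideal.Quotient.factorₐ 𝒪 (Ideal.pow_le_pow_right hle)).comp (f n) = f m := by
    intro m n hle
    ext r
    obtain ⟨y, hy⟩ := P.ι_dense n r
    rw [AlgHom.comp_apply, hfι n r y hy, hfι m r y (Ideal.pow_le_pow_right hle hy)]
    rfl
  refine ⟨IsAdicComplete.liftAlgHom I f hf, fun x => ?_, fun n r hr => ?_⟩
  · refine eq_of_forall_sub_mem_pow I _ _ fun n => ?_
    rw [← Ideal.Quotient.eq]
    have h1 : Ideal.Quotient.mk (I ^ n) (IsAdicComplete.liftAlgHom I f hf (P.ι x)) =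
        f n (P.ι x) := IsAdicComplete.mk_liftAlgHom I f hf n (P.ι x)
    rw [h1]
    exact hfι n (P.ι x) x (by rw [sub_self]; exact Ideal.zero_mem _)
  · rw [Ideal.mem_comap, ← Ideal.Quotient.eq_zero_iff_mem]
    have h1 : Ideal.Quotient.mk (I ^ n) (IsAdicComplete.liftAlgHom I f hf r) = f n r :=
      IsAdicComplete.mk_liftAlgHom I f hf n r
    rw [h1, hfι n r 0 (by rwa [map_zero, sub_zero]), map_zero, map_zero]

/-- **Universal property, existence** (local form, weak hypothesis).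
If `A` is a complete local `𝒪`-algebra and `ψ : Λ → A` maps `𝔪₀` into `𝔪_A` and for every
`n > 0` some member of `𝒥` containing `𝔪₀ ^ n` is contained in `ker (Λ → A ⧸ 𝔪_A ^ n)`, then `ψ`
extends to a local `𝒪`-algebra map `R → A`. -/
theorem exists_lift_of_exists_mem {A : Type} [CommRing A] [IsLocalRing A] [Algebra 𝒪 A]
    [IsAdicComplete (maximalIdeal A) A] (ψ : Λ →ₐ[𝒪] A)
    (hψ : ∀ n : ℕ, 0 < n → ∃ 𝔞 ∈ 𝒥, 𝔪₀ ^ n ≤ 𝔞 ∧ 𝔞 ≤ (maximalIdeal A ^ n).comap ψ) :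
    ∃ φ : P.R →ₐ[𝒪] A, (∀ x, φ (P.ι x) = ψ x) ∧ IsLocalHom (φ : P.R →+* A) ∧
      ∀ n : ℕ, maximalIdeal P.R ^ n ≤ (maximalIdeal A ^ n).comap φ := by
  obtain ⟨φ, h1, h2⟩ := exists_lift_of_comap_le P (maximalIdeal A) ψ (by
    intro n
    rcases Nat.eq_zero_or_pos n with rfl | hn
    · simp
    · obtain ⟨𝔞, h𝔞, hpow, hle⟩ := hψ n hn
      exact (P.comap_le n 𝔞 h𝔞 hpow).trans hle)
  refine ⟨φ, h1, ⟨fun a ha => ?_⟩, h2⟩
  by_contra hna
  have hmem : a ∈ maximalIdeal P.R := hna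
  have := h2 1 (by rwa [pow_one])
  rw [pow_one, Ideal.mem_comap] at this
  exact this ha

/-- **Universal property, existence** (local form used for deformation rings).
If `A` is a complete local `𝒪`-algebra and `ψ : Λ → A` maps `𝔪₀` into `𝔪_A` and has all its
level ideals `ker (Λ → A ⧸ 𝔪_A ^ n)`, `n > 0`, in `𝒥`, then `ψ` extends to a local `𝒪`-algebra
map `R → A`. -/
theorem exists_lift {A : Type} [CommRing A] [IsLocalRing A] [Algebra 𝒪 A]
    [IsAdicComplete (maximalIdeal A) A] (ψ : Λ →ₐ[𝒪] A)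
    (hψ0 : 𝔪₀ ≤ (maximalIdeal A).comap ψ)
    (hψ : ∀ n : ℕ, 0 < n → (maximalIdeal A ^ n).comap ψ ∈ 𝒥) :
    ∃ φ : P.R →ₐ[𝒪] A, (∀ x, φ (P.ι x) = ψ x) ∧ IsLocalHom (φ : P.R →+* A) ∧
      ∀ n : ℕ, maximalIdeal P.R ^ n ≤ (maximalIdeal A ^ n).comap φ :=
  exists_lift_of_exists_mem P ψ fun n hn =>
    ⟨_, hψ n hn, (Ideal.pow_right_mono hψ0 n).trans (Ideal.le_comap_pow _ n), le_rfl⟩

/-- **Universal property, uniqueness**: two ring maps out of `R` into a Hausdorff ring that are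
continuous (send `𝔪_R` into `I`) and agree on the image of `Λ` are equal. -/
theorem ringHom_ext_of_ι {A : Type} [CommRing A] (I : Ideal A) [IsHausdorff I A]
    (φ φ' : P.R →+* A) (hφ : maximalIdeal P.R ≤ I.comap φ) (hφ' : maximalIdeal P.R ≤ I.comap φ')
    (h : ∀ x, φ (P.ι x) = φ' (P.ι x)) : φ = φ' := by
  have hpow : ∀ (χ : P.R →+* A), maximalIdeal P.R ≤ I.comap χ →
      ∀ n : ℕ, maximalIdeal P.R ^ n ≤ (I ^ n).comap χ := fun χ hχ n =>
    (Ideal.pow_right_mono hχ n).trans (Ideal.le_comap_pow _ n)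
  ext r
  refine eq_of_forall_sub_mem_pow I _ _ fun n => ?_
  obtain ⟨y, hy⟩ := P.ι_dense n r
  have e : φ r - φ' r = φ (r - P.ι y) - φ' (r - P.ι y) := by
    rw [map_sub, map_sub, h y]; ring
  rw [e]
  exact Ideal.sub_mem _ (hpow φ hφ n hy) (hpow φ' hφ' n hy)

/-- Uniqueness for local algebra maps into a local ring that is Hausdorff for its maximal
ideal. -/
theorem algHom_ext_of_ι {A : Type} [CommRing A] [IsLocalRing A] [Algebra 𝒪 A]
    [IsHausdorff (maximalIdeal A) A] (φ φ' : P.R →ₐ[𝒪] A)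
    (hφ : IsLocalHom (φ : P.R →+* A)) (hφ' : IsLocalHom (φ' : P.R →+* A))
    (h : ∀ x, φ (P.ι x) = φ' (P.ι x)) : φ = φ' := by
  have key : ∀ (χ : P.R →+* A), IsLocalHom χ → maximalIdeal P.R ≤ (maximalIdeal A).comap χ := by
    intro χ hχ a ha
    rw [Ideal.mem_comap, mem_maximalIdeal, mem_nonunits_iff]
    intro hu
    exact ha (hχ.map_nonunit a hu)
  have := ringHom_ext_of_ι P (maximalIdeal A) (φ : P.R →+* A) (φ' : P.R →+* A)
    (key _ hφ) (key _ hφ') h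
  exact AlgHom.ext fun r => by
    have h2 := congrArg (fun χ : P.R →+* A => χ r) this
    exact h2

end ProRep

end Fermat.Agent.S53.helper48
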