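/-
S53, FUNCT group of the captain blueprint `helper53_Spec` (helper533):
closure properties of the family of ideals `{J | InFamily rbar Sig 𝒟 J}`.
Hypothesis-passing style; no sorry.
-/
import Fermat.Agent.S53.helper53_Spec
import Fermat.Agent.S53.helper533_TestAlg

set_option autoImplicit false
set_option linter.style.haveILetI false
set_option linter.unusedSectionVars false

namespace Fermat.Agent.S53.helper533

open IsLocalRing GaloisRep
open Fermat.Agent.S53.helper53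

/-! ### Generalities on matrix representations -/

section matrices

/-- Naturality of `evalMat` with respect to `𝒪`-algebra homomorphisms. -/
theorem evalMat_mapMat {𝒪 : Type} [CommRing 𝒪] {A B : Type} [CommRing A] [Algebra 𝒪 A]
    [CommRing B] [Algebra 𝒪 B] (φ : A →ₐ[𝒪] B) (r : Gal →* M2 A) (f : Lam 𝒪) :
    evalMat (𝒪 := 𝒪) (mapMat (φ : A →+* B) r : Gal → M2 B) f = φ (evalMat (𝒪 := 𝒪) r f) := by
  unfold evalMat
  rw [MvPolynomial.comp_aeval_apply]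
  rfl

/-- `evalMat` of the tautological matrices over a quotient of `Lam 𝒪` is the quotient map. -/
theorem evalMat_taut {𝒪 : Type} [CommRing 𝒪] (J : Ideal (Lam 𝒪)) (r : Gal → M2 (Lam 𝒪 ⧸ J))
    (hr : ∀ σ i j, r σ i j = Ideal.Quotient.mk J (MvPolynomial.X (σ, i, j))) (f : Lam 𝒪) :
    evalMat (𝒪 := 𝒪) r f = Ideal.Quotient.mk J f := by
  have h : evalMat (𝒪 := 𝒪) r = Ideal.Quotient.mkₐ 𝒪 J := by
    apply MvPolynomial.algHom_ext
    rintro ⟨σ, i, j⟩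
    rw [evalMat_X, hr]
    rfl
  rw [h]
  rfl

/-- Over a local ring with nilpotent maximal ideal, continuity means triviality on an open
subgroup. -/
theorem matCont_iff_of_nilpotent {A : Type} [CommRing A] [IsLocalRing A]
    (hn : ∃ n : ℕ, maximalIdeal A ^ n = ⊥) (r : Gal →* M2 A) :
    MatCont r ↔ ∃ L : IntermediateField ℚ (AlgebraicClosure ℚ), FiniteDimensional ℚ L ∧
      ∀ σ : Gal, (∀ x ∈ L, σ x = x) → r σ = 1 := by
  constructor
  · intro h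
    obtain ⟨n, hn⟩ := hn
    obtain ⟨L, hL, hσ⟩ := h n
    refine ⟨L, hL, fun σ hx => ?_⟩
    ext i j
    have := hσ σ hx i j
    rw [hn, Ideal.mem_bot] at this
    have h2 : r σ i j - (1 : M2 A) i j = 0 := this
    exact sub_eq_zero.mp h2
  · rintro ⟨L, hL, hσ⟩ n
    refine ⟨L, hL, fun σ hx i j => ?_⟩
    rw [hσ σ hx, sub_self]
    exact Ideal.zero_mem _

theorem exists_maxPow_eq_bot_of_testAlg {𝒪 : Type} [CommRing 𝒪] {A : Type} [CommRing A]
    [IsLocalRing A] [Algebra 𝒪 A] (hA : IsArtinianTestAlgebra 𝒪 A) :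
    ∃ n : ℕ, maximalIdeal A ^ n = ⊥ := by
  haveI := hA.isArtinian
  obtain ⟨n, hn⟩ := IsArtinianRing.isNilpotent_jacobson_bot (R := A)
  rw [jacobson_eq_maximalIdeal _ bot_ne_top] at hn
  exact ⟨n, hn⟩

/-- (DICT-B0, own proof) Pushing forward along a local homomorphism preserves continuity. -/
theorem matCont_mapMat {A B : Type} [CommRing A] [IsLocalRing A] [CommRing B] [IsLocalRing B]
    (φ : A →+* B) (hφ : IsLocalHom φ) (r : Gal →* M2 A) (hr : MatCont r) :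
    MatCont (mapMat φ r) := by
  intro n
  obtain ⟨L, hL, h⟩ := hr n
  refine ⟨L, hL, fun σ hσ i j => ?_⟩
  have e : (mapMat φ r σ - 1) i j = φ ((r σ - 1) i j) := by
    rw [Matrix.sub_apply, Matrix.sub_apply, map_sub, mapMat_apply]
    congr 1
    rw [Matrix.one_apply, Matrix.one_apply]
    split_ifs <;> simp
  rw [e]
  have hle : (maximalIdeal A ^ n).map φ ≤ maximalIdeal B ^ n := by
    rw [Ideal.map_pow]
    exact Ideal.pow_right_mono (map_maximalIdeal_le φ) n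
  exact hle (Ideal.mem_map_of_mem φ (h σ hσ i j))

theorem stmt_matContMap : Stmt_MatContMap := fun _ _ _ _ _ _ φ hφ r hr =>
  matCont_mapMat φ hφ r hr

/-- Transport of a property of `ofMat r` along an equality of matrix representations. -/
theorem ofMat_congr {A : Type} [CommRing A] [IsLocalRing A] (P : GaloisRepAdic A → Prop)
    {r₁ r₂ : Gal →* M2 A} (h : r₁ = r₂) (h₁ : MatCont r₁) (h₂ : MatCont r₂)
    (hP : P (ofMat r₁ h₁)) : P (ofMat r₂ h₂) := by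
  subst h
  exact hP

/-- A function into matrices over `P` whose images under two jointly injective ring homs are
monoid homs is a monoid hom. -/
noncomputable def pullbackMat₂ {P A A' : Type} [CommRing P] [CommRing A] [CommRing A']
    (p₁ : P →+* A) (p₂ : P →+* A') (hinj : ∀ x y : P, p₁ x = p₁ y → p₂ x = p₂ y → x = y)
    (r : Gal →* M2 A) (r' : Gal →* M2 A') (s : Gal → M2 P)
    (hs₁ : ∀ σ, (s σ).map p₁ = r σ) (hs₂ : ∀ σ, (s σ).map p₂ = r' σ) : Gal →* M2 P where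
  toFun := s
  map_one' := by
    have h1 : (s 1).map p₁ = (1 : M2 P).map p₁ := by
      rw [hs₁, map_one, Matrix.map_one _ (map_zero p₁) (map_one p₁)]
    have h2 : (s 1).map p₂ = (1 : M2 P).map p₂ := by
      rw [hs₂, map_one, Matrix.map_one _ (map_zero p₂) (map_one p₂)]
    ext i j
    exact hinj _ _ (congrFun (congrFun h1 i) j) (congrFun (congrFun h2 i) j)
  map_mul' σ τ := by
    have h1 : (s (σ * τ)).map p₁ = (s σ * s τ).map p₁ := by
      rw [Matrix.map_mul, hs₁, hs₁, hs₁, map_mul]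
    have h2 : (s (σ * τ)).map p₂ = (s σ * s τ).map p₂ := by
      rw [Matrix.map_mul, hs₂, hs₂, hs₂, map_mul]
    ext i j
    exact hinj _ _ (congrFun (congrFun h1 i) j) (congrFun (congrFun h2 i) j)

@[simp] theorem pullbackMat₂_apply {P A A' : Type} [CommRing P] [CommRing A] [CommRing A']
    (p₁ : P →+* A) (p₂ : P →+* A') (hinj : ∀ x y : P, p₁ x = p₁ y → p₂ x = p₂ y → x = y)
    (r : Gal →* M2 A) (r' : Gal →* M2 A') (s : Gal → M2 P)
    (hs₁ : ∀ σ, (s σ).map p₁ = r σ) (hs₂ : ∀ σ, (s σ).map p₂ = r' σ) (σ : Gal) :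
    pullbackMat₂ p₁ p₂ hinj r r' s hs₁ hs₂ σ = s σ := rfl

theorem mapMat_pullbackMat₂_fst {P A A' : Type} [CommRing P] [CommRing A] [CommRing A']
    (p₁ : P →+* A) (p₂ : P →+* A') (hinj : ∀ x y : P, p₁ x = p₁ y → p₂ x = p₂ y → x = y)
    (r : Gal →* M2 A) (r' : Gal →* M2 A') (s : Gal → M2 P)
    (hs₁ : ∀ σ, (s σ).map p₁ = r σ) (hs₂ : ∀ σ, (s σ).map p₂ = r' σ) :
    mapMat p₁ (pullbackMat₂ p₁ p₂ hinj r r' s hs₁ hs₂) = r := by
  ext σ : 1
  rw [mapMat_apply', pullbackMat₂_apply, hs₁]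

theorem mapMat_pullbackMat₂_snd {P A A' : Type} [CommRing P] [CommRing A] [CommRing A']
    (p₁ : P →+* A) (p₂ : P →+* A') (hinj : ∀ x y : P, p₁ x = p₁ y → p₂ x = p₂ y → x = y)
    (r : Gal →* M2 A) (r' : Gal →* M2 A') (s : Gal → M2 P)
    (hs₁ : ∀ σ, (s σ).map p₁ = r σ) (hs₂ : ∀ σ, (s σ).map p₂ = r' σ) :
    mapMat p₂ (pullbackMat₂ p₁ p₂ hinj r r' s hs₁ hs₂) = r' := by
  ext σ : 1
  rw [mapMat_apply', pullbackMat₂_apply, hs₂]

end matrices

section family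

variable {𝒪 : Type} [CommRing 𝒪] [IsLocalRing 𝒪] (rbar : Gal →* M2 (ResidueField 𝒪))
  (Sig : Set (Lam 𝒪))
  (𝒟 : ∀ ⦃A : Type⦄ [CommRing A] [IsLocalRing A] [Algebra 𝒪 A], GaloisRepAdic A → Prop)

/-! ### FUNCT-0 -/

/-- FUNCT-0. Normalized `𝒟`-lifts push forward along `𝒪`-algebra maps of Artinian test
algebras. -/
theorem stmt_nLiftMap (h𝒟 : IsDeformationCondition 𝒪 𝒟) (hbc : Stmt_DictBaseChange) :
    Stmt_NLiftMap 𝒪 rbar Sig 𝒟 := by
  intro A B _ _ _ _ _ _ hA hB φ r hr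
  have hφ : IsLocalHom (φ : A →+* B) := isLocalHom_of_residue_surjective 𝒪 hB.residue_surjective φ
  have hc : MatCont (mapMat (φ : A →+* B) r) := matCont_mapMat _ hφ r hr.cont
  refine ⟨hc, ?_, ?_, ?_⟩
  · intro σ i j
    obtain ⟨c, hc1, hc2⟩ := hr.strict σ i j
    refine ⟨c, hc1, ?_⟩
    have e : mapMat (φ : A →+* B) r σ i j - algebraMap 𝒪 B c =
        (φ : A →+* B) (r σ i j - algebraMap 𝒪 A c) := by
      rw [map_sub, mapMat_apply]
      simp
    rw [e]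
    exact map_maximalIdeal_le (φ : A →+* B) (Ideal.mem_map_of_mem _ hc2)
  · intro f hf
    rw [evalMat_mapMat, hr.norm f hf, map_zero]
  · exact h𝒟.of_isEquiv hB (hbc A B (φ : A →+* B) hφ r hr.cont hc)
      (h𝒟.baseChangeAlong hA hB φ hφ hr.type)

/-! ### FUNCT-2, FUNCT-3, FUNCT-4 -/

/-- Key comparison: for a member `J` of the family, a polynomial lies in the augmentation ideal
iff its class in `Lam 𝒪 ⧸ J` lies in the maximal ideal. -/
theorem mem_augIdeal_iff_of_strict (J : Ideal (Lam 𝒪)) [IsLocalRing (Lam 𝒪 ⧸ J)]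
    (hloc : IsLocalHom (algebraMap 𝒪 (Lam 𝒪 ⧸ J)))
    (r : Gal → M2 (Lam 𝒪 ⧸ J))
    (hrX : ∀ σ i j, r σ i j = Ideal.Quotient.mk J (MvPolynomial.X (σ, i, j)))
    (hstrict : IsStrictLift rbar r) (f : Lam 𝒪) :
    f ∈ augIdeal rbar ↔ Ideal.Quotient.mk J f ∈ maximalIdeal (Lam 𝒪 ⧸ J) := by
  haveI := hloc
  let χ : Lam 𝒪 →+* ResidueField (Lam 𝒪 ⧸ J) := (residue (Lam 𝒪 ⧸ J)).comp (Ideal.Quotient.mk J)
  let ψ : Lam 𝒪 →+* ResidueField (Lam 𝒪 ⧸ J) :=
    (ResidueField.map (algebraMap 𝒪 (Lam 𝒪 ⧸ J))).comp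
      (evalMat (𝒪 := 𝒪) (A := ResidueField 𝒪) rbar : Lam 𝒪 →+* ResidueField 𝒪)
  have hχψ : χ = ψ := by
    apply MvPolynomial.ringHom_ext
    · intro a
      show residue _ (Ideal.Quotient.mk J (MvPolynomial.C a)) =
        ResidueField.map (algebraMap 𝒪 (Lam 𝒪 ⧸ J)) (evalMat (𝒪 := 𝒪) (A := ResidueField 𝒪) rbar
          (MvPolynomial.C a))
      have h1 : evalMat (𝒪 := 𝒪) (A := ResidueField 𝒪) rbar (MvPolynomial.C a) = residue 𝒪 a := by
        unfold evalMat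
        rw [MvPolynomial.aeval_C]
        rfl
      rw [h1, ResidueField.map_residue]
      rfl
    · rintro ⟨σ, i, j⟩
      show residue _ (Ideal.Quotient.mk J (MvPolynomial.X (σ, i, j))) =
        ResidueField.map (algebraMap 𝒪 (Lam 𝒪 ⧸ J)) (evalMat (𝒪 := 𝒪) (A := ResidueField 𝒪) rbar
          (MvPolynomial.X (σ, i, j)))
      obtain ⟨c, hc1, hc2⟩ := hstrict σ i j
      rw [evalMat_X, ← hc1, ResidueField.map_residue, ← hrX]
      rw [← sub_eq_zero, ← map_sub, residue_eq_zero_iff]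
      exact hc2
  have h1 : f ∈ augIdeal rbar ↔ ψ f = 0 := by
    unfold augIdeal
    rw [RingHom.mem_ker]
    constructor
    · intro h
      show ResidueField.map (algebraMap 𝒪 (Lam 𝒪 ⧸ J)) (evalMat (𝒪 := 𝒪) (A := ResidueField 𝒪) rbar f) = 0
      rw [h, map_zero]
    · intro h
      exact (map_eq_zero (ResidueField.map (algebraMap 𝒪 (Lam 𝒪 ⧸ J)))).mp h
  rw [h1, ← hχψ]
  show residue _ (Ideal.Quotient.mk J f) = 0 ↔ _
  rw [residue_eq_zero_iff]

/-- FUNCT-2. Members of the family lie below the augmentation ideal. -/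
theorem stmt_famLe : Stmt_FamLe 𝒪 rbar Sig 𝒟 := by
  rintro J ⟨hl, hA, r, hrX, hr⟩ f hf
  haveI := hl
  rw [mem_augIdeal_iff_of_strict rbar J hA.isLocalHom r hrX hr.strict,
    Ideal.Quotient.eq_zero_iff_mem.mpr hf]
  exact Ideal.zero_mem _

/-- FUNCT-3. Members of the family contain a power of the augmentation ideal. -/
theorem stmt_famNil : Stmt_FamNil 𝒪 rbar Sig 𝒟 := by
  rintro J ⟨hl, hA, r, hrX, hr⟩
  haveI := hl
  obtain ⟨n, hn⟩ := exists_maxPow_eq_bot_of_testAlg hA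
  refine ⟨n, ?_⟩
  have hle : (augIdeal rbar).map (Ideal.Quotient.mk J) ≤ maximalIdeal (Lam 𝒪 ⧸ J) := by
    rw [Ideal.map_le_iff_le_comap]
    intro f hf
    exact (mem_augIdeal_iff_of_strict rbar J hA.isLocalHom r hrX hr.strict f).mp hf
  have h2 : (augIdeal rbar ^ n).map (Ideal.Quotient.mk J) = ⊥ := by
    rw [Ideal.map_pow, eq_bot_iff, ← hn]
    exact Ideal.pow_right_mono hle n
  rw [Ideal.map_eq_bot_iff_le_ker, Ideal.mk_ker] at h2
  exact h2

/-- FUNCT-4. Members of the family have finite quotient. -/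
theorem stmt_famFin [Finite (ResidueField 𝒪)] : Stmt_FamFin 𝒪 rbar Sig 𝒟 := by
  rintro J ⟨hl, hA, -⟩
  haveI := hl
  exact testAlg_finite 𝒪 hA

/-! ### FUNCT-1 -/

/-- Injective descent of normalized `𝒟`-lifts: if `ψ : B → A` is an injective `𝒪`-algebra map
into an Artinian test algebra and the matrices `s σ` over `B` map to a normalized `𝒟`-lift `r`
over `A`, then `s` is a normalized `𝒟`-lift over `B`. -/
theorem exists_nLift_of_injective [Finite (ResidueField 𝒪)] (h𝒟 : IsDeformationCondition 𝒪 𝒟)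
    (hbc : Stmt_DictBaseChange)
    {A B : Type} [CommRing A] [IsLocalRing A] [Algebra 𝒪 A] [CommRing B] [IsLocalRing B]
    [Algebra 𝒪 B] (hA : IsArtinianTestAlgebra 𝒪 A) (ψ : B →ₐ[𝒪] A) (hψ : Function.Injective ψ)
    (r : Gal →* M2 A) (hr : IsNLift rbar Sig 𝒟 r) (s : Gal → M2 B)
    (hs : ∀ σ, (s σ).map ψ = r σ) :
    ∃ r' : Gal →* M2 B, (∀ σ, r' σ = s σ) ∧ IsNLift rbar Sig 𝒟 r' := by
  have hB : IsArtinianTestAlgebra 𝒪 B := testAlg_of_injective 𝒪 hA ψ hψ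
  have hψl : IsLocalHom (ψ : B →+* A) := isLocalHom_of_injective 𝒪 hA ψ hψ
  have hs' : ∀ σ, (s σ).map (ψ : B →+* A) = r σ := hs
  have hinj : ∀ x y : B, (ψ : B →+* A) x = (ψ : B →+* A) y →
      (ψ : B →+* A) x = (ψ : B →+* A) y → x = y := fun x y h _ => hψ h
  have hmap : mapMat (ψ : B →+* A) (pullbackMat₂ (ψ : B →+* A) (ψ : B →+* A) hinj r r s hs' hs') = r :=
    mapMat_pullbackMat₂_fst _ _ hinj r r s hs' hs'
  have hc' : MatCont (pullbackMat₂ (ψ : B →+* A) (ψ : B →+* A) hinj r r s hs' hs') := by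
    rw [matCont_iff_of_nilpotent (exists_maxPow_eq_bot_of_testAlg hB)]
    obtain ⟨L, hL, hσ⟩ := (matCont_iff_of_nilpotent (exists_maxPow_eq_bot_of_testAlg hA) r).mp hr.cont
    refine ⟨L, hL, fun σ hx => ?_⟩
    apply Matrix.map_injective hψ
    have h2 : (1 : M2 B).map ψ = 1 := Matrix.map_one _ (map_zero ψ) (map_one ψ)
    show (s σ).map ψ = (1 : M2 B).map ψ
    rw [hs σ, h2, hσ σ hx]
  refine ⟨pullbackMat₂ (ψ : B →+* A) (ψ : B →+* A) hinj r r s hs' hs', fun σ => rfl, hc', ?_, ?_, ?_⟩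
  · -- strictness
    intro σ i j
    obtain ⟨c, hc1, hc2⟩ := hr.strict σ i j
    refine ⟨c, hc1, fun hu => hc2 ?_⟩
    have := hu.map (ψ : B →+* A)
    have e : (ψ : B →+* A) (s σ i j - algebraMap 𝒪 B c) = r σ i j - algebraMap 𝒪 A c := by
      rw [map_sub, ← hs σ]
      simp
    rw [pullbackMat₂_apply, e] at this
    exact this
  · -- normalization
    intro f hf
    apply hψ
    have := evalMat_mapMat ψ (pullbackMat₂ (ψ : B →+* A) (ψ : B →+* A) hinj r r s hs' hs') f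
    rw [map_zero, ← this, hmap]
    exact hr.norm f hf
  · -- type
    have hc'' : MatCont (mapMat (ψ : B →+* A)
        (pullbackMat₂ (ψ : B →+* A) (ψ : B →+* A) hinj r r s hs' hs')) :=
      matCont_mapMat _ hψl _ hc'
    have hD : 𝒟 (ofMat _ hc'') := ofMat_congr (fun ρ => 𝒟 ρ) hmap.symm hr.cont hc'' hr.type
    obtain ⟨e⟩ := hbc _ _ (ψ : B →+* A) hψl _ hc' hc''
    exact h𝒟.of_baseChangeAlong_injective hB hA ψ hψl hψ (h𝒟.of_isEquiv hA ⟨e.symm⟩ hD)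

/-- FUNCT-1. A normalized `𝒟`-lift over an Artinian test algebra gives a member of the family:
the kernel of evaluation at its entries. -/
theorem stmt_famKer [Finite (ResidueField 𝒪)] (h𝒟 : IsDeformationCondition 𝒪 𝒟)
    (hbc : Stmt_DictBaseChange) : Stmt_FamKer 𝒪 rbar Sig 𝒟 := by
  intro A _ _ _ hA r hr
  have hψ : Function.Injective (Ideal.kerLiftAlg (evalMat (𝒪 := 𝒪) r)) :=
    Ideal.kerLiftAlg_injective _
  haveI hl : IsLocalRing (Lam 𝒪 ⧸ RingHom.ker (evalMat (𝒪 := 𝒪) r)) :=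
    isLocalRing_of_injective 𝒪 hA _ hψ
  have hB : IsArtinianTestAlgebra 𝒪 (Lam 𝒪 ⧸ RingHom.ker (evalMat (𝒪 := 𝒪) r)) :=
    testAlg_of_injective 𝒪 hA _ hψ
  obtain ⟨r', hr'X, hr'⟩ := exists_nLift_of_injective rbar Sig 𝒟 h𝒟 hbc hA
    (Ideal.kerLiftAlg (evalMat (𝒪 := 𝒪) r)) hψ r hr
    (fun σ => Matrix.of fun i j => Ideal.Quotient.mk _ (MvPolynomial.X (σ, i, j)))
    (by
      intro σ
      ext i j
      show Ideal.kerLiftAlg (evalMat (𝒪 := 𝒪) r) (Ideal.Quotient.mk _ (MvPolynomial.X (σ, i, j))) =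
        r σ i j
      rw [Ideal.kerLiftAlg_mk, evalMat_X])
  exact ⟨hl, hB, r', fun σ i j => by rw [hr'X]; rfl, hr'⟩

/-! ### FUNCT-6 -/

theorem augIdeal_ne_top : augIdeal rbar ≠ ⊤ := by
  intro h
  have h1 : (1 : Lam 𝒪) ∈ augIdeal rbar := by rw [h]; trivial
  unfold augIdeal at h1
  rw [RingHom.mem_ker, map_one] at h1
  exact one_ne_zero h1

/-- A proper quotient of a member of the family is a member of the family (general form). -/
theorem inFamily_of_surjective (h𝒟 : IsDeformationCondition 𝒪 𝒟) (hbc : Stmt_DictBaseChange)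
    (J J' : Ideal (Lam 𝒪)) [IsLocalRing (Lam 𝒪 ⧸ J)] (hA : IsArtinianTestAlgebra 𝒪 (Lam 𝒪 ⧸ J))
    (r : Gal →* M2 (Lam 𝒪 ⧸ J))
    (hrX : ∀ σ i j, r σ i j = Ideal.Quotient.mk J (MvPolynomial.X (σ, i, j)))
    (hr : IsNLift rbar Sig 𝒟 r) (hJJ' : J ≤ J') (hJ' : J' ≠ ⊤) :
    InFamily rbar Sig 𝒟 J' := by
  have hq : Function.Surjective (Ideal.Quotient.factorₐ 𝒪 hJJ') :=
    Ideal.Quotient.factor_surjective hJJ'
  haveI : Nontrivial (Lam 𝒪 ⧸ J') := Ideal.Quotient.nontrivial_iff.mpr hJ'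
  haveI hl' : IsLocalRing (Lam 𝒪 ⧸ J') :=
    IsLocalRing.of_surjective' (Ideal.Quotient.factor hJJ') (Ideal.Quotient.factor_surjective hJJ')
  haveI := hA.isArtinian
  haveI : IsArtinianRing (Lam 𝒪 ⧸ J') :=
    Function.Surjective.isArtinianRing (f := Ideal.Quotient.factor hJJ')
      (Ideal.Quotient.factor_surjective hJJ')
  have hB : IsArtinianTestAlgebra 𝒪 (Lam 𝒪 ⧸ J') :=
    testAlg_of_surjective 𝒪 hA.isLocalHom hA.residue_surjective (Ideal.Quotient.factorₐ 𝒪 hJJ') hq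
  refine ⟨hl', hB, mapMat (Ideal.Quotient.factorₐ 𝒪 hJJ' : (Lam 𝒪 ⧸ J) →+* (Lam 𝒪 ⧸ J')) r, ?_,
    stmt_nLiftMap rbar Sig 𝒟 h𝒟 hbc _ _ hA hB (Ideal.Quotient.factorₐ 𝒪 hJJ') r hr⟩
  intro σ i j
  rw [mapMat_apply, hrX]
  rfl

/-- FUNCT-6. The family is upward closed below the augmentation ideal. -/
theorem stmt_famUp (h𝒟 : IsDeformationCondition 𝒪 𝒟) (hbc : Stmt_DictBaseChange) :
    Stmt_FamUp 𝒪 rbar Sig 𝒟 := by
  rintro J J' ⟨hl, hA, r, hrX, hr⟩ hJJ' hJ'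
  haveI := hl
  exact inFamily_of_surjective rbar Sig 𝒟 h𝒟 hbc J J' hA r hrX hr hJJ'
    fun h => augIdeal_ne_top rbar (top_le_iff.mp (h ▸ hJ'))

/-! ### FUNCT-5 -/

/-- Fibre products of normalized `𝒟`-lifts. -/
theorem exists_nLift_fibreProd [Finite (ResidueField 𝒪)] (h𝒟 : IsDeformationCondition 𝒪 𝒟)
    (hbc : Stmt_DictBaseChange)
    {A A' C : Type} [CommRing A] [IsLocalRing A] [Algebra 𝒪 A] [CommRing A'] [IsLocalRing A']
    [Algebra 𝒪 A'] [CommRing C] [IsLocalRing C] [Algebra 𝒪 C]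
    (hA : IsArtinianTestAlgebra 𝒪 A) (hA' : IsArtinianTestAlgebra 𝒪 A')
    (hC : IsArtinianTestAlgebra 𝒪 C) (f : A →ₐ[𝒪] C) (g : A' →ₐ[𝒪] C)
    [IsLocalRing (fibreProd 𝒪 f g)]
    (r : Gal →* M2 A) (r' : Gal →* M2 A') (hr : IsNLift rbar Sig 𝒟 r)
    (hr' : IsNLift rbar Sig 𝒟 r') (hfg : ∀ σ i j, f (r σ i j) = g (r' σ i j)) :
    ∃ R : Gal →* M2 (fibreProd 𝒪 f g), IsNLift rbar Sig 𝒟 R ∧
      (∀ p : Lam 𝒪, fibreProdFst f g (evalMat (𝒪 := 𝒪) R p) = evalMat (𝒪 := 𝒪) r p) ∧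
      (∀ p : Lam 𝒪, fibreProdSnd f g (evalMat (𝒪 := 𝒪) R p) = evalMat (𝒪 := 𝒪) r' p) := by
  have hP : IsArtinianTestAlgebra 𝒪 (fibreProd 𝒪 f g) := fibreProd_testAlg hA hA' f g
  have hp₁ : IsLocalHom (fibreProdFst f g : fibreProd 𝒪 f g →+* A) :=
    fibreProdFst_isLocalHom hC.residue_surjective f g
  have hp₂ : IsLocalHom (fibreProdSnd f g : fibreProd 𝒪 f g →+* A') :=
    fibreProdSnd_isLocalHom hC.residue_surjective f g
  have hs₁ : ∀ σ, (Matrix.of fun i j => (⟨(r σ i j, r' σ i j), hfg σ i j⟩ : fibreProd 𝒪 f g)).map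
      (fibreProdFst f g : fibreProd 𝒪 f g →+* A) = r σ := by
    intro σ; ext i j; rfl
  have hs₂ : ∀ σ, (Matrix.of fun i j => (⟨(r σ i j, r' σ i j), hfg σ i j⟩ : fibreProd 𝒪 f g)).map
      (fibreProdSnd f g : fibreProd 𝒪 f g →+* A') = r' σ := by
    intro σ; ext i j; rfl
  have hinj : ∀ x y : fibreProd 𝒪 f g,
      (fibreProdFst f g : fibreProd 𝒪 f g →+* A) x = (fibreProdFst f g : fibreProd 𝒪 f g →+* A) y →
      (fibreProdSnd f g : fibreProd 𝒪 f g →+* A') x =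
        (fibreProdSnd f g : fibreProd 𝒪 f g →+* A') y → x = y :=
    fun x y h1 h2 => Subtype.ext (Prod.ext h1 h2)
  obtain ⟨R, hRdef⟩ : ∃ R : Gal →* M2 (fibreProd 𝒪 f g), R = pullbackMat₂
      (fibreProdFst f g : fibreProd 𝒪 f g →+* A) (fibreProdSnd f g : fibreProd 𝒪 f g →+* A') hinj
      r r' _ hs₁ hs₂ := ⟨_, rfl⟩
  have hR₁ : mapMat (fibreProdFst f g : fibreProd 𝒪 f g →+* A) R = r := by
    rw [hRdef]; exact mapMat_pullbackMat₂_fst _ _ hinj r r' _ hs₁ hs₂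
  have hR₂ : mapMat (fibreProdSnd f g : fibreProd 𝒪 f g →+* A') R = r' := by
    rw [hRdef]; exact mapMat_pullbackMat₂_snd _ _ hinj r r' _ hs₁ hs₂
  have hR₁' : ∀ σ i j, (fibreProdFst f g : fibreProd 𝒪 f g →+* A) (R σ i j) = r σ i j := by
    intro σ i j
    rw [← hR₁]; rfl
  have hR₂' : ∀ σ i j, (fibreProdSnd f g : fibreProd 𝒪 f g →+* A') (R σ i j) = r' σ i j := by
    intro σ i j
    rw [← hR₂]; rfl
  have e₁ : ∀ p : Lam 𝒪, fibreProdFst f g (evalMat (𝒪 := 𝒪) R p) = evalMat (𝒪 := 𝒪) r p := by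
    intro p
    rw [← evalMat_mapMat, hR₁]
  have e₂ : ∀ p : Lam 𝒪, fibreProdSnd f g (evalMat (𝒪 := 𝒪) R p) = evalMat (𝒪 := 𝒪) r' p := by
    intro p
    rw [← evalMat_mapMat, hR₂]
  -- continuity
  have hcR : MatCont R := by
    rw [matCont_iff_of_nilpotent (exists_maxPow_eq_bot_of_testAlg hP)]
    obtain ⟨L, hL, hσ⟩ := (matCont_iff_of_nilpotent (exists_maxPow_eq_bot_of_testAlg hA) r).mp hr.cont
    obtain ⟨L', hL', hσ'⟩ :=
      (matCont_iff_of_nilpotent (exists_maxPow_eq_bot_of_testAlg hA') r').mp hr'.cont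
    refine ⟨L ⊔ L', IntermediateField.finiteDimensional_sup L L', fun σ hx => ?_⟩
    have h1 : r σ = 1 := hσ σ fun x hxL => hx x ((le_sup_left : L ≤ L ⊔ L') hxL)
    have h2 : r' σ = 1 := hσ' σ fun x hxL => hx x ((le_sup_right : L' ≤ L ⊔ L') hxL)
    refine Matrix.ext fun i j => hinj _ _ ?_ ?_
    · rw [hR₁', h1, Matrix.one_apply, Matrix.one_apply]
      split_ifs <;> simp
    · rw [hR₂', h2, Matrix.one_apply, Matrix.one_apply]
      split_ifs <;> simp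
  refine ⟨R, ⟨hcR, ?_, ?_, ?_⟩, e₁, e₂⟩
  · intro σ i j
    obtain ⟨c, hc1, hc2⟩ := hr.strict σ i j
    refine ⟨c, hc1, fun hu => hc2 ?_⟩
    have := (fibreProd_isUnit_iff hC.residue_surjective f g _).mp hu
    have e : (R σ i j - algebraMap 𝒪 (fibreProd 𝒪 f g) c).1.1 = r σ i j - algebraMap 𝒪 A c := by
      rw [← hR₁']
      rfl
    rw [e] at this
    exact this
  · intro p hp
    apply hinj
    · show fibreProdFst f g (evalMat (𝒪 := 𝒪) R p) = fibreProdFst f g 0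
      rw [e₁, hr.norm p hp, map_zero]
    · show fibreProdSnd f g (evalMat (𝒪 := 𝒪) R p) = fibreProdSnd f g 0
      rw [e₂, hr'.norm p hp, map_zero]
  · have hc₁ : MatCont (mapMat (fibreProdFst f g : fibreProd 𝒪 f g →+* A) R) :=
      matCont_mapMat _ hp₁ R hcR
    have hc₂ : MatCont (mapMat (fibreProdSnd f g : fibreProd 𝒪 f g →+* A') R) :=
      matCont_mapMat _ hp₂ R hcR
    have hD₁ : 𝒟 (ofMat _ hc₁) := ofMat_congr (fun ρ => 𝒟 ρ) hR₁.symm hr.cont hc₁ hr.type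
    have hD₂ : 𝒟 (ofMat _ hc₂) := ofMat_congr (fun ρ => 𝒟 ρ) hR₂.symm hr'.cont hc₂ hr'.type
    obtain ⟨e₁⟩ := hbc _ _ (fibreProdFst f g : fibreProd 𝒪 f g →+* A) hp₁ R hcR hc₁
    obtain ⟨e₂⟩ := hbc _ _ (fibreProdSnd f g : fibreProd 𝒪 f g →+* A') hp₂ R hcR hc₂
    exact D_fibreProd h𝒟 hA hA' hC f g hp₁ hp₂ (h𝒟.of_isEquiv hA ⟨e₁.symm⟩ hD₁)
      (h𝒟.of_isEquiv hA' ⟨e₂.symm⟩ hD₂)

/-- FUNCT-5. The family is closed under binary intersections. -/
theorem stmt_famInf [Finite (ResidueField 𝒪)] (h𝒟 : IsDeformationCondition 𝒪 𝒟)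
    (hbc : Stmt_DictBaseChange) : Stmt_FamInf 𝒪 rbar Sig 𝒟 := by
  rintro J J' hJ hJ'
  have hJle : J ≤ augIdeal rbar := stmt_famLe rbar Sig 𝒟 J hJ
  have hJ'le : J' ≤ augIdeal rbar := stmt_famLe rbar Sig 𝒟 J' hJ'
  have hsup : J ⊔ J' ≠ ⊤ := fun h => augIdeal_ne_top rbar (top_le_iff.mp (h ▸ sup_le hJle hJ'le))
  obtain ⟨hl, hA, r, hrX, hr⟩ := hJ
  obtain ⟨hl', hA', r', hr'X, hr'⟩ := hJ'
  haveI := hl
  haveI := hl'
  -- the common quotient
  obtain ⟨hlC, hC, -⟩ := inFamily_of_surjective rbar Sig 𝒟 h𝒟 hbc J (J ⊔ J') hA r hrX hr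
    le_sup_left hsup
  haveI := hlC
  haveI hlP : IsLocalRing (fibreProd 𝒪 (Ideal.Quotient.factorₐ 𝒪 (le_sup_left : J ≤ J ⊔ J'))
      (Ideal.Quotient.factorₐ 𝒪 (le_sup_right : J' ≤ J ⊔ J'))) :=
    fibreProd_isLocalRing hC.residue_surjective _ _
  obtain ⟨R, hR, e₁, e₂⟩ := exists_nLift_fibreProd rbar Sig 𝒟 h𝒟 hbc hA hA' hC
    (Ideal.Quotient.factorₐ 𝒪 (le_sup_left : J ≤ J ⊔ J'))
    (Ideal.Quotient.factorₐ 𝒪 (le_sup_right : J' ≤ J ⊔ J')) r r' hr hr'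
    (by intro σ i j; rw [hrX, hr'X]; rfl)
  have hP : IsArtinianTestAlgebra 𝒪 (fibreProd 𝒪 (Ideal.Quotient.factorₐ 𝒪 (le_sup_left : J ≤ J ⊔ J'))
      (Ideal.Quotient.factorₐ 𝒪 (le_sup_right : J' ≤ J ⊔ J'))) := fibreProd_testAlg hA hA' _ _
  have hker : RingHom.ker (evalMat (𝒪 := 𝒪) R) = J ⊓ J' := by
    ext p
    rw [RingHom.mem_ker, Ideal.mem_inf]
    have e₁' := e₁ p
    have e₂' := e₂ p
    rw [evalMat_taut J r hrX] at e₁'
    rw [evalMat_taut J' r' hr'X] at e₂'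
    constructor
    · intro h
      rw [h, map_zero] at e₁' e₂'
      exact ⟨Ideal.Quotient.eq_zero_iff_mem.mp e₁'.symm, Ideal.Quotient.eq_zero_iff_mem.mp e₂'.symm⟩
    · rintro ⟨h1, h2⟩
      rw [Ideal.Quotient.eq_zero_iff_mem.mpr h1] at e₁'
      rw [Ideal.Quotient.eq_zero_iff_mem.mpr h2] at e₂'
      exact Subtype.ext (Prod.ext e₁' e₂')
  rw [← hker]
  exact stmt_famKer rbar Sig 𝒟 h𝒟 hbc _ hP R hR

/-! ### FUNCT-7 -/

/-- The residue field is an Artinian test algebra. -/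
theorem residueField_testAlg : IsArtinianTestAlgebra 𝒪 (ResidueField 𝒪) := by
  refine ⟨?_, ?_, inferInstance⟩
  · exact IsLocalHom.of_surjective (algebraMap 𝒪 (ResidueField 𝒪)) IsLocalRing.residue_surjective
  · exact (IsLocalRing.residue_surjective (R := ResidueField 𝒪)).comp
      (IsLocalRing.residue_surjective (R := 𝒪))

/-- FUNCT-7. The augmentation ideal belongs to the family, provided `rbar` itself is a
normalized `𝒟`-lift over the residue field. -/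
theorem stmt_famTop (hcont : MatCont rbar)
    (hnorm : IsNormalized Sig (rbar : Gal → M2 (ResidueField 𝒪)))
    (htype : 𝒟 (ofMat rbar hcont)) (hker : Stmt_FamKer 𝒪 rbar Sig 𝒟) :
    Stmt_FamTop 𝒪 rbar Sig 𝒟 := by
  refine hker (ResidueField 𝒪) residueField_testAlg rbar ⟨hcont, ?_, hnorm, htype⟩
  intro σ i j
  obtain ⟨c, hc⟩ := IsLocalRing.residue_surjective (rbar σ i j)
  refine ⟨c, hc, ?_⟩
  have : rbar σ i j - algebraMap 𝒪 (ResidueField 𝒪) c = 0 := by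
    rw [sub_eq_zero, ← hc]
    rfl
  rw [this]
  exact Ideal.zero_mem _

end family

end Fermat.Agent.S53.helper533
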