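import Mathlib
import Fermat.Prelude.Def_GaloisRep_Adic

/-!
# S53 dictionary: matrix representations and `GaloisRepAdic`

A Galois representation over a local ring `A`, given by a family of `2 × 2` matrices, and the
criteria for equivalence of `GaloisRepAdic`s in terms of matrices with respect to bases.
-/

set_option autoImplicit false

namespace Fermat.Agent.S53.helper593

open IsLocalRing Module Matrix

/-- The absolute Galois group of `ℚ`, as used in the prelude. -/
abbrev GQ : Type := AlgebraicClosure ℚ ≃ₐ[ℚ] AlgebraicClosure ℚ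

section MatRep

variable {A : Type} [CommRing A] [IsLocalRing A]

/-- Adic continuity of a matrix-valued function on the Galois group. -/
def MatCont (M : GQ → Matrix (Fin 2) (Fin 2) A) : Prop :=
  ∀ n : ℕ, ∃ L : IntermediateField ℚ (AlgebraicClosure ℚ), FiniteDimensional ℚ L ∧
    ∀ σ : GQ, (∀ x ∈ L, σ x = x) → ∀ i j, (M σ - 1) i j ∈ maximalIdeal A ^ n

/-- A continuous matrix representation of the Galois group. -/
structure IsMatRep (M : GQ → Matrix (Fin 2) (Fin 2) A) : Prop where
  one : M 1 = 1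
  mul : ∀ σ τ, M (σ * τ) = M σ * M τ
  cont : MatCont M

omit [IsLocalRing A] in
theorem mem_smul_top_pi {I : Ideal A} {v : Fin 2 → A} (hv : ∀ i, v i ∈ I) :
    v ∈ I • (⊤ : Submodule A (Fin 2 → A)) := by
  have : v = ∑ i, v i • (Pi.single i (1 : A) : Fin 2 → A) := by
    ext j
    simp [Finset.sum_apply, Pi.single_apply]
  rw [this]
  exact Submodule.sum_mem _ fun i _ => Submodule.smul_mem_smul (hv i) Submodule.mem_top

/-- The `GaloisRepAdic` attached to a continuous matrix representation. -/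
noncomputable def ofMat (M : GQ → Matrix (Fin 2) (Fin 2) A) (h : IsMatRep M) : GaloisRepAdic A where
  V := Fin 2 → A
  finrank_eq := by simp
  ρ :=
    { toFun := fun σ => Matrix.mulVecLin (M σ)
      map_one' := by rw [h.one, Matrix.mulVecLin_one]; rfl
      map_mul' := fun σ τ => by rw [h.mul, Matrix.mulVecLin_mul]; rfl }
  isAdicContinuous := by
    intro n
    obtain ⟨L, hL, h1⟩ := h.cont n
    refine ⟨L, hL, fun σ hσ v => ?_⟩
    apply mem_smul_top_pi
    intro i
    have : Matrix.mulVecLin (M σ) v - v = (M σ - 1) *ᵥ v := by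
      rw [Matrix.sub_mulVec, Matrix.one_mulVec]; rfl
    show (Matrix.mulVecLin (M σ) v - v) i ∈ _
    rw [this]
    show ∑ j, (M σ - 1) i j * v j ∈ _
    exact Ideal.sum_mem _ fun j _ => Ideal.mul_mem_right _ _ (h1 σ hσ i j)

@[simp] theorem ofMat_ρ_apply (M : GQ → Matrix (Fin 2) (Fin 2) A) (h : IsMatRep M) (σ : GQ)
    (v : Fin 2 → A) : ((ofMat M h).ρ σ : (Fin 2 → A) →ₗ[A] (Fin 2 → A)) v = M σ *ᵥ v := rfl

/-- Matrices of a `GaloisRepAdic` with respect to a basis. -/
noncomputable def matOf (ρ : GaloisRepAdic A) (b : Basis (Fin 2) A ρ.V) :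
    GQ → Matrix (Fin 2) (Fin 2) A :=
  fun σ => LinearMap.toMatrix b b (ρ.ρ σ)

/-- Two representations having the same matrices in some bases are equivalent. -/
theorem isEquiv_of_matOf_eq (ρ₁ ρ₂ : GaloisRepAdic A) (b₁ : Basis (Fin 2) A ρ₁.V)
    (b₂ : Basis (Fin 2) A ρ₂.V) (h : ∀ σ, matOf ρ₁ b₁ σ = matOf ρ₂ b₂ σ) : ρ₁.IsEquiv ρ₂ := by
  refine ⟨{ toLinearEquiv := b₁.equiv b₂ (Equiv.refl _), map_apply := fun σ x => ?_ }⟩
  have key : (b₁.equiv b₂ (Equiv.refl _)).toLinearMap ∘ₗ ρ₁.ρ σ =
      ρ₂.ρ σ ∘ₗ (b₁.equiv b₂ (Equiv.refl _)).toLinearMap := by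
    apply b₁.ext
    intro j
    simp only [LinearMap.comp_apply, LinearEquiv.coe_coe, Basis.equiv_apply, Equiv.refl_apply]
    rw [← b₁.sum_repr (ρ₁.ρ σ (b₁ j)), map_sum]
    simp only [map_smul, Basis.equiv_apply, Equiv.refl_apply]
    rw [← b₂.sum_repr (ρ₂.ρ σ (b₂ j))]
    refine Finset.sum_congr rfl fun i _ => ?_
    congr 1
    have := congrFun (congrFun (h σ) i) j
    simpa [matOf, LinearMap.toMatrix_apply] using this
  exact congrArg (fun f => f x) key

theorem matOf_ofMat (M : GQ → Matrix (Fin 2) (Fin 2) A) (h : IsMatRep M) (σ : GQ) :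
    matOf (ofMat M h) (Pi.basisFun A (Fin 2)) σ = M σ := by
  show LinearMap.toMatrix (Pi.basisFun A (Fin 2)) (Pi.basisFun A (Fin 2)) (Matrix.mulVecLin (M σ))
    = M σ
  rw [LinearMap.toMatrix_eq_toMatrix']
  ext i j
  simp [LinearMap.toMatrix'_apply]

/-- A representation is equivalent to the matrix representation given by any basis. -/
theorem isEquiv_ofMat_matOf (ρ : GaloisRepAdic A) (b : Basis (Fin 2) A ρ.V)
    (h : IsMatRep (matOf ρ b)) : ρ.IsEquiv (ofMat (matOf ρ b) h) :=
  isEquiv_of_matOf_eq ρ _ b (Pi.basisFun A (Fin 2)) fun σ => (matOf_ofMat _ h σ).symm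

theorem isMatRep_matOf (ρ : GaloisRepAdic A) (b : Basis (Fin 2) A ρ.V) : IsMatRep (matOf ρ b) where
  one := by
    show LinearMap.toMatrix b b (ρ.ρ 1) = 1
    rw [map_one]
    exact LinearMap.toMatrix_one b
  mul σ τ := by
    show LinearMap.toMatrix b b (ρ.ρ (σ * τ)) = _
    rw [map_mul]
    exact LinearMap.toMatrix_mul b _ _
  cont := by
    intro n
    obtain ⟨L, hL, h1⟩ := ρ.isAdicContinuous n
    refine ⟨L, hL, fun σ hσ i j => ?_⟩
    have hrepr : ∀ x ∈ (maximalIdeal A ^ n) • (⊤ : Submodule A ρ.V), ∀ i, b.repr x i ∈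
        maximalIdeal A ^ n := by
      intro x hx i
      refine Submodule.smul_induction_on (p := fun x => b.repr x i ∈ maximalIdeal A ^ n) hx ?_ ?_
      · intro a ha w _
        rw [map_smul, Finsupp.smul_apply, smul_eq_mul]
        exact Ideal.mul_mem_right _ _ ha
      · intro x y hx hy
        rw [map_add, Finsupp.add_apply]
        exact Ideal.add_mem _ hx hy
    have := hrepr _ (h1 σ hσ (b j)) i
    rw [map_sub, Finsupp.sub_apply] at this
    simpa [matOf, LinearMap.toMatrix_apply, Matrix.sub_apply, Matrix.one_apply,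
      Finsupp.single_apply, eq_comm] using this

end MatRep

end Fermat.Agent.S53.helper593
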