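import Mathlib
import Fermat.Prelude.Def_GaloisRep_Adic
import Fermat.Agent.S53.helper3173_Burnside

/-!
# S53: rigidity via an eigenvector normal form (matrix core)

Normal form for a family `r : G → M₂(A)`: `r s₁ e₁ = e₂` and `e₁` is an eigenvector of
`Ψ = r t₁ - c • r t₂`.  Uniqueness holds over any local ring, existence over any
`maximalIdeal`-adically complete local ring (Hensel for one monic quadratic).
-/

set_option autoImplicit false

namespace Fermat.Agent.S53.helper593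

open IsLocalRing Module Matrix

section MatrixCore

variable {G : Type} {A : Type} [CommRing A] [IsLocalRing A]

/-- **Uniqueness of the normal form** (any local ring, no multiplicativity needed). -/
theorem normalized_unique (r r' : G → Matrix (Fin 2) (Fin 2) A) (s₁ t₁ t₂ : G) (c : A)
    (hr0 : r s₁ 0 0 = 0) (hr1 : r s₁ 1 0 = 1) (hrΨ : r t₁ 1 0 = c * r t₂ 1 0)
    (hr'0 : r' s₁ 0 0 = 0) (hr'1 : r' s₁ 1 0 = 1) (hr'Ψ : r' t₁ 1 0 = c * r' t₂ 1 0)
    (hunit : IsUnit ((r t₁ 0 0 - c * r t₂ 0 0) - (r' t₁ 1 1 - c * r' t₂ 1 1)))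
    (U : Matrix (Fin 2) (Fin 2) A) (hU : IsUnit U.det) (hint : ∀ g, U * r g = r' g * U) :
    r = r' := by
  have e : ∀ g i j, U i 0 * r g 0 j + U i 1 * r g 1 j = r' g i 0 * U 0 j + r' g i 1 * U 1 j := by
    intro g i j
    have := congrFun (congrFun (hint g) i) j
    simpa [Matrix.mul_apply, Fin.sum_univ_two] using this
  -- `U 1 0 = 0`
  have h10 : U 1 0 = 0 := by
    have h1 := e t₁ 1 0
    have h2 := e t₂ 1 0
    have : U 1 0 * ((r t₁ 0 0 - c * r t₂ 0 0) - (r' t₁ 1 1 - c * r' t₂ 1 1)) = 0 := by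
      linear_combination h1 - c * h2 - U 1 1 * hrΨ + U 0 0 * hr'Ψ
    exact (hunit.mul_left_eq_zero).mp this
  have h01 : U 0 1 = 0 := by
    have h1 := e s₁ 0 0
    rw [hr0, hr1, hr'0, h10] at h1
    simpa using h1
  have h11 : U 1 1 = U 0 0 := by
    have h1 := e s₁ 1 0
    rw [hr0, hr1, hr'1, h10] at h1
    simpa using h1
  have hu : IsUnit (U 0 0) := by
    rw [Matrix.det_fin_two, h01, h11, zero_mul, sub_zero] at hU
    exact isUnit_of_mul_isUnit_left hU
  funext g
  ext i j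
  have h1 := e g i j
  fin_cases i <;> fin_cases j <;> simp only [Fin.zero_eta, Fin.mk_one, Fin.isValue] at h1 ⊢ <;>
    simp only [h10, h01, h11] at h1 <;>
    exact hu.mul_left_cancel (by linear_combination h1)

/-- Hensel for the characteristic polynomial of a `2 × 2` matrix with distinct diagonal entries
modulo the maximal ideal and lower left entry in the maximal ideal. -/
theorem exists_root_quadratic [IsAdicComplete (maximalIdeal A) A] (p q r s : A)
    (hr : r ∈ maximalIdeal A) (hu : IsUnit (p - s)) :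
    ∃ a : A, a - p ∈ maximalIdeal A ∧ (a - p) * (a - s) = q * r := by
  classical
  let f : Polynomial A := (Polynomial.X - Polynomial.C p) * (Polynomial.X - Polynomial.C s) -
    Polynomial.C (q * r)
  have hmonic : f.Monic := by
    have h1 : ((Polynomial.X - Polynomial.C p) * (Polynomial.X - Polynomial.C s)).Monic :=
      (Polynomial.monic_X_sub_C p).mul (Polynomial.monic_X_sub_C s)
    refine h1.sub_of_left ?_
    have hdeg : ((Polynomial.X - Polynomial.C p) * (Polynomial.X - Polynomial.C s)).degree = 2 := by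
      rw [(Polynomial.monic_X_sub_C s).degree_mul, Polynomial.degree_X_sub_C,
        Polynomial.degree_X_sub_C]; rfl
    rw [hdeg]
    exact lt_of_le_of_lt Polynomial.degree_C_le (by norm_num)
  have h1 : f.eval p ∈ maximalIdeal A := by
    have : f.eval p = -(q * r) := by simp [f]
    rw [this]
    exact Ideal.neg_mem_iff _ |>.mpr (Ideal.mul_mem_left _ _ hr)
  have h2 : IsUnit (Ideal.Quotient.mk (maximalIdeal A) (f.derivative.eval p)) := by
    have : f.derivative.eval p = p - s := by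
      simp [f, Polynomial.derivative_mul]
    rw [this]
    exact hu.map _
  obtain ⟨a, ha, hap⟩ := HenselianRing.is_henselian (I := maximalIdeal A) f hmonic p h1 h2
  refine ⟨a, hap, ?_⟩
  have : f.eval a = 0 := ha
  simp only [f, Polynomial.eval_sub, Polynomial.eval_mul, Polynomial.eval_X, Polynomial.eval_C]
    at this
  linear_combination this

/-- **Existence of the normal form** (matrix version; no multiplicativity needed): over a complete
local ring, a family `r` whose reduction is in normal form can be conjugated, by a matrix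
congruent to `1`, into normal form. -/
theorem exists_normalizer [IsAdicComplete (maximalIdeal A) A] (r : G → Matrix (Fin 2) (Fin 2) A)
    (s₁ t₁ t₂ : G) (c : A)
    (h00 : r s₁ 0 0 ∈ maximalIdeal A) (h10 : r s₁ 1 0 - 1 ∈ maximalIdeal A)
    (hΨ10 : r t₁ 1 0 - c * r t₂ 1 0 ∈ maximalIdeal A)
    (hΨ : IsUnit ((r t₁ 0 0 - c * r t₂ 0 0) - (r t₁ 1 1 - c * r t₂ 1 1))) :
    ∃ U U' : Matrix (Fin 2) (Fin 2) A, U * U' = 1 ∧ U' * U = 1 ∧
      (∀ i j, (U - 1) i j ∈ maximalIdeal A) ∧ (∀ i j, (U' - 1) i j ∈ maximalIdeal A) ∧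
      (U' * r s₁ * U) 0 0 = 0 ∧ (U' * r s₁ * U) 1 0 = 1 ∧
      (U' * r t₁ * U) 1 0 = c * (U' * r t₂ * U) 1 0 := by
  obtain ⟨a, hap, ha⟩ := exists_root_quadratic (r t₁ 0 0 - c * r t₂ 0 0)
    (r t₁ 0 1 - c * r t₂ 0 1) (r t₁ 1 0 - c * r t₂ 1 0) (r t₁ 1 1 - c * r t₂ 1 1) hΨ10 hΨ
  have has : IsUnit (a - (r t₁ 1 1 - c * r t₂ 1 1)) := by
    by_contra h
    have h' : a - (r t₁ 1 1 - c * r t₂ 1 1) ∈ maximalIdeal A := (mem_maximalIdeal _).mpr h
    have h'' := Ideal.sub_mem _ h' hap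
    rw [sub_sub_sub_cancel_left] at h''
    exact (mem_maximalIdeal _).mp h'' hΨ
  obtain ⟨u, hu⟩ := has
  set y : A := (r t₁ 1 0 - c * r t₂ 1 0) * ↑u⁻¹ with hy_def
  have hy : y ∈ maximalIdeal A := Ideal.mul_mem_right _ _ hΨ10
  have hy1 : y * (a - (r t₁ 1 1 - c * r t₂ 1 1)) = r t₁ 1 0 - c * r t₂ 1 0 := by
    rw [← hu, hy_def, mul_assoc, Units.inv_mul, mul_one]
  have hy2 : a - (r t₁ 0 0 - c * r t₂ 0 0) = (r t₁ 0 1 - c * r t₂ 0 1) * y := by
    have h1 : (a - (r t₁ 0 0 - c * r t₂ 0 0)) * (a - (r t₁ 1 1 - c * r t₂ 1 1)) =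
        ((r t₁ 0 1 - c * r t₂ 0 1) * y) * (a - (r t₁ 1 1 - c * r t₂ 1 1)) := by
      rw [ha, mul_assoc, hy1]
    exact (hu ▸ u.isUnit).mul_right_cancel h1
  set U : Matrix (Fin 2) (Fin 2) A :=
    !![1, r s₁ 0 0 + r s₁ 0 1 * y; y, r s₁ 1 0 + r s₁ 1 1 * y] with hU_def
  have hU1 : ∀ i j, (U - 1) i j ∈ maximalIdeal A := by
    intro i j
    fin_cases i <;> fin_cases j
    · simp [U]
    · simpa [U] using Ideal.add_mem _ h00 (Ideal.mul_mem_left _ _ hy)
    · simpa [U] using hy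
    · have : (U - 1) 1 1 = (r s₁ 1 0 - 1) + r s₁ 1 1 * y := by simp [U]; ring
      show (U - 1) 1 1 ∈ _
      rw [this]
      exact Ideal.add_mem _ h10 (Ideal.mul_mem_left _ _ hy)
  have hdet1 : U.det - 1 ∈ maximalIdeal A := by
    have : U.det - 1 = (r s₁ 1 0 - 1) + (r s₁ 1 1 - (r s₁ 0 0 + r s₁ 0 1 * y)) * y := by
      rw [Matrix.det_fin_two]; simp [U]; ring
    rw [this]
    exact Ideal.add_mem _ h10 (Ideal.mul_mem_left _ _ hy)
  have hdetu : IsUnit U.det := by
    by_contra h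
    have h' : U.det ∈ maximalIdeal A := (mem_maximalIdeal _).mpr h
    have h1 : (1 : A) ∈ maximalIdeal A := by
      have := Ideal.sub_mem _ h' hdet1
      simpa using this
    exact (Ideal.ne_top_iff_one _).mp (maximalIdeal.isMaximal A).ne_top h1
  have hinv : U⁻¹ * U = 1 := Matrix.nonsing_inv_mul U hdetu
  refine ⟨U, U⁻¹, Matrix.mul_nonsing_inv U hdetu, hinv, hU1, ?_, ?_, ?_, ?_⟩
  · intro i j
    have h1 : U⁻¹ - 1 = U⁻¹ * (1 - U) := by rw [Matrix.mul_sub, Matrix.mul_one, hinv]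
    rw [h1, Matrix.mul_apply]
    refine Ideal.sum_mem _ fun k _ => Ideal.mul_mem_left _ _ ?_
    have h2 : (1 - U) k j = -((U - 1) k j) := by simp
    rw [h2]
    exact neg_mem (hU1 k j)
  · have hcol : ∀ k, (r s₁ * U) k 0 = U k 1 := by
      intro k
      fin_cases k <;> simp [U, Matrix.mul_apply, Fin.sum_univ_two]
    rw [Matrix.mul_assoc, Matrix.mul_apply]
    simp only [hcol]
    rw [← Matrix.mul_apply, hinv]
    simp
  · have hcol : ∀ k, (r s₁ * U) k 0 = U k 1 := by
      intro k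
      fin_cases k <;> simp [U, Matrix.mul_apply, Fin.sum_univ_two]
    rw [Matrix.mul_assoc, Matrix.mul_apply]
    simp only [hcol]
    rw [← Matrix.mul_apply, hinv]
    simp
  · have hcol : ∀ k, ((r t₁ - c • r t₂) * U) k 0 = a * U k 0 := by
      intro k
      fin_cases k
      · simp only [U, Matrix.mul_apply, Fin.sum_univ_two, Matrix.sub_apply, Matrix.smul_apply,
          smul_eq_mul, Fin.zero_eta, Fin.isValue, Matrix.of_apply, Matrix.cons_val_zero,
          Matrix.cons_val_one, mul_one]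
        linear_combination -hy2
      · simp only [U, Matrix.mul_apply, Fin.sum_univ_two, Matrix.sub_apply, Matrix.smul_apply,
          smul_eq_mul, Fin.zero_eta, Fin.isValue, Fin.mk_one, Matrix.of_apply, Matrix.cons_val_zero,
          Matrix.cons_val_one, mul_one]
        linear_combination -hy1
    have h1 : (U⁻¹ * (r t₁ - c • r t₂) * U) 1 0 = 0 := by
      rw [Matrix.mul_assoc, Matrix.mul_apply]
      simp only [hcol]
      have : ∑ j, U⁻¹ 1 j * (a * U j 0) = a * (U⁻¹ * U) 1 0 := by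
        rw [Matrix.mul_apply, Finset.mul_sum]
        exact Finset.sum_congr rfl fun j _ => by ring
      rw [this, hinv]
      simp
    have h2 : U⁻¹ * (r t₁ - c • r t₂) * U = U⁻¹ * r t₁ * U - c • (U⁻¹ * r t₂ * U) := by
      rw [Matrix.mul_sub, Matrix.sub_mul, Matrix.mul_smul, Matrix.smul_mul]
    rw [h2, Matrix.sub_apply, Matrix.smul_apply, smul_eq_mul] at h1
    exact sub_eq_zero.mp h1

end MatrixCore

section NormData

variable {k : Type} [Field k] (ρ : ResidualGaloisRep k)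

/-- **Normalisation data from absolute irreducibility**: a basis `b = (v, ρ(s₁) v)` and
`t₁, t₂, γ` such that `Ψ = ρ(t₁) - γ ρ(t₂)` is upper triangular in `b` with distinct diagonal
entries. -/
theorem exists_normData (habs : ρ.IsAbsolutelyIrreducible) :
    ∃ (b : Basis (Fin 2) k ρ.V) (s₁ t₁ t₂ : AlgebraicClosure ℚ ≃ₐ[ℚ] AlgebraicClosure ℚ) (γ : k),
      LinearMap.toMatrix b b (ρ.ρ s₁) 0 0 = 0 ∧ LinearMap.toMatrix b b (ρ.ρ s₁) 1 0 = 1 ∧
      LinearMap.toMatrix b b (ρ.ρ t₁) 1 0 = γ * LinearMap.toMatrix b b (ρ.ρ t₂) 1 0 ∧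
      LinearMap.toMatrix b b (ρ.ρ t₁) 0 0 - γ * LinearMap.toMatrix b b (ρ.ρ t₂) 0 0 ≠
        LinearMap.toMatrix b b (ρ.ρ t₁) 1 1 - γ * LinearMap.toMatrix b b (ρ.ρ t₂) 1 1 := by
  obtain ⟨σ, τ, hne⟩ := Fermat.Agent.S53.helper3173.exists_not_commute ρ habs
  have hcyc : ∃ v, LinearIndependent k ![v, ρ.ρ σ v] := by
    by_contra h
    push Not at h
    obtain ⟨a, ha⟩ := LinearMap.exists_eq_smul_id_of_forall_notLinearIndependent (f := ρ.ρ σ) h
    apply hne
    rw [ha, smul_mul_assoc, mul_smul_comm, one_mul, mul_one]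
  obtain ⟨v, hv⟩ := hcyc
  let b : Basis (Fin 2) k ρ.V := basisOfLinearIndependentOfCardEqFinrank hv (by simp [ρ.finrank_eq])
  have hb0 : b 0 = v := by simp [b]
  have hb1 : b 1 = ρ.ρ σ v := by simp [b]
  have hmul : ∀ x y : AlgebraicClosure ℚ ≃ₐ[ℚ] AlgebraicClosure ℚ,
      LinearMap.toMatrix b b (ρ.ρ (x * y)) =
        LinearMap.toMatrix b b (ρ.ρ x) * LinearMap.toMatrix b b (ρ.ρ y) := by
    intro x y
    rw [map_mul]
    exact LinearMap.toMatrix_mul b _ _
  set M := LinearMap.toMatrix b b (ρ.ρ σ) with hM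
  set N := LinearMap.toMatrix b b (ρ.ρ τ) with hN
  have hM00 : M 0 0 = 0 := by
    rw [hM, LinearMap.toMatrix_apply, hb0, ← hb1]; simp
  have hM10 : M 1 0 = 1 := by
    rw [hM, LinearMap.toMatrix_apply, hb0, ← hb1]; simp
  have hMN : M * N ≠ N * M := by
    intro h
    apply hne
    apply (LinearMap.toMatrix b b).injective
    rw [← map_mul, ← map_mul, hmul, hmul]
    exact h
  by_cases hA : N 0 0 - N 1 1 + M 1 1 * N 1 0 = 0
  · have hB : N 0 1 ≠ M 0 1 * N 1 0 := by
      intro hB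
      apply hMN
      ext i j
      fin_cases i <;> fin_cases j <;>
        simp only [Matrix.mul_apply, Fin.sum_univ_two, Fin.zero_eta, Fin.mk_one, Fin.isValue,
          hM00, hM10]
      · linear_combination -hB
      · linear_combination (-M 1 1) * hB - M 0 1 * hA
      · linear_combination hA
      · linear_combination hB
    set Q := LinearMap.toMatrix b b (ρ.ρ σ⁻¹) with hQ
    have hQM : Q * M = 1 := by
      rw [hQ, hM, ← hmul, inv_mul_cancel, map_one]
      exact LinearMap.toMatrix_one b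
    have hQN : LinearMap.toMatrix b b (ρ.ρ (σ⁻¹ * τ)) = Q * N := hmul _ _
    have e : ∀ i j, Q i 0 * M 0 j + Q i 1 * M 1 j = (1 : Matrix (Fin 2) (Fin 2) k) i j := by
      intro i j
      have := congrFun (congrFun hQM i) j
      simpa [Matrix.mul_apply, Fin.sum_univ_two] using this
    have hQ01 : Q 0 1 = 1 := by have := e 0 0; rw [hM00, hM10] at this; simpa using this
    have hQ11 : Q 1 1 = 0 := by have := e 1 0; rw [hM00, hM10] at this; simpa using this
    have hQ10 : Q 1 0 * M 0 1 = 1 := by have := e 1 1; rw [hQ11] at this; simpa using this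
    refine ⟨b, σ, σ⁻¹ * τ, σ⁻¹, N 0 0, hM00, hM10, ?_, ?_⟩
    · show (LinearMap.toMatrix b b (ρ.ρ (σ⁻¹ * τ))) 1 0 = N 0 0 * Q 1 0
      rw [hQN, Matrix.mul_apply, Fin.sum_univ_two, hQ11]; ring
    · show (LinearMap.toMatrix b b (ρ.ρ (σ⁻¹ * τ))) 0 0 - N 0 0 * Q 0 0 ≠
        (LinearMap.toMatrix b b (ρ.ρ (σ⁻¹ * τ))) 1 1 - N 0 0 * Q 1 1
      rw [hQN, Matrix.mul_apply, Matrix.mul_apply, Fin.sum_univ_two, Fin.sum_univ_two, hQ11, hQ01]
      intro h
      apply hB
      have h' : N 1 0 = Q 1 0 * N 0 1 := by linear_combination h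
      calc N 0 1 = (Q 1 0 * M 0 1) * N 0 1 := by rw [hQ10, one_mul]
        _ = M 0 1 * (Q 1 0 * N 0 1) := by ring
        _ = M 0 1 * N 1 0 := by rw [← h']
  · refine ⟨b, σ, τ, σ, N 1 0, hM00, hM10, ?_, ?_⟩
    · show N 1 0 = N 1 0 * M 1 0
      rw [hM10, mul_one]
    · show N 0 0 - N 1 0 * M 0 0 ≠ N 1 1 - N 1 0 * M 1 1
      rw [hM00]
      intro h
      apply hA
      linear_combination h

end NormData

end Fermat.Agent.S53.helper593
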