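import Mathlib
import Fermat.Prelude.Def_GaloisRep_Adic
import Fermat.Agent.S53.helper593_Rigid

/-!
# S53: the slice (rigidity) provider

Module-level consequences of the matrix core in `helper593_Rigid`: adapted bases and the
existence/uniqueness statements in the form consumed by the assembly.
-/

set_option autoImplicit false

namespace Fermat.Agent.S53.helper593

open IsLocalRing Module Matrix
open scoped TensorProduct

section Adapted

variable {A : Type} [CommRing A] [IsLocalRing A]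

/-- Nakayama: a family lifting a basis of the residual fibre is a basis. -/
theorem exists_basis_of_tmul_eq {V : Type} [AddCommGroup V] [Module A V] [Module.Free A V]
    [Module.Finite A V]
    (β : Basis (Fin 2) (ResidueField A) (ResidueField A ⊗[A] V)) (f : Fin 2 → V)
    (hf : ∀ i, (1 : ResidueField A) ⊗ₜ[A] f i = β i) : ∃ b : Basis (Fin 2) A V, ∀ i, b i = f i := by
  have hli : LinearIndependent A f := by
    apply IsLocalRing.linearIndependent_of_flat
    have : (TensorProduct.mk A (ResidueField A) V 1 ∘ f) = β := funext fun i => hf i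
    rw [this]
    exact β.linearIndependent
  have hsp := IsLocalRing.span_eq_top_of_tmul_eq_basis f β hf
  exact ⟨Basis.mk hli hsp.ge, fun i => Basis.mk_apply _ _ i⟩

variable {k : Type} [Field k] (ρbar : ResidualGaloisRep k) (b0 : Basis (Fin 2) k ρbar.V)

/-- From an equivalence of the residual representation with `ρbar`, a basis of the lift whose
matrices reduce to the matrices of `ρbar` in the basis `b0`. -/
theorem exists_adapted_basis (ψ : k →+* ResidueField A) (ρA : GaloisRepAdic A)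
    (h : ρA.residual.IsEquiv (ρbar.baseChangeAlong ψ)) :
    ∃ b : Basis (Fin 2) A ρA.V, ∀ g i j, residue A (LinearMap.toMatrix b b (ρA.ρ g) i j) =
      ψ (LinearMap.toMatrix b0 b0 (ρbar.ρ g) i j) := by
  obtain ⟨e⟩ := h
  let _ : Algebra k (ResidueField A) := ψ.toAlgebra
  let e' : (ResidueField A ⊗[A] ρA.V) ≃ₗ[ResidueField A] (ResidueField A ⊗[k] ρbar.V) :=
    e.toLinearEquiv
  have he' : ∀ g (x : ResidueField A ⊗[A] ρA.V),
      e' (((ρA.ρ g).baseChange (ResidueField A)) x) =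
        ((ρbar.ρ g).baseChange (ResidueField A)) (e' x) := fun g x => e.map_apply g x
  let β0 : Basis (Fin 2) (ResidueField A) (ResidueField A ⊗[k] ρbar.V) :=
    Algebra.TensorProduct.basis (ResidueField A) b0
  let β : Basis (Fin 2) (ResidueField A) (ResidueField A ⊗[A] ρA.V) := β0.map e'.symm
  have hsurj : ∀ x : ResidueField A ⊗[A] ρA.V, ∃ v : ρA.V, (1 : ResidueField A) ⊗ₜ[A] v = x :=
    TensorProduct.mk_surjective A ρA.V (ResidueField A) Ideal.Quotient.mk_surjective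
  choose f hf using fun i => hsurj (β i)
  obtain ⟨b, hb⟩ := exists_basis_of_tmul_eq β f hf
  refine ⟨b, fun g i j => ?_⟩
  have h1 : Algebra.TensorProduct.basis (ResidueField A) b = β := by
    apply Basis.eq_of_apply_eq
    intro i
    rw [Algebra.TensorProduct.basis_apply, hb, hf]
  have h2 := congrFun (congrFun (LinearMap.toMatrix_baseChange (ResidueField A) (ρA.ρ g) b b) i) j
  have h3 := congrFun (congrFun
    (LinearMap.toMatrix_baseChange (ResidueField A) (ρbar.ρ g) b0 b0) i) j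
  rw [h1] at h2
  rw [Matrix.map_apply] at h2 h3
  rw [ResidueField.algebraMap_eq] at h2
  rw [← h2]
  have h4 : (algebraMap k (ResidueField A)) (LinearMap.toMatrix b0 b0 (ρbar.ρ g) i j) =
      ψ (LinearMap.toMatrix b0 b0 (ρbar.ρ g) i j) := rfl
  rw [← h4, ← h3]
  rw [LinearMap.toMatrix_apply, LinearMap.toMatrix_apply]
  have h5 : ((ρA.ρ g).baseChange (ResidueField A)) (β j) =
      e'.symm (((ρbar.ρ g).baseChange (ResidueField A)) (β0 j)) := by
    have h6 := he' g (e'.symm (β0 j))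
    rw [LinearEquiv.apply_symm_apply] at h6
    rw [LinearEquiv.eq_symm_apply]
    exact h6
  rw [h5]
  have h7 : ∀ z, β.repr (e'.symm z) = β0.repr z := by
    intro z
    simp [β, Basis.map_repr]
  rw [h7]

end Adapted

section Provider

local notation "Γ" => AlgebraicClosure ℚ ≃ₐ[ℚ] AlgebraicClosure ℚ

/-- The three normalising polynomials of the eigenvector normal form. -/
noncomputable def sigmaSet (𝒪 : Type) [CommRing 𝒪] (s₁ t₁ t₂ : Γ) (c₀ : 𝒪) :
    Set (MvPolynomial (Γ × Fin 2 × Fin 2) 𝒪) :=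
  {MvPolynomial.X (s₁, 0, 0), MvPolynomial.X (s₁, 1, 0) - 1,
    MvPolynomial.X (t₁, 1, 0) - MvPolynomial.C c₀ * MvPolynomial.X (t₂, 1, 0)}

theorem sigmaSet_vanish_iff {𝒪 : Type} [CommRing 𝒪] (s₁ t₁ t₂ : Γ) (c₀ : 𝒪)
    {A : Type} [CommRing A] [Algebra 𝒪 A] (r : Γ → Matrix (Fin 2) (Fin 2) A) :
    (∀ s ∈ sigmaSet 𝒪 s₁ t₁ t₂ c₀,
        MvPolynomial.aeval (fun x : Γ × Fin 2 × Fin 2 => r x.1 x.2.1 x.2.2) s = 0) ↔
      (r s₁ 0 0 = 0 ∧ r s₁ 1 0 = 1 ∧ r t₁ 1 0 = algebraMap 𝒪 A c₀ * r t₂ 1 0) := by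
  simp only [sigmaSet, Set.mem_insert_iff, Set.mem_singleton_iff, forall_eq_or_imp, forall_eq,
    MvPolynomial.aeval_X, map_sub, map_one, map_mul, MvPolynomial.aeval_C, sub_eq_zero]

variable {𝒪 : Type} [CommRing 𝒪] [IsLocalRing 𝒪]
variable {A : Type} [CommRing A] [IsLocalRing A] [Algebra 𝒪 A] [IsLocalHom (algebraMap 𝒪 A)]

/-- Reduction bookkeeping: the hypotheses of the matrix core follow from the reduction of `r`
being the normalised `ρm`. -/
theorem red_facts (ρm : Γ → Matrix (Fin 2) (Fin 2) (ResidueField 𝒪)) (s₁ t₁ t₂ : Γ) (c₀ : 𝒪)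
    (hm00 : ρm s₁ 0 0 = 0) (hm10 : ρm s₁ 1 0 = 1)
    (hmΨ : ρm t₁ 1 0 = residue 𝒪 c₀ * ρm t₂ 1 0)
    (hmd : ρm t₁ 0 0 - residue 𝒪 c₀ * ρm t₂ 0 0 ≠ ρm t₁ 1 1 - residue 𝒪 c₀ * ρm t₂ 1 1)
    (r r' : Γ → Matrix (Fin 2) (Fin 2) A)
    (hr : ∀ g i j, residue A (r g i j) = ResidueField.map (algebraMap 𝒪 A) (ρm g i j))
    (hr' : ∀ g i j, residue A (r' g i j) = ResidueField.map (algebraMap 𝒪 A) (ρm g i j)) :
    r s₁ 0 0 ∈ maximalIdeal A ∧ r s₁ 1 0 - 1 ∈ maximalIdeal A ∧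
      r t₁ 1 0 - algebraMap 𝒪 A c₀ * r t₂ 1 0 ∈ maximalIdeal A ∧
      IsUnit ((r t₁ 0 0 - algebraMap 𝒪 A c₀ * r t₂ 0 0) -
        (r' t₁ 1 1 - algebraMap 𝒪 A c₀ * r' t₂ 1 1)) := by
  have hc : residue A (algebraMap 𝒪 A c₀) = ResidueField.map (algebraMap 𝒪 A) (residue 𝒪 c₀) :=
    (ResidueField.map_residue (algebraMap 𝒪 A) c₀).symm
  refine ⟨?_, ?_, ?_, ?_⟩
  · rw [← residue_eq_zero_iff, hr, hm00, map_zero]
  · rw [← residue_eq_zero_iff, map_sub, hr, hm10, map_one, map_one, sub_self]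
  · rw [← residue_eq_zero_iff, map_sub, map_mul, hr, hr, hc, ← map_mul, ← map_sub, hmΨ, sub_self,
      map_zero]
  · rw [← residue_ne_zero_iff_isUnit, map_sub, map_sub, map_sub, map_mul, map_mul, hr, hr, hr', hr',
      hc, ← map_mul, ← map_mul, ← map_sub, ← map_sub, ← map_sub]
    exact (map_ne_zero _).mpr (sub_ne_zero.mpr hmd)

/-- Change of basis by an invertible matrix. -/
theorem exists_basis_conj {B : Type} [CommRing B] {V : Type} [AddCommGroup V] [Module B V]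
    (b₁ : Basis (Fin 2) B V)
    (U U' : Matrix (Fin 2) (Fin 2) B) (h1 : U * U' = 1) (h2 : U' * U = 1) :
    ∃ b : Basis (Fin 2) B V, ∀ f : V →ₗ[B] V,
      LinearMap.toMatrix b b f = U' * LinearMap.toMatrix b₁ b₁ f * U := by
  let e : V ≃ₗ[B] V := LinearEquiv.ofLinearMap (Matrix.toLin b₁ b₁ U) (Matrix.toLin b₁ b₁ U')
    (by rw [← Matrix.toLin_mul b₁ b₁ b₁, h1, Matrix.toLin_one])
    (by rw [← Matrix.toLin_mul b₁ b₁ b₁, h2, Matrix.toLin_one])
  refine ⟨b₁.map e, fun f => ?_⟩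
  have h3 : LinearMap.toMatrix (b₁.map e) (b₁.map e) f =
      LinearMap.toMatrix b₁ b₁ (e.symm.toLinearMap ∘ₗ f ∘ₗ e.toLinearMap) := by
    ext i j
    simp [LinearMap.toMatrix_apply, Basis.map_repr, Basis.map_apply]
  have h4 : LinearMap.toMatrix b₁ b₁ e.toLinearMap = U :=
    LinearMap.toMatrix_toLin b₁ b₁ U
  have h5 : LinearMap.toMatrix b₁ b₁ e.symm.toLinearMap = U' :=
    LinearMap.toMatrix_toLin b₁ b₁ U'
  rw [h3, LinearMap.toMatrix_comp b₁ b₁ b₁, LinearMap.toMatrix_comp b₁ b₁ b₁, h4, h5,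
    Matrix.mul_assoc]

/-- Conjugation by matrices congruent to `1` does not change the reduction. -/
theorem residue_conj {B : Type} [CommRing B] [IsLocalRing B] (U U' X : Matrix (Fin 2) (Fin 2) B)
    (hU : ∀ i j, (U - 1) i j ∈ maximalIdeal B) (hU' : ∀ i j, (U' - 1) i j ∈ maximalIdeal B)
    (i j : Fin 2) : residue B ((U' * X * U) i j) = residue B (X i j) := by
  have h1 : ∀ (W : Matrix (Fin 2) (Fin 2) B), (∀ i j, (W - 1) i j ∈ maximalIdeal B) →
      W.map (residue B) = 1 := by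
    intro W hW
    ext a b
    have := (residue_eq_zero_iff _).mpr (hW a b)
    rw [Matrix.sub_apply, map_sub, sub_eq_zero] at this
    rw [Matrix.map_apply, this, Matrix.one_apply, Matrix.one_apply]
    split_ifs <;> simp
  have h2 : (U' * X * U).map (residue B) = X.map (residue B) := by
    rw [Matrix.map_mul, Matrix.map_mul, h1 U hU, h1 U' hU', one_mul, mul_one]
  have := congrFun (congrFun h2 i) j
  simpa [Matrix.map_apply] using this

/-- **The slice provider** (eigenvector normal form).  For an absolutely irreducible `ρbar` there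
are a basis `b0` of `ρbar.V` and a set `Sig` of normalising polynomials in the matrix entries such
that: (1) `ρbar` (in the basis `b0`) is normalised; (2) every lift of `ρbar` to a complete local
`𝒪`-algebra has a basis in which it reduces to `ρbar` and is normalised; (3) the matrix version of
(2): conjugation by a matrix congruent to `1`; (4) two normalised families reducing to `ρbar` and
intertwined by an invertible matrix are equal. -/
theorem exists_slice (𝒪 : Type) [CommRing 𝒪] [IsLocalRing 𝒪]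
    (ρbar : ResidualGaloisRep (ResidueField 𝒪)) (habs : ρbar.IsAbsolutelyIrreducible) :
    ∃ (b0 : Basis (Fin 2) (ResidueField 𝒪) ρbar.V)
      (Sig : Set (MvPolynomial (Γ × Fin 2 × Fin 2) 𝒪)),
      (∀ s ∈ Sig, MvPolynomial.aeval (fun x : Γ × Fin 2 × Fin 2 =>
          LinearMap.toMatrix b0 b0 (ρbar.ρ x.1) x.2.1 x.2.2) s = 0) ∧
      (∀ (A : Type) [CommRing A] [IsLocalRing A] [IsAdicComplete (maximalIdeal A) A]
          [Algebra 𝒪 A] [IsLocalHom (algebraMap 𝒪 A)] (ρA : GaloisRepAdic A),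
          ρA.residual.IsEquiv (ρbar.baseChangeAlong (ResidueField.map (algebraMap 𝒪 A))) →
          ∃ b : Basis (Fin 2) A ρA.V,
            (∀ g i j, residue A (LinearMap.toMatrix b b (ρA.ρ g) i j) =
              ResidueField.map (algebraMap 𝒪 A) (LinearMap.toMatrix b0 b0 (ρbar.ρ g) i j)) ∧
            (∀ s ∈ Sig, MvPolynomial.aeval (fun x : Γ × Fin 2 × Fin 2 =>
              LinearMap.toMatrix b b (ρA.ρ x.1) x.2.1 x.2.2) s = 0)) ∧
      (∀ (A : Type) [CommRing A] [IsLocalRing A] [IsAdicComplete (maximalIdeal A) A]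
          [Algebra 𝒪 A] [IsLocalHom (algebraMap 𝒪 A)] (r : Γ → Matrix (Fin 2) (Fin 2) A),
          (∀ g i j, residue A (r g i j) =
            ResidueField.map (algebraMap 𝒪 A) (LinearMap.toMatrix b0 b0 (ρbar.ρ g) i j)) →
          ∃ U U' : Matrix (Fin 2) (Fin 2) A, U * U' = 1 ∧ U' * U = 1 ∧
            (∀ i j, (U - 1) i j ∈ maximalIdeal A) ∧ (∀ i j, (U' - 1) i j ∈ maximalIdeal A) ∧
            (∀ g i j, residue A ((U' * r g * U) i j) =
              ResidueField.map (algebraMap 𝒪 A) (LinearMap.toMatrix b0 b0 (ρbar.ρ g) i j)) ∧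
            (∀ s ∈ Sig, MvPolynomial.aeval (fun x : Γ × Fin 2 × Fin 2 =>
              (U' * r x.1 * U) x.2.1 x.2.2) s = 0)) ∧
      (∀ (A : Type) [CommRing A] [IsLocalRing A] [Algebra 𝒪 A] [IsLocalHom (algebraMap 𝒪 A)]
          (r r' : Γ → Matrix (Fin 2) (Fin 2) A),
          (∀ g i j, residue A (r g i j) =
            ResidueField.map (algebraMap 𝒪 A) (LinearMap.toMatrix b0 b0 (ρbar.ρ g) i j)) →
          (∀ g i j, residue A (r' g i j) =
            ResidueField.map (algebraMap 𝒪 A) (LinearMap.toMatrix b0 b0 (ρbar.ρ g) i j)) →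
          (∀ s ∈ Sig, MvPolynomial.aeval (fun x : Γ × Fin 2 × Fin 2 => r x.1 x.2.1 x.2.2) s = 0) →
          (∀ s ∈ Sig, MvPolynomial.aeval (fun x : Γ × Fin 2 × Fin 2 => r' x.1 x.2.1 x.2.2) s = 0) →
          ∀ U : Matrix (Fin 2) (Fin 2) A, IsUnit U.det → (∀ g, U * r g = r' g * U) → r = r') := by
  obtain ⟨b0, s₁, t₁, t₂, γ, hm00, hm10, hmΨ, hmd⟩ := exists_normData ρbar habs
  obtain ⟨c₀, rfl⟩ := residue_surjective γ
  -- the matrix existence statement
  have hmat : ∀ (A : Type) [CommRing A] [IsLocalRing A] [IsAdicComplete (maximalIdeal A) A]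
      [Algebra 𝒪 A] [IsLocalHom (algebraMap 𝒪 A)] (r : Γ → Matrix (Fin 2) (Fin 2) A),
      (∀ g i j, residue A (r g i j) =
        ResidueField.map (algebraMap 𝒪 A) (LinearMap.toMatrix b0 b0 (ρbar.ρ g) i j)) →
      ∃ U U' : Matrix (Fin 2) (Fin 2) A, U * U' = 1 ∧ U' * U = 1 ∧
        (∀ i j, (U - 1) i j ∈ maximalIdeal A) ∧ (∀ i j, (U' - 1) i j ∈ maximalIdeal A) ∧
        (∀ g i j, residue A ((U' * r g * U) i j) =
          ResidueField.map (algebraMap 𝒪 A) (LinearMap.toMatrix b0 b0 (ρbar.ρ g) i j)) ∧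
        (∀ s ∈ sigmaSet 𝒪 s₁ t₁ t₂ c₀, MvPolynomial.aeval (fun x : Γ × Fin 2 × Fin 2 =>
          (U' * r x.1 * U) x.2.1 x.2.2) s = 0) := by
    intro A _ _ _ _ _ r hr
    obtain ⟨h00, h10, hΨ10, hΨ⟩ := red_facts (fun g => LinearMap.toMatrix b0 b0 (ρbar.ρ g))
      s₁ t₁ t₂ c₀ hm00 hm10 hmΨ hmd r r hr hr
    obtain ⟨U, U', hUU', hU'U, hU1, hU'1, n0, n1, n2⟩ :=
      exists_normalizer r s₁ t₁ t₂ (algebraMap 𝒪 A c₀) h00 h10 hΨ10 hΨ
    refine ⟨U, U', hUU', hU'U, hU1, hU'1, fun g i j => ?_, ?_⟩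
    · rw [residue_conj U U' (r g) hU1 hU'1, hr]
    · exact (sigmaSet_vanish_iff s₁ t₁ t₂ c₀ (fun g => U' * r g * U)).mpr ⟨n0, n1, n2⟩
  refine ⟨b0, sigmaSet 𝒪 s₁ t₁ t₂ c₀, ?_, ?_, hmat, ?_⟩
  · refine (sigmaSet_vanish_iff s₁ t₁ t₂ c₀
      (fun g => LinearMap.toMatrix b0 b0 (ρbar.ρ g))).mpr ⟨hm00, hm10, ?_⟩
    rw [hmΨ, ResidueField.algebraMap_eq]
  · intro A _ _ _ _ _ ρA hres
    obtain ⟨b₁, hb₁⟩ := exists_adapted_basis ρbar b0 (ResidueField.map (algebraMap 𝒪 A)) ρA hres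
    obtain ⟨U, U', hUU', hU'U, -, -, hred, hsig⟩ :=
      hmat A (fun g => LinearMap.toMatrix b₁ b₁ (ρA.ρ g)) hb₁
    obtain ⟨b, hb⟩ := exists_basis_conj b₁ U U' hUU' hU'U
    refine ⟨b, fun g i j => ?_, ?_⟩
    · rw [hb]; exact hred g i j
    · simp only [hb]; exact hsig
  · intro A _ _ _ _ r r' hr hr' hs hs' U hU hint
    obtain ⟨n0, n1, n2⟩ := (sigmaSet_vanish_iff s₁ t₁ t₂ c₀ r).mp hs
    obtain ⟨n0', n1', n2'⟩ := (sigmaSet_vanish_iff s₁ t₁ t₂ c₀ r').mp hs'
    obtain ⟨-, -, -, hΨ⟩ := red_facts (fun g => LinearMap.toMatrix b0 b0 (ρbar.ρ g))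
      s₁ t₁ t₂ c₀ hm00 hm10 hmΨ hmd r r' hr hr'
    exact normalized_unique r r' s₁ t₁ t₂ (algebraMap 𝒪 A c₀) n0 n1 n2 n0' n1' n2' hΨ U hU hint

end Provider

end Fermat.Agent.S53.helper593
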