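/-
S53, captain blueprint (helper53_Spec): dictionary tail.
  * `dictResidual`   : Stmt_DictResidual 𝒪      (DICT-D)
  * `matContRes`     : Stmt_MatContRes           (DICT-E0)
  * `dictOfResidual` : Stmt_DictOfResidual       (DICT-E)
  * `typeEquiv`      : IsDeformationCondition 𝒪 𝒟 → Stmt_TypeEquiv 𝒪 𝒟   (DICT-F)
plus reusable lemmas (`toMat`, `toMat_cont`, `isEquiv_ofMat_toMat`, `isStrictLift_iff`,
`resBasis`, `bcBasis`, ...).  No sorry.
-/
import Fermat.Agent.S53.helper53_Spec

set_option autoImplicit false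

namespace Fermat.Agent.S53.helper666

open IsLocalRing Fermat.Agent.S53.helper53
open scoped TensorProduct

/-! ### Generalities on bases and matrices -/

/-- Coordinates of an element of `I • ⊤` lie in `I`. -/
theorem repr_mem_of_mem_smul_top {A V : Type} [CommRing A] [AddCommGroup V] [Module A V]
    (v : Module.Basis (Fin 2) A V) (I : Ideal A) {x : V}
    (hx : x ∈ I • (⊤ : Submodule A V)) (i : Fin 2) : v.repr x i ∈ I := by
  refine Submodule.smul_induction_on (p := fun x => v.repr x i ∈ I) hx ?_ ?_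
  · intro a ha w _
    simp only [map_smul, Finsupp.smul_apply, smul_eq_mul]
    exact Ideal.mul_mem_right _ _ ha
  · intro x y hx hy
    simp only [map_add, Finsupp.add_apply]
    exact Ideal.add_mem _ hx hy

/-- If a linear equivalence intertwines two endomorphisms and matches two bases, the matrices
agree. -/
theorem toMatrix_eq_of_equiv {R V₁ V₂ : Type} [CommRing R] [AddCommGroup V₁] [Module R V₁]
    [AddCommGroup V₂] [Module R V₂] (B₁ : Module.Basis (Fin 2) R V₁)
    (B₂ : Module.Basis (Fin 2) R V₂) (e : V₁ ≃ₗ[R] V₂) (he : ∀ i, e (B₁ i) = B₂ i)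
    (f₁ : V₁ →ₗ[R] V₁) (f₂ : V₂ →ₗ[R] V₂) (hf : ∀ x, e (f₁ x) = f₂ (e x)) :
    LinearMap.toMatrix B₁ B₁ f₁ = LinearMap.toMatrix B₂ B₂ f₂ := by
  have hB : B₂ = B₁.map e := by
    apply Module.Basis.eq_of_apply_eq
    intro i
    rw [Module.Basis.map_apply, he]
  ext i j
  rw [LinearMap.toMatrix_apply, LinearMap.toMatrix_apply, ← he j, ← hf, hB,
    Module.Basis.map_repr, LinearEquiv.trans_apply, LinearEquiv.symm_apply_apply]

/-- Two families of endomorphisms with the same matrices in given bases are intertwined by the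
linear equivalence matching the bases. -/
theorem exists_equiv_of_toMatrix_eq {R V₁ V₂ : Type} [CommRing R] [AddCommGroup V₁] [Module R V₁]
    [AddCommGroup V₂] [Module R V₂] (B₁ : Module.Basis (Fin 2) R V₁)
    (B₂ : Module.Basis (Fin 2) R V₂) :
    ∃ e : V₁ ≃ₗ[R] V₂, (∀ i, e (B₁ i) = B₂ i) ∧
      ∀ (f₁ : V₁ →ₗ[R] V₁) (f₂ : V₂ →ₗ[R] V₂),
        LinearMap.toMatrix B₁ B₁ f₁ = LinearMap.toMatrix B₂ B₂ f₂ → ∀ x, e (f₁ x) = f₂ (e x) := by
  refine ⟨B₁.equivFun.trans B₂.equivFun.symm, fun i => ?_, fun f₁ f₂ h x => ?_⟩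
  · rw [LinearEquiv.trans_apply]
    apply B₂.equivFun.injective
    rw [LinearEquiv.apply_symm_apply]
    ext j
    rw [Module.Basis.equivFun_apply, Module.Basis.equivFun_apply, Module.Basis.repr_self,
      Module.Basis.repr_self]
  · apply B₂.equivFun.injective
    rw [LinearEquiv.trans_apply, LinearEquiv.apply_symm_apply, LinearEquiv.trans_apply]
    have h1 := LinearMap.toMatrix_mulVec_repr B₁ B₁ f₁ x
    have h2 := LinearMap.toMatrix_mulVec_repr B₂ B₂ f₂ (B₂.equivFun.symm (B₁.equivFun x))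
    rw [Module.Basis.equivFun_apply, ← h1, Module.Basis.equivFun_apply, ← h2, h]
    congr 1
    have h3 := B₂.equivFun.apply_symm_apply (B₁.equivFun x)
    rw [Module.Basis.equivFun_apply] at h3
    rw [h3, Module.Basis.equivFun_apply]

/-! ### Matrices of a `GaloisRepAdic` in a basis -/

section Adic

variable {A : Type} [CommRing A] [IsLocalRing A]

/-- The matrices of a `GaloisRepAdic` in a basis. -/
noncomputable def toMat (ρ : GaloisRepAdic A) (v : Module.Basis (Fin 2) A ρ.V) : Gal →* M2 A where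
  toFun σ := LinearMap.toMatrix v v (ρ.ρ σ)
  map_one' := by rw [map_one]; exact LinearMap.toMatrix_one v
  map_mul' σ τ := by rw [map_mul]; exact LinearMap.toMatrix_mul v _ _

theorem toMat_apply (ρ : GaloisRepAdic A) (v : Module.Basis (Fin 2) A ρ.V) (σ : Gal) :
    toMat ρ v σ = LinearMap.toMatrix v v (ρ.ρ σ) := rfl

theorem toMat_cont (ρ : GaloisRepAdic A) (v : Module.Basis (Fin 2) A ρ.V) :
    MatCont (toMat ρ v) := by
  intro n
  obtain ⟨L, hL, h⟩ := ρ.isAdicContinuous n
  refine ⟨L, hL, fun σ hσ i j => ?_⟩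
  have e : (toMat ρ v σ - 1) i j = v.repr (ρ.ρ σ (v j) - v j) i := by
    rw [Matrix.sub_apply, toMat_apply, LinearMap.toMatrix_apply, map_sub, Finsupp.sub_apply,
      Module.Basis.repr_self, Matrix.one_apply, Finsupp.single_apply]
    by_cases hij : i = j
    · subst hij; simp
    · rw [if_neg hij, if_neg (Ne.symm hij)]
  rw [e]
  exact repr_mem_of_mem_smul_top v _ (h σ hσ (v j)) i

/-- A `GaloisRepAdic` is equivalent to `ofMat` of its matrices in any basis. -/
theorem isEquiv_ofMat_toMat (ρ : GaloisRepAdic A) (v : Module.Basis (Fin 2) A ρ.V)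
    (hr : MatCont (toMat ρ v)) : ρ.IsEquiv (ofMat (toMat ρ v) hr) :=
  ⟨{ toLinearEquiv := v.equivFun
     map_apply := fun σ x => by
       show v.equivFun (ρ.ρ σ x) = (toMat ρ v σ).mulVec (v.equivFun x)
       rw [toMat_apply, Module.Basis.equivFun_apply, Module.Basis.equivFun_apply]
       exact (LinearMap.toMatrix_mulVec_repr v v (ρ.ρ σ) x).symm }⟩

/-- The standard basis of `ofMat r hr`. -/
noncomputable def stdBasis (r : Gal →* M2 A) (hr : MatCont r) :
    Module.Basis (Fin 2) A (ofMat r hr).V :=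
  Pi.basisFun A (Fin 2)

theorem toMatrix_stdBasis (r : Gal →* M2 A) (hr : MatCont r) (σ : Gal) :
    LinearMap.toMatrix (stdBasis r hr) (stdBasis r hr) ((ofMat r hr).ρ σ) = r σ := by
  show LinearMap.toMatrix (Pi.basisFun A (Fin 2)) (Pi.basisFun A (Fin 2))
    (Matrix.toLin' (r σ)) = r σ
  rw [LinearMap.toMatrix_eq_toMatrix', LinearMap.toMatrix'_toLin']

theorem toMat_ofMat (r : Gal →* M2 A) (hr : MatCont r) :
    toMat (ofMat r hr) (stdBasis r hr) = r :=
  MonoidHom.ext fun σ => toMatrix_stdBasis r hr σ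

/-- The basis of the residual representation induced by a basis. -/
noncomputable def resBasis (ρ : GaloisRepAdic A) (v : Module.Basis (Fin 2) A ρ.V) :
    Module.Basis (Fin 2) (ResidueField A) ρ.residual.V :=
  Algebra.TensorProduct.basis (ResidueField A) v

theorem resBasis_apply (ρ : GaloisRepAdic A) (v : Module.Basis (Fin 2) A ρ.V) (i : Fin 2) :
    resBasis ρ v i = (1 : ResidueField A) ⊗ₜ[A] v i :=
  Algebra.TensorProduct.basis_apply v i

theorem toMatrix_resBasis (ρ : GaloisRepAdic A) (v : Module.Basis (Fin 2) A ρ.V) (σ : Gal) :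
    LinearMap.toMatrix (resBasis ρ v) (resBasis ρ v) (ρ.residual.ρ σ) =
      (LinearMap.toMatrix v v (ρ.ρ σ)).map (residue A) :=
  LinearMap.toMatrix_baseChange (ResidueField A) (ρ.ρ σ) v v

end Adic

/-! ### Matrices of a `ResidualGaloisRep` -/

section Residual

variable {k : Type} [Field k]

/-- Residual representations with the same matrices in some bases are equivalent. -/
theorem residual_isEquiv_of_toMatrix_eq (ρ₁ ρ₂ : ResidualGaloisRep k)
    (b₁ : Module.Basis (Fin 2) k ρ₁.V) (b₂ : Module.Basis (Fin 2) k ρ₂.V)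
    (h : ∀ σ, LinearMap.toMatrix b₁ b₁ (ρ₁.ρ σ) = LinearMap.toMatrix b₂ b₂ (ρ₂.ρ σ)) :
    ρ₁.IsEquiv ρ₂ := by
  obtain ⟨e, -, he⟩ := exists_equiv_of_toMatrix_eq b₁ b₂
  exact ⟨{ toLinearEquiv := e, map_apply := fun σ x => he _ _ (h σ) x }⟩

/-- The basis of `ρ.baseChangeAlong φ` induced by a basis of `ρ`. -/
noncomputable def bcBasis {k' : Type} [Field k'] (φ : k →+* k') (ρ : ResidualGaloisRep k)
    (b : Module.Basis (Fin 2) k ρ.V) : Module.Basis (Fin 2) k' (ρ.baseChangeAlong φ).V :=
  letI : Algebra k k' := φ.toAlgebra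
  Algebra.TensorProduct.basis k' b

theorem toMatrix_bcBasis {k' : Type} [Field k'] (φ : k →+* k') (ρ : ResidualGaloisRep k)
    (b : Module.Basis (Fin 2) k ρ.V) (σ : Gal) :
    LinearMap.toMatrix (bcBasis φ ρ b) (bcBasis φ ρ b) ((ρ.baseChangeAlong φ).ρ σ) =
      (LinearMap.toMatrix b b (ρ.ρ σ)).map φ := by
  let _ : Algebra k k' := φ.toAlgebra
  exact LinearMap.toMatrix_baseChange k' (ρ.ρ σ) b b

/-- DICT-E0. -/
theorem matContRes : Stmt_MatContRes := by
  intro k _ ρbar b n
  obtain ⟨L, hL, h⟩ := ρbar.factorsThroughFiniteLevel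
  refine ⟨L, hL, fun σ hσ i j => ?_⟩
  have : matOfBasis ρbar b σ = 1 := by
    rw [matOfBasis_apply, h σ hσ]
    exact LinearMap.toMatrix_one b
  rw [this, sub_self]
  exact Ideal.zero_mem _

/-- DICT-E. -/
theorem dictOfResidual : Stmt_DictOfResidual := by
  intro k _ ρbar b hr
  exact ⟨{ toLinearEquiv := b.equivFun
           map_apply := fun σ x => by
             show b.equivFun (ρbar.ρ σ x) = (matOfBasis ρbar b σ).mulVec (b.equivFun x)
             rw [matOfBasis_apply, Module.Basis.equivFun_apply, Module.Basis.equivFun_apply]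
             exact (LinearMap.toMatrix_mulVec_repr b b (ρbar.ρ σ) x).symm }⟩

end Residual

/-! ### Strict lifts -/

/-- `IsStrictLift` in terms of residues. -/
theorem isStrictLift_iff {𝒪 : Type} [CommRing 𝒪] [IsLocalRing 𝒪]
    (rbar : Gal →* M2 (ResidueField 𝒪)) {A : Type} [CommRing A] [IsLocalRing A] [Algebra 𝒪 A]
    [IsLocalHom (algebraMap 𝒪 A)] (r : Gal → M2 A) :
    IsStrictLift rbar r ↔
      ∀ σ i j, residue A (r σ i j) = ResidueField.map (algebraMap 𝒪 A) (rbar σ i j) := by
  constructor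
  · intro h σ i j
    obtain ⟨c, hc, hm⟩ := h σ i j
    rw [← hc, ResidueField.map_residue, ← sub_eq_zero, ← map_sub]
    exact (residue_eq_zero_iff _).mpr hm
  · intro h σ i j
    obtain ⟨c, hc⟩ := residue_surjective (rbar σ i j)
    refine ⟨c, hc, ?_⟩
    rw [← residue_eq_zero_iff, map_sub, h, ← hc, ResidueField.map_residue, sub_self]

/-- DICT-D. -/
theorem dictResidual (𝒪 : Type) [CommRing 𝒪] [IsLocalRing 𝒪] : Stmt_DictResidual 𝒪 := by
  intro ρbar b A _ _ _ _ ρ
  constructor
  · rintro ⟨E⟩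
    -- the target basis
    set b' := bcBasis (ResidueField.map (algebraMap 𝒪 A)) ρbar b with hb'
    -- transported basis of `ρ.residual.V`
    let bw : Module.Basis (Fin 2) (ResidueField A) ρ.residual.V := b'.map E.toLinearEquiv.symm
    have hsurj : Function.Surjective (TensorProduct.mk A (ResidueField A) ρ.V 1) :=
      TensorProduct.mk_surjective A ρ.V (ResidueField A) residue_surjective
    choose u hu using fun i => hsurj (bw i)
    have hu' : (TensorProduct.mk A (ResidueField A) ρ.V 1) ∘ u = bw := funext hu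
    have hli : LinearIndependent A u := by
      apply Module.IsLocalRing.linearIndependent_of_flat
      rw [hu']
      exact bw.linearIndependent
    have hsp : Submodule.span A (Set.range u) = ⊤ :=
      IsLocalRing.span_eq_top_of_tmul_eq_basis u bw hu
    let v : Module.Basis (Fin 2) A ρ.V := Module.Basis.mk hli hsp.ge
    have hv : ∀ i, v i = u i := fun i => Module.Basis.mk_apply hli hsp.ge i
    refine ⟨toMat ρ v, toMat_cont ρ v, ?_, isEquiv_ofMat_toMat ρ v _⟩
    rw [isStrictLift_iff]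
    intro σ i j
    have key : LinearMap.toMatrix (resBasis ρ v) (resBasis ρ v) (ρ.residual.ρ σ) =
        LinearMap.toMatrix b' b'
          ((ρbar.baseChangeAlong (ResidueField.map (algebraMap 𝒪 A))).ρ σ) := by
      refine toMatrix_eq_of_equiv (resBasis ρ v) b' E.toLinearEquiv ?_ _ _ (E.map_apply σ)
      intro l
      rw [resBasis_apply, hv]
      have := hu l
      rw [TensorProduct.mk_apply] at this
      rw [this]
      show E.toLinearEquiv (E.toLinearEquiv.symm (b' l)) = b' l
      exact E.toLinearEquiv.apply_symm_apply _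
    rw [toMatrix_resBasis, hb', toMatrix_bcBasis] at key
    have := congrFun (congrFun key i) j
    rw [Matrix.map_apply, Matrix.map_apply] at this
    exact this
  · rintro ⟨r, hr, hs, ⟨e⟩⟩
    rw [isStrictLift_iff] at hs
    refine ⟨(GaloisRepAdic.Equiv.residual e).trans (Classical.choice ?_)⟩
    refine residual_isEquiv_of_toMatrix_eq _ _
      (resBasis (ofMat r hr) (stdBasis r hr))
      (bcBasis (ResidueField.map (algebraMap 𝒪 A)) ρbar b) fun σ => ?_
    rw [toMatrix_resBasis, toMatrix_bcBasis, toMatrix_stdBasis]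
    ext i j
    rw [Matrix.map_apply, Matrix.map_apply]
    exact hs σ i j

/-! ### DICT-F -/

/-- DICT-F. -/
theorem typeEquiv (𝒪 : Type) [CommRing 𝒪] [IsLocalRing 𝒪]
    (𝒟 : ∀ ⦃A : Type⦄ [CommRing A] [IsLocalRing A] [Algebra 𝒪 A], GaloisRepAdic A → Prop)
    (h𝒟 : GaloisRep.IsDeformationCondition 𝒪 𝒟) : Stmt_TypeEquiv 𝒪 𝒟 := by
  intro A _ _ _ _ _ hloc hres ρ ρ' ⟨e⟩ h
  rw [h𝒟.iff_forall_surjective hloc hres] at h ⊢
  intro B _ _ _ hB q hq hsurj
  exact h𝒟.of_isEquiv hB ⟨e.baseChangeAlong (q : A →+* B) hq⟩ (h hB q hq hsurj)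

end Fermat.Agent.S53.helper666
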