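import Mathlib
import Fermat.Prelude.Def_GaloisRep_DeformationRingData
import Fermat.Prelude.Def_GaloisRep_DeformationCondition

set_option autoImplicit false

namespace Fermat.Agent.S53.helper833

open IsLocalRing TensorProduct

/-- The absolute Galois group of `ℚ`. -/
abbrev Gal : Type := AlgebraicClosure ℚ ≃ₐ[ℚ] AlgebraicClosure ℚ

/-- Two by two matrices. -/
abbrev M2 (A : Type) : Type := Matrix (Fin 2) (Fin 2) A

section MatRep

variable {A : Type} [CommRing A] [IsLocalRing A]

/-- Adic continuity of a matrix family. -/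
def MatCont (r : Gal → M2 A) : Prop :=
  ∀ n : ℕ, ∃ L : IntermediateField ℚ (AlgebraicClosure ℚ), FiniteDimensional ℚ L ∧
    ∀ σ : Gal, (∀ x ∈ L, σ x = x) → ∀ i j, (r σ - 1) i j ∈ maximalIdeal A ^ n

variable (A) in
/-- A continuous two-dimensional matrix representation of the Galois group. -/
@[ext]
structure MatRep where
  r : Gal → M2 A
  map_one : r 1 = 1
  map_mul : ∀ σ τ, r (σ * τ) = r σ * r τ
  cont : MatCont r

omit [IsLocalRing A] in
lemma mem_smul_top_of_forall_mem (I : Ideal A) (w : Fin 2 → A) (hw : ∀ i, w i ∈ I) :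
    w ∈ I • (⊤ : Submodule A (Fin 2 → A)) := by
  have : w = ∑ i, w i • (Pi.single i (1 : A) : Fin 2 → A) := by
    funext j
    simp [Finset.sum_apply, Pi.single_apply]
  rw [this]
  exact Submodule.sum_mem _ fun i _ => Submodule.smul_mem_smul (hw i) Submodule.mem_top

/-- The Galois representation attached to a matrix representation. -/
noncomputable def MatRep.toRep (R : MatRep A) : GaloisRepAdic A where
  V := Fin 2 → A
  finrank_eq := by simp
  ρ :=
    { toFun := fun σ => Matrix.toLin' (R.r σ)
      map_one' := by rw [R.map_one, Matrix.toLin'_one]; rfl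
      map_mul' := fun σ τ => by rw [R.map_mul, Matrix.toLin'_mul]; rfl }
  isAdicContinuous := by
    intro n
    obtain ⟨L, hL, h⟩ := R.cont n
    refine ⟨L, hL, fun σ hσ v => ?_⟩
    apply mem_smul_top_of_forall_mem
    intro i
    have h1 : (Matrix.toLin' (R.r σ) v - v) i = ∑ j, (R.r σ - 1) i j * v j := by
      rw [Matrix.toLin'_apply]
      have : (R.r σ).mulVec v - v = (R.r σ - 1).mulVec v := by
        rw [Matrix.sub_mulVec, Matrix.one_mulVec]
      rw [this]; rfl
    change (Matrix.toLin' (R.r σ) v - v) i ∈ _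
    rw [h1]
    exact Ideal.sum_mem _ fun j _ => Ideal.mul_mem_right _ _ (h σ hσ i j)

@[simp] lemma MatRep.toRep_ρ_apply (R : MatRep A) (σ : Gal) (v : Fin 2 → A) :
    R.toRep.ρ σ v = (R.r σ).mulVec v := rfl

end MatRep

section Map

variable {A B : Type} [CommRing A] [IsLocalRing A] [CommRing B] [IsLocalRing B]

lemma map_maximalIdeal_pow_le (φ : A →+* B) (hφ : IsLocalHom φ) (n : ℕ) {a : A}
    (ha : a ∈ maximalIdeal A ^ n) : φ a ∈ maximalIdeal B ^ n := by
  have hmap : (maximalIdeal A ^ n).map φ ≤ maximalIdeal B ^ n := by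
    rw [Ideal.map_pow]
    exact Ideal.pow_right_mono (Ideal.map_le_iff_le_comap.mpr fun a ha =>
      Ideal.mem_comap.mpr (haveI := hφ; map_nonunit φ a ha)) n
  exact hmap (Ideal.mem_map_of_mem φ ha)

/-- Push a matrix representation forward along a local ring homomorphism. -/
def MatRep.map (φ : A →+* B) (hφ : IsLocalHom φ) (R : MatRep A) : MatRep B where
  r := fun σ => (R.r σ).map φ
  map_one := by
    rw [R.map_one]
    exact (RingHom.mapMatrix φ).map_one
  map_mul := fun σ τ => by
    rw [R.map_mul]
    exact (RingHom.mapMatrix φ).map_mul _ _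
  cont := by
    intro n
    obtain ⟨L, hL, h⟩ := R.cont n
    refine ⟨L, hL, fun σ hσ i j => ?_⟩
    have h1 : ((R.r σ).map φ - 1) i j = φ ((R.r σ - 1) i j) := by
      by_cases hij : i = j
      · subst hij; simp [Matrix.sub_apply]
      · simp [Matrix.sub_apply, Matrix.one_apply_ne hij]
    rw [h1]
    exact map_maximalIdeal_pow_le φ hφ n (h σ hσ i j)

@[simp] lemma MatRep.map_r (φ : A →+* B) (hφ : IsLocalHom φ) (R : MatRep A) (σ : Gal) :
    (R.map φ hφ).r σ = (R.r σ).map φ := rfl

omit [IsLocalRing A] [IsLocalRing B] in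
lemma piScalarRight_baseChange_toLin' [Algebra A B] (M : M2 A) (x : B ⊗[A] (Fin 2 → A)) :
    TensorProduct.piScalarRight A B B (Fin 2) ((Matrix.toLin' M).baseChange B x) =
      (M.map (algebraMap A B)).mulVec (TensorProduct.piScalarRight A B B (Fin 2) x) := by
  induction x using TensorProduct.induction_on with
  | zero => simp
  | tmul b v =>
    rw [LinearMap.baseChange_tmul, TensorProduct.piScalarRight_apply,
      TensorProduct.piScalarRightHom_tmul, TensorProduct.piScalarRight_apply,
      TensorProduct.piScalarRightHom_tmul]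
    funext i
    simp only [Matrix.toLin'_apply, Matrix.mulVec, dotProduct, Matrix.map_apply,
      Algebra.smul_def, map_sum, map_mul, Finset.sum_mul]
    refine Finset.sum_congr rfl fun j _ => ?_
    ring
  | add x y hx hy => simp only [map_add, hx, hy, Matrix.mulVec_add]

/-- Base change of the representation attached to a matrix representation. -/
noncomputable def MatRep.baseChangeEquiv (φ : A →+* B) (hφ : IsLocalHom φ) (R : MatRep A) :
    GaloisRepAdic.Equiv (R.toRep.baseChangeAlong φ hφ) (R.map φ hφ).toRep :=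
  letI : Algebra A B := φ.toAlgebra
  { toLinearEquiv := TensorProduct.piScalarRight A B B (Fin 2)
    map_apply := fun σ x => piScalarRight_baseChange_toLin' (R.r σ) x }

lemma MatRep.baseChange_isEquiv (φ : A →+* B) (hφ : IsLocalHom φ) (R : MatRep A) :
    (R.toRep.baseChangeAlong φ hφ).IsEquiv (R.map φ hφ).toRep :=
  ⟨R.baseChangeEquiv φ hφ⟩

end Map

section Basis

variable {A : Type} [CommRing A] [IsLocalRing A]

omit [IsLocalRing A] in
lemma repr_mem_of_mem_smul_top {V : Type} [AddCommGroup V] [Module A V]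
    (b : Module.Basis (Fin 2) A V) (I : Ideal A) {x : V}
    (hx : x ∈ I • (⊤ : Submodule A V)) (i : Fin 2) : b.repr x i ∈ I := by
  refine Submodule.smul_induction_on (p := fun x => b.repr x i ∈ I) hx ?_ ?_
  · intro a ha w _
    rw [map_smul, Finsupp.smul_apply, smul_eq_mul]
    exact Ideal.mul_mem_right _ _ ha
  · intro x y hx hy
    rw [map_add, Finsupp.add_apply]
    exact Ideal.add_mem _ hx hy

/-- The matrix representation of a Galois representation in a basis. -/
noncomputable def matRepOfBasis (ρ : GaloisRepAdic A) (b : Module.Basis (Fin 2) A ρ.V) :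
    MatRep A where
  r := fun σ => LinearMap.toMatrix b b (ρ.ρ σ)
  map_one := by rw [map_one]; exact LinearMap.toMatrix_one b
  map_mul := fun σ τ => by rw [map_mul]; exact LinearMap.toMatrix_mul b _ _
  cont := by
    intro n
    obtain ⟨L, hL, h⟩ := ρ.isAdicContinuous n
    refine ⟨L, hL, fun σ hσ i j => ?_⟩
    have h1 : (LinearMap.toMatrix b b (ρ.ρ σ) - 1) i j = b.repr (ρ.ρ σ (b j) - b j) i := by
      rw [Matrix.sub_apply, LinearMap.toMatrix_apply, map_sub, Finsupp.sub_apply,
        Module.Basis.repr_self, Matrix.one_apply, Finsupp.single_apply]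
      congr 1
      by_cases hij : i = j
      · simp [hij]
      · simp [hij, Ne.symm hij]
    rw [h1]
    exact repr_mem_of_mem_smul_top b _ (h σ hσ (b j)) i

@[simp] lemma matRepOfBasis_r (ρ : GaloisRepAdic A) (b : Module.Basis (Fin 2) A ρ.V) (σ : Gal) :
    (matRepOfBasis ρ b).r σ = LinearMap.toMatrix b b (ρ.ρ σ) := rfl

/-- A Galois representation is equivalent to its matrix representation in any basis. -/
noncomputable def matRepOfBasisEquiv (ρ : GaloisRepAdic A) (b : Module.Basis (Fin 2) A ρ.V) :
    GaloisRepAdic.Equiv ρ (matRepOfBasis ρ b).toRep where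
  toLinearEquiv := b.equivFun
  map_apply := fun σ x => by
    show b.equivFun (ρ.ρ σ x) = (LinearMap.toMatrix b b (ρ.ρ σ)).mulVec (b.equivFun x)
    have := LinearMap.toMatrix_mulVec_repr b b (ρ.ρ σ) x
    exact this.symm

/-- Conjugate a matrix representation by an invertible matrix. -/
def MatRep.conj (R : MatRep A) (P P' : M2 A) (h1 : P * P' = 1) : MatRep A where
  r := fun σ => P' * R.r σ * P
  map_one := by
    rw [R.map_one, mul_one]
    exact mul_eq_one_comm.mp h1
  map_mul := fun σ τ => by
    rw [R.map_mul]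
    calc P' * (R.r σ * R.r τ) * P = P' * R.r σ * 1 * R.r τ * P := by
          simp only [mul_one, mul_assoc]
      _ = P' * R.r σ * P * (P' * R.r τ * P) := by rw [← h1]; simp only [mul_assoc]
  cont := by
    intro n
    obtain ⟨L, hL, h⟩ := R.cont n
    refine ⟨L, hL, fun σ hσ i j => ?_⟩
    have h2 : P' * P = 1 := mul_eq_one_comm.mp h1
    have h3 : P' * R.r σ * P - 1 = P' * (R.r σ - 1) * P := by
      rw [mul_sub, sub_mul, mul_one, h2]
    rw [h3, Matrix.mul_apply]
    refine Ideal.sum_mem _ fun l _ => Ideal.mul_mem_right _ _ ?_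
    rw [Matrix.mul_apply]
    exact Ideal.sum_mem _ fun l' _ => Ideal.mul_mem_left _ _ (h σ hσ l' l)

@[simp] lemma MatRep.conj_r (R : MatRep A) (P P' : M2 A) (h1 : P * P' = 1) (σ : Gal) :
    (R.conj P P' h1).r σ = P' * R.r σ * P := rfl

omit [IsLocalRing A] in
lemma toLin'_comp_eq_id (P P' : M2 A) (h1 : P * P' = 1) :
    Matrix.toLin' P ∘ₗ Matrix.toLin' P' = LinearMap.id := by
  rw [← Matrix.toLin'_mul, h1, Matrix.toLin'_one]

/-- The linear equivalence given by an invertible matrix. -/
noncomputable def conjLinearEquiv (P P' : M2 A) (h1 : P * P' = 1) :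
    (Fin 2 → A) ≃ₗ[A] (Fin 2 → A) :=
  LinearEquiv.ofLinearMap (Matrix.toLin' P') (Matrix.toLin' P)
    (toLin'_comp_eq_id P' P (mul_eq_one_comm.mp h1)) (toLin'_comp_eq_id P P' h1)

omit [IsLocalRing A] in
lemma conj_map_apply (M P P' : M2 A) (h1 : P * P' = 1) (x : Fin 2 → A) :
    P'.mulVec (M.mulVec x) = (P' * M * P).mulVec (P'.mulVec x) := by
  rw [Matrix.mulVec_mulVec, Matrix.mulVec_mulVec, mul_assoc, mul_assoc, h1, mul_one]

/-- A matrix representation is equivalent to each of its conjugates. -/
noncomputable def MatRep.conjEquiv (R : MatRep A) (P P' : M2 A) (h1 : P * P' = 1) :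
    GaloisRepAdic.Equiv R.toRep (R.conj P P' h1).toRep where
  toLinearEquiv := conjLinearEquiv P P' h1
  map_apply := fun σ x => conj_map_apply (R.r σ) P P' h1 x

lemma MatRep.conj_isEquiv (R : MatRep A) (P P' : M2 A) (h1 : P * P' = 1) :
    R.toRep.IsEquiv (R.conj P P' h1).toRep := ⟨R.conjEquiv P P' h1⟩

/-- An equivalence of the attached representations gives an intertwining invertible matrix. -/
lemma MatRep.exists_intertwiner (R₁ R₂ : MatRep A) (h : R₁.toRep.IsEquiv R₂.toRep) :
    ∃ H H' : M2 A, H * H' = 1 ∧ H' * H = 1 ∧ ∀ σ, H * R₁.r σ = R₂.r σ * H := by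
  obtain ⟨e⟩ := h
  let f : (Fin 2 → A) ≃ₗ[A] (Fin 2 → A) := e.toLinearEquiv
  refine ⟨LinearMap.toMatrix' f.toLinearMap, LinearMap.toMatrix' f.symm.toLinearMap, ?_, ?_, ?_⟩
  · rw [← LinearMap.toMatrix'_comp, LinearEquiv.comp_coe, LinearEquiv.symm_trans_self,
      LinearEquiv.refl_toLinearMap, LinearMap.toMatrix'_id]
  · rw [← LinearMap.toMatrix'_comp, LinearEquiv.comp_coe, LinearEquiv.self_trans_symm,
      LinearEquiv.refl_toLinearMap, LinearMap.toMatrix'_id]
  · intro σ
    have h1 : f.toLinearMap ∘ₗ Matrix.toLin' (R₁.r σ) = Matrix.toLin' (R₂.r σ) ∘ₗ f.toLinearMap := by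
      exact LinearMap.ext fun x => e.map_apply σ x
    have h2 := congrArg LinearMap.toMatrix' h1
    rw [LinearMap.toMatrix'_comp, LinearMap.toMatrix'_comp, LinearMap.toMatrix'_toLin',
      LinearMap.toMatrix'_toLin'] at h2
    exact h2

end Basis

section Residual

variable {k : Type} [Field k] {A : Type} [CommRing A] [IsLocalRing A]

/-- `R` reduces entrywise to the matrix family `rb` along `ψ`. -/
def IsLiftOf (ψ : k →+* ResidueField A) (rb : Gal → M2 k) (R : MatRep A) : Prop :=
  ∀ σ i j, residue A (R.r σ i j) = ψ (rb σ i j)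

lemma residual_equiv_aux (ψ : k →+* ResidueField A) (ρbar : ResidualGaloisRep k)
    (b0 : Module.Basis (Fin 2) k ρbar.V) (M : M2 A) (f : Module.End k ρbar.V)
    (hM : ∀ i j, residue A (M i j) = ψ (LinearMap.toMatrix b0 b0 f i j)) :
    letI : Algebra k (ResidueField A) := ψ.toAlgebra
    ∀ x : ResidueField A ⊗[A] (Fin 2 → A),
      (Algebra.TensorProduct.basis (ResidueField A) b0).equivFun.symm
          (TensorProduct.piScalarRight A (ResidueField A) (ResidueField A) (Fin 2)
            ((Matrix.toLin' M).baseChange (ResidueField A) x)) =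
        f.baseChange (ResidueField A)
          ((Algebra.TensorProduct.basis (ResidueField A) b0).equivFun.symm
            (TensorProduct.piScalarRight A (ResidueField A) (ResidueField A) (Fin 2) x)) := by
  let _ : Algebra k (ResidueField A) := ψ.toAlgebra
  intro x
  set bB := Algebra.TensorProduct.basis (ResidueField A) b0 with hbB
  apply bB.equivFun.injective
  rw [LinearEquiv.apply_symm_apply, piScalarRight_baseChange_toLin']
  set y := bB.equivFun.symm
    (TensorProduct.piScalarRight A (ResidueField A) (ResidueField A) (Fin 2) x) with hy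
  have h1 : TensorProduct.piScalarRight A (ResidueField A) (ResidueField A) (Fin 2) x =
      bB.equivFun y := by rw [hy, LinearEquiv.apply_symm_apply]
  rw [h1]
  have h2 := LinearMap.toMatrix_mulVec_repr bB bB (f.baseChange (ResidueField A)) y
  rw [LinearMap.toMatrix_baseChange] at h2
  have h3 : M.map (algebraMap A (ResidueField A)) =
      (LinearMap.toMatrix b0 b0 f).map (algebraMap k (ResidueField A)) := by
    ext i j
    exact hM i j
  rw [h3]
  exact h2

/-- The residual representation of a strict lift is the base change of `ρbar`. -/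
lemma MatRep.residual_isEquiv (ψ : k →+* ResidueField A) (ρbar : ResidualGaloisRep k)
    (b0 : Module.Basis (Fin 2) k ρbar.V) (R : MatRep A)
    (hR : IsLiftOf ψ (fun σ => LinearMap.toMatrix b0 b0 (ρbar.ρ σ)) R) :
    R.toRep.residual.IsEquiv (ρbar.baseChangeAlong ψ) := by
  let _ : Algebra k (ResidueField A) := ψ.toAlgebra
  refine ⟨⟨(TensorProduct.piScalarRight A (ResidueField A) (ResidueField A) (Fin 2)).trans
    (Algebra.TensorProduct.basis (ResidueField A) b0).equivFun.symm, fun σ x => ?_⟩⟩
  exact residual_equiv_aux ψ ρbar b0 (R.r σ) (ρbar.ρ σ) (hR σ) x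

/-- A deformation of `ρbar` has a basis in which it is a strict lift. -/
lemma exists_basis_isLiftOf (ψ : k →+* ResidueField A) (ρbar : ResidualGaloisRep k)
    (b0 : Module.Basis (Fin 2) k ρbar.V) (ρ : GaloisRepAdic A)
    (h : ρ.residual.IsEquiv (ρbar.baseChangeAlong ψ)) :
    ∃ b : Module.Basis (Fin 2) A ρ.V,
      IsLiftOf ψ (fun σ => LinearMap.toMatrix b0 b0 (ρbar.ρ σ)) (matRepOfBasis ρ b) := by
  let _ : Algebra k (ResidueField A) := ψ.toAlgebra
  obtain ⟨e⟩ := h
  let E : ResidueField A ⊗[A] ρ.V ≃ₗ[ResidueField A] ResidueField A ⊗[k] ρbar.V :=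
    e.toLinearEquiv
  have hE : ∀ σ x, E ((ρ.ρ σ).baseChange (ResidueField A) x) =
      (ρbar.ρ σ).baseChange (ResidueField A) (E x) := fun σ x => e.map_apply σ x
  set bB := Algebra.TensorProduct.basis (ResidueField A) b0 with hbB
  let c : Module.Basis (Fin 2) (ResidueField A) (ResidueField A ⊗[A] ρ.V) := bB.map E.symm
  have hsurj : Function.Surjective (TensorProduct.mk A (ResidueField A) ρ.V 1) :=
    TensorProduct.mk_surjective A ρ.V (ResidueField A) Ideal.Quotient.mk_surjective
  choose v hv using fun i => hsurj (c i)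
  have hli : LinearIndependent A v := Module.IsLocalRing.linearIndependent_of_flat v (by
    have : (TensorProduct.mk A (ResidueField A) ρ.V 1 ∘ v) = c := funext hv
    rw [this]; exact c.linearIndependent)
  have hsp : Submodule.span A (Set.range v) = ⊤ :=
    IsLocalRing.span_eq_top_of_tmul_eq_basis v c hv
  let b : Module.Basis (Fin 2) A ρ.V := Module.Basis.mk hli hsp.ge
  have hb : ∀ i, b i = v i := fun i => Module.Basis.mk_apply hli hsp.ge i
  refine ⟨b, fun σ i j => ?_⟩
  set bk := Algebra.TensorProduct.basis (ResidueField A) b with hbk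
  have hbkc : bk = c := by
    apply Module.Basis.eq_of_apply_eq
    intro i
    rw [hbk, Algebra.TensorProduct.basis_apply, hb]
    exact hv i
  have h1 : LinearMap.toMatrix bk bk ((ρ.ρ σ).baseChange (ResidueField A)) =
      (LinearMap.toMatrix b b (ρ.ρ σ)).map (algebraMap A (ResidueField A)) :=
    LinearMap.toMatrix_baseChange (ResidueField A) (ρ.ρ σ) b b
  have h2 : LinearMap.toMatrix bB bB ((ρbar.ρ σ).baseChange (ResidueField A)) =
      (LinearMap.toMatrix b0 b0 (ρbar.ρ σ)).map (algebraMap k (ResidueField A)) :=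
    LinearMap.toMatrix_baseChange (ResidueField A) (ρbar.ρ σ) b0 b0
  have h3 : LinearMap.toMatrix bk bk ((ρ.ρ σ).baseChange (ResidueField A)) i j =
      LinearMap.toMatrix bB bB ((ρbar.ρ σ).baseChange (ResidueField A)) i j := by
    rw [LinearMap.toMatrix_apply, LinearMap.toMatrix_apply, hbkc]
    show bB.repr (E.symm.symm ((ρ.ρ σ).baseChange (ResidueField A) (E.symm (bB j)))) i = _
    rw [LinearEquiv.symm_symm, hE, LinearEquiv.apply_symm_apply]
  rw [h1, h2] at h3
  exact h3

end Residual

end Fermat.Agent.S53.helper833
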