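import Mathlib
import Fermat.Agent.S53.helper833_Dict
import Fermat.Agent.S53.helper3173_Burnside

set_option autoImplicit false

namespace Fermat.Agent.S53.helper833

open IsLocalRing Polynomial

section PureAlgebra

variable {A : Type} [CommRing A]

/-- An intertwiner between two normalized pairs of matrices is scalar. -/
lemma intertwiner_entries (T T' U U' H : M2 A)
    (hT01 : T 0 1 = 0) (hT10 : T 1 0 = 0) (hT'01 : T' 0 1 = 0) (hT'10 : T' 1 0 = 0)
    (hU : U 1 0 = 1) (hU' : U' 1 0 = 1)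
    (h1 : IsUnit (T 0 0 - T' 1 1)) (h2 : IsUnit (T 1 1 - T' 0 0))
    (hTH : H * T = T' * H) (hUH : H * U = U' * H) :
    H 0 1 = 0 ∧ H 1 0 = 0 ∧ H 1 1 = H 0 0 := by
  have e01 := congrFun (congrFun hTH 0) 1
  have e10 := congrFun (congrFun hTH 1) 0
  have eU := congrFun (congrFun hUH 1) 0
  simp only [Matrix.mul_apply, Fin.sum_univ_two] at e01 e10 eU
  have hH01 : H 0 1 = 0 := by
    have : (T 1 1 - T' 0 0) * H 0 1 = 0 := by
      linear_combination e01 - H 0 0 * hT01 + H 1 1 * hT'01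
    exact (h2.mul_right_eq_zero).mp this
  have hH10 : H 1 0 = 0 := by
    have : (T 0 0 - T' 1 1) * H 1 0 = 0 := by
      linear_combination e10 - H 1 1 * hT10 + H 0 0 * hT'10
    exact (h1.mul_right_eq_zero).mp this
  refine ⟨hH01, hH10, ?_⟩
  linear_combination eU - H 1 1 * hU + H 0 0 * hU' - (U 0 0 - U' 1 1) * hH10

/-- A scalar invertible intertwiner forces equality. -/
lemma eq_of_scalar_intertwiner (M M' H H' : M2 A) (hH : H * H' = 1)
    (h01 : H 0 1 = 0) (h10 : H 1 0 = 0) (h11 : H 1 1 = H 0 0) (hM : H * M = M' * H) :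
    M = M' := by
  have hscal : H = H 0 0 • (1 : M2 A) := by
    ext i j
    fin_cases i <;> fin_cases j <;> simp [h01, h10, h11]
  have hu : H 0 0 * H' 0 0 = 1 := by
    have := congrFun (congrFun hH 0) 0
    simp only [Matrix.mul_apply, Fin.sum_univ_two, h01, zero_mul, add_zero,
      Matrix.one_apply_eq] at this
    exact this
  rw [hscal, Matrix.smul_mul, Matrix.mul_smul, one_mul, mul_one] at hM
  have := congrArg (fun N => H' 0 0 • N) hM
  simp only [smul_smul] at this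
  rw [mul_comm, hu, one_smul, one_smul] at this
  exact this

end PureAlgebra

section Hensel

variable {A : Type} [CommRing A] [IsLocalRing A]

/-- Hensel: a root in the maximal ideal of `W ^ 2 + e * W - f` for `e` a unit and `f` in
the maximal ideal. -/
lemma exists_root_quadratic [IsAdicComplete (maximalIdeal A) A] (e f : A) (he : IsUnit e)
    (hf : f ∈ maximalIdeal A) :
    ∃ w : A, w ∈ maximalIdeal A ∧ w ^ 2 + e * w - f = 0 := by
  have hH : HenselianRing A (maximalIdeal A) := inferInstance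
  let p : A[X] := X ^ 2 + (C e * X - C f)
  have hp : p.Monic := by
    apply monic_X_pow_add
    refine lt_of_le_of_lt (degree_sub_le _ _) ?_
    refine max_lt ?_ ?_
    · exact lt_of_le_of_lt (degree_C_mul_X_le e) (by norm_num)
    · exact lt_of_le_of_lt degree_C_le (by norm_num)
  have h0 : p.eval 0 ∈ maximalIdeal A := by
    simp only [p, eval_add, eval_pow, eval_X, eval_sub, eval_mul, eval_C]
    simpa using hf
  have hd : IsUnit (Ideal.Quotient.mk (maximalIdeal A) (p.derivative.eval 0)) := by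
    have : p.derivative.eval 0 = e := by
      simp [p, derivative_sub, derivative_mul]
    rw [this]
    exact he.map _
  obtain ⟨w, hw, hw0⟩ := hH.is_henselian p hp 0 h0 hd
  refine ⟨w, by simpa using hw0, ?_⟩
  have : p.eval w = 0 := hw
  simp only [p, eval_add, eval_pow, eval_X, eval_sub, eval_mul, eval_C] at this
  linear_combination this

lemma isUnit_of_sub_one_mem (x : A) (hx : x - 1 ∈ maximalIdeal A) : IsUnit x := by
  by_contra hnu
  have hx' : x ∈ maximalIdeal A := (IsLocalRing.mem_maximalIdeal x).mpr hnu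
  have h1 : (1 : A) ∈ maximalIdeal A := by
    have := Ideal.sub_mem _ hx' hx
    simpa using this
  exact (Ideal.ne_top_iff_one _).mp (IsLocalRing.maximalIdeal.isMaximal A).ne_top h1

lemma exists_normalizer_aux [IsAdicComplete (maximalIdeal A) A] (a b c d u00 u01 u10 u11 : A)
    (hT00 : a - 1 ∈ maximalIdeal A) (hT01 : b ∈ maximalIdeal A)
    (hT10 : c ∈ maximalIdeal A) (hT11 : d ∈ maximalIdeal A)
    (hU10 : u10 - 1 ∈ maximalIdeal A) :
    ∃ P P' : M2 A, P * P' = 1 ∧ P 0 1 ∈ maximalIdeal A ∧ P 1 0 ∈ maximalIdeal A ∧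
      P 0 0 - P 1 1 ∈ maximalIdeal A ∧
      (P' * !![a, b; c, d] * P) 0 1 = 0 ∧ (P' * !![a, b; c, d] * P) 1 0 = 0 ∧
      (P' * !![u00, u01; u10, u11] * P) 1 0 = 1 := by
  have had : IsUnit (a - d) := isUnit_of_sub_one_mem _ (by
    have : a - d - 1 = (a - 1) - d := by ring
    rw [this]; exact Ideal.sub_mem _ hT00 hT11)
  obtain ⟨w, hwm, hw⟩ := exists_root_quadratic (a - d) (b * c) had (Ideal.mul_mem_right _ _ hT01)
  obtain ⟨s, hs⟩ : ∃ s, s = a - d + w := ⟨_, rfl⟩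
  have hs1 : s - 1 ∈ maximalIdeal A := by
    have : s - 1 = (a - 1) - d + w := by rw [hs]; ring
    rw [this]; exact Ideal.add_mem _ (Ideal.sub_mem _ hT00 hT11) hwm
  obtain ⟨δ, hδ⟩ : ∃ δ, δ = s ^ 2 + b * c := ⟨_, rfl⟩
  have hδ1 : δ - 1 ∈ maximalIdeal A := by
    have : δ - 1 = (s - 1) * (s + 1) + b * c := by rw [hδ]; ring
    rw [this]
    exact Ideal.add_mem _ (Ideal.mul_mem_right _ _ hs1) (Ideal.mul_mem_right _ _ hT01)
  obtain ⟨u, hu⟩ : ∃ u, u = c * u00 * s + c * u01 * c - s * u10 * s - s * u11 * c := ⟨_, rfl⟩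
  have hu1 : u + 1 ∈ maximalIdeal A := by
    have : u + 1 = c * (u00 * s + u01 * c - s * u11) - s ^ 2 * (u10 - 1)
        - (s - 1) * (s + 1) := by rw [hu]; ring
    rw [this]
    exact Ideal.sub_mem _ (Ideal.sub_mem _ (Ideal.mul_mem_right _ _ hT10)
      (Ideal.mul_mem_left _ _ hU10)) (Ideal.mul_mem_right _ _ hs1)
  have hδu : IsUnit δ := isUnit_of_sub_one_mem _ hδ1
  have huu : IsUnit u := by
    have : IsUnit (-u) := isUnit_of_sub_one_mem _ (by
      have : -u - 1 = -(u + 1) := by ring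
      rw [this]; exact neg_mem hu1)
    simpa using this.neg
  obtain ⟨P, hP⟩ : ∃ P : M2 A, P = !![s * δ, b * u; c * δ, -(s * u)] := ⟨_, rfl⟩
  have hP00 : P 0 0 = s * δ := by rw [hP]; rfl
  have hP01 : P 0 1 = b * u := by rw [hP]; rfl
  have hP10 : P 1 0 = c * δ := by rw [hP]; rfl
  have hP11 : P 1 1 = -(s * u) := by rw [hP]; rfl
  have hdet' : s * δ * -(s * u) - b * u * (c * δ) = -(δ ^ 2 * u) := by rw [hδ]; ring
  have hdet : P.det = -(δ ^ 2 * u) := by
    rw [hP, Matrix.det_fin_two_of, hdet']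
  have hPdet : IsUnit P.det := by
    rw [hdet]
    exact ((hδu.pow 2).mul huu).neg
  have hPP' : P * P⁻¹ = 1 := Matrix.mul_nonsing_inv P hPdet
  have hP'P : P⁻¹ * P = 1 := Matrix.nonsing_inv_mul P hPdet
  have hTP : !![a, b; c, d] * P = P * !![a + w, 0; 0, d - w] := by
    rw [hP, Matrix.mul_fin_two, Matrix.mul_fin_two]
    ext i j
    fin_cases i <;> fin_cases j
    · show a * (s * δ) + b * (c * δ) = s * δ * (a + w) + b * u * 0
      linear_combination (-δ) * hw + (-δ * w) * hs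
    · show a * (b * u) + b * -(s * u) = s * δ * 0 + b * u * (d - w)
      linear_combination (-b * u) * hs
    · show c * (s * δ) + d * (c * δ) = c * δ * (a + w) + -(s * u) * 0
      linear_combination (c * δ) * hs
    · show c * (b * u) + d * -(s * u) = c * δ * 0 + -(s * u) * (d - w)
      linear_combination (-u) * hw + (-u * w) * hs
  have hT' : P⁻¹ * !![a, b; c, d] * P = !![a + w, 0; 0, d - w] := by
    rw [mul_assoc, hTP, ← mul_assoc, hP'P, one_mul]
  refine ⟨P, P⁻¹, hPP', ?_, ?_, ?_, ?_, ?_, ?_⟩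
  · rw [hP01]
    exact Ideal.mul_mem_right _ _ hT01
  · rw [hP10]
    exact Ideal.mul_mem_right _ _ hT10
  · rw [hP00, hP11]
    have : s * δ - -(s * u) = s * ((δ - 1) + (u + 1)) := by ring
    rw [this]
    exact Ideal.mul_mem_left _ _ (Ideal.add_mem _ hδ1 hu1)
  · rw [hT']; rfl
  · rw [hT']; rfl
  · obtain ⟨N, hN⟩ : ∃ N : M2 A, N = P⁻¹ * !![u00, u01; u10, u11] * P := ⟨_, rfl⟩
    rw [← hN]
    have hPN : P * N = !![u00, u01; u10, u11] * P := by
      rw [hN, ← mul_assoc, ← mul_assoc, hPP', one_mul]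
    have e00 := congrFun (congrFun hPN 0) 0
    have e10 := congrFun (congrFun hPN 1) 0
    simp only [Matrix.mul_apply, Fin.sum_univ_two, hP00, hP01, hP10, hP11] at e00 e10
    have e00' : s * δ * N 0 0 + b * u * N 1 0 = u00 * (s * δ) + u01 * (c * δ) := e00
    have e10' : c * δ * N 0 0 + -(s * u) * N 1 0 = u10 * (s * δ) + u11 * (c * δ) := e10
    have hkey : s * δ * (u10 * (s * δ) + u11 * (c * δ)) - c * δ * (u00 * (s * δ) + u01 * (c * δ))
        = -(δ ^ 2 * u) := by rw [hu]; ring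
    have hfin : -(δ ^ 2 * u) * (N 1 0 - 1) = 0 := by
      linear_combination (s * δ) * e10' - (c * δ) * e00' + hkey - N 1 0 * hdet'
    have hunit : IsUnit (-(δ ^ 2 * u)) := ((hδu.pow 2).mul huu).neg
    have := (hunit.mul_right_eq_zero).mp hfin
    exact sub_eq_zero.mp this

/-- Existence of a conjugation that normalizes a pair of matrices. -/
lemma exists_normalizer [IsAdicComplete (maximalIdeal A) A] (T U : M2 A)
    (hT00 : T 0 0 - 1 ∈ maximalIdeal A) (hT01 : T 0 1 ∈ maximalIdeal A)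
    (hT10 : T 1 0 ∈ maximalIdeal A) (hT11 : T 1 1 ∈ maximalIdeal A)
    (hU10 : U 1 0 - 1 ∈ maximalIdeal A) :
    ∃ P P' : M2 A, P * P' = 1 ∧ P 0 1 ∈ maximalIdeal A ∧ P 1 0 ∈ maximalIdeal A ∧
      P 0 0 - P 1 1 ∈ maximalIdeal A ∧
      (P' * T * P) 0 1 = 0 ∧ (P' * T * P) 1 0 = 0 ∧ (P' * U * P) 1 0 = 1 := by
  have h := exists_normalizer_aux (T 0 0) (T 0 1) (T 1 0) (T 1 1) (U 0 0) (U 0 1) (U 1 0) (U 1 1)
    hT00 hT01 hT10 hT11 hU10
  rw [← Matrix.eta_fin_two T, ← Matrix.eta_fin_two U] at h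
  exact h

end Hensel

section Lin

variable (𝒪 : Type) [CommRing 𝒪] {A : Type} [CommRing A] [Algebra 𝒪 A]

/-- The `𝒪`-linear combination of the matrices of a family. -/
noncomputable def lin (c : Gal →₀ 𝒪) (r : Gal → M2 A) : M2 A :=
  ∑ σ ∈ c.support, algebraMap 𝒪 A (c σ) • r σ

lemma lin_apply (c : Gal →₀ 𝒪) (r : Gal → M2 A) (i j : Fin 2) :
    lin 𝒪 c r i j = ∑ σ ∈ c.support, algebraMap 𝒪 A (c σ) * r σ i j := by
  rw [lin, Matrix.sum_apply]
  rfl

lemma lin_conj (c : Gal →₀ 𝒪) (r : Gal → M2 A) (P P' : M2 A) :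
    lin 𝒪 c (fun σ => P' * r σ * P) = P' * lin 𝒪 c r * P := by
  simp only [lin, Finset.mul_sum, Finset.sum_mul, Matrix.mul_smul, Matrix.smul_mul]

lemma lin_intertwine (c : Gal →₀ 𝒪) (r r' : Gal → M2 A) (H : M2 A)
    (h : ∀ σ, H * r σ = r' σ * H) : H * lin 𝒪 c r = lin 𝒪 c r' * H := by
  simp only [lin, Finset.mul_sum, Finset.sum_mul, Matrix.mul_smul, Matrix.smul_mul, h]

lemma lin_map {B : Type} [CommRing B] [Algebra 𝒪 B] (φ : A →ₐ[𝒪] B) (c : Gal →₀ 𝒪)
    (r : Gal → M2 A) (i j : Fin 2) :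
    lin 𝒪 c (fun σ => (r σ).map φ) i j = φ (lin 𝒪 c r i j) := by
  rw [lin_apply, lin_apply, map_sum]
  refine Finset.sum_congr rfl fun σ _ => ?_
  rw [map_mul, AlgHom.commutes, Matrix.map_apply]

end Lin

section Frame

variable (𝒪 : Type) [CommRing 𝒪] [IsLocalRing 𝒪]

/-- A frame for `ρbar`: a basis together with group-algebra elements acting as the
elementary matrices `E₁₁` and `E₂₁`. -/
structure Frame (ρbar : ResidualGaloisRep (ResidueField 𝒪)) where
  b : Module.Basis (Fin 2) (ResidueField 𝒪) ρbar.V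
  c1 : Gal →₀ 𝒪
  c2 : Gal →₀ 𝒪
  h1 : ∀ i j, (∑ σ ∈ c1.support, residue 𝒪 (c1 σ) * LinearMap.toMatrix b b (ρbar.ρ σ) i j) =
    (!![1, 0; 0, 0] : M2 (ResidueField 𝒪)) i j
  h2 : ∀ i j, (∑ σ ∈ c2.support, residue 𝒪 (c2 σ) * LinearMap.toMatrix b b (ρbar.ρ σ) i j) =
    (!![0, 0; 1, 0] : M2 (ResidueField 𝒪)) i j

variable {𝒪} {ρbar : ResidualGaloisRep (ResidueField 𝒪)}

/-- The matrices of `ρbar` in the basis of the frame. -/
noncomputable def Frame.rb (F : Frame 𝒪 ρbar) (σ : Gal) : M2 (ResidueField 𝒪) :=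
  LinearMap.toMatrix F.b F.b (ρbar.ρ σ)

end Frame

section FrameExists

variable {𝒪 : Type} [CommRing 𝒪] [IsLocalRing 𝒪] (ρbar : ResidualGaloisRep (ResidueField 𝒪))

/-- Frames exist for absolutely irreducible residual representations. -/
theorem exists_frame (habs : ρbar.IsAbsolutelyIrreducible) : Nonempty (Frame 𝒪 ρbar) := by
  let b := Module.finBasisOfFinrankEq (ResidueField 𝒪) ρbar.V ρbar.finrank_eq
  have key : ∀ M : M2 (ResidueField 𝒪), ∃ c : Gal →₀ 𝒪, ∀ i j,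
      (∑ σ ∈ c.support, residue 𝒪 (c σ) * LinearMap.toMatrix b b (ρbar.ρ σ) i j) = M i j := by
    intro M
    obtain ⟨cb, hcb⟩ := Fermat.Agent.S53.helper3173.exists_finsupp_toMatrix_eq ρbar habs b M
    have hcb' : ∀ i j, (∑ σ ∈ cb.support, cb σ * LinearMap.toMatrix b b (ρbar.ρ σ) i j) = M i j := by
      intro i j
      rw [← hcb, Finsupp.sum, Matrix.sum_apply]
      rfl
    classical
    let s : ResidueField 𝒪 → 𝒪 := fun x =>
      if x = 0 then 0 else Function.surjInv (IsLocalRing.residue_surjective (R := 𝒪)) x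
    have hs0 : s 0 = 0 := by simp [s]
    have hs : ∀ x, residue 𝒪 (s x) = x := by
      intro x
      by_cases hx : x = 0
      · simp [s, hx]
      · simp only [s, hx, if_false]
        exact Function.surjInv_eq _ x
    refine ⟨cb.mapRange s hs0, fun i j => ?_⟩
    have h1 := Finsupp.sum_mapRange_index (g := cb) (f := s) (hf := hs0)
      (h := fun σ a => residue 𝒪 a * LinearMap.toMatrix b b (ρbar.ρ σ) i j) (fun σ => by simp)
    simp only [Finsupp.sum] at h1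
    rw [h1, ← hcb' i j]
    refine Finset.sum_congr rfl fun σ _ => ?_
    rw [hs]
  obtain ⟨c1, h1⟩ := key !![1, 0; 0, 0]
  obtain ⟨c2, h2⟩ := key !![0, 0; 1, 0]
  exact ⟨⟨b, c1, c2, h1, h2⟩⟩

end FrameExists

section SliceThm

variable {𝒪 : Type} [CommRing 𝒪] [IsLocalRing 𝒪] {ρbar : ResidualGaloisRep (ResidueField 𝒪)}
  (F : Frame 𝒪 ρbar)

/-- The normalization conditions attached to a frame. -/
def IsNorm {A : Type} [CommRing A] [Algebra 𝒪 A] (r : Gal → M2 A) : Prop :=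
  lin 𝒪 F.c1 r 0 1 = 0 ∧ lin 𝒪 F.c1 r 1 0 = 0 ∧ lin 𝒪 F.c2 r 1 0 = 1

variable {A : Type} [CommRing A] [IsLocalRing A] [Algebra 𝒪 A] [IsLocalHom (algebraMap 𝒪 A)]

/-- `R` is a strict lift of the matrix form of `ρbar` in the frame. -/
def IsLift (R : MatRep A) : Prop :=
  IsLiftOf (ResidueField.map (algebraMap 𝒪 A)) F.rb R

lemma residue_lin (R : MatRep A) (hR : IsLift F R) (c : Gal →₀ 𝒪) (i j : Fin 2) :
    residue A (lin 𝒪 c R.r i j) = ResidueField.map (algebraMap 𝒪 A)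
      (∑ σ ∈ c.support, residue 𝒪 (c σ) * F.rb σ i j) := by
  rw [lin_apply, map_sum, map_sum]
  refine Finset.sum_congr rfl fun σ _ => ?_
  rw [map_mul, map_mul, hR σ i j, ResidueField.map_residue]

lemma lin_c1_spec (R : MatRep A) (hR : IsLift F R) :
    lin 𝒪 F.c1 R.r 0 0 - 1 ∈ maximalIdeal A ∧ lin 𝒪 F.c1 R.r 0 1 ∈ maximalIdeal A ∧
    lin 𝒪 F.c1 R.r 1 0 ∈ maximalIdeal A ∧ lin 𝒪 F.c1 R.r 1 1 ∈ maximalIdeal A := by
  have h := fun i j => residue_lin F R hR F.c1 i j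
  have h' := F.h1
  refine ⟨?_, ?_, ?_, ?_⟩
  · rw [← residue_eq_zero_iff, map_sub, h 0 0]
    have : (∑ σ ∈ F.c1.support, residue 𝒪 (F.c1 σ) * F.rb σ 0 0) = 1 := h' 0 0
    rw [this, map_one, map_one, sub_self]
  · rw [← residue_eq_zero_iff, h 0 1]
    have : (∑ σ ∈ F.c1.support, residue 𝒪 (F.c1 σ) * F.rb σ 0 1) = 0 := h' 0 1
    rw [this, map_zero]
  · rw [← residue_eq_zero_iff, h 1 0]
    have : (∑ σ ∈ F.c1.support, residue 𝒪 (F.c1 σ) * F.rb σ 1 0) = 0 := h' 1 0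
    rw [this, map_zero]
  · rw [← residue_eq_zero_iff, h 1 1]
    have : (∑ σ ∈ F.c1.support, residue 𝒪 (F.c1 σ) * F.rb σ 1 1) = 0 := h' 1 1
    rw [this, map_zero]

lemma lin_c2_spec (R : MatRep A) (hR : IsLift F R) :
    lin 𝒪 F.c2 R.r 1 0 - 1 ∈ maximalIdeal A := by
  rw [← residue_eq_zero_iff, map_sub, residue_lin F R hR F.c2 1 0]
  have : (∑ σ ∈ F.c2.support, residue 𝒪 (F.c2 σ) * F.rb σ 1 0) = 1 := F.h2 1 0
  rw [this, map_one, map_one, sub_self]

/-- Rigidity: two normalized strict lifts with equivalent representations are equal. -/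
theorem eq_of_isEquiv (R₁ R₂ : MatRep A) (hL₁ : IsLift F R₁) (hL₂ : IsLift F R₂)
    (hN₁ : IsNorm F R₁.r) (hN₂ : IsNorm F R₂.r) (h : R₁.toRep.IsEquiv R₂.toRep) : R₁ = R₂ := by
  obtain ⟨H, H', hHH', -, hH⟩ := R₁.exists_intertwiner R₂ h
  have hT := lin_intertwine 𝒪 F.c1 R₁.r R₂.r H hH
  have hU := lin_intertwine 𝒪 F.c2 R₁.r R₂.r H hH
  obtain ⟨a1, b1, c1, d1⟩ := lin_c1_spec F R₁ hL₁
  obtain ⟨a2, b2, c2, d2⟩ := lin_c1_spec F R₂ hL₂
  have hu1 : IsUnit (lin 𝒪 F.c1 R₁.r 0 0 - lin 𝒪 F.c1 R₂.r 1 1) := by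
    apply isUnit_of_sub_one_mem
    have : lin 𝒪 F.c1 R₁.r 0 0 - lin 𝒪 F.c1 R₂.r 1 1 - 1 =
        (lin 𝒪 F.c1 R₁.r 0 0 - 1) - lin 𝒪 F.c1 R₂.r 1 1 := by ring
    rw [this]
    exact Ideal.sub_mem _ a1 d2
  have hu2 : IsUnit (lin 𝒪 F.c1 R₁.r 1 1 - lin 𝒪 F.c1 R₂.r 0 0) := by
    have : IsUnit (-(lin 𝒪 F.c1 R₁.r 1 1 - lin 𝒪 F.c1 R₂.r 0 0)) := by
      apply isUnit_of_sub_one_mem
      have : -(lin 𝒪 F.c1 R₁.r 1 1 - lin 𝒪 F.c1 R₂.r 0 0) - 1 =
          (lin 𝒪 F.c1 R₂.r 0 0 - 1) - lin 𝒪 F.c1 R₁.r 1 1 := by ring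
      rw [this]
      exact Ideal.sub_mem _ a2 d1
    simpa using this.neg
  obtain ⟨h01, h10, h11⟩ := intertwiner_entries _ _ _ _ H hN₁.1 hN₁.2.1 hN₂.1 hN₂.2.1
    hN₁.2.2 hN₂.2.2 hu1 hu2 hT hU
  apply MatRep.ext
  funext σ
  exact eq_of_scalar_intertwiner _ _ H H' hHH' h01 h10 h11 (hH σ)

omit [IsLocalHom (algebraMap 𝒪 A)] in
lemma isLiftOf_conj {k : Type} [Field k] (ψ : k →+* ResidueField A) (rb : Gal → M2 k)
    (R : MatRep A) (hR : IsLiftOf ψ rb R) (P P' : M2 A) (h1 : P * P' = 1)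
    (h01 : P 0 1 ∈ maximalIdeal A) (h10 : P 1 0 ∈ maximalIdeal A)
    (h00 : P 0 0 - P 1 1 ∈ maximalIdeal A) : IsLiftOf ψ rb (R.conj P P' h1) := by
  intro σ i j
  rw [← hR σ i j]
  let π := RingHom.mapMatrix (m := Fin 2) (residue A)
  have hπP : π P = residue A (P 0 0) • (1 : M2 (ResidueField A)) := by
    ext i j
    fin_cases i <;> fin_cases j
    · simp [π]
    · simpa [π] using (residue_eq_zero_iff _).mpr h01
    · simpa [π] using (residue_eq_zero_iff _).mpr h10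
    · have := (residue_eq_zero_iff _).mpr h00
      rw [map_sub, sub_eq_zero] at this
      simpa [π] using this.symm
  have h2 : π P' * π P = 1 := by
    rw [← map_mul, mul_eq_one_comm.mp h1, map_one]
  have h2' : residue A (P 0 0) • π P' = 1 := by
    rw [hπP, Matrix.mul_smul, mul_one] at h2
    exact h2
  have h3 : π (P' * R.r σ * P) = π (R.r σ) := by
    rw [map_mul, map_mul, hπP, Matrix.mul_smul, mul_one, ← Matrix.smul_mul, h2', one_mul]
  exact congrFun (congrFun h3 i) j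

/-- Existence: every strict lift over a complete local ring is equivalent to a normalized
strict lift. -/
theorem exists_norm [IsAdicComplete (maximalIdeal A) A] (R : MatRep A) (hL : IsLift F R) :
    ∃ R' : MatRep A, IsLift F R' ∧ IsNorm F R'.r ∧ R.toRep.IsEquiv R'.toRep := by
  obtain ⟨a1, b1, c1, d1⟩ := lin_c1_spec F R hL
  have hu := lin_c2_spec F R hL
  obtain ⟨P, P', h1, h01, h10, h00, n1, n2, n3⟩ :=
    exists_normalizer (lin 𝒪 F.c1 R.r) (lin 𝒪 F.c2 R.r) a1 b1 c1 d1 hu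
  refine ⟨R.conj P P' h1, isLiftOf_conj _ _ R hL P P' h1 h01 h10 h00, ?_, R.conj_isEquiv P P' h1⟩
  have e1 : lin 𝒪 F.c1 (R.conj P P' h1).r = P' * lin 𝒪 F.c1 R.r * P := lin_conj 𝒪 F.c1 R.r P P'
  have e2 : lin 𝒪 F.c2 (R.conj P P' h1).r = P' * lin 𝒪 F.c2 R.r * P := lin_conj 𝒪 F.c2 R.r P P'
  exact ⟨by rw [e1]; exact n1, by rw [e1]; exact n2, by rw [e2]; exact n3⟩

/-- Every deformation of `ρbar` over a complete local ring is equivalent to the representation
of a normalized strict lift. -/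
theorem exists_norm_of_residual [IsAdicComplete (maximalIdeal A) A] (ρ : GaloisRepAdic A)
    (h : ρ.residual.IsEquiv (ρbar.baseChangeAlong (ResidueField.map (algebraMap 𝒪 A)))) :
    ∃ R : MatRep A, IsLift F R ∧ IsNorm F R.r ∧ ρ.IsEquiv R.toRep := by
  obtain ⟨b, hb⟩ := exists_basis_isLiftOf (ResidueField.map (algebraMap 𝒪 A)) ρbar F.b ρ h
  obtain ⟨R', hL, hN, ⟨e⟩⟩ := exists_norm F (matRepOfBasis ρ b) hb
  exact ⟨R', hL, hN, ⟨(matRepOfBasisEquiv ρ b).trans e⟩⟩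

/-- The residual representation of a strict lift. -/
theorem residual_isEquiv_of_isLift (R : MatRep A) (hL : IsLift F R) :
    R.toRep.residual.IsEquiv (ρbar.baseChangeAlong (ResidueField.map (algebraMap 𝒪 A))) :=
  R.residual_isEquiv _ ρbar F.b hL

end SliceThm

end Fermat.Agent.S53.helper833
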